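import Fermat.Agent.S14.Defs

/-!
# S14, piece 86-P7 (lead): the algebra glue of the Thaine route

* `eigenspaceVanishes_of` : Thaine + Density + Local  ⟹  `EigenspaceVanishes`
* `torsionStatement_of`   : `EigenspaceVanishes`      ⟹  `TorsionStatement`
* `coreStatement_of`      : Torsion + Unit + Local    ⟹  `CoreStatement`
-/

set_option autoImplicit false

open scoped NumberField nonZeroDivisors
open JacobiSumStickelberger

namespace Fermat.Agent.S14

variable (p : ℕ) [hp : Fact p.Prime]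
variable (K : Type) [Field K] [NumberField K] [IsCyclotomicExtension {p} ℚ K]

section basics

variable {p K}

theorem coreAlg_not_dvd_one {ζ : 𝓞 K} (hζ : IsPrimitiveRoot ζ p) : ¬ (1 - ζ) ∣ (1 : 𝓞 K) := by
  intro h
  have hζK : IsPrimitiveRoot (algebraMap (𝓞 K) K ζ) p :=
    hζ.map_of_injective (NumberField.RingOfIntegers.coe_injective)
  have hprime : Prime (hζK.toInteger - 1) := hζK.zeta_sub_one_prime'
  have hint : hζK.toInteger = ζ := by
    apply NumberField.RingOfIntegers.coe_injective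
    rfl
  rw [hint] at hprime
  have hu : IsUnit (1 - ζ) := isUnit_of_dvd_one h
  have hu' : IsUnit (ζ - 1) := by
    have : ζ - 1 = -(1 - ζ) := by ring
    rw [this]; exact hu.neg
  exact hprime.not_isUnit hu'

theorem coreAlg_isLocalPow_pow {ζ : 𝓞 K} (hζ : IsPrimitiveRoot ζ p) {y : K} (hy : y ≠ 0) :
    IsLocalPow p K ζ (y ^ p) :=
  ⟨y, hy, 0, 1, coreAlg_not_dvd_one hζ, by simp⟩

omit hp [NumberField K] [IsCyclotomicExtension {p} ℚ K] in
theorem coreAlg_one_sub_pow_ne_zero {ζ : 𝓞 K} (hζ : IsPrimitiveRoot ζ p) {b : ℕ}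
    (hb : b ∈ Finset.Ioo 0 p) : (1 - ζ ^ b : 𝓞 K) ≠ 0 := by
  rw [Finset.mem_Ioo] at hb
  intro h
  have h1 : ζ ^ b = 1 := (sub_eq_zero.mp h).symm
  have := hζ.dvd_of_pow_eq_one b h1
  exact absurd (Nat.le_of_dvd hb.1 this) (not_le.mpr hb.2)

theorem coreAlg_eta2_ne_zero {ζ : 𝓞 K} (hζ : IsPrimitiveRoot ζ p) : eta2 p K ζ ≠ 0 := by
  unfold eta2
  rw [Finset.prod_ne_zero_iff]
  intro b hb
  exact pow_ne_zero _ (coreAlg_one_sub_pow_ne_zero hζ hb)

theorem coreAlg_eta2_not_pow (hL : LocalStatement p K) {ζ : 𝓞 K} (hζ : IsPrimitiveRoot ζ p) :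
    ∀ x : 𝓞 K, x ^ p ≠ eta2 p K ζ := by
  intro x hx
  have hx0 : x ≠ 0 := by
    rintro rfl
    rw [zero_pow hp.out.ne_zero] at hx
    exact coreAlg_eta2_ne_zero hζ hx.symm
  have hxK : ((x : 𝓞 K) : K) ≠ 0 := by
    intro h
    exact hx0 (NumberField.RingOfIntegers.coe_injective (by simpa using h))
  have hloc : IsLocalPow p K ζ ((eta2 p K ζ : K) ^ 1 * (1 : K) ^ p) := by
    have : ((eta2 p K ζ : 𝓞 K) : K) ^ 1 * (1 : K) ^ p = ((x : 𝓞 K) : K) ^ p := by
      rw [pow_one, one_pow, mul_one, ← hx]; push_cast; rfl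
    rw [this]
    exact coreAlg_isLocalPow_pow hζ hxK
  have := hL ζ hζ 1 1 one_ne_zero hloc
  exact hp.out.one_lt.ne' (Nat.dvd_one.mp this)

end basics

/-- **P7a**: Thaine's relation, the density statement and the local computation imply that the
`ω ^ 2`-eigenspace of `Cl / p` vanishes. -/
theorem eigenspaceVanishes_of (hT : ThaineStatement p K) (hD : DensityStatement p K)
    (hL : LocalStatement p K) : EigenspaceVanishes p K := by
  have : NeZero p := ⟨hp.out.ne_zero⟩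
  intro a ha
  by_contra ha0
  obtain ⟨ψ₀, hψ₀⟩ : ∃ ψ₀ : ClGalModule p (𝓞 K) →ₗ[ZMod p] ZMod p, ψ₀ a ≠ 0 := by
    by_contra h
    push Not at h
    exact ha0 ((Module.forall_dual_apply_eq_zero_iff (ZMod p) a).mp h)
  let ψ : ClGalModule p (𝓞 K) →ₗ[ZMod p] ZMod p :=
    ∑ d : (ZMod p)ˣ, (((d⁻¹ : (ZMod p)ˣ) : ZMod p) ^ 2) • (ψ₀.comp (clGalAction p K d))
  have hψ_apply : ∀ x, ψ x =
      ∑ d : (ZMod p)ˣ, (((d⁻¹ : (ZMod p)ˣ) : ZMod p) ^ 2) * ψ₀ (clGalAction p K d x) := by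
    intro x
    simp only [ψ, LinearMap.sum_apply, LinearMap.smul_apply, LinearMap.comp_apply, smul_eq_mul]
  have hψeq : ∀ (e : (ZMod p)ˣ) (x : ClGalModule p (𝓞 K)),
      ψ (clGalAction p K e x) = (e : ZMod p) ^ 2 * ψ x := by
    intro e x
    rw [hψ_apply, hψ_apply, Finset.mul_sum]
    refine Fintype.sum_equiv (Equiv.mulRight e) _ _ fun d => ?_
    simp only [Equiv.coe_mulRight]
    have h1 : clGalAction p K d (clGalAction p K e x) = clGalAction p K (d * e) x := by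
      rw [map_mul]; rfl
    rw [h1, ← mul_assoc]
    congr 1
    rw [mul_inv_rev, Units.val_mul, mul_pow, ← mul_assoc, ← mul_pow, ← Units.val_mul,
      mul_inv_cancel, Units.val_one, one_pow, one_mul]
  have hψa : ψ a = -ψ₀ a := by
    rw [hψ_apply]
    have : ∀ d : (ZMod p)ˣ,
        (((d⁻¹ : (ZMod p)ˣ) : ZMod p) ^ 2) * ψ₀ (clGalAction p K d a) = ψ₀ a := by
      intro d
      rw [ha d, map_smul, smul_eq_mul, ← mul_assoc, ← mul_pow, ← Units.val_mul,
        inv_mul_cancel, Units.val_one, one_pow, one_mul]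
    rw [Finset.sum_congr rfl fun d _ => this d, Finset.sum_const, Finset.card_univ,
      ZMod.card_units_eq_totient, Nat.totient_prime hp.out, nsmul_eq_mul,
      Nat.cast_sub hp.out.one_le, ZMod.natCast_self, Nat.cast_one, zero_sub, neg_one_mul]
  have hψne : ψ ≠ 0 := by
    intro h
    rw [h, LinearMap.zero_apply] at hψa
    exact hψ₀ (neg_eq_zero.mp hψa.symm)
  have hζK := IsCyclotomicExtension.zeta_spec p ℚ K
  have hζ : IsPrimitiveRoot hζK.toInteger p := hζK.toInteger_isPrimitiveRoot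
  obtain ⟨P, hPprime, hN, hpN, hψP, hres⟩ :=
    hD ⟨_, hζK⟩ ψ hψne (eta2 p K hζK.toInteger) (coreAlg_eta2_not_pow hL hζ)
  exact hψP (hT _ hζ P hPprime hN hpN hres ψ hψeq)


/-! ## P7b: the torsion step -/

/-- abstract torsion step -/
theorem coreAlg_torsion_abstract {A : Type*} [AddCommGroup A] [Finite A] {p : ℕ} (hp : p.Prime)
    (E : A →+ A) (hE : ∀ x, ∃ y, p • y = E x) {c : A} (hpc : p • c = 0) (hEc : E c = -c) :
    c = 0 := by
  have hk : ∀ k : ℕ, ∃ y, c = p ^ k • y := by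
    intro k
    induction k with
    | zero => exact ⟨c, by simp⟩
    | succ k ih =>
      obtain ⟨y, hy⟩ := ih
      obtain ⟨y', hy'⟩ := hE y
      refine ⟨-y', ?_⟩
      have h1 : E c = p ^ k • E y := by rw [hy, map_nsmul]
      have h2 : c = -(E c) := by rw [hEc, neg_neg]
      rw [h2, h1, ← hy', smul_neg, pow_succ, mul_smul]
  have hN : Nat.card A ≠ 0 := Nat.card_pos.ne'
  obtain ⟨a, m, hm, hNm⟩ := Nat.exists_eq_pow_mul_and_not_dvd hN p hp.ne_one
  obtain ⟨y, hy⟩ := hk a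
  have hmc : m • c = 0 := by
    rw [hy, ← mul_smul, mul_comm, ← hNm]
    exact card_nsmul_eq_zero'
  have h1 : addOrderOf c ∣ p := addOrderOf_dvd_of_nsmul_eq_zero hpc
  have h2 : addOrderOf c ∣ m := addOrderOf_dvd_of_nsmul_eq_zero hmc
  have h3 : addOrderOf c = 1 := by
    rcases (Nat.dvd_prime hp).mp h1 with h | h
    · exact h
    · exact absurd (h ▸ h2) hm
  exact AddMonoid.addOrderOf_eq_one_iff.mp h3

/-- `p`-th roots of ideals are unique in a Dedekind domain. -/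
theorem coreAlg_ideal_pow_inj {R : Type*} [CommRing R] [IsDedekindDomain R] {n : ℕ} (hn : n ≠ 0)
    {I J : Ideal R} (h : I ^ n = J ^ n) : I = J := by
  by_cases hI : I = ⊥
  · subst hI
    rw [Ideal.bot_pow hn] at h
    exact (pow_eq_zero_iff hn).mp h.symm |>.symm
  have hJ : J ≠ ⊥ := by
    rintro rfl
    rw [Ideal.bot_pow hn] at h
    exact hI ((pow_eq_zero_iff hn).mp h)
  have h1 := congrArg UniqueFactorizationMonoid.normalizedFactors h
  rw [UniqueFactorizationMonoid.normalizedFactors_pow,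
    UniqueFactorizationMonoid.normalizedFactors_pow] at h1
  have h2 : UniqueFactorizationMonoid.normalizedFactors I =
      UniqueFactorizationMonoid.normalizedFactors J := by
    ext a
    have := congrArg (Multiset.count a) h1
    rw [Multiset.count_nsmul, Multiset.count_nsmul] at this
    exact Nat.eq_of_mul_eq_mul_left (Nat.pos_of_ne_zero hn) this
  exact associated_iff_eq.mp
    ((UniqueFactorizationMonoid.associated_iff_normalizedFactors_eq_normalizedFactors hI hJ).mpr h2)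



theorem coreAlg_clRingAction_apply (d : (ZMod p)ˣ) (x : 𝓞 K) :
    haveI : NeZero p := ⟨hp.out.ne_zero⟩
    algebraMap (𝓞 K) K (clRingAction p K d x) =
      (cycloGalEquiv p K).symm d (algebraMap (𝓞 K) K x) := by
  haveI : NeZero p := ⟨hp.out.ne_zero⟩
  show algebraMap (𝓞 K) K (galRestrict ℤ ℚ K (𝓞 K) ((cycloGalEquiv p K).symm d) x) = _
  rw [algebraMap_galRestrict_apply]

theorem coreAlg_cyc_symm (d : (ZMod p)ˣ) :
    haveI : NeZero p := ⟨hp.out.ne_zero⟩
    cyc p K ((cycloGalEquiv p K).symm d) = (d : ZMod p) := by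
  haveI : NeZero p := ⟨hp.out.ne_zero⟩
  unfold cyc
  rw [MulEquiv.apply_symm_apply]


/-- the class of an ideal `J` with `J ^ p = (a')`, `a'` of type `ω ^ 2`, is an exact
`ω ^ 2`-eigenvector in the class group. -/
theorem coreAlg_class_action {J : Ideal (𝓞 K)} (hJ : J ∈ (Ideal (𝓞 K))⁰) {a' : 𝓞 K} (ha' : a' ≠ 0)
    (hJp : J ^ p = Ideal.span {a'}) (hω : IsOmegaTwo p K (algebraMap (𝓞 K) K a'))
    (d : (ZMod p)ˣ) :
    haveI : NeZero p := ⟨hp.out.ne_zero⟩
    ClassGroup.mulEquiv (clRingAction p K d) (ClassGroup.mk0 ⟨J, hJ⟩) =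
      (ClassGroup.mk0 ⟨J, hJ⟩) ^ (((d : ZMod p)) ^ 2).val := by
  haveI : NeZero p := ⟨hp.out.ne_zero⟩
  set n := (((d : ZMod p)) ^ 2).val with hn
  set g := clRingAction p K d with hg
  obtain ⟨g₁, hg₁⟩ := hω ((cycloGalEquiv p K).symm d)
  rw [coreAlg_cyc_symm, ← hn, ← coreAlg_clRingAction_apply] at hg₁
  obtain ⟨x, y, hy, hxy⟩ := IsFractionRing.div_surjective (A := 𝓞 K) g₁
  have hy0 : y ≠ 0 := nonZeroDivisors.ne_zero hy
  have hyK : algebraMap (𝓞 K) K y ≠ 0 := by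
    simpa using hy0
  -- the equation in `𝓞 K`
  have heq : g a' * y ^ p = a' ^ n * x ^ p := by
    apply NumberField.RingOfIntegers.coe_injective
    rw [map_mul, map_mul, map_pow, map_pow, map_pow, hg₁, ← hxy, div_pow]
    field_simp
  have hx0 : x ≠ 0 := by
    rintro rfl
    rw [zero_pow hp.out.ne_zero, mul_zero] at heq
    rcases mul_eq_zero.mp heq with h | h
    · exact ha' ((map_eq_zero_iff g g.injective).mp h)
    · exact hy0 (pow_eq_zero_iff hp.out.ne_zero |>.mp h)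
  -- the ideal identity
  have hmap : (J.map (g : 𝓞 K →+* 𝓞 K)) ^ p = Ideal.span {g a'} := by
    rw [← Ideal.map_pow, hJp, Ideal.map_span, Set.image_singleton]
    rfl
  have hid : Ideal.span {y} * J.map (g : 𝓞 K →+* 𝓞 K) = Ideal.span {x} * J ^ n := by
    apply coreAlg_ideal_pow_inj hp.out.ne_zero
    rw [mul_pow, mul_pow, hmap, ← pow_mul, mul_comm n p, pow_mul, hJp, Ideal.span_singleton_pow,
      Ideal.span_singleton_pow, Ideal.span_singleton_pow, Ideal.span_singleton_mul_span_singleton,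
      Ideal.span_singleton_mul_span_singleton, mul_comm (y ^ p), heq, mul_comm]
  rw [ClassGroup.mulEquiv_mk0, ← map_pow]
  exact ClassGroup.mk0_eq_mk0_iff.mpr ⟨y, x, hy0, hx0, hid⟩





/-- the additive endomorphism of the class group given by `d`. -/
noncomputable def coreAlgS (d : (ZMod p)ˣ) :
    Additive (ClassGroup (𝓞 K)) →+ Additive (ClassGroup (𝓞 K)) :=
  haveI : NeZero p := ⟨hp.out.ne_zero⟩
  MonoidHom.toAdditive (ClassGroup.mulEquiv (clRingAction p K d)).toMonoidHom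

/-- the element `E₂ = ∑ [d⁻²] σ_d` acting on the class group. -/
noncomputable def coreAlgE : Additive (ClassGroup (𝓞 K)) →+ Additive (ClassGroup (𝓞 K)) :=
  ∑ d : (ZMod p)ˣ, ((((d⁻¹ : (ZMod p)ˣ) : ZMod p)) ^ 2).val • coreAlgS p K d

theorem coreAlg_clProj_S (d : (ZMod p)ˣ) (x : Additive (ClassGroup (𝓞 K))) :
    haveI : NeZero p := ⟨hp.out.ne_zero⟩
    clProj p (𝓞 K) (coreAlgS p K d x) = clGalAction p K d (clProj p (𝓞 K) x) := by
  rfl

theorem coreAlg_clProj_E (x : Additive (ClassGroup (𝓞 K))) :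
    haveI : NeZero p := ⟨hp.out.ne_zero⟩
    clProj p (𝓞 K) (coreAlgE p K x) =
      ∑ d : (ZMod p)ˣ, ((((d⁻¹ : (ZMod p)ˣ) : ZMod p)) ^ 2) •
        clGalAction p K d (clProj p (𝓞 K) x) := by
  haveI : NeZero p := ⟨hp.out.ne_zero⟩
  unfold coreAlgE
  rw [AddMonoidHom.finsetSum_apply, map_sum]
  refine Finset.sum_congr rfl fun d _ => ?_
  rw [AddMonoidHom.smul_apply, map_nsmul, coreAlg_clProj_S, ← Nat.cast_smul_eq_nsmul (ZMod p),
    ZMod.natCast_zmod_val]

theorem coreAlg_E_divisible (hE : EigenspaceVanishes p K) (x : Additive (ClassGroup (𝓞 K))) :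
    ∃ y : Additive (ClassGroup (𝓞 K)), p • y = coreAlgE p K x := by
  haveI : NeZero p := ⟨hp.out.ne_zero⟩
  have hv : Stickelberger.IsOmegaEigenvector (clGalAction p K) 2
      (clProj p (𝓞 K) (coreAlgE p K x)) := by
    intro s
    rw [coreAlg_clProj_E, map_sum, Finset.smul_sum]
    refine Fintype.sum_equiv (Equiv.mulLeft s) _ _ fun d => ?_
    simp only [Equiv.coe_mulLeft]
    rw [map_smul, smul_smul]
    have h1 : clGalAction p K s (clGalAction p K d (clProj p (𝓞 K) x)) =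
        clGalAction p K (s * d) (clProj p (𝓞 K) x) := by
      rw [map_mul]; rfl
    rw [h1]
    congr 1
    have hs : (s : ZMod p) * ((s⁻¹ : (ZMod p)ˣ) : ZMod p) = 1 := by
      rw [← Units.val_mul, mul_inv_cancel, Units.val_one]
    rw [mul_inv_rev, Units.val_mul, mul_pow, mul_left_comm, ← mul_pow, hs, one_pow, mul_one]
  have h0 := hE _ hv
  exact (ModP.proj_eq_zero_iff p (Additive (ClassGroup (𝓞 K)))).mp h0


omit hp in
theorem coreAlg_nsmul_eq_of_cast_eq_one [hp' : Fact p.Prime] {A : Type*} [AddCommGroup A] {c : A}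
    (hpc : p • c = 0) {k : ℕ} (hk : (k : ZMod p) = 1) : k • c = c := by
  have h1 : (k : ZMod p) = ((1 : ℕ) : ZMod p) := by rw [hk, Nat.cast_one]
  have h2 : k ≡ 1 [MOD p] := (ZMod.natCast_eq_natCast_iff k 1 p).mp h1
  have hk1 : 1 ≤ k := by
    rcases Nat.eq_zero_or_pos k with h | h
    · subst h
      rw [Nat.cast_zero] at hk
      exact absurd hk zero_ne_one
    · exact h
  obtain ⟨t, ht⟩ := (Nat.modEq_iff_dvd' hk1).mp h2.symm
  have : k = 1 + p * t := by omega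
  rw [this, add_smul, one_smul, mul_smul, smul_comm, hpc, smul_zero, add_zero]

theorem coreAlg_E_eigen {c : ClassGroup (𝓞 K)} (hpc : c ^ p = 1)
    (hact : ∀ d : (ZMod p)ˣ,
      haveI : NeZero p := ⟨hp.out.ne_zero⟩
      ClassGroup.mulEquiv (clRingAction p K d) c = c ^ (((d : ZMod p)) ^ 2).val) :
    coreAlgE p K (Additive.ofMul c) = -(Additive.ofMul c) := by
  haveI : NeZero p := ⟨hp.out.ne_zero⟩
  have hpc' : p • (Additive.ofMul c) = 0 := by
    rw [← ofMul_pow, hpc]; rfl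
  have hterm : ∀ d : (ZMod p)ˣ,
      ((((d⁻¹ : (ZMod p)ˣ) : ZMod p)) ^ 2).val • coreAlgS p K d (Additive.ofMul c) =
        Additive.ofMul c := by
    intro d
    have h1 : coreAlgS p K d (Additive.ofMul c) =
        (((d : ZMod p)) ^ 2).val • (Additive.ofMul c) := by
      show Additive.ofMul (ClassGroup.mulEquiv (clRingAction p K d) c) = _
      rw [hact d, ofMul_pow]
    rw [h1, ← mul_smul]
    apply coreAlg_nsmul_eq_of_cast_eq_one p hpc'
    rw [Nat.cast_mul, ZMod.natCast_zmod_val, ZMod.natCast_zmod_val, ← mul_pow, ← Units.val_mul,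
      inv_mul_cancel, Units.val_one, one_pow]
  unfold coreAlgE
  rw [AddMonoidHom.finsetSum_apply]
  simp only [AddMonoidHom.smul_apply]
  rw [Finset.sum_congr rfl fun d _ => hterm d, Finset.sum_const, Finset.card_univ,
    ZMod.card_units_eq_totient, Nat.totient_prime hp.out]
  rw [eq_neg_iff_add_eq_zero]
  nth_rewrite 2 [← one_smul ℕ (Additive.ofMul c)]
  rw [← add_smul, Nat.sub_add_cancel hp.out.one_le, hpc']


/-- **P7b**: if the `ω ^ 2`-eigenspace of `Cl / p` vanishes, then an ideal whose `p`-th power is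
generated by an element of type `ω ^ 2` is principal. -/
theorem torsionStatement_of (hE : EigenspaceVanishes p K) : TorsionStatement p K := by
  rintro I hI0 ⟨α, hα, hω, hIα⟩
  obtain ⟨a, J, ha, hIJ⟩ := FractionalIdeal.exists_eq_spanSingleton_mul I
  have haK : algebraMap (𝓞 K) K a ≠ 0 := by
    simpa using ha
  have hJ0 : J ≠ ⊥ := by
    rintro rfl
    apply hI0
    rw [hIJ]
    simp
  have hJ : J ∈ (Ideal (𝓞 K))⁰ := mem_nonZeroDivisors_iff_ne_zero.mpr hJ0
  have hJI : (J : FractionalIdeal (𝓞 K)⁰ K) =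
      FractionalIdeal.spanSingleton (𝓞 K)⁰ (algebraMap (𝓞 K) K a) * I := by
    rw [hIJ, ← mul_assoc, FractionalIdeal.spanSingleton_mul_spanSingleton, mul_inv_cancel₀ haK,
      FractionalIdeal.spanSingleton_one, one_mul]
  have h1 : ((J ^ p : Ideal (𝓞 K)) : FractionalIdeal (𝓞 K)⁰ K) =
      FractionalIdeal.spanSingleton (𝓞 K)⁰ (α * (algebraMap (𝓞 K) K a) ^ p) := by
    rw [FractionalIdeal.coeIdeal_pow, hJI, mul_pow, ← hIα, FractionalIdeal.spanSingleton_pow,
      FractionalIdeal.spanSingleton_mul_spanSingleton, mul_comm]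
  obtain ⟨a', ha'⟩ : ∃ a' : 𝓞 K, algebraMap (𝓞 K) K a' = α * (algebraMap (𝓞 K) K a) ^ p := by
    have hmem : α * (algebraMap (𝓞 K) K a) ^ p ∈
        ((J ^ p : Ideal (𝓞 K)) : FractionalIdeal (𝓞 K)⁰ K) := by
      rw [h1]
      exact FractionalIdeal.mem_spanSingleton_self _ _
    obtain ⟨a', -, h⟩ := (FractionalIdeal.mem_coeIdeal _).mp hmem
    exact ⟨a', h⟩
  have ha'0 : a' ≠ 0 := by
    rintro rfl
    rw [map_zero] at ha'
    exact mul_ne_zero hα (pow_ne_zero _ haK) ha'.symm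
  have hJp : J ^ p = Ideal.span {a'} := by
    apply FractionalIdeal.coeIdeal_injective (K := K)
    show ((J ^ p : Ideal (𝓞 K)) : FractionalIdeal (𝓞 K)⁰ K) =
      ((Ideal.span {a'} : Ideal (𝓞 K)) : FractionalIdeal (𝓞 K)⁰ K)
    rw [h1, FractionalIdeal.coeIdeal_span_singleton, ha']
  have hω' : IsOmegaTwo p K (algebraMap (𝓞 K) K a') := by
    intro τ
    obtain ⟨g, hg⟩ := hω τ
    have hτa : τ (algebraMap (𝓞 K) K a) ≠ 0 := by simpa using ha
    refine ⟨g * τ (algebraMap (𝓞 K) K a) / (algebraMap (𝓞 K) K a) ^ ((cyc p K τ) ^ 2).val, ?_⟩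
    rw [ha', map_mul, map_pow, hg, div_pow, mul_pow, mul_pow]
    field_simp
    ring
  have hcp : (ClassGroup.mk0 ⟨J, hJ⟩) ^ p = 1 := by
    rw [← map_pow]
    have hpow : (⟨J, hJ⟩ : (Ideal (𝓞 K))⁰) ^ p = ⟨J ^ p, pow_mem hJ p⟩ := Subtype.ext (by simp)
    rw [hpow, ClassGroup.mk0_eq_one_iff, hJp]
    exact ⟨⟨a', rfl⟩⟩
  have hact := coreAlg_class_action p K hJ ha'0 hJp hω'
  have hEc := coreAlg_E_eigen p K hcp hact
  have hc0 : Additive.ofMul (ClassGroup.mk0 ⟨J, hJ⟩) = 0 :=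
    coreAlg_torsion_abstract hp.out (coreAlgE p K) (coreAlg_E_divisible p K hE)
      (by rw [← ofMul_pow, hcp]; rfl) hEc
  have hc1 : ClassGroup.mk0 ⟨J, hJ⟩ = 1 := hc0
  have hprin : J.IsPrincipal := (ClassGroup.mk0_eq_one_iff hJ).mp hc1
  obtain ⟨g₀, hg₀⟩ := hprin.principal
  have hg₀' : J = Ideal.span {g₀} := hg₀
  have hg0 : g₀ ≠ 0 := by
    rintro rfl
    apply hJ0
    rw [hg₀']
    simp
  refine ⟨(algebraMap (𝓞 K) K a)⁻¹ * algebraMap (𝓞 K) K g₀, ?_, ?_⟩
  · exact mul_ne_zero (inv_ne_zero haK) (by simpa using hg0)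
  · rw [hIJ, hg₀', FractionalIdeal.coeIdeal_span_singleton,
      FractionalIdeal.spanSingleton_mul_spanSingleton]


/-- **P7c**: the core statement from the torsion statement, the unit statement and the local
computation. -/
theorem coreStatement_of (hT : TorsionStatement p K) (hU : UnitStatement p K)
    (hL : LocalStatement p K) : CoreStatement p K := by
  intro ζ hζ α hα hI hω hloc
  obtain ⟨I, hI⟩ := hI
  have hI0 : I ≠ 0 := by
    rintro rfl
    rw [zero_pow hp.out.ne_zero] at hI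
    exact hα (FractionalIdeal.spanSingleton_eq_zero_iff.mp hI)
  obtain ⟨γ, hγ, hIγ⟩ := hT I hI0 ⟨α, hα, hω, hI⟩
  rw [hIγ, FractionalIdeal.spanSingleton_pow, FractionalIdeal.spanSingleton_eq_spanSingleton] at hI
  obtain ⟨z, hz⟩ := hI
  have hαε : α = (((z⁻¹ : (𝓞 K)ˣ) : 𝓞 K) : K) * γ ^ p := by
    rw [← hz, Units.smul_def, Algebra.smul_def, ← mul_assoc, ← map_mul]
    simp
  have hε0 : (((z⁻¹ : (𝓞 K)ˣ) : 𝓞 K) : K) ≠ 0 := by
    intro h
    rw [h, zero_mul] at hαε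
    exact hα hαε
  have hεω : IsOmegaTwo p K (((z⁻¹ : (𝓞 K)ˣ) : 𝓞 K) : K) := by
    intro τ
    obtain ⟨g, hg⟩ := hω τ
    have hτγ : τ γ ≠ 0 := by simpa using hγ
    refine ⟨γ ^ ((cyc p K τ) ^ 2).val * g / τ γ, ?_⟩
    have h1 : τ α = τ (((z⁻¹ : (𝓞 K)ˣ) : 𝓞 K) : K) * (τ γ) ^ p := by
      conv_lhs => rw [hαε]
      rw [map_mul, map_pow]
    have h2 : τ (((z⁻¹ : (𝓞 K)ˣ) : 𝓞 K) : K) * (τ γ) ^ p =
        ((((z⁻¹ : (𝓞 K)ˣ) : 𝓞 K) : K) * γ ^ p) ^ ((cyc p K τ) ^ 2).val * g ^ p := by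
      rw [← h1, hg, ← hαε]
    have h3 : τ (((z⁻¹ : (𝓞 K)ˣ) : 𝓞 K) : K) =
        ((((z⁻¹ : (𝓞 K)ˣ) : 𝓞 K) : K) * γ ^ p) ^ ((cyc p K τ) ^ 2).val * g ^ p / (τ γ) ^ p := by
      rw [← h2]; field_simp
    rw [h3, div_pow, mul_pow, mul_pow]
    field_simp
    ring
  obtain ⟨j, x, hx, hεx⟩ := hU ζ hζ z⁻¹ hεω
  have hα2 : α = (eta2 p K ζ : K) ^ j * (x * γ) ^ p := by rw [hαε, hεx]; ring
  have hpj : p ∣ j := hL ζ hζ j (x * γ) (mul_ne_zero hx hγ) (hα2 ▸ hloc)
  obtain ⟨k, rfl⟩ := hpj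
  exact ⟨(eta2 p K ζ : K) ^ k * (x * γ), by rw [hα2]; ring⟩

/-- **P7** (all of it): the core statement from the four arithmetic pieces. -/
theorem coreStatement_of_pieces (hT : ThaineStatement p K) (hD : DensityStatement p K)
    (hL : LocalStatement p K) (hU : UnitStatement p K) : CoreStatement p K :=
  coreStatement_of p K (torsionStatement_of p K (eigenspaceVanishes_of p K hT hD hL)) hU hL

end Fermat.Agent.S14
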