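import Mathlib
import Fermat.Prelude.Def_ExtCitation_AdmissibleExtension_v2
import Fermat.Prelude.Def_ClassGroup_GaloisAction
import Fermat.Prelude.Def_Stickelberger_Basic

/-!
# S14 (ExtVanishingCts): definitions and top-level contract of the Thaine route

Route: `NOTES/routes/S14_helper1_w3_thaine.md`.  Contract: `NOTES/S14_statements.lean.txt`.
-/


set_option autoImplicit false

open scoped NumberField nonZeroDivisors
open JacobiSumStickelberger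

namespace Fermat.Agent.S14

variable (p : ℕ) [hp : Fact p.Prime]
variable (K : Type) [Field K] [NumberField K] [IsCyclotomicExtension {p} ℚ K]

/-- the cyclotomic exponent of `τ`: `τ ζ = ζ ^ (cyc τ)` -/
noncomputable def cyc (τ : K ≃ₐ[ℚ] K) : ZMod p :=
  haveI : NeZero p := ⟨hp.out.ne_zero⟩
  ((cycloGalEquiv p K τ : (ZMod p)ˣ) : ZMod p)

/-- the cyclotomic element of type `ω ^ 2`:  `∏_{0 < b < p} (1 - ζ ^ b) ^ (b ^ (-2))`. -/
noncomputable def eta2 (ζ : 𝓞 K) : 𝓞 K :=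
  ∏ b ∈ Finset.Ioo 0 p, (1 - ζ ^ b) ^ (((b : ZMod p)⁻¹) ^ 2).val

/-- `α` is of type `ω ^ 2` modulo `p`-th powers. -/
def IsOmegaTwo (α : K) : Prop :=
  ∀ τ : K ≃ₐ[ℚ] K, ∃ γ : K, τ α = α ^ ((cyc p K τ) ^ 2).val * γ ^ p

/-- `α` is a `p`-th power modulo `𝔭 ^ 3` (`𝔭 = (1 - ζ)`), in the multiplicative sense:
`α b = y ^ p (b + (1 - ζ) ^ 3 a)` with `b` prime to `𝔭`. -/
def IsLocalPow (ζ : 𝓞 K) (α : K) : Prop :=
  ∃ y : K, y ≠ 0 ∧ ∃ a b : 𝓞 K, ¬ (1 - ζ) ∣ b ∧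
    α * (b : K) = y ^ p * ((b : K) + (1 - (ζ : K)) ^ 3 * (a : K))

/-- `(α)` is the `p`-th power of a fractional ideal. -/
def IsIdealPow (α : K) : Prop :=
  ∃ I : FractionalIdeal (𝓞 K)⁰ K, FractionalIdeal.spanSingleton (𝓞 K)⁰ α = I ^ p

/-! ## the arithmetic core -/

/-- **CORE** (P3 + P4 + P5 + P6 + P7). -/
def CoreStatement : Prop :=
  ∀ (ζ : 𝓞 K), IsPrimitiveRoot ζ p → ∀ α : K, α ≠ 0 → IsIdealPow p K α → IsOmegaTwo p K α →
    IsLocalPow p K ζ α → ∃ x : K, x ^ p = α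

/-- **CORE-A** (P3 + P4): the `ω ^ 2`-eigenspace of `Cl / p` vanishes. -/
def EigenspaceVanishes : Prop :=
  haveI : NeZero p := ⟨hp.out.ne_zero⟩
  ∀ a : ClGalModule p (𝓞 K), Stickelberger.IsOmegaEigenvector (clGalAction p K) 2 a → a = 0

/-- **P3** Thaine's relation, for one prime ideal `P` of degree one. -/
def ThaineStatement : Prop :=
  haveI : NeZero p := ⟨hp.out.ne_zero⟩
  ∀ (ζ : 𝓞 K), IsPrimitiveRoot ζ p →
  ∀ (P : (Ideal (𝓞 K))⁰), (P : Ideal (𝓞 K)).IsPrime → (Ideal.absNorm (P : Ideal (𝓞 K))).Prime →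
    ¬ p ∣ Ideal.absNorm (P : Ideal (𝓞 K)) →
    (¬ ∃ x : 𝓞 K ⧸ (P : Ideal (𝓞 K)), x ^ p = Ideal.Quotient.mk _ (eta2 p K ζ)) →
    ∀ (ψ : ClGalModule p (𝓞 K) →ₗ[ZMod p] ZMod p),
      (∀ (d : (ZMod p)ˣ) (a : ClGalModule p (𝓞 K)), ψ (clGalAction p K d a) = (d : ZMod p) ^ 2 * ψ a) →
      ψ (clProj p (𝓞 K) (Additive.ofMul (ClassGroup.mk0 P))) = 0

/-- **P4** the analytic input, for any number field containing `ζ_p`. -/
def DensityStatement (F : Type) [Field F] [NumberField F] : Prop :=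
  haveI : NeZero p := ⟨hp.out.ne_zero⟩
  (∃ ζ : F, IsPrimitiveRoot ζ p) →
  ∀ (ψ : ClGalModule p (𝓞 F) →ₗ[ZMod p] ZMod p), ψ ≠ 0 →
  ∀ η : 𝓞 F, (∀ x : 𝓞 F, x ^ p ≠ η) →
    ∃ P : (Ideal (𝓞 F))⁰, (P : Ideal (𝓞 F)).IsPrime ∧ (Ideal.absNorm (P : Ideal (𝓞 F))).Prime ∧
      ¬ p ∣ Ideal.absNorm (P : Ideal (𝓞 F)) ∧
      ψ (clProj p (𝓞 F) (Additive.ofMul (ClassGroup.mk0 P))) ≠ 0 ∧
      ¬ ∃ x : 𝓞 F ⧸ (P : Ideal (𝓞 F)), x ^ p = Ideal.Quotient.mk _ η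

/-- **P6** the local computation: `η₂ ^ j x ^ p` is a `p`-th power modulo `𝔭 ^ 3` only if `p ∣ j`. -/
def LocalStatement : Prop :=
  ∀ (ζ : 𝓞 K), IsPrimitiveRoot ζ p → ∀ (j : ℕ) (x : K), x ≠ 0 →
    IsLocalPow p K ζ ((eta2 p K ζ : K) ^ j * x ^ p) → p ∣ j

/-- **P5** units of type `ω ^ 2` are powers of `η₂` modulo `p`-th powers. -/
def UnitStatement : Prop :=
  ∀ (ζ : 𝓞 K), IsPrimitiveRoot ζ p → ∀ ε : (𝓞 K)ˣ, IsOmegaTwo p K ((ε : 𝓞 K) : K) →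
    ∃ (j : ℕ) (x : K), x ≠ 0 ∧ ((ε : 𝓞 K) : K) = (eta2 p K ζ : K) ^ j * x ^ p

/-- **P7** class group algebra: from CORE-A to the torsion statement. -/
def TorsionStatement : Prop :=
  ∀ I : FractionalIdeal (𝓞 K)⁰ K, I ≠ 0 → (∃ α : K, α ≠ 0 ∧ IsOmegaTwo p K α ∧
      FractionalIdeal.spanSingleton (𝓞 K)⁰ α = I ^ p) →
    ∃ γ : K, γ ≠ 0 ∧ I = FractionalIdeal.spanSingleton (𝓞 K)⁰ γ

end Fermat.Agent.S14

/-! ## the Galois side (P1 + P2) -/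
namespace Fermat.Agent.S14

open ExtCitation

/-- **GALOIS SIDE** (P1 + P2): a non-split admissible extension produces a Kummer generator. -/
def GaloisSideStatement (p : ℕ) [Fact p.Prime] : Prop :=
  ∀ (V : Type) [AddCommGroup V] [Module (ZMod p) V]
    [DistribMulAction (AlgebraicClosure ℚ ≃ₐ[ℚ] AlgebraicClosure ℚ) V]
    [SMulCommClass (AlgebraicClosure ℚ ≃ₐ[ℚ] AlgebraicClosure ℚ) (ZMod p) V]
    (C : Submodule (ZMod p) V), IsAdmissibleExtensionCts p V C → ¬ SplitsGlobally C →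
    ∃ (K : Type) (_ : Field K) (_ : NumberField K) (_ : IsCyclotomicExtension {p} ℚ K)
      (ζ : 𝓞 K) (_ : IsPrimitiveRoot ζ p) (α : K),
      α ≠ 0 ∧ IsIdealPow p K α ∧ IsOmegaTwo p K α ∧ IsLocalPow p K ζ α ∧ ¬ ∃ x : K, x ^ p = α

theorem extVanishingCts_of (p : ℕ) [Fact p.Prime]
    (hG : GaloisSideStatement p)
    (hC : ∀ (K : Type) [Field K] [NumberField K] [IsCyclotomicExtension {p} ℚ K], CoreStatement p K) :
    ExtVanishingCts p := by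
  intro V _ _ _ _ C hadm
  by_contra hns
  obtain ⟨K, _, _, _, ζ, hζ, α, hα, h1, h2, h3, h4⟩ := hG V C hadm hns
  exact h4 (hC K ζ hζ α hα h1 h2 h3)

end Fermat.Agent.S14
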