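import Mathlib
import Fermat.Agent.S14.Defs

/-!
# S14 (item 86), piece P8: `CoreStatement 3 K`

`K = ℚ(ζ₃)` has class number one and its units are `± ζ ^ k`, so an element `α` whose ideal is a
cube is `ζ ^ m δ ^ 3`; the type `ω² = 1` condition for the non-trivial automorphism then forces
`3 ∣ m` since `ζ` is not a cube in `K`.

Main results: `Fermat.Agent.S14.coreStatement_three`, `Fermat.Agent.S14.coreStatement_of_eq_three`.
-/

set_option autoImplicit false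

open NumberField nonZeroDivisors

namespace Fermat.Agent.S14.Three

variable {K : Type} [Field K] [NumberField K] [IsCyclotomicExtension {3} ℚ K]

theorem sq_val_eq_one (x : (ZMod 3)ˣ) : (((x : ZMod 3)) ^ 2).val = 1 := by
  have h : ∀ y : ZMod 3, y ≠ 0 → (y ^ 2).val = 1 := by decide
  exact h _ x.ne_zero

/-- for `p = 3`, type `ω²` means: invariant modulo cubes -/
theorem isOmegaTwo_three {α : K} (h : IsOmegaTwo 3 K α) (τ : K ≃ₐ[ℚ] K) :
    ∃ γ : K, τ α = α * γ ^ 3 := by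
  obtain ⟨γ, hγ⟩ := h τ
  refine ⟨γ, ?_⟩
  rw [hγ]
  unfold cyc
  rw [sq_val_eq_one, pow_one]

/-- the non-trivial automorphism -/
theorem exists_aut {ζ : K} (hζ : IsPrimitiveRoot ζ 3) : ∃ τ : K ≃ₐ[ℚ] K, τ ζ = ζ ^ 2 := by
  have hz := IsCyclotomicExtension.zeta_spec 3 ℚ K
  have hirr : Irreducible (Polynomial.cyclotomic 3 ℚ) :=
    Polynomial.cyclotomic.irreducible_rat (by norm_num)
  have hμ : IsPrimitiveRoot ((IsCyclotomicExtension.zeta 3 ℚ K) ^ 2) 3 :=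
    hz.pow_of_coprime 2 (by norm_num)
  refine ⟨IsCyclotomicExtension.fromZetaAut hμ hirr, ?_⟩
  obtain ⟨i, -, hi⟩ := hz.eq_pow_of_pow_eq_one hζ.pow_eq_one
  rw [← hi, map_pow, IsCyclotomicExtension.fromZetaAut_spec]
  ring

theorem zeta_not_cube {ζ : K} (hζ : IsPrimitiveRoot ζ 3) (ξ : K) : ξ ^ 3 ≠ ζ := by
  intro h
  have hζ3 := hζ.pow_eq_one
  have h9 : ξ ^ 9 = 1 := by
    have : ξ ^ 9 = (ξ ^ 3) ^ 3 := by ring
    rw [this, h, hζ3]
  have hfin : IsOfFinOrder ξ := isOfFinOrder_iff_pow_eq_one.2 ⟨9, by norm_num, h9⟩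
  obtain ⟨r, -, hr⟩ := hζ.exists_pow_or_neg_mul_pow_of_isOfFinOrder (by decide) hfin
  rcases hr with hr | hr
  · have h1 : ξ ^ 3 = 1 := by rw [hr, ← pow_mul, mul_comm, pow_mul, hζ3, one_pow]
    exact hζ.ne_one (by norm_num) (h ▸ h1)
  · have h1 : ξ ^ 3 = -1 := by
      rw [hr, neg_pow, ← pow_mul, mul_comm r 3, pow_mul, hζ3, one_pow]
      norm_num
    rw [h] at h1
    rw [h1] at hζ3
    norm_num at hζ3

theorem dvd_of_zeta_pow_cube {ζ : K} (hζ : IsPrimitiveRoot ζ 3) (m : ℕ) (ξ : K)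
    (h : ξ ^ 3 = ζ ^ m) : 3 ∣ m := by
  have hζ3 := hζ.pow_eq_one
  have hm : ζ ^ m = ζ ^ (m % 3) := by
    conv_lhs => rw [← Nat.div_add_mod m 3, pow_add, pow_mul, hζ3, one_pow, one_mul]
  have hlt : m % 3 < 3 := Nat.mod_lt _ (by norm_num)
  rw [hm] at h
  rcases Nat.lt_or_ge 0 (m % 3) with h0 | h0
  · exfalso
    have h12 : m % 3 = 1 ∨ m % 3 = 2 := by omega
    rcases h12 with h1 | h2
    · rw [h1, pow_one] at h
      exact zeta_not_cube hζ ξ h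
    · rw [h2] at h
      refine zeta_not_cube hζ (ξ ^ 2) ?_
      have : (ξ ^ 2) ^ 3 = (ξ ^ 3) ^ 2 := by ring
      rw [this, h]
      have : (ζ ^ 2) ^ 2 = ζ ^ 3 * ζ := by ring
      rw [this, hζ3, one_mul]
  · exact Nat.dvd_of_mod_eq_zero (by omega)

/-- units are `ζ ^ k` times a cube -/
theorem unit_eq {ζ : K} (hζ : IsPrimitiveRoot ζ 3) (u : (𝓞 K)ˣ) :
    ∃ (k : ℕ) (e : K), e ≠ 0 ∧ algebraMap (𝓞 K) K (u : 𝓞 K) = ζ ^ k * e ^ 3 := by
  have hmem := IsCyclotomicExtension.Rat.Three.Units.mem hζ u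
  simp only [List.mem_cons, List.not_mem_nil, or_false] at hmem
  have hη : algebraMap (𝓞 K) K hζ.toInteger = ζ := rfl
  rcases hmem with h | h | h | h | h | h
  · exact ⟨0, 1, one_ne_zero, by rw [h]; simp⟩
  · exact ⟨0, -1, by norm_num, by rw [h]; simp; norm_num⟩
  · exact ⟨1, 1, one_ne_zero, by rw [h]; simp [hη]⟩
  · exact ⟨1, -1, by norm_num, by rw [h]; simp [hη]; norm_num⟩
  · exact ⟨2, 1, one_ne_zero, by rw [h]; simp [hη]⟩
  · exact ⟨2, -1, by norm_num, by rw [h]; simp [hη]; norm_num⟩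

end Fermat.Agent.S14.Three

namespace Fermat.Agent.S14

open Three

/-- **P8** the core statement for `p = 3`. -/
theorem coreStatement_three (K : Type) [Field K] [NumberField K]
    [IsCyclotomicExtension {3} ℚ K] : CoreStatement 3 K := by
  intro ζ' hζ' α hα hI hΩ _
  have hζ : IsPrimitiveRoot (algebraMap (𝓞 K) K ζ') 3 :=
    hζ'.map_of_injective RingOfIntegers.coe_injective
  set ζ : K := algebraMap (𝓞 K) K ζ' with hζdef
  have hζ3 := hζ.pow_eq_one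
  have hζ0 : ζ ≠ 0 := hζ.ne_zero (by norm_num)
  obtain ⟨I, hI⟩ := hI
  have : IsPrincipalIdealRing (𝓞 K) := IsCyclotomicExtension.Rat.three_pid K
  obtain ⟨γ, hγ⟩ := (FractionalIdeal.isPrincipal_iff I).mp inferInstance
  rw [hγ, FractionalIdeal.spanSingleton_pow, FractionalIdeal.spanSingleton_eq_spanSingleton] at hI
  obtain ⟨u, hu⟩ := hI
  obtain ⟨k, e, he, hue⟩ := unit_eq hζ u
  have hu' : ζ ^ k * e ^ 3 * α = γ ^ 3 := by
    rw [← hue, ← hu, Units.smul_def, Algebra.smul_def]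
  have hγ0 : γ ≠ 0 := by
    rintro rfl
    have h0 : ζ ^ k * e ^ 3 * α ≠ 0 :=
      mul_ne_zero (mul_ne_zero (pow_ne_zero _ hζ0) (pow_ne_zero _ he)) hα
    exact h0 (by rw [hu']; simp)
  -- `α = ζ ^ (2 k) δ ^ 3`
  set δ : K := γ / (ζ ^ k * e) with hδdef
  have hδ0 : δ ≠ 0 := div_ne_zero hγ0 (mul_ne_zero (pow_ne_zero _ hζ0) he)
  have hαeq : α = ζ ^ (2 * k) * δ ^ 3 := by
    have h1 : δ ^ 3 * (ζ ^ k * e) ^ 3 = γ ^ 3 := by
      rw [hδdef, ← mul_pow, div_mul_cancel₀ _ (mul_ne_zero (pow_ne_zero _ hζ0) he)]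
    have h2 : (ζ ^ k * e) ^ 3 ≠ 0 := pow_ne_zero _ (mul_ne_zero (pow_ne_zero _ hζ0) he)
    have h3 : (ζ ^ k) ^ 3 = 1 := by rw [← pow_mul, mul_comm, pow_mul, hζ3, one_pow]
    apply mul_left_cancel₀ h2
    have e1 : (ζ ^ k * e) ^ 3 * α = (ζ ^ k) ^ 2 * (ζ ^ k * e ^ 3 * α) := by ring
    rw [e1, hu', ← h1, ← pow_mul, mul_comm k 2]
    ring
  -- the Galois condition
  obtain ⟨τ, hτ⟩ := exists_aut hζ
  obtain ⟨g, hg⟩ := isOmegaTwo_three hΩ τ
  have hm : ζ ^ (2 * k) * ((τ δ) ^ 3 * ζ ^ (2 * k)) = ζ ^ (2 * k) * (δ * g) ^ 3 := by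
    have e1 : τ α = (ζ ^ (2 * k)) ^ 2 * (τ δ) ^ 3 := by
      rw [hαeq, map_mul, map_pow, map_pow, hτ, ← pow_mul, ← pow_mul]
      congr 2
      ring
    rw [e1, hαeq] at hg
    linear_combination hg
  have hm' := mul_left_cancel₀ (pow_ne_zero _ hζ0) hm
  have hτδ : τ δ ≠ 0 := by
    rw [Ne, map_eq_zero_iff _ τ.injective]
    exact hδ0
  have hcube : (δ * g / τ δ) ^ 3 = ζ ^ (2 * k) := by
    rw [div_pow, ← hm', mul_comm, mul_div_assoc, div_self (pow_ne_zero _ hτδ), mul_one]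
  obtain ⟨q, hq⟩ := dvd_of_zeta_pow_cube hζ (2 * k) _ hcube
  refine ⟨δ, ?_⟩
  rw [hαeq, hq, pow_mul, hζ3, one_pow, one_mul]

/-- **P8** in the form used by the assembly. -/
theorem coreStatement_of_eq_three (p : ℕ) [hp : Fact p.Prime] (h3 : p = 3) (K : Type) [Field K]
    [NumberField K] [IsCyclotomicExtension {p} ℚ K] : CoreStatement p K := by
  subst h3
  exact coreStatement_three K

end Fermat.Agent.S14
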