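import Mathlib

/-!
# S14 / P4g: the characters of `ZMod p` and the product `∏_j (1 - χ_j(x) t)`
-/

set_option autoImplicit false

namespace Fermat.Agent.S14.CU

variable (p : ℕ) [hp : Fact p.Prime]

/-- the character `x ↦ e(j x / p)` of `ZMod p` -/
noncomputable def chi (j x : ZMod p) : ℂ := ZMod.stdAddChar (N := p) (j * x)

lemma chi_add (j x y : ZMod p) : chi p j (x + y) = chi p j x * chi p j y := by
  simp only [chi, mul_add, AddChar.map_add_eq_mul]

lemma chi_zero_right (j : ZMod p) : chi p j 0 = 1 := by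
  simp [chi]

lemma chi_zero_left (x : ZMod p) : chi p 0 x = 1 := by
  simp [chi]

lemma norm_chi (j x : ZMod p) : ‖chi p j x‖ = 1 := by
  rw [chi, ZMod.stdAddChar_apply]
  exact Circle.norm_coe _

lemma chi_pow (j x : ZMod p) : chi p j x ^ p = 1 := by
  rw [chi, ← AddChar.map_nsmul_eq_pow]
  simp

lemma image_stdAddChar :
    (Finset.univ : Finset (ZMod p)).image (fun k => ZMod.stdAddChar (N := p) k) =
      Polynomial.nthRootsFinset p (1 : ℂ) := by
  have hp0 : 0 < p := hp.out.pos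
  have hprim : IsPrimitiveRoot (Complex.exp (2 * Real.pi * Complex.I / p)) p :=
    Complex.isPrimitiveRoot_exp p hp.out.ne_zero
  apply Finset.eq_of_subset_of_card_le
  · intro z hz
    rw [Finset.mem_image] at hz
    obtain ⟨k, _, rfl⟩ := hz
    rw [Polynomial.mem_nthRootsFinset hp0]
    rw [← AddChar.map_nsmul_eq_pow]
    simp
  · rw [hprim.card_nthRootsFinset, Finset.card_image_of_injective _ ZMod.injective_stdAddChar,
      Finset.card_univ, ZMod.card]

/-- `∏_k (1 - e(k/p) t) = 1 - t^p` -/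
lemma prod_one_sub_stdAddChar (t : ℂ) :
    ∏ k : ZMod p, (1 - ZMod.stdAddChar (N := p) k * t) = 1 - t ^ p := by
  have hp0 : 0 < p := hp.out.pos
  have hprim : IsPrimitiveRoot (Complex.exp (2 * Real.pi * Complex.I / p)) p :=
    Complex.isPrimitiveRoot_exp p hp.out.ne_zero
  have h := hprim.pow_sub_pow_eq_prod_sub_mul (1 : ℂ) t hp0
  rw [one_pow] at h
  rw [h, ← image_stdAddChar p, Finset.prod_image (fun a _ b _ hab => ZMod.injective_stdAddChar hab)]

/-- for `x ≠ 0`: `∏_j (1 - χ_j(x) t) = 1 - t^p` -/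
lemma prod_one_sub_chi {x : ZMod p} (hx : x ≠ 0) (t : ℂ) :
    ∏ j : ZMod p, (1 - chi p j x * t) = 1 - t ^ p := by
  rw [← prod_one_sub_stdAddChar p t]
  exact Fintype.prod_bijective (fun j => j * x) (mulRight_bijective₀ x hx) _ _ (fun j => rfl)

/-- `∏_j (1 - χ_j(0) t) = (1 - t)^p` -/
lemma prod_one_sub_chi_zero (t : ℂ) :
    ∏ j : ZMod p, (1 - chi p j 0 * t) = (1 - t) ^ p := by
  simp [chi_zero_right, Finset.prod_const, Finset.card_univ, ZMod.card]

/-- for `j ≠ 0`: `∑_x χ_j(x) = 0` -/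
lemma sum_chi_eq_zero {j : ZMod p} (hj : j ≠ 0) : ∑ x : ZMod p, chi p j x = 0 := by
  have h1 : ∑ x : ZMod p, chi p j x = ∑ k : ZMod p, ZMod.stdAddChar (N := p) k :=
    Fintype.sum_bijective (fun x => j * x) (mulLeft_bijective₀ j hj) _ _ (fun x => rfl)
  rw [h1]
  apply AddChar.sum_eq_zero_of_ne_one
  intro h
  have h2 := ZMod.injective_stdAddChar (N := p)
    (show ZMod.stdAddChar (N := p) 1 = ZMod.stdAddChar (N := p) 0 by
      rw [h]; simp)
  haveI : Fact (1 < p) := ⟨hp.out.one_lt⟩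
  exact one_ne_zero h2

/-- the norm of the product, `0 ≤ t < 1` real -/
lemma prod_norm_one_sub_chi_le (x : ZMod p) {t : ℝ} (ht0 : 0 ≤ t) (ht1 : t ≤ 1) :
    ∏ j : ZMod p, ‖1 - chi p j x * (t : ℂ)‖ ≤ 1 := by
  rw [← norm_prod]
  by_cases hx : x = 0
  · subst hx
    rw [prod_one_sub_chi_zero, norm_pow]
    have : ‖(1 : ℂ) - (t : ℂ)‖ ≤ 1 := by
      rw [← Complex.ofReal_one, ← Complex.ofReal_sub, Complex.norm_real, Real.norm_eq_abs,
        abs_le]
      constructor <;> linarith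
    exact pow_le_one₀ (norm_nonneg _) this
  · rw [prod_one_sub_chi p hx]
    rw [← Complex.ofReal_pow, ← Complex.ofReal_one, ← Complex.ofReal_sub, Complex.norm_real,
      Real.norm_eq_abs, abs_le]
    have h1 : 0 ≤ t ^ p := pow_nonneg ht0 _
    have h2 : t ^ p ≤ 1 := pow_le_one₀ ht0 ht1
    constructor <;> linarith

lemma prod_norm_one_sub_chi_zero {t : ℝ} (ht1 : t ≤ 1) :
    ∏ j : ZMod p, ‖1 - chi p j 0 * (t : ℂ)‖ = (1 - t) ^ p := by
  rw [← norm_prod, prod_one_sub_chi_zero, norm_pow, ← Complex.ofReal_one, ← Complex.ofReal_sub,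
    Complex.norm_real, Real.norm_eq_abs, abs_of_nonneg (by linarith)]

end Fermat.Agent.S14.CU
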