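import Mathlib
import Fermat.Agent.S14.Defs

/-!
# S14 / P4: contract of the density piece (architect: helper6)

All prime sums are taken in `ℝ≥0∞` (no summability side conditions for the consumers).
`densityStatement_of_parts` (P4f) is proved here from the four inputs
`LowerAll`, `ClassUpper`, `SplitUpper`, `HighDegBounded`.
-/

set_option autoImplicit false

open scoped NumberField nonZeroDivisors ENNReal
open NumberField IsDedekindDomain

namespace Fermat.Agent.S14.Dens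

variable (F : Type*) [Field F] [NumberField F]

/-- a height one prime as a nonzero ideal -/
noncomputable def toNZ (P : HeightOneSpectrum (𝓞 F)) : (Ideal (𝓞 F))⁰ :=
  ⟨P.asIdeal, mem_nonZeroDivisors_of_ne_zero P.ne_bot⟩

omit [NumberField F] in
@[simp] lemma coe_toNZ (P : HeightOneSpectrum (𝓞 F)) :
    ((toNZ F P : (Ideal (𝓞 F))⁰) : Ideal (𝓞 F)) = P.asIdeal := rfl

/-- the prime zeta sum of a set of primes, with values in `ℝ≥0∞` -/
noncomputable def pz (S : Set (HeightOneSpectrum (𝓞 F))) (s : ℝ) : ℝ≥0∞ :=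
  ∑' P : S, ENNReal.ofReal ((Ideal.absNorm P.1.asIdeal : ℝ) ^ (-s))

/-- `log (1 / (s - 1))` -/
noncomputable def lg (s : ℝ) : ℝ := Real.log (1 / (s - 1))

/-- (1) lower bound for the sum over ALL primes (pole of the Dedekind zeta function + Euler product). -/
def LowerAll : Prop :=
  ∃ C : ℝ, 0 ≤ C ∧ ∀ s : ℝ, 1 < s → s ≤ 2 → ENNReal.ofReal (lg s - C) ≤ pz F Set.univ s

/-- upper bound `c * log (1/(s-1)) + C` for the sum over the primes of `S`. -/
def UpperFrac (S : Set (HeightOneSpectrum (𝓞 F))) (c : ℝ) : Prop :=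
  ∃ C : ℝ, 0 ≤ C ∧ ∀ s : ℝ, 1 < s → s ≤ 2 → pz F S s ≤ ENNReal.ofReal (c * lg s + C)

/-- the sum over the primes of `S` is bounded for `1 < s ≤ 2`. -/
def BoundedOn (S : Set (HeightOneSpectrum (𝓞 F))) : Prop :=
  ∃ C : ℝ, 0 ≤ C ∧ ∀ s : ℝ, 1 < s → s ≤ 2 → pz F S s ≤ ENNReal.ofReal C

/-- the partial zeta function of an ideal class -/
noncomputable def classZeta (C : ClassGroup (𝓞 F)) (s : ℝ) : ℝ :=
  ∑' I : {I : (Ideal (𝓞 F))⁰ // ClassGroup.mk0 I = C}, ((Ideal.absNorm (I.1 : Ideal (𝓞 F)) : ℝ)) ^ (-s)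

/-- summability of the partial zeta functions -/
def ClassZetaSummable : Prop :=
  ∀ s : ℝ, 1 < s → ∀ C : ClassGroup (𝓞 F),
    Summable fun I : {I : (Ideal (𝓞 F))⁰ // ClassGroup.mk0 I = C} =>
      ((Ideal.absNorm (I.1 : Ideal (𝓞 F)) : ℝ)) ^ (-s)

/-- (P4a + P4c + P4d) the partial zeta functions of two classes differ by `O(1)` on `(1, 2]`. -/
def ClassZetaBounded : Prop :=
  ∃ B : ℝ, ∀ s : ℝ, 1 < s → s ≤ 2 → ∀ C C' : ClassGroup (𝓞 F),
    |classZeta F C s - classZeta F C' s| ≤ B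

lemma lg_exp (M : ℝ) : lg (1 + Real.exp (-M)) = M := by
  unfold lg
  rw [add_sub_cancel_left, one_div, ← Real.exp_neg, neg_neg, Real.log_exp]

/-- **P4f, core**: three sets of primes with upper densities `c₁`, `c₂`, `0`, `c₁ + c₂ < 1`,
do not cover all primes. -/
theorem exists_not_mem_of_bounds {S₁ S₂ S₃ : Set (HeightOneSpectrum (𝓞 F))} {c₁ c₂ : ℝ}
    (hc₁ : 0 ≤ c₁) (hc₂ : 0 ≤ c₂) (hc : c₁ + c₂ < 1)
    (hA : LowerAll F) (h₁ : UpperFrac F S₁ c₁) (h₂ : UpperFrac F S₂ c₂) (h₃ : BoundedOn F S₃) :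
    ∃ P : HeightOneSpectrum (𝓞 F), P ∉ S₁ ∧ P ∉ S₂ ∧ P ∉ S₃ := by
  by_contra hcon
  push Not at hcon
  obtain ⟨C₀, hC₀, hA⟩ := hA
  obtain ⟨C₁, hC₁, h₁⟩ := h₁
  obtain ⟨C₂, hC₂, h₂⟩ := h₂
  obtain ⟨C₃, hC₃, h₃⟩ := h₃
  have hcov : (Set.univ : Set (HeightOneSpectrum (𝓞 F))) ⊆ (S₁ ∪ S₂) ∪ S₃ := by
    intro P _
    by_cases hP1 : P ∈ S₁
    · exact Or.inl (Or.inl hP1)
    · by_cases hP2 : P ∈ S₂
      · exact Or.inl (Or.inr hP2)
      · exact Or.inr (by
          by_contra hP3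
          exact hP3 (hcon P hP1 hP2))
  -- choose `M` large
  set M : ℝ := (C₀ + C₁ + C₂ + C₃ + 1) / (1 - c₁ - c₂) + 1 with hM
  have hden : 0 < 1 - c₁ - c₂ := by linarith
  have hM0 : 0 ≤ M := by
    have : 0 ≤ (C₀ + C₁ + C₂ + C₃ + 1) / (1 - c₁ - c₂) := div_nonneg (by linarith) hden.le
    linarith
  have hMbig : C₀ + C₁ + C₂ + C₃ < (1 - c₁ - c₂) * M := by
    have h1 : (1 - c₁ - c₂) * M = (C₀ + C₁ + C₂ + C₃ + 1) + (1 - c₁ - c₂) := by
      rw [hM]; field_simp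
    linarith
  set s : ℝ := 1 + Real.exp (-M) with hs
  have hs1 : 1 < s := by have := Real.exp_pos (-M); linarith
  have hs2 : s ≤ 2 := by
    have : Real.exp (-M) ≤ 1 := Real.exp_le_one_iff.mpr (by linarith)
    linarith
  have hlg : lg s = M := lg_exp M
  have e0 := hA s hs1 hs2
  have e1 := h₁ s hs1 hs2
  have e2 := h₂ s hs1 hs2
  have e3 := h₃ s hs1 hs2
  rw [hlg] at e0 e1 e2
  have hle : pz F Set.univ s ≤ pz F S₁ s + pz F S₂ s + pz F S₃ s := by
    unfold pz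
    calc (∑' P : (Set.univ : Set (HeightOneSpectrum (𝓞 F))),
            ENNReal.ofReal ((Ideal.absNorm P.1.asIdeal : ℝ) ^ (-s)))
        ≤ ∑' P : ((S₁ ∪ S₂) ∪ S₃ : Set (HeightOneSpectrum (𝓞 F))),
            ENNReal.ofReal ((Ideal.absNorm P.1.asIdeal : ℝ) ^ (-s)) :=
          ENNReal.tsum_mono_subtype (fun P : HeightOneSpectrum (𝓞 F) =>
            ENNReal.ofReal ((Ideal.absNorm P.asIdeal : ℝ) ^ (-s))) hcov
      _ ≤ (∑' P : (S₁ ∪ S₂ : Set (HeightOneSpectrum (𝓞 F))),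
            ENNReal.ofReal ((Ideal.absNorm P.1.asIdeal : ℝ) ^ (-s))) +
          ∑' P : S₃, ENNReal.ofReal ((Ideal.absNorm P.1.asIdeal : ℝ) ^ (-s)) :=
          ENNReal.tsum_union_le (fun P : HeightOneSpectrum (𝓞 F) =>
            ENNReal.ofReal ((Ideal.absNorm P.asIdeal : ℝ) ^ (-s))) _ _
      _ ≤ _ := by
          gcongr
          exact ENNReal.tsum_union_le (fun P : HeightOneSpectrum (𝓞 F) =>
            ENNReal.ofReal ((Ideal.absNorm P.asIdeal : ℝ) ^ (-s))) _ _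
  have hfin : ENNReal.ofReal (M - C₀) ≤
      ENNReal.ofReal ((c₁ * M + C₁) + (c₂ * M + C₂) + C₃) := by
    calc ENNReal.ofReal (M - C₀) ≤ pz F Set.univ s := e0
      _ ≤ pz F S₁ s + pz F S₂ s + pz F S₃ s := hle
      _ ≤ ENNReal.ofReal (c₁ * M + C₁) + ENNReal.ofReal (c₂ * M + C₂) + ENNReal.ofReal C₃ := by
          gcongr
      _ = ENNReal.ofReal ((c₁ * M + C₁) + (c₂ * M + C₂) + C₃) := by
          have ha : (0 : ℝ) ≤ c₁ * M + C₁ := by positivity
          have hb : (0 : ℝ) ≤ c₂ * M + C₂ := by positivity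
          rw [← ENNReal.ofReal_add ha hb, ← ENNReal.ofReal_add (add_nonneg ha hb) hC₃]
  have hpos : 0 ≤ (c₁ * M + C₁) + (c₂ * M + C₂) + C₃ := by positivity
  have := (ENNReal.ofReal_le_ofReal_iff hpos).mp hfin
  nlinarith

end Fermat.Agent.S14.Dens

namespace Fermat.Agent.S14

open Dens JacobiSumStickelberger

variable (p : ℕ) [hp : Fact p.Prime] (F : Type) [Field F] [NumberField F]

/-- (3) primes whose class is killed by `ψ` have upper density `≤ 1/p`. -/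
def ClassUpper : Prop :=
  haveI : NeZero p := ⟨hp.out.ne_zero⟩
  ∀ (ψ : ClGalModule p (𝓞 F) →ₗ[ZMod p] ZMod p), ψ ≠ 0 →
    UpperFrac F {P | ψ (clProj p (𝓞 F) (Additive.ofMul (ClassGroup.mk0 (toNZ F P)))) = 0}
      (1 / p)

/-- (2) primes modulo which `η` is a `p`-th power have upper density `≤ 1/p`. -/
def SplitUpper : Prop :=
  (∃ ζ : F, IsPrimitiveRoot ζ p) → ∀ η : 𝓞 F, (∀ x : 𝓞 F, x ^ p ≠ η) →
    UpperFrac F {P | ∃ x : 𝓞 F ⧸ P.asIdeal, x ^ p = Ideal.Quotient.mk _ η} (1 / p)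

/-- (4) primes of degree `≥ 2` and primes over `p` have a bounded prime zeta sum. -/
def HighDegBounded : Prop :=
  BoundedOn F {P | ¬ (Ideal.absNorm P.asIdeal).Prime ∨ p ∣ Ideal.absNorm P.asIdeal}

/-- **P4f**: the density statement from its four inputs. -/
theorem densityStatement_of_parts (h3 : 3 ≤ p) (hA : LowerAll F) (hC : ClassUpper p F)
    (hS : SplitUpper p F) (hD : HighDegBounded p F) : DensityStatement p F := by
  intro hζ ψ hψ η hη
  have hp0 : (0 : ℝ) < p := by exact_mod_cast hp.out.pos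
  have hp3 : (3 : ℝ) ≤ p := by exact_mod_cast h3
  have hc : (1 / (p : ℝ)) + 1 / (p : ℝ) < 1 := by
    rw [← two_mul, mul_one_div, div_lt_one hp0]
    linarith
  obtain ⟨P, h1, h2, h3'⟩ := exists_not_mem_of_bounds F (by positivity) (by positivity) hc hA
    (hC ψ hψ) (hS hζ η hη) hD
  simp only [Set.mem_ofPred_eq, not_or, not_not] at h1 h2 h3'
  exact ⟨toNZ F P, P.isPrime, h3'.1, h3'.2, h1, h2⟩

end Fermat.Agent.S14
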