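import Mathlib

/-!
# S14 / P4b: Euler product over the nonzero ideals of a Dedekind domain

`Fermat.Agent.S14.EP.hasProd_ideal`: for a monoid homomorphism `f : (Ideal R)⁰ →* F`
(`F` a complete normed field) with `∑ ‖f I‖ < ∞`,
`∏_v (1 - f v)⁻¹ = ∑_I f I` (product over the height one primes, as a `HasProd`).
-/

set_option autoImplicit false

open scoped nonZeroDivisors Topology
open IsDedekindDomain

namespace Fermat.Agent.S14.EP

variable {R : Type*} [CommRing R] [IsDedekindDomain R]

/-- a height one prime as a nonzero ideal -/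
noncomputable def primeNZ (v : HeightOneSpectrum R) : (Ideal R)⁰ :=
  ⟨v.asIdeal, mem_nonZeroDivisors_iff_ne_zero.mpr v.ne_bot⟩

@[simp] lemma coe_primeNZ (v : HeightOneSpectrum R) : ((primeNZ v : (Ideal R)⁰) : Ideal R) = v.asIdeal := rfl

lemma nz_ne_bot (I : (Ideal R)⁰) : (I : Ideal R) ≠ ⊥ := mem_nonZeroDivisors_iff_ne_zero.mp I.2

/-- nonzero ideals all of whose prime divisors lie in `s` -/
def supp (s : Finset (HeightOneSpectrum R)) : Set (Ideal R)⁰ :=
  {I | ∀ v : HeightOneSpectrum R, v.asIdeal ∣ (I : Ideal R) → v ∈ s}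

lemma mem_supp {s : Finset (HeightOneSpectrum R)} {I : (Ideal R)⁰} :
    I ∈ supp s ↔ ∀ v : HeightOneSpectrum R, v.asIdeal ∣ (I : Ideal R) → v ∈ s := Iff.rfl

lemma supp_mono {s t : Finset (HeightOneSpectrum R)} (h : s ⊆ t) : supp s ⊆ supp t :=
  fun _ hI v hv => h (hI v hv)

lemma supp_empty : supp (∅ : Finset (HeightOneSpectrum R)) = {1} := by
  ext I
  simp only [mem_supp, Finset.notMem_empty, imp_false, Set.mem_singleton_iff]
  constructor
  · intro h
    by_contra hI
    have hI' : (I : Ideal R) ≠ ⊤ := by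
      intro h1
      apply hI
      ext1
      simpa using h1
    obtain ⟨M, hM, hIM⟩ := Ideal.exists_le_maximal _ hI'
    have hMbot : M ≠ ⊥ := by
      rintro rfl
      exact nz_ne_bot I (le_bot_iff.mp hIM)
    exact h ⟨M, hM.isPrime, hMbot⟩ (Ideal.dvd_iff_le.mpr hIM)
  · rintro rfl v hv
    have : v.asIdeal = ⊤ := by
      have := Ideal.le_of_dvd hv
      simpa using this
    exact v.isPrime.ne_top this


section ins

variable [DecidableEq (HeightOneSpectrum R)]

omit [DecidableEq (HeightOneSpectrum R)] in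
lemma eq_of_asIdeal_dvd {v w : HeightOneSpectrum R} (h : w.asIdeal ∣ v.asIdeal) : w = v := by
  have hle : v.asIdeal ≤ w.asIdeal := Ideal.le_of_dvd h
  exact HeightOneSpectrum.ext (v.isMaximal.eq_of_le w.isPrime.ne_top hle).symm

omit [DecidableEq (HeightOneSpectrum R)] in
lemma not_dvd_of_mem_supp {s : Finset (HeightOneSpectrum R)} {v : HeightOneSpectrum R} (hv : v ∉ s)
    {I : (Ideal R)⁰} (hI : I ∈ supp s) : ¬ v.asIdeal ∣ (I : Ideal R) := fun h => hv (hI v h)

omit [DecidableEq (HeightOneSpectrum R)] in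
/-- the map `(n, I) ↦ v ^ n * I` -/
noncomputable def insMap (v : HeightOneSpectrum R) (s : Finset (HeightOneSpectrum R))
    (x : ℕ × supp s) : (Ideal R)⁰ := primeNZ v ^ x.1 * x.2.1

omit [DecidableEq (HeightOneSpectrum R)] in
lemma coe_insMap (v : HeightOneSpectrum R) (s : Finset (HeightOneSpectrum R)) (x : ℕ × supp s) :
    ((insMap v s x : (Ideal R)⁰) : Ideal R) = v.asIdeal ^ x.1 * (x.2.1 : Ideal R) := by
  simp [insMap]

lemma insMap_mem (v : HeightOneSpectrum R) (s : Finset (HeightOneSpectrum R)) (x : ℕ × supp s) :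
    insMap v s x ∈ supp (insert v s) := by
  intro w hw
  rw [coe_insMap] at hw
  rcases (w.prime.dvd_mul).mp hw with h | h
  · have := w.prime.dvd_of_dvd_pow h
    rw [eq_of_asIdeal_dvd this]
    exact Finset.mem_insert_self _ _
  · exact Finset.mem_insert_of_mem (x.2.2 w h)

omit [DecidableEq (HeightOneSpectrum R)] in
lemma insMap_injective {v : HeightOneSpectrum R} {s : Finset (HeightOneSpectrum R)} (hv : v ∉ s) :
    Function.Injective (insMap v s) := by
  have key : ∀ (n k : ℕ) (I J : supp s),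
      v.asIdeal ^ n * (I.1 : Ideal R) = v.asIdeal ^ (n + k) * (J.1 : Ideal R) → k = 0 ∧ I = J := by
    intro n k I J h
    have hv0 : v.asIdeal ^ n ≠ 0 := pow_ne_zero _ v.ne_bot
    rw [pow_add, mul_assoc] at h
    have h2 : (I.1 : Ideal R) = v.asIdeal ^ k * (J.1 : Ideal R) := mul_left_cancel₀ hv0 h
    have hk : k = 0 := by
      by_contra hk
      apply not_dvd_of_mem_supp hv I.2
      rw [h2]
      exact Dvd.dvd.mul_right (dvd_pow_self _ hk) _
    refine ⟨hk, ?_⟩
    subst hk
    ext1; ext1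
    simpa using h2
  rintro ⟨n, I⟩ ⟨m, J⟩ h
  have h' : v.asIdeal ^ n * (I.1 : Ideal R) = v.asIdeal ^ m * (J.1 : Ideal R) := by
    have := congrArg (fun x : (Ideal R)⁰ => (x : Ideal R)) h
    simpa [coe_insMap] using this
  rcases le_total n m with hnm | hnm
  · obtain ⟨k, rfl⟩ := Nat.exists_eq_add_of_le hnm
    obtain ⟨hk, hIJ⟩ := key n k I J h'
    subst hk; subst hIJ; rfl
  · obtain ⟨k, rfl⟩ := Nat.exists_eq_add_of_le hnm
    obtain ⟨hk, hIJ⟩ := key m k J I h'.symm
    subst hk; subst hIJ; rfl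

lemma insMap_surj {v : HeightOneSpectrum R} {s : Finset (HeightOneSpectrum R)}
    (J : (Ideal R)⁰) (hJ : J ∈ supp (insert v s)) : ∃ x, insMap v s x = J := by
  have hfin : FiniteMultiplicity v.asIdeal (J : Ideal R) :=
    FiniteMultiplicity.of_not_isUnit v.prime.not_isUnit (nz_ne_bot J)
  obtain ⟨c, hc, hvc⟩ := hfin.exists_eq_pow_mul_and_not_dvd
  have hc0 : c ≠ ⊥ := by
    rintro rfl
    apply nz_ne_bot J
    rw [hc]; simp
  let c' : (Ideal R)⁰ := ⟨c, mem_nonZeroDivisors_iff_ne_zero.mpr hc0⟩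
  have hc's : c' ∈ supp s := by
    intro w hw
    have hwJ : w.asIdeal ∣ (J : Ideal R) := by
      rw [hc]; exact Dvd.dvd.mul_left hw _
    rcases Finset.mem_insert.mp (hJ w hwJ) with h | h
    · exact absurd (h ▸ hw) hvc
    · exact h
  refine ⟨(multiplicity v.asIdeal (J : Ideal R), ⟨c', hc's⟩), ?_⟩
  ext1
  rw [coe_insMap]
  exact hc.symm

/-- the equivalence `ℕ × supp s ≃ supp (insert v s)` -/
noncomputable def insEquiv {v : HeightOneSpectrum R} {s : Finset (HeightOneSpectrum R)} (hv : v ∉ s) :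
    ℕ × supp s ≃ supp (insert v s) :=
  Equiv.ofBijective (fun x => ⟨insMap v s x, insMap_mem v s x⟩)
    ⟨fun x y h => insMap_injective hv (congrArg Subtype.val h),
     fun J => by
      obtain ⟨x, hx⟩ := insMap_surj J.1 J.2
      exact ⟨x, Subtype.ext hx⟩⟩

lemma insEquiv_apply {v : HeightOneSpectrum R} {s : Finset (HeightOneSpectrum R)} (hv : v ∉ s)
    (x : ℕ × supp s) : ((insEquiv hv x : supp (insert v s)) : (Ideal R)⁰) = primeNZ v ^ x.1 * x.2.1 := rfl

end ins


variable {F : Type*} [NormedField F] [CompleteSpace F]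

/-- the finite Euler product: sum over the ideals supported in `s`. -/
lemma summable_and_hasSum_supp (f : (Ideal R)⁰ →* F)
    (hsum : ∀ v : HeightOneSpectrum R, Summable (fun n : ℕ ↦ ‖f (primeNZ v ^ n)‖))
    (s : Finset (HeightOneSpectrum R)) :
    Summable (fun I : supp s ↦ ‖f I‖) ∧
      HasSum (fun I : supp s ↦ f I) (∏ v ∈ s, ∑' n : ℕ, f (primeNZ v ^ n)) := by
  classical
  induction s using Finset.induction with
  | empty =>
    rw [supp_empty]
    simp only [Finset.prod_empty]
    constructor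
    · exact (Set.finite_singleton (1 : (Ideal R)⁰)).summable (fun I => ‖f I‖)
    · have h := hasSum_singleton (1 : (Ideal R)⁰) (fun I => f I)
      rw [map_one] at h
      exact h
  | insert v s hv ih =>
    have e1 : ((fun I : supp (insert v s) ↦ ‖f I‖) ∘ (insEquiv hv)) =
        fun x : ℕ × supp s => ‖f (primeNZ v ^ x.1)‖ * ‖f x.2.1‖ := by
      funext x
      simp only [Function.comp_apply, insEquiv_apply, map_mul, norm_mul]
    have e2 : ((fun I : supp (insert v s) ↦ f I) ∘ (insEquiv hv)) =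
        fun x : ℕ × supp s => f (primeNZ v ^ x.1) * f x.2.1 := by
      funext x
      simp only [Function.comp_apply, insEquiv_apply, map_mul]
    constructor
    · rw [← (insEquiv hv).summable_iff, e1]
      exact Summable.mul_of_nonneg (hsum v) ih.1 (fun _ ↦ norm_nonneg _) (fun _ ↦ norm_nonneg _)
    · rw [Finset.prod_insert hv, ← (insEquiv hv).hasSum_iff, e2]
      have hs1 : HasSum (fun n : ℕ => f (primeNZ v ^ n)) (∑' n : ℕ, f (primeNZ v ^ n)) :=
        (hsum v).of_norm.hasSum
      have hs3 : Summable fun x : ℕ × supp s => f (primeNZ v ^ x.1) * f x.2.1 := by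
        apply summable_mul_of_summable_norm (hsum v) ih.1
      have : T3Space F := inferInstance
      exact HasSum.mul (f := fun n : ℕ => f (primeNZ v ^ n)) (g := fun I : supp s => f I.1) hs1 ih.2 hs3

lemma pow_primeNZ_injective (v : HeightOneSpectrum R) :
    Function.Injective (fun n : ℕ => primeNZ v ^ n) := by
  intro n m h
  have h' : v.asIdeal ^ n = v.asIdeal ^ m := by
    have := congrArg (fun x : (Ideal R)⁰ => (x : Ideal R)) h
    simpa using this
  exact pow_injective_of_not_isUnit v.prime.not_isUnit v.ne_bot h'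

lemma summable_pow (f : (Ideal R)⁰ →* F) (hsum : Summable (fun I : (Ideal R)⁰ ↦ ‖f I‖))
    (v : HeightOneSpectrum R) : Summable (fun n : ℕ ↦ ‖f (primeNZ v ^ n)‖) :=
  hsum.comp_injective (pow_primeNZ_injective v)

lemma norm_lt_one (f : (Ideal R)⁰ →* F) (hsum : Summable (fun I : (Ideal R)⁰ ↦ ‖f I‖))
    (v : HeightOneSpectrum R) : ‖f (primeNZ v)‖ < 1 := by
  refine summable_geometric_iff_norm_lt_one.mp ?_
  have := (summable_pow f hsum v).of_norm
  simpa [map_pow] using this

lemma tsum_pow_eq (f : (Ideal R)⁰ →* F) (hsum : Summable (fun I : (Ideal R)⁰ ↦ ‖f I‖))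
    (v : HeightOneSpectrum R) : ∑' n : ℕ, f (primeNZ v ^ n) = (1 - f (primeNZ v))⁻¹ := by
  simp only [map_pow]
  exact tsum_geometric_of_norm_lt_one (norm_lt_one f hsum v)

/-- the prime divisors of a finite set of nonzero ideals -/
lemma exists_finset_supp (T : Finset (Ideal R)⁰) :
    ∃ s₀ : Finset (HeightOneSpectrum R), ∀ I ∈ T, I ∈ supp s₀ := by
  classical
  have hfin : ∀ I : (Ideal R)⁰, {v : HeightOneSpectrum R | v.asIdeal ∣ (I : Ideal R)}.Finite :=
    fun I => Ideal.finite_factors (nz_ne_bot I)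
  refine ⟨T.biUnion fun I => (hfin I).toFinset, fun I hI v hv => ?_⟩
  rw [Finset.mem_biUnion]
  exact ⟨I, hI, by simpa using hv⟩

/-- **Euler product over the nonzero ideals of a Dedekind domain.** -/
theorem hasProd_ideal' (f : (Ideal R)⁰ →* F) (hsum : Summable (fun I : (Ideal R)⁰ ↦ ‖f I‖)) :
    HasProd (fun v : HeightOneSpectrum R ↦ ∑' n : ℕ, f (primeNZ v ^ n)) (∑' I : (Ideal R)⁰, f I) := by
  classical
  rw [HasProd]
  change Filter.Tendsto _ Filter.atTop _
  rw [Metric.tendsto_atTop]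
  intro ε hε
  obtain ⟨T, hT⟩ := hsum.of_norm.tsum_vanishing (Metric.ball_mem_nhds 0 hε)
  obtain ⟨s₀, hs₀⟩ := exists_finset_supp T
  refine ⟨s₀, fun s hs => ?_⟩
  have h1 := (summable_and_hasSum_supp f (summable_pow f hsum) s).2.tsum_eq
  have hdisj : Disjoint (supp s)ᶜ (T : Set (Ideal R)⁰) := by
    rw [Set.disjoint_left]
    intro I hI hIT
    exact hI (supp_mono hs (hs₀ I hIT))
  have h2 := hT _ hdisj
  rw [mem_ball_zero_iff] at h2
  rw [dist_eq_norm, ← h1, norm_sub_rev,
    ← hsum.of_norm.tsum_subtype_add_tsum_subtype_compl (supp s), add_sub_cancel_left]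
  exact h2

/-- **Euler product over the nonzero ideals of a Dedekind domain**, with the geometric series summed. -/
theorem hasProd_ideal (f : (Ideal R)⁰ →* F) (hsum : Summable (fun I : (Ideal R)⁰ ↦ ‖f I‖)) :
    HasProd (fun v : HeightOneSpectrum R ↦ (1 - f (primeNZ v))⁻¹) (∑' I : (Ideal R)⁰, f I) := by
  have := hasProd_ideal' f hsum
  simpa only [tsum_pow_eq f hsum] using this

end Fermat.Agent.S14.EP
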