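import Mathlib
import Fermat.Agent.S14.EulerIdeal

/-!
# S14 / P4b: the Dedekind zeta function as a sum over nonzero ideals (real variable)

* `EP.idealZeta F s = ∑' I : (Ideal (𝓞 F))⁰, N(I)^(-s)`;
* `EP.summable_idealTerm`: summability for `1 < s`;
* `EP.idealZeta_eq_dedekindZeta`: `(idealZeta F s : ℂ) = dedekindZeta F s`;
* `EP.exists_idealZeta_bounds`: `c0 / (s - 1) ≤ idealZeta F s ≤ C0 / (s - 1)` on `(1, 2]`.
-/

set_option autoImplicit false

open scoped nonZeroDivisors Topology NumberField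
open IsDedekindDomain Filter Asymptotics

namespace Fermat.Agent.S14.EP

variable (F : Type*) [Field F] [NumberField F]

/-- the term `N(I)^(-s)` -/
noncomputable def idealTerm (s : ℝ) (I : (Ideal (𝓞 F))⁰) : ℝ :=
  (Ideal.absNorm (I : Ideal (𝓞 F)) : ℝ) ^ (-s)

/-- zeta over the nonzero ideals (real variable) -/
noncomputable def idealZeta (s : ℝ) : ℝ := ∑' I : (Ideal (𝓞 F))⁰, idealTerm F s I

lemma idealTerm_nonneg (s : ℝ) (I : (Ideal (𝓞 F))⁰) : 0 ≤ idealTerm F s I :=
  Real.rpow_nonneg (Nat.cast_nonneg _) _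

lemma absNorm_pos (I : (Ideal (𝓞 F))⁰) : 0 < Ideal.absNorm (I : Ideal (𝓞 F)) :=
  Nat.pos_of_ne_zero (fun h => nz_ne_bot I (Ideal.absNorm_eq_zero_iff.mp h))

lemma idealTerm_pos (s : ℝ) (I : (Ideal (𝓞 F))⁰) : 0 < idealTerm F s I :=
  Real.rpow_pos_of_pos (Nat.cast_pos.mpr (absNorm_pos F I)) _

lemma idealTerm_one (s : ℝ) : idealTerm F s 1 = 1 := by
  simp [idealTerm]

lemma idealTerm_mul (s : ℝ) (I J : (Ideal (𝓞 F))⁰) :
    idealTerm F s (I * J) = idealTerm F s I * idealTerm F s J := by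
  simp only [idealTerm, Submonoid.coe_mul, map_mul, Nat.cast_mul]
  exact Real.mul_rpow (Nat.cast_nonneg _) (Nat.cast_nonneg _)

lemma idealTerm_le_one {s : ℝ} (hs : 0 ≤ s) (I : (Ideal (𝓞 F))⁰) : idealTerm F s I ≤ 1 := by
  have h1 : (1 : ℝ) ≤ (Ideal.absNorm (I : Ideal (𝓞 F)) : ℝ) := by
    exact_mod_cast absNorm_pos F I
  exact Real.rpow_le_one_of_one_le_of_nonpos h1 (by linarith)

lemma idealTerm_anti {s t : ℝ} (hst : s ≤ t) (I : (Ideal (𝓞 F))⁰) :
    idealTerm F t I ≤ idealTerm F s I := by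
  have h1 : (1 : ℝ) ≤ (Ideal.absNorm (I : Ideal (𝓞 F)) : ℝ) := by
    exact_mod_cast absNorm_pos F I
  exact Real.rpow_le_rpow_of_exponent_le h1 (by linarith)

/-- the number of ideals of norm `n` -/
noncomputable def cnt (n : ℕ) : ℝ := (Nat.card {I : Ideal (𝓞 F) // Ideal.absNorm I = n} : ℝ)

lemma tendsto_sum_cnt :
    Tendsto (fun n : ℕ ↦ (∑ k ∈ Finset.Icc 1 n, cnt F k) / (n : ℝ)) atTop
      (𝓝 (NumberField.dedekindZeta_residue F)) := by
  refine ((NumberField.Ideal.tendsto_norm_le_div_atTop₀ F).comp tendsto_natCast_atTop_atTop).congr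
    fun n ↦ ?_
  simp only [Function.comp_apply, Nat.cast_le, cnt, ← Nat.cast_sum]
  congr
  rw [← add_left_inj 1, ← Ideal.card_norm_le_eq_card_norm_le_add_one,
    show Finset.Icc 1 n = Finset.Ioc 0 n from Finset.Icc_succ_left_eq_Ioc _ _,
    show 1 = Nat.card {I : Ideal (𝓞 F) // Ideal.absNorm I = 0} by simp [Ideal.absNorm_eq_zero_iff],
    Finset.sum_Ioc_add_eq_sum_Icc (n.zero_le),
    ← Finset.card_preimage_eq_sum_card_image_eq (fun k _ ↦ Ideal.finite_setOfPred_absNorm_eq k)]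
  simp [Set.coe_eq_subtype]

lemma lseriesSummable_cnt {s : ℝ} (hs : 1 < s) :
    LSeriesSummable (fun n ↦ ((cnt F n : ℝ) : ℂ)) (s : ℂ) := by
  refine LSeriesSummable_of_sum_norm_bigO_and_nonneg ?_ (fun _ ↦ Nat.cast_nonneg _) zero_le_one
    (by simpa using hs)
  exact isBigO_atTop_natCast_rpow_of_tendsto_div_rpow (by simpa using tendsto_sum_cnt F)


/-- the real L-series term `cnt n * n^(-s)` -/
noncomputable def realTerm (s : ℝ) (n : ℕ) : ℝ := cnt F n * (n : ℝ) ^ (-s)

lemma term_eq_realTerm {s : ℝ} (hs : 1 < s) (n : ℕ) :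
    LSeries.term (fun n ↦ ((cnt F n : ℝ) : ℂ)) (s : ℂ) n = ((realTerm F s n : ℝ) : ℂ) := by
  rcases eq_or_ne n 0 with rfl | hn
  · have : (0 : ℝ) ^ (-s) = 0 := Real.zero_rpow (by linarith)
    simp [realTerm, this]
  · rw [LSeries.term_of_ne_zero hn, realTerm, Real.rpow_neg (Nat.cast_nonneg _), div_eq_mul_inv]
    push_cast
    rw [Complex.ofReal_cpow (Nat.cast_nonneg _)]
    simp

lemma summable_realTerm {s : ℝ} (hs : 1 < s) : Summable (realTerm F s) := by
  have h := lseriesSummable_cnt F hs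
  rw [LSeriesSummable] at h
  have h2 : Summable (fun n => ((realTerm F s n : ℝ) : ℂ)) :=
    h.congr (fun n => term_eq_realTerm F hs n)
  exact Complex.summable_ofReal.mp h2

lemma tsum_realTerm {s : ℝ} (hs : 1 < s) :
    ((∑' n, realTerm F s n : ℝ) : ℂ) = NumberField.dedekindZeta F (s : ℂ) := by
  rw [Complex.ofReal_tsum, NumberField.dedekindZeta, LSeries]
  refine tsum_congr fun n => ?_
  rw [← term_eq_realTerm F hs n]
  rfl

/-- the nonzero ideals of norm `n` -/
abbrev fib (n : ℕ) : Type _ := {I : (Ideal (𝓞 F))⁰ // Ideal.absNorm (I : Ideal (𝓞 F)) = n}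

instance finite_fib (n : ℕ) : Finite (fib F n) := by
  have h := Ideal.finite_setOfPred_absNorm_eq (S := 𝓞 F) n
  have : Finite {I : Ideal (𝓞 F) // Ideal.absNorm I = n} := h.to_subtype
  refine Finite.of_injective (β := {I : Ideal (𝓞 F) // Ideal.absNorm I = n})
    (fun I => ⟨I.1.1, I.2⟩) ?_
  intro I J h
  have h1 : (I.1 : Ideal (𝓞 F)) = J.1 := by simpa using congrArg Subtype.val h
  exact Subtype.ext (Subtype.ext h1)

lemma card_fib {n : ℕ} (hn : n ≠ 0) :
    (Nat.card (fib F n) : ℝ) = cnt F n := by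
  rw [cnt]
  congr 1
  refine Nat.card_congr ⟨fun I => ⟨I.1.1, I.2⟩, fun J => ⟨⟨J.1, ?_⟩, J.2⟩, ?_, ?_⟩
  · refine mem_nonZeroDivisors_iff_ne_zero.mpr ?_
    rintro h
    apply hn
    rw [← J.2, h]
    simp
  · intro I; rfl
  · intro J; rfl

lemma isEmpty_fib_zero : IsEmpty (fib F 0) :=
  ⟨fun I => (absNorm_pos F I.1).ne' I.2⟩

lemma tsum_fib (s : ℝ) (hs : 1 < s) (n : ℕ) :
    ∑' I : fib F n, idealTerm F s I.1 = realTerm F s n := by
  rcases eq_or_ne n 0 with rfl | hn
  · have := isEmpty_fib_zero F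
    have : (0 : ℝ) ^ (-s) = 0 := Real.zero_rpow (by linarith)
    simp [realTerm, this]
  · have h1 : ∀ I : fib F n, idealTerm F s I.1 = (n : ℝ) ^ (-s) := by
      intro I
      rw [idealTerm, I.2]
    simp only [h1]
    rw [tsum_const, nsmul_eq_mul, card_fib F hn, realTerm]

/-- regrouping the nonzero ideals by their norm -/
noncomputable def sigmaEquiv : (Σ n : ℕ, fib F n) ≃ (Ideal (𝓞 F))⁰ :=
  Equiv.sigmaFiberEquiv (fun I : (Ideal (𝓞 F))⁰ => Ideal.absNorm (I : Ideal (𝓞 F)))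

lemma summable_sigma {s : ℝ} (hs : 1 < s) :
    Summable (fun x : Σ n : ℕ, fib F n => idealTerm F s x.2.1) := by
  refine (summable_sigma_of_nonneg (f := fun x : Σ n : ℕ, fib F n => idealTerm F s x.2.1)
    (fun x => idealTerm_nonneg F s x.2.1)).mpr ⟨fun n => Summable.of_finite, ?_⟩
  have h : (fun n : ℕ => ∑' I : fib F n, idealTerm F s I.1) = realTerm F s := by
    funext n
    exact tsum_fib F s hs n
  exact h ▸ summable_realTerm F hs

/-- `∑ N(I)^(-s)` converges for `1 < s`. -/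
theorem summable_idealTerm {s : ℝ} (hs : 1 < s) : Summable (idealTerm F s) := by
  have h := summable_sigma F hs
  have h2 : (fun x : Σ n : ℕ, fib F n => idealTerm F s x.2.1) = idealTerm F s ∘ (sigmaEquiv F) := by
    funext x
    rfl
  rw [h2, (sigmaEquiv F).summable_iff] at h
  exact h

lemma idealZeta_eq_tsum_realTerm {s : ℝ} (hs : 1 < s) :
    idealZeta F s = ∑' n, realTerm F s n := by
  rw [idealZeta, ← (sigmaEquiv F).tsum_eq (idealTerm F s)]
  have h := (summable_sigma F hs).tsum_sigma' (fun n => Summable.of_finite)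
  have h2 : (fun x : Σ n : ℕ, fib F n => idealTerm F s (sigmaEquiv F x)) =
      fun x : Σ n : ℕ, fib F n => idealTerm F s x.2.1 := by
    funext x
    rfl
  rw [h2, h]
  exact tsum_congr (fun n => tsum_fib F s hs n)

/-- the sum over ideals is the Dedekind zeta function. -/
theorem idealZeta_eq_dedekindZeta {s : ℝ} (hs : 1 < s) :
    ((idealZeta F s : ℝ) : ℂ) = NumberField.dedekindZeta F (s : ℂ) := by
  rw [idealZeta_eq_tsum_realTerm F hs, tsum_realTerm F hs]


/-- `(s - 1) ζ_F(s) → κ` for the sum over ideals. -/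
theorem tendsto_sub_one_mul_idealZeta :
    Tendsto (fun s : ℝ ↦ (s - 1) * idealZeta F s) (𝓝[>] 1)
      (𝓝 (NumberField.dedekindZeta_residue F)) := by
  have h := NumberField.tendsto_sub_one_mul_dedekindZeta_nhdsGT F
  have h2 := (Complex.continuous_re.tendsto _).comp h
  rw [Complex.ofReal_re] at h2
  refine h2.congr' ?_
  filter_upwards [self_mem_nhdsWithin] with s hs
  have hs1 : 1 < s := hs
  simp only [Function.comp_apply]
  rw [← idealZeta_eq_dedekindZeta F hs1]
  have : ((s : ℂ) - 1) * ((idealZeta F s : ℝ) : ℂ) = (((s - 1) * idealZeta F s : ℝ) : ℂ) := by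
    push_cast; ring
  rw [this, Complex.ofReal_re]

lemma one_le_idealZeta {s : ℝ} (hs : 1 < s) : 1 ≤ idealZeta F s := by
  have h := (summable_idealTerm F hs).le_tsum (1 : (Ideal (𝓞 F))⁰)
    (fun j _ => idealTerm_nonneg F s j)
  rwa [idealTerm_one] at h

lemma idealZeta_anti {s t : ℝ} (ht : 1 < t) (hst : t ≤ s) : idealZeta F s ≤ idealZeta F t :=
  (summable_idealTerm F (lt_of_lt_of_le ht hst)).tsum_le_tsum (fun I => idealTerm_anti F hst I)
    (summable_idealTerm F ht)

/-- two-sided bounds for `ζ_F` on `(1, 2]`. -/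
theorem exists_idealZeta_bounds :
    ∃ c0 C0 : ℝ, 0 < c0 ∧ 0 < C0 ∧ ∀ s : ℝ, 1 < s → s ≤ 2 →
      c0 / (s - 1) ≤ idealZeta F s ∧ idealZeta F s ≤ C0 / (s - 1) := by
  set κ := NumberField.dedekindZeta_residue F with hκ
  have hκpos : 0 < κ := NumberField.dedekindZeta_residue_pos F
  have hev : ∀ᶠ s in 𝓝[>] (1 : ℝ), (s - 1) * idealZeta F s ∈ Set.Ioo (κ / 2) (κ + 1) :=
    (tendsto_sub_one_mul_idealZeta F).eventually (Ioo_mem_nhds (by linarith) (by linarith))
  obtain ⟨u, hu1, hu⟩ := mem_nhdsGT_iff_exists_Ioo_subset.mp hev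
  have hu1' : (1 : ℝ) < u := hu1
  set t : ℝ := (1 + u) / 2 with ht
  have ht1 : 1 < t := by rw [ht]; linarith
  have htu : t < u := by rw [ht]; linarith
  have hζt : 1 ≤ idealZeta F t := one_le_idealZeta F ht1
  refine ⟨min (κ / 2) (u - 1), max (κ + 1) (idealZeta F t), ?_, ?_, ?_⟩
  · exact lt_min (by linarith) (by linarith)
  · exact lt_max_of_lt_left (by linarith)
  · intro s hs1 hs2
    have hs0 : 0 < s - 1 := by linarith
    rw [div_le_iff₀ hs0, le_div_iff₀ hs0, mul_comm (idealZeta F s) (s - 1)]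
    by_cases hsu : s < u
    · have := hu (show s ∈ Set.Ioo 1 u from ⟨hs1, hsu⟩)
      simp only [Set.mem_ofPred_eq, Set.mem_Ioo] at this
      exact ⟨(min_le_left _ _).trans this.1.le, this.2.le.trans (le_max_left _ _)⟩
    · push Not at hsu
      have h1 : 1 ≤ idealZeta F s := one_le_idealZeta F hs1
      have h2 : idealZeta F s ≤ idealZeta F t := idealZeta_anti F ht1 (by linarith)
      constructor
      · calc min (κ / 2) (u - 1) ≤ u - 1 := min_le_right _ _
          _ ≤ (s - 1) * 1 := by linarith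
          _ ≤ (s - 1) * idealZeta F s := by gcongr
      · calc (s - 1) * idealZeta F s ≤ 1 * idealZeta F t := by
              apply mul_le_mul (by linarith) h2 (by linarith) (by linarith)
          _ = idealZeta F t := one_mul _
          _ ≤ max (κ + 1) (idealZeta F t) := le_max_right _ _

end Fermat.Agent.S14.EP
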