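import Mathlib
import Fermat.Agent.S14.ZetaIdeal
import Fermat.Agent.S14.DensityDefs

/-!
# S14 / P4b: the log inequalities from the Euler product of `ζ_F`

* `EP.lowerAll F : Dens.LowerAll F`   (`log (1/(s-1)) - C ≤ ∑_P N(P)^(-s)`)
* `EP.upperAll F : Dens.UpperFrac F Set.univ 1`   (`∑_P N(P)^(-s) ≤ log (1/(s-1)) + C`)
* `EP.pz_le_of_finset`: an `ℝ≥0∞` prime sum is bounded as soon as all its finite partial sums are.
-/

set_option autoImplicit false

open scoped nonZeroDivisors Topology NumberField ENNReal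
open IsDedekindDomain Filter

namespace Fermat.Agent.S14.EP

open Fermat.Agent.S14.Dens

variable (F : Type*) [Field F] [NumberField F]

/-- `N(I)^(-s)` as a monoid homomorphism -/
noncomputable def termHom (s : ℝ) : (Ideal (𝓞 F))⁰ →* ℝ where
  toFun := idealTerm F s
  map_one' := idealTerm_one F s
  map_mul' := idealTerm_mul F s

/-- `t_v = N(v)^(-s)` -/
noncomputable def pt (s : ℝ) (v : HeightOneSpectrum (𝓞 F)) : ℝ :=
  idealTerm F s (primeNZ v)

lemma pt_def (s : ℝ) (v : HeightOneSpectrum (𝓞 F)) :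
    pt F s v = (Ideal.absNorm v.asIdeal : ℝ) ^ (-s) := rfl

lemma pt_eq (s : ℝ) (v : HeightOneSpectrum (𝓞 F)) : pt F s v = termHom F s (primeNZ v) := rfl

lemma pt_nonneg (s : ℝ) (v : HeightOneSpectrum (𝓞 F)) : 0 ≤ pt F s v :=
  idealTerm_nonneg F s (primeNZ v)

lemma two_le_absNorm (v : HeightOneSpectrum (𝓞 F)) : 2 ≤ Ideal.absNorm v.asIdeal := by
  have h0 : Ideal.absNorm v.asIdeal ≠ 0 := fun h => v.ne_bot (Ideal.absNorm_eq_zero_iff.mp h)
  have h1 : Ideal.absNorm v.asIdeal ≠ 1 := fun h => v.isPrime.ne_top (Ideal.absNorm_eq_one_iff.mp h)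
  omega

lemma pt_le_half {s : ℝ} (hs : 1 ≤ s) (v : HeightOneSpectrum (𝓞 F)) : pt F s v ≤ 1 / 2 := by
  have h2 : (2 : ℝ) ≤ (Ideal.absNorm v.asIdeal : ℝ) := by exact_mod_cast two_le_absNorm F v
  rw [pt_def]
  calc (Ideal.absNorm v.asIdeal : ℝ) ^ (-s) ≤ (2 : ℝ) ^ (-s) :=
        Real.rpow_le_rpow_of_nonpos (by norm_num) h2 (by linarith)
    _ ≤ (2 : ℝ) ^ (-1 : ℝ) := Real.rpow_le_rpow_of_exponent_le (by norm_num) (by linarith)
    _ = 1 / 2 := by rw [Real.rpow_neg_one]; norm_num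

lemma primeNZ_injective : Function.Injective (primeNZ : HeightOneSpectrum (𝓞 F) → (Ideal (𝓞 F))⁰) := by
  intro v w h
  have : v.asIdeal = w.asIdeal := congrArg (fun x : (Ideal (𝓞 F))⁰ => (x : Ideal (𝓞 F))) h
  exact HeightOneSpectrum.ext this

lemma summable_norm_termHom {s : ℝ} (hs : 1 < s) :
    Summable (fun I : (Ideal (𝓞 F))⁰ ↦ ‖termHom F s I‖) := by
  have h := summable_idealTerm F hs
  refine h.congr (fun I => ?_)
  show idealTerm F s I = ‖idealTerm F s I‖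
  rw [Real.norm_of_nonneg (idealTerm_nonneg F s I)]

lemma pt_eq_comp (s : ℝ) :
    pt F s = idealTerm F s ∘ (primeNZ : HeightOneSpectrum (𝓞 F) → (Ideal (𝓞 F))⁰) := rfl

lemma summable_pt {s : ℝ} (hs : 1 < s) : Summable (pt F s) := by
  rw [pt_eq_comp]
  exact (summable_idealTerm F hs).comp_injective (primeNZ_injective F)

lemma tsum_pt_le {s : ℝ} (hs : 1 < s) : ∑' v, pt F s v ≤ idealZeta F s := by
  rw [pt_eq_comp]
  exact tsum_comp_le_tsum_of_inj (summable_idealTerm F hs) (idealTerm_nonneg F s)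
    (primeNZ_injective F)

/-- the finite Euler product is at most `ζ_F(s)`. -/
lemma prod_le_idealZeta {s : ℝ} (hs : 1 < s) (S : Finset (HeightOneSpectrum (𝓞 F))) :
    ∏ v ∈ S, (1 - pt F s v)⁻¹ ≤ idealZeta F s := by
  have hsum := summable_norm_termHom F hs
  have h := (summable_and_hasSum_supp (termHom F s) (summable_pow (termHom F s) hsum) S).2.tsum_eq
  simp only [tsum_pow_eq (termHom F s) hsum] at h
  have h2 : ∏ v ∈ S, (1 - pt F s v)⁻¹ = ∑' I : supp S, termHom F s I := by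
    rw [h]
    rfl
  rw [h2]
  exact (summable_idealTerm F hs).tsum_subtype_le _ (supp S) (idealTerm_nonneg F s)

lemma exp_le_inv {t : ℝ} (ht1 : t < 1) : Real.exp t ≤ (1 - t)⁻¹ := by
  have h1 : 0 < 1 - t := by linarith
  have h2 : 1 - t ≤ Real.exp (-t) := by
    have := Real.add_one_le_exp (-t)
    linarith
  rw [Real.exp_neg] at h2
  have h3 : 0 < Real.exp t := Real.exp_pos t
  rw [le_inv_comm₀ h3 h1]
  exact h2

lemma inv_le_exp {t : ℝ} (ht0 : 0 ≤ t) (ht : t ≤ 1 / 2) : (1 - t)⁻¹ ≤ Real.exp (t + 2 * t ^ 2) := by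
  have h1 : 0 < 1 - t := by linarith
  have h2 : (1 - t)⁻¹ = 1 + t / (1 - t) := by field_simp; ring
  have h3 : t / (1 - t) ≤ t + 2 * t ^ 2 := by
    rw [div_le_iff₀ h1]
    nlinarith [mul_nonneg ht0 ht0, mul_nonneg (mul_nonneg ht0 ht0) (by linarith : 0 ≤ 1 / 2 - t)]
  calc (1 - t)⁻¹ = t / (1 - t) + 1 := by rw [h2]; ring
    _ ≤ Real.exp (t / (1 - t)) := Real.add_one_le_exp _
    _ ≤ Real.exp (t + 2 * t ^ 2) := Real.exp_le_exp.mpr h3

/-- finite prime sums are at most `log ζ_F(s)`. -/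
lemma sum_pt_le_log {s : ℝ} (hs : 1 < s) (S : Finset (HeightOneSpectrum (𝓞 F))) :
    ∑ v ∈ S, pt F s v ≤ Real.log (idealZeta F s) := by
  have h1 : Real.exp (∑ v ∈ S, pt F s v) ≤ idealZeta F s := by
    rw [Real.exp_sum]
    refine le_trans (Finset.prod_le_prod (fun v _ => (Real.exp_pos _).le) (fun v _ => ?_))
      (prod_le_idealZeta F hs S)
    exact exp_le_inv (lt_of_le_of_lt (pt_le_half F hs.le v) (by norm_num))
  calc ∑ v ∈ S, pt F s v = Real.log (Real.exp (∑ v ∈ S, pt F s v)) := (Real.log_exp _).symm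
    _ ≤ Real.log (idealZeta F s) := Real.log_le_log (Real.exp_pos _) h1

/-- an `ℝ≥0∞` prime sum is bounded as soon as all its finite partial sums are. -/
theorem pz_le_of_finset (S : Set (HeightOneSpectrum (𝓞 F))) (s b : ℝ)
    (h : ∀ T : Finset (HeightOneSpectrum (𝓞 F)), (∀ v ∈ T, v ∈ S) →
      ∑ v ∈ T, (Ideal.absNorm v.asIdeal : ℝ) ^ (-s) ≤ b) :
    pz F S s ≤ ENNReal.ofReal b := by
  classical
  unfold pz
  rw [ENNReal.tsum_eq_iSup_sum]
  refine iSup_le fun T => ?_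
  have h1 : ∑ P ∈ T, ENNReal.ofReal ((Ideal.absNorm P.1.asIdeal : ℝ) ^ (-s)) =
      ∑ v ∈ T.map ⟨Subtype.val, Subtype.val_injective⟩,
        ENNReal.ofReal ((Ideal.absNorm v.asIdeal : ℝ) ^ (-s)) := by
    rw [Finset.sum_map]
    rfl
  rw [h1, ← ENNReal.ofReal_sum_of_nonneg (fun v _ => Real.rpow_nonneg (Nat.cast_nonneg _) _)]
  refine ENNReal.ofReal_le_ofReal (h _ ?_)
  intro v hv
  rw [Finset.mem_map] at hv
  obtain ⟨P, _, rfl⟩ := hv
  exact P.2

lemma lg_eq {s : ℝ} (hs : 1 < s) (c : ℝ) (hc : 0 < c) :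
    Real.log (c / (s - 1)) = lg s + Real.log c := by
  have hs0 : 0 < s - 1 := by linarith
  rw [lg, Real.log_div hc.ne' hs0.ne', Real.log_div one_ne_zero hs0.ne', Real.log_one]
  ring

/-- **upper bound** for the sum over all primes. -/
theorem upperAll : UpperFrac F Set.univ 1 := by
  obtain ⟨c0, C0, hc0, hC0, hb⟩ := exists_idealZeta_bounds F
  refine ⟨max (Real.log C0) 0, le_max_right _ _, fun s hs1 hs2 => ?_⟩
  refine pz_le_of_finset F _ s _ (fun T _ => ?_)
  have hs0 : 0 < s - 1 := by linarith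
  have hζ : 0 < idealZeta F s := lt_of_lt_of_le one_pos (one_le_idealZeta F hs1)
  calc ∑ v ∈ T, (Ideal.absNorm v.asIdeal : ℝ) ^ (-s) = ∑ v ∈ T, pt F s v := rfl
    _ ≤ Real.log (idealZeta F s) := sum_pt_le_log F hs1 T
    _ ≤ Real.log (C0 / (s - 1)) := Real.log_le_log hζ (hb s hs1 hs2).2
    _ = lg s + Real.log C0 := lg_eq hs1 C0 hC0
    _ ≤ 1 * lg s + max (Real.log C0) 0 := by
        rw [one_mul]
        exact add_le_add_right (le_max_left _ _) _


/-- `ζ_F(s) ≤ exp (∑_v t_v + 2 ζ_F(2))`. -/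
lemma idealZeta_le_exp {s : ℝ} (hs : 1 < s) :
    idealZeta F s ≤ Real.exp (∑' v, pt F s v + 2 * idealZeta F 2) := by
  have hsum := summable_norm_termHom F hs
  have hprod := hasProd_ideal (termHom F s) hsum
  rw [HasProd] at hprod
  change Tendsto _ atTop _ at hprod
  refine le_of_tendsto' hprod (fun S => ?_)
  have h2 : (1 : ℝ) < 2 := by norm_num
  have hA : ∑ v ∈ S, pt F s v ≤ ∑' v, pt F s v :=
    (summable_pt F hs).sum_le_tsum S (fun v _ => pt_nonneg F s v)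
  have hB : ∑ v ∈ S, (pt F s v) ^ 2 ≤ idealZeta F 2 := by
    have h3 : ∀ v ∈ S, (pt F s v) ^ 2 ≤ pt F 2 v := by
      intro v _
      have h1 : (1 : ℝ) ≤ (Ideal.absNorm v.asIdeal : ℝ) := by
        have := two_le_absNorm F v
        exact_mod_cast (by omega : 1 ≤ Ideal.absNorm v.asIdeal)
      rw [pt_def, pt_def, ← Real.rpow_natCast, ← Real.rpow_mul (Nat.cast_nonneg _)]
      exact Real.rpow_le_rpow_of_exponent_le h1 (by push_cast; linarith)
    calc ∑ v ∈ S, (pt F s v) ^ 2 ≤ ∑ v ∈ S, pt F 2 v := Finset.sum_le_sum h3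
      _ ≤ ∑' v, pt F 2 v := (summable_pt F h2).sum_le_tsum S (fun v _ => pt_nonneg F 2 v)
      _ ≤ idealZeta F 2 := tsum_pt_le F h2
  calc ∏ v ∈ S, (1 - termHom F s (primeNZ v))⁻¹
      = ∏ v ∈ S, (1 - pt F s v)⁻¹ := rfl
    _ ≤ ∏ v ∈ S, Real.exp (pt F s v + 2 * (pt F s v) ^ 2) := by
        refine Finset.prod_le_prod (fun v _ => ?_) (fun v _ => ?_)
        · have := pt_le_half F hs.le v
          exact inv_nonneg.mpr (by linarith)
        · exact inv_le_exp (pt_nonneg F s v) (pt_le_half F hs.le v)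
    _ = Real.exp (∑ v ∈ S, pt F s v + 2 * ∑ v ∈ S, (pt F s v) ^ 2) := by
        rw [← Real.exp_sum, Finset.sum_add_distrib, Finset.mul_sum]
    _ ≤ Real.exp (∑' v, pt F s v + 2 * idealZeta F 2) := by
        apply Real.exp_le_exp.mpr
        linarith

lemma pz_univ_eq {s : ℝ} (hs : 1 < s) :
    pz F Set.univ s = ENNReal.ofReal (∑' v, pt F s v) := by
  unfold pz
  rw [ENNReal.ofReal_tsum_of_nonneg (fun v => pt_nonneg F s v) (summable_pt F hs)]
  exact tsum_univ (fun v : HeightOneSpectrum (𝓞 F) =>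
    ENNReal.ofReal ((Ideal.absNorm v.asIdeal : ℝ) ^ (-s)))

/-- **lower bound** for the sum over all primes. -/
theorem lowerAll : LowerAll F := by
  obtain ⟨c0, C0, hc0, hC0, hb⟩ := exists_idealZeta_bounds F
  refine ⟨max (2 * idealZeta F 2 - Real.log c0) 0, le_max_right _ _, fun s hs1 hs2 => ?_⟩
  rw [pz_univ_eq F hs1]
  refine ENNReal.ofReal_le_ofReal ?_
  have hs0 : 0 < s - 1 := by linarith
  have hζ : 0 < idealZeta F s := lt_of_lt_of_le one_pos (one_le_idealZeta F hs1)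
  have h1 : Real.log (c0 / (s - 1)) ≤ Real.log (idealZeta F s) :=
    Real.log_le_log (div_pos hc0 hs0) (hb s hs1 hs2).1
  have h2 : Real.log (idealZeta F s) ≤ ∑' v, pt F s v + 2 * idealZeta F 2 := by
    have := Real.log_le_log hζ (idealZeta_le_exp F hs1)
    rwa [Real.log_exp] at this
  rw [lg_eq hs1 c0 hc0] at h1
  have h3 := le_max_left (2 * idealZeta F 2 - Real.log c0) 0
  linarith

end Fermat.Agent.S14.EP
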