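import Mathlib
import Fermat.Agent.S14.EulerLog
import Fermat.Agent.S14.ClassChar

/-!
# S14 / P4g: primes in the kernel of a class group character of order `p` have upper density `≤ 1/p`

`CU.upperFrac_ker`: for `c : ClassGroup (𝓞 F) →* Multiplicative (ZMod p)` nontrivial and
`Dens.ClassZetaBounded F`:  `UpperFrac F {P | c (mk0 P) = 1} (1/p)`.
`classUpper`: `Dens.ClassZetaBounded F → ClassUpper p F`.
-/

set_option autoImplicit false

open scoped nonZeroDivisors Topology NumberField ENNReal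
open IsDedekindDomain Filter

namespace Fermat.Agent.S14.CU

open Fermat.Agent.S14.EP Fermat.Agent.S14.Dens

variable (p : ℕ) [hp : Fact p.Prime] (F : Type*) [Field F] [NumberField F]
variable (c : ClassGroup (𝓞 F) →* Multiplicative (ZMod p))

/-- the value of the class character on an ideal, in `ZMod p` -/
noncomputable def cI (I : (Ideal (𝓞 F))⁰) : ZMod p := Multiplicative.toAdd (c (ClassGroup.mk0 I))

lemma cI_mul (I J : (Ideal (𝓞 F))⁰) : cI p F c (I * J) = cI p F c I + cI p F c J := by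
  simp [cI, map_mul]

lemma cI_one : cI p F c 1 = 0 := by
  simp [cI]

/-- the twisted term `χ_j(c(I)) N(I)^(-s)` as a monoid homomorphism -/
noncomputable def twist (j : ZMod p) (s : ℝ) : (Ideal (𝓞 F))⁰ →* ℂ where
  toFun I := chi p j (cI p F c I) * ((idealTerm F s I : ℝ) : ℂ)
  map_one' := by
    rw [cI_one, chi_zero_right, idealTerm_one]
    simp
  map_mul' I J := by
    rw [cI_mul, chi_add, idealTerm_mul]
    push_cast
    ring

lemma twist_apply (j : ZMod p) (s : ℝ) (I : (Ideal (𝓞 F))⁰) :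
    twist p F c j s I = chi p j (cI p F c I) * ((idealTerm F s I : ℝ) : ℂ) := rfl

lemma norm_twist (j : ZMod p) (s : ℝ) (I : (Ideal (𝓞 F))⁰) :
    ‖twist p F c j s I‖ = idealTerm F s I := by
  rw [twist_apply, norm_mul, norm_chi, one_mul, Complex.norm_real,
    Real.norm_of_nonneg (idealTerm_nonneg F s I)]

lemma summable_norm_twist (j : ZMod p) {s : ℝ} (hs : 1 < s) :
    Summable (fun I : (Ideal (𝓞 F))⁰ ↦ ‖twist p F c j s I‖) := by
  simp only [norm_twist]
  exact summable_idealTerm F hs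

lemma summable_twist (j : ZMod p) {s : ℝ} (hs : 1 < s) :
    Summable (fun I : (Ideal (𝓞 F))⁰ ↦ twist p F c j s I) :=
  (summable_norm_twist p F c j hs).of_norm

/-- `L(s, χ_j)` -/
noncomputable def Ls (j : ZMod p) (s : ℝ) : ℂ := ∑' I : (Ideal (𝓞 F))⁰, twist p F c j s I

lemma Ls_zero (s : ℝ) : Ls p F c 0 s = ((idealZeta F s : ℝ) : ℂ) := by
  rw [Ls, idealZeta, Complex.ofReal_tsum]
  refine tsum_congr fun I => ?_
  rw [twist_apply, chi_zero_left, one_mul]

/-- the ideals of a class -/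
abbrev cfib (C : ClassGroup (𝓞 F)) : Type _ := {I : (Ideal (𝓞 F))⁰ // ClassGroup.mk0 I = C}

/-- regrouping the nonzero ideals by their class -/
noncomputable def classEquiv : (Σ C : ClassGroup (𝓞 F), cfib F C) ≃ (Ideal (𝓞 F))⁰ :=
  Equiv.sigmaFiberEquiv (fun I : (Ideal (𝓞 F))⁰ => ClassGroup.mk0 I)

lemma summable_cfib {s : ℝ} (hs : 1 < s) (C : ClassGroup (𝓞 F)) :
    Summable (fun I : cfib F C => idealTerm F s I.1) :=
  (summable_idealTerm F hs).subtype _

lemma classZeta_eq (s : ℝ) (C : ClassGroup (𝓞 F)) :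
    classZeta F C s = ∑' I : cfib F C, idealTerm F s I.1 := rfl

lemma tsum_cfib_twist (j : ZMod p) {s : ℝ} (_hs : 1 < s) (C : ClassGroup (𝓞 F)) :
    ∑' I : cfib F C, twist p F c j s I.1 =
      chi p j (Multiplicative.toAdd (c C)) * ((classZeta F C s : ℝ) : ℂ) := by
  rw [classZeta_eq, Complex.ofReal_tsum, ← tsum_mul_left]
  refine tsum_congr fun I => ?_
  rw [twist_apply, cI, I.2]

lemma classEquiv_apply (x : Σ C : ClassGroup (𝓞 F), cfib F C) : classEquiv F x = x.2.1 := rfl

/-- the decomposition of `L(s, χ_j)` into partial zeta functions -/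
lemma Ls_eq_sum (j : ZMod p) {s : ℝ} (hs : 1 < s) :
    Ls p F c j s =
      ∑ C : ClassGroup (𝓞 F), chi p j (Multiplicative.toAdd (c C)) * ((classZeta F C s : ℝ) : ℂ) := by
  set g : (Ideal (𝓞 F))⁰ → ℂ := fun I => twist p F c j s I with hg
  have hgs : Summable g := summable_twist p F c j hs
  have hcomp : (fun x : Σ C : ClassGroup (𝓞 F), cfib F C => g x.2.1) = g ∘ (classEquiv F) := by
    funext x
    simp only [Function.comp_apply, classEquiv_apply]
  have hsumm : Summable (fun x : Σ C : ClassGroup (𝓞 F), cfib F C => g x.2.1) := by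
    rw [hcomp]
    exact (classEquiv F).summable_iff.mpr hgs
  have h1 : Ls p F c j s = ∑' x : Σ C : ClassGroup (𝓞 F), cfib F C, g x.2.1 := by
    have h := (classEquiv F).tsum_eq g
    rw [Ls, ← h]
    exact tsum_congr (fun x => by rw [classEquiv_apply])
  have h2 := Summable.tsum_sigma' (f := fun x : Σ C : ClassGroup (𝓞 F), cfib F C => g x.2.1)
    (fun C => hgs.subtype _) hsumm
  rw [h1, h2, tsum_fintype]
  exact Finset.sum_congr rfl (fun C _ => tsum_cfib_twist p F c j hs C)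

/-- the character sum over the class group vanishes -/
lemma sum_chi_class (hc : ∃ C, c C ≠ 1) {j : ZMod p} (hj : j ≠ 0) :
    ∑ C : ClassGroup (𝓞 F), chi p j (Multiplicative.toAdd (c C)) = 0 := by
  obtain ⟨C₀, hC₀⟩ := hc
  set S := ∑ C : ClassGroup (𝓞 F), chi p j (Multiplicative.toAdd (c C)) with hS
  have hx₀ : Multiplicative.toAdd (c C₀) ≠ 0 := fun h => hC₀ (by
    have := congrArg Multiplicative.ofAdd h
    simpa using this)
  have hne : chi p j (Multiplicative.toAdd (c C₀)) ≠ 1 := by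
    intro h
    have h2 : ZMod.stdAddChar (N := p) (j * Multiplicative.toAdd (c C₀)) =
        ZMod.stdAddChar (N := p) 0 := by
      rw [AddChar.map_zero_eq_one]
      exact h
    have h3 := ZMod.injective_stdAddChar h2
    rcases mul_eq_zero.mp h3 with h4 | h4
    · exact hj h4
    · exact hx₀ h4
  have h1 : S = chi p j (Multiplicative.toAdd (c C₀)) * S := by
    rw [hS, Finset.mul_sum]
    rw [← Equiv.sum_comp (Equiv.mulLeft C₀)]
    refine Finset.sum_congr rfl (fun C _ => ?_)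
    rw [Equiv.coe_mulLeft, map_mul, toAdd_mul, chi_add]
  have h2 : (1 - chi p j (Multiplicative.toAdd (c C₀))) * S = 0 := by
    rw [sub_mul, one_mul, ← h1, sub_self]
  rcases mul_eq_zero.mp h2 with h3 | h3
  · exact absurd (sub_eq_zero.mp h3).symm hne
  · exact h3

/-- `L(s, χ_j)` is bounded for `j ≠ 0`. -/
lemma norm_Ls_le (hc : ∃ C, c C ≠ 1) {j : ZMod p} (hj : j ≠ 0) {B : ℝ} {s : ℝ} (hs : 1 < s)
    (hB : ∀ C C' : ClassGroup (𝓞 F), |classZeta F C s - classZeta F C' s| ≤ B) :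
    ‖Ls p F c j s‖ ≤ (Fintype.card (ClassGroup (𝓞 F)) : ℝ) * B := by
  have h1 : Ls p F c j s = ∑ C : ClassGroup (𝓞 F), chi p j (Multiplicative.toAdd (c C)) *
      (((classZeta F C s - classZeta F 1 s : ℝ)) : ℂ) := by
    rw [Ls_eq_sum p F c j hs]
    have h0 := sum_chi_class p F c hc hj
    have : ∑ C : ClassGroup (𝓞 F), chi p j (Multiplicative.toAdd (c C)) *
        (((classZeta F C s - classZeta F 1 s : ℝ)) : ℂ) =
        ∑ C : ClassGroup (𝓞 F), chi p j (Multiplicative.toAdd (c C)) * ((classZeta F C s : ℝ) : ℂ)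
          - (∑ C : ClassGroup (𝓞 F), chi p j (Multiplicative.toAdd (c C))) *
            ((classZeta F 1 s : ℝ) : ℂ) := by
      rw [Finset.sum_mul, ← Finset.sum_sub_distrib]
      refine Finset.sum_congr rfl (fun C _ => ?_)
      push_cast
      ring
    rw [this, h0, zero_mul, sub_zero]
  rw [h1]
  calc ‖∑ C : ClassGroup (𝓞 F), chi p j (Multiplicative.toAdd (c C)) *
        (((classZeta F C s - classZeta F 1 s : ℝ)) : ℂ)‖
      ≤ ∑ C : ClassGroup (𝓞 F), ‖chi p j (Multiplicative.toAdd (c C)) *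
        (((classZeta F C s - classZeta F 1 s : ℝ)) : ℂ)‖ := norm_sum_le _ _
    _ ≤ ∑ _C : ClassGroup (𝓞 F), B := by
        refine Finset.sum_le_sum (fun C _ => ?_)
        rw [norm_mul, norm_chi, one_mul, Complex.norm_real, Real.norm_eq_abs]
        exact hB C 1
    _ = (Fintype.card (ClassGroup (𝓞 F)) : ℝ) * B := by
        rw [Finset.sum_const, Finset.card_univ, nsmul_eq_mul]


/-! ### the Euler product of `∏_j L(s, χ_j)` -/

/-- the local factor of `∏_j |L(s, χ_j)|` at `v` -/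
noncomputable def G (s : ℝ) (v : HeightOneSpectrum (𝓞 F)) : ℝ :=
  ∏ j : ZMod p, ‖(1 - twist p F c j s (primeNZ v))⁻¹‖

lemma twist_primeNZ (j : ZMod p) (s : ℝ) (v : HeightOneSpectrum (𝓞 F)) :
    twist p F c j s (primeNZ v) = chi p j (cI p F c (primeNZ v)) * ((pt F s v : ℝ) : ℂ) := rfl

lemma norm_one_sub_pos (j : ZMod p) {s : ℝ} (hs : 1 ≤ s) (v : HeightOneSpectrum (𝓞 F)) :
    0 < ‖1 - twist p F c j s (primeNZ v)‖ := by
  rw [norm_pos_iff]
  intro h
  have h1 : twist p F c j s (primeNZ v) = 1 := (sub_eq_zero.mp h).symm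
  have h2 := norm_twist p F c j s (primeNZ v)
  rw [h1, norm_one] at h2
  have h3 : idealTerm F s (primeNZ v) ≤ 1 / 2 := pt_le_half F hs v
  linarith

lemma G_eq (s : ℝ) (v : HeightOneSpectrum (𝓞 F)) :
    G p F c s v = (∏ j : ZMod p, ‖1 - chi p j (cI p F c (primeNZ v)) * ((pt F s v : ℝ) : ℂ)‖)⁻¹ := by
  rw [G, ← Finset.prod_inv_distrib]
  refine Finset.prod_congr rfl (fun j _ => ?_)
  rw [norm_inv, twist_primeNZ]

lemma prod_pos (s : ℝ) (hs : 1 ≤ s) (v : HeightOneSpectrum (𝓞 F)) :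
    0 < ∏ j : ZMod p, ‖1 - chi p j (cI p F c (primeNZ v)) * ((pt F s v : ℝ) : ℂ)‖ :=
  Finset.prod_pos (fun j _ => by
    have := norm_one_sub_pos p F c j hs v
    rwa [twist_primeNZ] at this)

lemma one_le_G {s : ℝ} (hs : 1 ≤ s) (v : HeightOneSpectrum (𝓞 F)) : 1 ≤ G p F c s v := by
  rw [G_eq]
  have h1 := prod_norm_one_sub_chi_le p (cI p F c (primeNZ v)) (pt_nonneg F s v)
    (le_trans (pt_le_half F hs v) (by norm_num))
  exact (one_le_inv₀ (prod_pos p F c s hs v)).mpr h1

lemma exp_le_G {s : ℝ} (hs : 1 ≤ s) (v : HeightOneSpectrum (𝓞 F))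
    (hv : cI p F c (primeNZ v) = 0) : Real.exp ((p : ℝ) * pt F s v) ≤ G p F c s v := by
  have ht : pt F s v ≤ 1 / 2 := pt_le_half F hs v
  have ht1 : pt F s v < 1 := lt_of_le_of_lt ht (by norm_num)
  rw [G_eq, hv, prod_norm_one_sub_chi_zero p ht1.le, ← inv_pow]
  have h1 : Real.exp (pt F s v) ≤ (1 - pt F s v)⁻¹ := exp_le_inv ht1
  calc Real.exp ((p : ℝ) * pt F s v) = Real.exp (pt F s v) ^ p := by
        rw [← Real.exp_nat_mul]
    _ ≤ ((1 - pt F s v)⁻¹) ^ p := pow_le_pow_left₀ (Real.exp_pos _).le h1 p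

lemma hasProd_G {s : ℝ} (hs : 1 < s) :
    HasProd (G p F c s) (∏ j : ZMod p, ‖Ls p F c j s‖) := by
  have h1 : ∀ j : ZMod p, HasProd (fun v : HeightOneSpectrum (𝓞 F) =>
      ‖(1 - twist p F c j s (primeNZ v))⁻¹‖) ‖Ls p F c j s‖ := by
    intro j
    have h := hasProd_ideal (twist p F c j s) (summable_norm_twist p F c j hs)
    have h2 := h.map (normHom : ℂ →*₀ ℝ) continuous_norm
    exact h2
  have h3 := hasProd_prod (s := (Finset.univ : Finset (ZMod p))) (fun j _ => h1 j)
  exact h3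

/-- finite partial products of `G` over primes in the kernel are at most `∏_j |L(s, χ_j)|`. -/
lemma exp_sum_le_prod_norm_Ls {s : ℝ} (hs : 1 < s) (T : Finset (HeightOneSpectrum (𝓞 F)))
    (hT : ∀ v ∈ T, cI p F c (primeNZ v) = 0) :
    Real.exp ((p : ℝ) * ∑ v ∈ T, pt F s v) ≤ ∏ j : ZMod p, ‖Ls p F c j s‖ := by
  classical
  have hprod := hasProd_G p F c hs
  rw [HasProd] at hprod
  change Tendsto _ atTop _ at hprod
  have h1 : Real.exp ((p : ℝ) * ∑ v ∈ T, pt F s v) ≤ ∏ v ∈ T, G p F c s v := by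
    rw [Finset.mul_sum, Real.exp_sum]
    exact Finset.prod_le_prod (fun v _ => (Real.exp_pos _).le)
      (fun v hv => exp_le_G p F c hs.le v (hT v hv))
  refine le_trans h1 (ge_of_tendsto hprod ?_)
  filter_upwards [eventually_ge_atTop T] with S hS
  have hS' : T ⊆ S := hS
  rw [← Finset.prod_sdiff hS']
  have hpos : 0 ≤ ∏ v ∈ T, G p F c s v :=
    Finset.prod_nonneg (fun v _ => le_trans zero_le_one (one_le_G p F c hs.le v))
  have hge : ∀ (U : Finset (HeightOneSpectrum (𝓞 F))), 1 ≤ ∏ v ∈ U, G p F c s v := by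
    intro U
    induction U using Finset.induction with
    | empty => simp
    | insert a U ha ih =>
      rw [Finset.prod_insert ha]
      calc (1 : ℝ) = 1 * 1 := (one_mul 1).symm
        _ ≤ G p F c s a * ∏ v ∈ U, G p F c s v :=
          mul_le_mul (one_le_G p F c hs.le a) ih zero_le_one
            (le_trans zero_le_one (one_le_G p F c hs.le a))
  calc ∏ v ∈ T, G p F c s v = 1 * ∏ v ∈ T, G p F c s v := (one_mul _).symm
    _ ≤ (∏ v ∈ S \ T, G p F c s v) * ∏ v ∈ T, G p F c s v :=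
        mul_le_mul_of_nonneg_right (hge _) hpos

/-- **P4g, abstract form.** -/
theorem upperFrac_ker (hc : ∃ C, c C ≠ 1) (hbd : ClassZetaBounded F) :
    UpperFrac F {P | c (ClassGroup.mk0 (toNZ F P)) = 1} (1 / p) := by
  classical
  obtain ⟨B, hB⟩ := hbd
  obtain ⟨c0, C0, hc0, hC0, hb⟩ := exists_idealZeta_bounds F
  have hp0 : (0 : ℝ) < p := by exact_mod_cast hp.out.pos
  set h : ℝ := (Fintype.card (ClassGroup (𝓞 F)) : ℝ) with hh
  set B' : ℝ := max (h * B) 1 with hB'
  have hB'1 : 1 ≤ B' := le_max_right _ _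
  have hB'0 : 0 < B' := lt_of_lt_of_le one_pos hB'1
  set K : ℝ := (Real.log C0 + ((p : ℝ) - 1) * Real.log B') / p with hK
  refine ⟨max K 0, le_max_right _ _, fun s hs1 hs2 => ?_⟩
  refine pz_le_of_finset F _ s _ (fun T hT => ?_)
  have hT' : ∀ v ∈ T, cI p F c (primeNZ v) = 0 := by
    intro v hv
    have h1 : c (ClassGroup.mk0 (toNZ F v)) = 1 := hT v hv
    have h2 : c (ClassGroup.mk0 (primeNZ v)) = 1 := h1
    rw [cI, h2]
    rfl
  have hs0 : 0 < s - 1 := by linarith
  have hζ : 0 < idealZeta F s := lt_of_lt_of_le one_pos (one_le_idealZeta F hs1)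
  have hmain := exp_sum_le_prod_norm_Ls p F c hs1 T hT'
  -- bound the product of the `|L|`
  have hLs : ∏ j : ZMod p, ‖Ls p F c j s‖ ≤ idealZeta F s * B' ^ (p - 1) := by
    rw [← Finset.mul_prod_erase Finset.univ _ (Finset.mem_univ (0 : ZMod p))]
    have h0 : ‖Ls p F c 0 s‖ = idealZeta F s := by
      rw [Ls_zero, Complex.norm_real, Real.norm_of_nonneg hζ.le]
    rw [h0]
    refine mul_le_mul_of_nonneg_left ?_ hζ.le
    have hcard : (Finset.univ.erase (0 : ZMod p)).card = p - 1 := by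
      rw [Finset.card_erase_of_mem (Finset.mem_univ _), Finset.card_univ, ZMod.card]
    calc ∏ j ∈ Finset.univ.erase (0 : ZMod p), ‖Ls p F c j s‖
        ≤ ∏ _j ∈ Finset.univ.erase (0 : ZMod p), B' := by
          refine Finset.prod_le_prod (fun j _ => norm_nonneg _) (fun j hj => ?_)
          have hj0 : j ≠ 0 := (Finset.mem_erase.mp hj).1
          exact le_trans (norm_Ls_le p F c hc hj0 hs1 (hB s hs1 hs2)) (le_max_left _ _)
      _ = B' ^ (p - 1) := by rw [Finset.prod_const, hcard]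
  have h2 : Real.exp ((p : ℝ) * ∑ v ∈ T, pt F s v) ≤ C0 / (s - 1) * B' ^ (p - 1) := by
    refine le_trans hmain (le_trans hLs ?_)
    exact mul_le_mul_of_nonneg_right (hb s hs1 hs2).2 (pow_nonneg hB'0.le _)
  have h3 : (p : ℝ) * ∑ v ∈ T, pt F s v ≤ Real.log (C0 / (s - 1) * B' ^ (p - 1)) := by
    have := Real.log_le_log (Real.exp_pos _) h2
    rwa [Real.log_exp] at this
  have h4 : Real.log (C0 / (s - 1) * B' ^ (p - 1)) =
      lg s + Real.log C0 + ((p : ℝ) - 1) * Real.log B' := by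
    rw [Real.log_mul (div_pos hC0 hs0).ne' (pow_pos hB'0 _).ne', lg_eq hs1 C0 hC0, Real.log_pow]
    have : ((p - 1 : ℕ) : ℝ) = (p : ℝ) - 1 := by
      rw [Nat.cast_sub hp.out.one_le, Nat.cast_one]
    rw [this]
  rw [h4] at h3
  have h5 : ∑ v ∈ T, pt F s v ≤ 1 / (p : ℝ) * lg s + K := by
    rw [hK]
    have : ∑ v ∈ T, pt F s v = ((p : ℝ) * ∑ v ∈ T, pt F s v) / p := by
      field_simp
    rw [this, div_le_iff₀ hp0]
    have e : (1 / (p : ℝ) * lg s + (Real.log C0 + ((p : ℝ) - 1) * Real.log B') / p) * p =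
        lg s + Real.log C0 + ((p : ℝ) - 1) * Real.log B' := by
      field_simp
      ring
    rw [e]
    exact h3
  calc ∑ v ∈ T, (Ideal.absNorm v.asIdeal : ℝ) ^ (-s) = ∑ v ∈ T, pt F s v := rfl
    _ ≤ 1 / (p : ℝ) * lg s + K := h5
    _ ≤ 1 / (p : ℝ) * lg s + max K 0 := by
        have := le_max_left K 0
        linarith

end Fermat.Agent.S14.CU

namespace Fermat.Agent.S14

open Dens JacobiSumStickelberger

/-- **P4g**: `ClassUpper p F` from the boundedness of the differences of the partial zeta functions. -/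
theorem classUpper_of_bounded (p : ℕ) [hp : Fact p.Prime] (F : Type) [Field F] [NumberField F]
    (hbd : ClassZetaBounded F) : ClassUpper p F := by
  haveI : NeZero p := ⟨hp.out.ne_zero⟩
  intro ψ hψ
  let a : Additive (ClassGroup (𝓞 F)) →+ ZMod p :=
    (ψ : ClGalModule p (𝓞 F) →+ ZMod p).comp (clProj p (𝓞 F))
  let c : ClassGroup (𝓞 F) →* Multiplicative (ZMod p) := AddMonoidHom.toMultiplicativeRight a
  have hc_apply : ∀ C : ClassGroup (𝓞 F),
      c C = Multiplicative.ofAdd (ψ (clProj p (𝓞 F) (Additive.ofMul C))) := fun C => rfl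
  have hc : ∃ C, c C ≠ 1 := by
    by_contra hcon
    push Not at hcon
    apply hψ
    ext m
    obtain ⟨x, rfl⟩ := clProj_surjective p (𝓞 F) m
    have h1 := hcon (Additive.toMul x)
    rw [hc_apply] at h1
    have h2 : ψ (clProj p (𝓞 F) (Additive.ofMul (Additive.toMul x))) = 0 := by
      have := congrArg Multiplicative.toAdd h1
      simpa using this
    simpa using h2
  have hset : {P : IsDedekindDomain.HeightOneSpectrum (𝓞 F) |
      ψ (clProj p (𝓞 F) (Additive.ofMul (ClassGroup.mk0 (toNZ F P)))) = 0} =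
      {P | c (ClassGroup.mk0 (toNZ F P)) = 1} := by
    ext P
    simp only [Set.mem_ofPred_eq, hc_apply]
    constructor
    · intro h
      rw [h]
      rfl
    · intro h
      have := congrArg Multiplicative.toAdd h
      simpa using this
  rw [hset]
  exact CU.upperFrac_ker p F c hc hbd

end Fermat.Agent.S14
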