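import Mathlib

/-!
# S14 / P4: a smooth partition of unity for the unit group (helper6)

`weight K : mixedSpace K → ℝ` is a product of tent functions in the coordinates of `logMap x`
with respect to the basis of the unit lattice.  It is invariant under nonzero real scalars,
takes values in `[0, 1]`, and its sum over a unit orbit is `torsionOrder K`.
-/

set_option autoImplicit false

open NumberField NumberField.InfinitePlace NumberField.mixedEmbedding NumberField.Units
  NumberField.Units.dirichletUnitTheorem Module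

namespace Fermat.Agent.S14.UW

/-- the tent function -/
noncomputable def tent (t : ℝ) : ℝ := max 0 (1 - |t|)

lemma tent_nonneg (t : ℝ) : 0 ≤ tent t := le_max_left _ _

lemma tent_le_one (t : ℝ) : tent t ≤ 1 := by
  unfold tent
  exact max_le zero_le_one (by linarith [abs_nonneg t])

lemma tent_eq_zero_of_one_le {t : ℝ} (h : 1 ≤ |t|) : tent t = 0 := by
  unfold tent
  exact max_eq_left (by linarith)

lemma tent_of_abs_le_one {t : ℝ} (h : |t| ≤ 1) : tent t = 1 - |t| := by
  unfold tent
  exact max_eq_right (by linarith)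

lemma tent_ne_zero_iff {t : ℝ} : tent t ≠ 0 ↔ |t| < 1 := by
  constructor
  · intro h
    by_contra h'
    exact h (tent_eq_zero_of_one_le (not_lt.mp h'))
  · intro h
    rw [tent_of_abs_le_one h.le]
    linarith

/-- the tent function is 1-Lipschitz -/
lemma tent_lipschitz (s t : ℝ) : |tent s - tent t| ≤ |s - t| := by
  unfold tent
  have h1 : |max 0 (1 - |s|) - max 0 (1 - |t|)| ≤ |(1 - |s|) - (1 - |t|)| := by
    have := abs_max_sub_max_le_abs (1 - |s|) (1 - |t|) (0 : ℝ)
    rwa [max_comm (1 - |s|) 0, max_comm (1 - |t|) 0] at this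
  have h2 : |(1 - |s|) - (1 - |t|)| = |(|t| - |s|)| := by
    congr 1; ring
  rw [h2] at h1
  calc _ ≤ |(|t| - |s|)| := h1
    _ ≤ |t - s| := abs_abs_sub_abs_le_abs_sub t s
    _ = |s - t| := abs_sub_comm t s

/-- the integer translates of the tent function sum to one (finite support form). -/
lemma tent_support_subset (t : ℝ) :
    (Function.support fun k : ℤ => tent (t + k)) ⊆ ({-⌊t⌋, -⌊t⌋ - 1} : Finset ℤ) := by
  intro k hk
  rw [Function.mem_support, tent_ne_zero_iff, abs_lt] at hk
  obtain ⟨h1, h2⟩ := hk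
  have hf := Int.floor_le t
  have hf' := Int.lt_floor_add_one t
  simp only [Finset.coe_insert, Finset.coe_singleton, Set.mem_insert_iff, Set.mem_singleton_iff]
  have h3 : (-⌊t⌋ - 2 : ℝ) < k := by linarith
  have h4 : (k : ℝ) < -⌊t⌋ + 1 := by linarith
  have h3' : -⌊t⌋ - 2 < k := by exact_mod_cast h3
  have h4' : k < -⌊t⌋ + 1 := by exact_mod_cast h4
  omega

lemma tent_sum_two (t : ℝ) : tent (t + (-⌊t⌋ : ℤ)) + tent (t + (-⌊t⌋ - 1 : ℤ)) = 1 := by
  have hf := Int.floor_le t
  have hf' := Int.lt_floor_add_one t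
  have e1 : tent (t + (-⌊t⌋ : ℤ)) = 1 - (t - ⌊t⌋) := by
    rw [tent_of_abs_le_one]
    · rw [abs_of_nonneg]
      · push_cast; ring
      · push_cast; linarith
    · rw [abs_le]; push_cast; constructor <;> linarith
  have e2 : tent (t + (-⌊t⌋ - 1 : ℤ)) = t - ⌊t⌋ := by
    rw [tent_of_abs_le_one]
    · rw [abs_of_nonpos]
      · push_cast; ring
      · push_cast; linarith
    · rw [abs_le]; push_cast; constructor <;> linarith
  rw [e1, e2]; ring

lemma hasSum_tent (t : ℝ) : HasSum (fun k : ℤ => tent (t + k)) 1 := by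
  have h : HasSum (fun k : ℤ => tent (t + k))
      (∑ k ∈ ({-⌊t⌋, -⌊t⌋ - 1} : Finset ℤ), tent (t + k)) :=
    hasSum_sum_of_ne_finset_zero (fun k hk => by
      by_contra h
      exact hk (tent_support_subset t h))
  have hne : (-⌊t⌋ : ℤ) ∉ ({-⌊t⌋ - 1} : Finset ℤ) := by
    rw [Finset.mem_singleton]; omega
  rw [Finset.sum_insert hne, Finset.sum_singleton] at h
  rwa [tent_sum_two] at h


/-! ## the weight on `logSpace K` -/

variable (K : Type*) [Field K] [NumberField K]

open scoped Classical

/-- the basis of `logSpace K` given by the unit lattice -/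
noncomputable def logBasis : Basis (Fin (rank K)) ℝ (logSpace K) :=
  (basisUnitLattice K).ofZLatticeBasis ℝ (unitLattice K)

/-- the weight: a product of tent functions in the coordinates of the unit lattice basis -/
noncomputable def rho (y : logSpace K) : ℝ := ∏ i, tent ((logBasis K).repr y i)

lemma rho_nonneg (y : logSpace K) : 0 ≤ rho K y :=
  Finset.prod_nonneg fun _ _ => tent_nonneg _

lemma rho_le_one (y : logSpace K) : rho K y ≤ 1 :=
  Finset.prod_le_one (fun _ _ => tent_nonneg _) (fun _ _ => tent_le_one _)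

lemma rho_ne_zero_iff {y : logSpace K} : rho K y ≠ 0 ↔ ∀ i, |(logBasis K).repr y i| < 1 := by
  unfold rho
  rw [Finset.prod_ne_zero_iff]
  simp only [Finset.mem_univ, forall_const, tent_ne_zero_iff]

/-- coordinates of a lattice vector are integers -/
lemma logBasis_repr_coe (v : unitLattice K) (i : Fin (rank K)) :
    (logBasis K).repr (v : logSpace K) i = ((basisUnitLattice K).repr v i : ℝ) := by
  unfold logBasis
  rw [Basis.ofZLatticeBasis_repr_apply]

/-- `rho` on a translate by a lattice vector, in coordinates -/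
lemma rho_add_coe (y : logSpace K) (v : unitLattice K) :
    rho K (y + v) = ∏ i, tent ((logBasis K).repr y i + ((basisUnitLattice K).repr v i : ℤ)) := by
  unfold rho
  refine Finset.prod_congr rfl fun i _ => ?_
  rw [map_add, Finsupp.add_apply, logBasis_repr_coe]

/-- product form of the partition of unity on `ℤ ^ r` -/
lemma hasSum_prod_tent {r : ℕ} (t : Fin r → ℝ) :
    HasSum (fun k : Fin r → ℤ => ∏ i, tent (t i + k i)) 1 := by
  classical
  set T : Fin r → Finset ℤ := fun i => ({-⌊t i⌋, -⌊t i⌋ - 1} : Finset ℤ) with hT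
  have hsupp : ∀ k : Fin r → ℤ, k ∉ Fintype.piFinset T → (∏ i, tent (t i + k i)) = 0 := by
    intro k hk
    rw [Fintype.mem_piFinset] at hk
    push Not at hk
    obtain ⟨i, hi⟩ := hk
    refine Finset.prod_eq_zero (Finset.mem_univ i) ?_
    by_contra h
    exact hi (tent_support_subset (t i) h)
  have h : HasSum (fun k : Fin r → ℤ => ∏ i, tent (t i + k i))
      (∑ k ∈ Fintype.piFinset T, ∏ i, tent (t i + k i)) :=
    hasSum_sum_of_ne_finset_zero hsupp
  have h2 : (∑ k ∈ Fintype.piFinset T, ∏ i, tent (t i + k i)) = 1 := by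
    rw [← Finset.prod_univ_sum T (fun i k => tent (t i + k))]
    refine Finset.prod_eq_one fun i _ => ?_
    have hne : (-⌊t i⌋ : ℤ) ∉ ({-⌊t i⌋ - 1} : Finset ℤ) := by
      rw [Finset.mem_singleton]; omega
    rw [hT]
    simp only
    rw [Finset.sum_insert hne, Finset.sum_singleton]
    exact tent_sum_two (t i)
  rwa [h2] at h

/-- **partition of unity**: the translates of `rho` by the unit lattice sum to one. -/
theorem hasSum_rho_add (y : logSpace K) :
    HasSum (fun v : unitLattice K => rho K (y + v)) 1 := by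
  have h := hasSum_prod_tent (fun i => (logBasis K).repr y i)
  have h' := ((basisUnitLattice K).equivFun.toEquiv.hasSum_iff).mpr h
  refine h'.congr_fun ?_
  intro v
  rw [rho_add_coe]
  rfl


/-! ## Lipschitz bound and bounded support -/

omit K in
/-- products of numbers in `[0, 1]` -/
lemma abs_prod_sub_prod_le {ι : Type*} (S : Finset ι) (a b : ι → ℝ)
    (ha0 : ∀ i, 0 ≤ a i) (ha1 : ∀ i, a i ≤ 1) (hb0 : ∀ i, 0 ≤ b i) (hb1 : ∀ i, b i ≤ 1) :
    |∏ i ∈ S, a i - ∏ i ∈ S, b i| ≤ ∑ i ∈ S, |a i - b i| := by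
  classical
  induction S using Finset.induction_on with
  | empty => simp
  | insert j S hj ih =>
    rw [Finset.prod_insert hj, Finset.prod_insert hj, Finset.sum_insert hj]
    have hB0 : 0 ≤ ∏ i ∈ S, b i := Finset.prod_nonneg fun i _ => hb0 i
    have hB1 : ∏ i ∈ S, b i ≤ 1 := Finset.prod_le_one (fun i _ => hb0 i) (fun i _ => hb1 i)
    have e : a j * ∏ i ∈ S, a i - b j * ∏ i ∈ S, b i =
        a j * (∏ i ∈ S, a i - ∏ i ∈ S, b i) + (a j - b j) * ∏ i ∈ S, b i := by ring
    rw [e]
    calc |a j * (∏ i ∈ S, a i - ∏ i ∈ S, b i) + (a j - b j) * ∏ i ∈ S, b i|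
        ≤ |a j * (∏ i ∈ S, a i - ∏ i ∈ S, b i)| + |(a j - b j) * ∏ i ∈ S, b i| := abs_add_le _ _
      _ = |a j| * |∏ i ∈ S, a i - ∏ i ∈ S, b i| + |a j - b j| * |∏ i ∈ S, b i| := by
          rw [abs_mul, abs_mul]
      _ ≤ 1 * (∑ i ∈ S, |a i - b i|) + |a j - b j| * 1 := by
          gcongr
          · rw [abs_of_nonneg (ha0 j)]; exact ha1 j
          · rw [abs_of_nonneg hB0]; exact hB1
      _ = |a j - b j| + ∑ i ∈ S, |a i - b i| := by ring

/-- the coordinate functionals of `logBasis` as continuous linear maps -/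
noncomputable def coordL (i : Fin (rank K)) : logSpace K →L[ℝ] ℝ :=
  LinearMap.toContinuousLinearMap ((logBasis K).coord i)

lemma coordL_apply (i : Fin (rank K)) (y : logSpace K) : coordL K i y = (logBasis K).repr y i := rfl

/-- the Lipschitz constant of `rho` -/
noncomputable def rhoLip : ℝ := ∑ i, ‖coordL K i‖

lemma rhoLip_nonneg : 0 ≤ rhoLip K := Finset.sum_nonneg fun _ _ => norm_nonneg _

/-- **Lipschitz bound** for `rho`. -/
theorem abs_rho_sub_le (x y : logSpace K) : |rho K x - rho K y| ≤ rhoLip K * ‖x - y‖ := by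
  unfold rho rhoLip
  refine (abs_prod_sub_prod_le Finset.univ _ _ (fun _ => tent_nonneg _) (fun _ => tent_le_one _)
    (fun _ => tent_nonneg _) (fun _ => tent_le_one _)).trans ?_
  rw [Finset.sum_mul]
  refine Finset.sum_le_sum fun i _ => ?_
  refine (tent_lipschitz _ _).trans ?_
  rw [← coordL_apply, ← coordL_apply, ← map_sub, ← Real.norm_eq_abs]
  exact (coordL K i).le_opNorm _

theorem lipschitzWith_rho : LipschitzWith ⟨rhoLip K, rhoLip_nonneg K⟩ (rho K) := by
  refine LipschitzWith.of_dist_le_mul fun x y => ?_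
  rw [Real.dist_eq, dist_eq_norm]
  exact abs_rho_sub_le K x y

/-- the radius of the support of `rho` -/
noncomputable def rhoRad : ℝ := ∑ i, ‖logBasis K i‖

lemma rhoRad_nonneg : 0 ≤ rhoRad K := Finset.sum_nonneg fun _ _ => norm_nonneg _

/-- **bounded support**: `rho y ≠ 0` implies `‖y‖ ≤ rhoRad K`. -/
theorem norm_le_of_rho_ne_zero {y : logSpace K} (h : rho K y ≠ 0) : ‖y‖ ≤ rhoRad K := by
  rw [rho_ne_zero_iff] at h
  conv_lhs => rw [← (logBasis K).sum_repr y]
  refine (norm_sum_le _ _).trans ?_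
  unfold rhoRad
  refine Finset.sum_le_sum fun i _ => ?_
  rw [_root_.norm_smul, Real.norm_eq_abs]
  calc |(logBasis K).repr y i| * ‖logBasis K i‖ ≤ 1 * ‖logBasis K i‖ := by
        gcongr; exact (h i).le
    _ = _ := one_mul _

theorem rho_eq_zero_of_lt {y : logSpace K} (h : rhoRad K < ‖y‖) : rho K y = 0 := by
  by_contra h'
  exact absurd (norm_le_of_rho_ne_zero K h') (not_le.mpr h)

end Fermat.Agent.S14.UW
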