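import Mathlib
import Fermat.Agent.S14.UnitWeight

/-!
# S14 / P4d: the partial zeta function of an ideal class as a weighted lattice sum (helper6)

For `J` an integral ideal in the class `C⁻¹`:
`torsionOrder K * ∑_{I ∈ C} N(I)^(-s) = ∑_{a ∈ J, a ≠ 0} rho (logMap a) * (|N a| / N J)^(-s)`.
-/

set_option autoImplicit false

open NumberField NumberField.InfinitePlace NumberField.mixedEmbedding NumberField.Units
  NumberField.Units.dirichletUnitTheorem Module
open scoped ENNReal nonZeroDivisors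

namespace Fermat.Agent.S14.UW

open scoped Classical

/-- summing a function of the coset over a group with a finite subgroup -/
lemma tsum_comp_quot {G : Type*} [Group G] (H : Subgroup G) [Finite H] (F : G ⧸ H → ℝ≥0∞) :
    ∑' u : G, F (u : G ⧸ H) = (Nat.card H : ℝ≥0∞) * ∑' q, F q := by
  rw [← ENNReal.tsum_fiberwise (fun u : G => F (u : G ⧸ H)) (QuotientGroup.mk : G → G ⧸ H),
    ← ENNReal.tsum_mul_left]
  refine tsum_congr fun q => ?_
  obtain ⟨g, rfl⟩ := QuotientGroup.mk_surjective q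
  -- the fibre is in bijection with `H`
  let e : H ≃ ((QuotientGroup.mk : G → G ⧸ H) ⁻¹' {(g : G ⧸ H)}) :=
    { toFun := fun h => ⟨g * h, by
        simp only [Set.mem_preimage, Set.mem_singleton_iff]
        exact QuotientGroup.mk_mul_of_mem g h.2⟩
      invFun := fun u => ⟨g⁻¹ * u, by
        have hu : ((u : G) : G ⧸ H) = (g : G ⧸ H) := u.2
        exact QuotientGroup.eq.mp hu.symm⟩
      left_inv := fun h => by simp
      right_inv := fun u => by simp }
  have hconst : ∀ u : ((QuotientGroup.mk : G → G ⧸ H) ⁻¹' {(g : G ⧸ H)}),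
      F ((u : G) : G ⧸ H) = F (g : G ⧸ H) := fun u => by
    have hu : ((u : G) : G ⧸ H) = (g : G ⧸ H) := u.2
    rw [hu]
  rw [tsum_congr hconst, ← e.tsum_eq]
  have : Fintype H := Fintype.ofFinite H
  rw [tsum_fintype, Finset.sum_const, Finset.card_univ, nsmul_eq_mul, Nat.card_eq_fintype_card]

variable (K : Type*) [Field K] [NumberField K]

/-- **partition of unity over a unit orbit** -/
theorem tsum_rho_unit_smul {x : mixedSpace K} (hx : mixedEmbedding.norm x ≠ 0) :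
    ∑' u : (𝓞 K)ˣ, ENNReal.ofReal (rho K (logMap (u • x))) = torsionOrder K := by
  have h1 : ∀ u : (𝓞 K)ˣ, ENNReal.ofReal (rho K (logMap (u • x))) =
      (fun q : (𝓞 K)ˣ ⧸ torsion K => ENNReal.ofReal
        (rho K (logMap x + (logEmbeddingEquiv K (Additive.ofMul q) : logSpace K))))
        (u : (𝓞 K)ˣ ⧸ torsion K) := by
    intro u
    simp only
    rw [logMap_unit_smul u hx, logEmbeddingEquiv_apply, add_comm]
  rw [tsum_congr h1]
  refine (tsum_comp_quot (torsion K) (fun q : (𝓞 K)ˣ ⧸ torsion K => ENNReal.ofReal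
        (rho K (logMap x + (logEmbeddingEquiv K (Additive.ofMul q) : logSpace K))))).trans ?_
  have h2 : ∑' q : (𝓞 K)ˣ ⧸ torsion K, ENNReal.ofReal
      (rho K (logMap x + (logEmbeddingEquiv K (Additive.ofMul q) : logSpace K))) = 1 := by
    let e : ((𝓞 K)ˣ ⧸ torsion K) ≃ unitLattice K :=
      (Additive.ofMul).trans (logEmbeddingEquiv K).toEquiv
    have := e.tsum_eq (fun v : unitLattice K => ENNReal.ofReal (rho K (logMap x + (v : logSpace K))))
    have h3 : ∑' v : unitLattice K, ENNReal.ofReal (rho K (logMap x + (v : logSpace K))) = 1 := by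
      rw [← ENNReal.ofReal_tsum_of_nonneg (fun v => rho_nonneg K _)
        (hasSum_rho_add K (logMap x)).summable, (hasSum_rho_add K (logMap x)).tsum_eq,
        ENNReal.ofReal_one]
    rw [← h3, ← this]
    rfl
  rw [h2, mul_one]
  rfl


/-! ## the nonzero elements of an ideal, fibred over the ideals of a class -/

variable {K}

/-- the nonzero elements of `J` -/
abbrev JNZ (J : (Ideal (𝓞 K))⁰) : Type _ := {a : 𝓞 K // a ∈ (J : Ideal (𝓞 K)) ∧ a ≠ 0}

variable (J : (Ideal (𝓞 K))⁰)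

lemma exists_quot (a : JNZ J) : ∃ I : Ideal (𝓞 K), Ideal.span {a.1} = (J : Ideal (𝓞 K)) * I :=
  Ideal.dvd_span_singleton.mpr a.2.1

/-- the ideal `(a) / J` -/
noncomputable def quotIdeal (a : JNZ J) : Ideal (𝓞 K) := (exists_quot J a).choose

lemma span_eq_mul (a : JNZ J) : Ideal.span {a.1} = (J : Ideal (𝓞 K)) * quotIdeal J a :=
  (exists_quot J a).choose_spec

lemma quotIdeal_ne_bot (a : JNZ J) : quotIdeal J a ≠ ⊥ := by
  intro h
  have := span_eq_mul J a
  rw [h, Ideal.mul_bot, Ideal.span_singleton_eq_bot] at this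
  exact a.2.2 this

/-- the ideal `(a) / J` as a nonzero ideal -/
noncomputable def quotNZ (a : JNZ J) : (Ideal (𝓞 K))⁰ :=
  ⟨quotIdeal J a, mem_nonZeroDivisors_of_ne_zero (quotIdeal_ne_bot J a)⟩

lemma coe_quotNZ (a : JNZ J) : ((quotNZ J a : (Ideal (𝓞 K))⁰) : Ideal (𝓞 K)) = quotIdeal J a := rfl

omit [NumberField K] in
lemma span_ne_bot (a : JNZ J) : Ideal.span {a.1} ≠ (⊥ : Ideal (𝓞 K)) := by
  rw [Ne, Ideal.span_singleton_eq_bot]; exact a.2.2

lemma mk0_quotNZ {C : ClassGroup (𝓞 K)} (hJ : ClassGroup.mk0 J = C⁻¹) (a : JNZ J) :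
    ClassGroup.mk0 (quotNZ J a) = C := by
  have hspan : (⟨Ideal.span {a.1}, mem_nonZeroDivisors_of_ne_zero (span_ne_bot J a)⟩ :
      (Ideal (𝓞 K))⁰) = J * quotNZ J a := by
    ext1
    exact span_eq_mul J a
  have h1 : ClassGroup.mk0 (⟨Ideal.span {a.1}, mem_nonZeroDivisors_of_ne_zero (span_ne_bot J a)⟩ :
      (Ideal (𝓞 K))⁰) = 1 := by
    rw [ClassGroup.mk0_eq_one_iff]
    exact ⟨⟨a.1, rfl⟩⟩
  rw [hspan, map_mul, hJ] at h1
  exact (inv_mul_eq_one.mp h1).symm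

/-- characterisation of the fibres -/
lemma quotNZ_eq_iff (a : JNZ J) (I : (Ideal (𝓞 K))⁰) :
    quotNZ J a = I ↔ Ideal.span {a.1} = (J : Ideal (𝓞 K)) * (I : Ideal (𝓞 K)) := by
  constructor
  · rintro rfl
    exact span_eq_mul J a
  · intro h
    have h2 := span_eq_mul J a
    rw [h] at h2
    have hJ0 : (J : Ideal (𝓞 K)) ≠ 0 := nonZeroDivisors.coe_ne_zero J
    have := mul_left_cancel₀ hJ0 h2
    ext1
    exact this.symm

/-- the norm of `(a) / J` -/
lemma absNorm_quotNZ (a : JNZ J) :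
    (Ideal.absNorm (quotNZ J a : Ideal (𝓞 K)) : ℝ) =
      mixedEmbedding.norm (mixedEmbedding K (a.1 : K)) / Ideal.absNorm (J : Ideal (𝓞 K)) := by
  have hJ0 : (Ideal.absNorm (J : Ideal (𝓞 K)) : ℝ) ≠ 0 :=
    Nat.cast_ne_zero.mpr (Ideal.absNorm_ne_zero_of_nonZeroDivisors J)
  rw [eq_div_iff hJ0, mixedEmbedding.norm_eq_norm, mul_comm]
  have h := congrArg Ideal.absNorm (span_eq_mul J a)
  rw [map_mul, Ideal.absNorm_span_singleton] at h
  rw [coe_quotNZ, ← Nat.cast_mul, ← h, Nat.cast_natAbs, ← Rat.cast_intCast, Int.cast_abs,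
    Algebra.coe_norm_int]


/-- the map from the nonzero elements of `J` to the ideals of the class `C` -/
noncomputable def piC {C : ClassGroup (𝓞 K)} (hJ : ClassGroup.mk0 J = C⁻¹) (a : JNZ J) :
    {I : (Ideal (𝓞 K))⁰ // ClassGroup.mk0 I = C} :=
  ⟨quotNZ J a, mk0_quotNZ J hJ a⟩

omit [NumberField K] in
lemma mixedEmbedding_unit_mul (u : (𝓞 K)ˣ) (a : 𝓞 K) :
    mixedEmbedding K (((u : 𝓞 K) * a : 𝓞 K) : K) = u • mixedEmbedding K (a : K) := by
  rw [unitSMul_smul, ← map_mul]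
  rfl

lemma norm_mixedEmbedding_ne_zero {a : 𝓞 K} (ha : a ≠ 0) :
    mixedEmbedding.norm (mixedEmbedding K (a : K)) ≠ 0 := by
  rw [mixedEmbedding.norm_eq_norm]
  simp only [ne_eq, Rat.cast_abs, abs_eq_zero, Rat.cast_eq_zero, Algebra.norm_eq_zero_iff]
  exact_mod_cast ha

/-- **the sum of the weights over the generators of one ideal** -/
theorem tsum_fiber {C : ClassGroup (𝓞 K)} (hJ : ClassGroup.mk0 J = C⁻¹)
    (I : {I : (Ideal (𝓞 K))⁰ // ClassGroup.mk0 I = C}) :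
    ∑' a : (piC J hJ) ⁻¹' {I},
      ENNReal.ofReal (rho K (logMap (mixedEmbedding K ((a.1.1 : 𝓞 K) : K)))) = torsionOrder K := by
  -- a generator of `J * I`
  have hprin : ((J * I.1 : (Ideal (𝓞 K))⁰) : Ideal (𝓞 K)).IsPrincipal := by
    rw [← ClassGroup.mk0_eq_one_iff (SetLike.coe_mem _)]
    rw [show (⟨((J * I.1 : (Ideal (𝓞 K))⁰) : Ideal (𝓞 K)), SetLike.coe_mem _⟩ : (Ideal (𝓞 K))⁰) =
      J * I.1 from rfl, map_mul, hJ, I.2, inv_mul_cancel]
  obtain ⟨a₀, ha₀⟩ := hprin.principal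
  rw [Ideal.submodule_span_eq] at ha₀
  have hcoe : ((J * I.1 : (Ideal (𝓞 K))⁰) : Ideal (𝓞 K)) = (J : Ideal (𝓞 K)) * (I.1 : Ideal (𝓞 K)) := rfl
  rw [hcoe] at ha₀
  have ha₀J : a₀ ∈ (J : Ideal (𝓞 K)) := by
    have : a₀ ∈ (J : Ideal (𝓞 K)) * (I.1 : Ideal (𝓞 K)) := by
      rw [ha₀]; exact Ideal.mem_span_singleton_self a₀
    have hle : (J : Ideal (𝓞 K)) * (I.1 : Ideal (𝓞 K)) ≤ (J : Ideal (𝓞 K)) := Ideal.mul_le_left
    exact hle this
  have ha₀0 : a₀ ≠ 0 := by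
    rintro rfl
    have h0 : (J : Ideal (𝓞 K)) * (I.1 : Ideal (𝓞 K)) = ⊥ := by
      rw [ha₀]; simp
    rcases mul_eq_zero.mp h0 with h | h
    · exact nonZeroDivisors.coe_ne_zero J h
    · exact nonZeroDivisors.coe_ne_zero I.1 h
  -- the fibre is a unit orbit
  have hmem : ∀ u : (𝓞 K)ˣ, (u : 𝓞 K) * a₀ ∈ (J : Ideal (𝓞 K)) ∧ (u : 𝓞 K) * a₀ ≠ 0 := fun u =>
    ⟨Ideal.mul_mem_left _ _ ha₀J, mul_ne_zero u.ne_zero ha₀0⟩
  have hfib : ∀ u : (𝓞 K)ˣ, (⟨(u : 𝓞 K) * a₀, hmem u⟩ : JNZ J) ∈ (piC J hJ) ⁻¹' {I} := by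
    intro u
    rw [Set.mem_preimage, Set.mem_singleton_iff, Subtype.ext_iff]
    change quotNZ J _ = I.1
    rw [quotNZ_eq_iff, ha₀]
    exact Ideal.span_singleton_mul_left_unit u.isUnit a₀
  let f : (𝓞 K)ˣ → ((piC J hJ) ⁻¹' {I}) := fun u => ⟨⟨(u : 𝓞 K) * a₀, hmem u⟩, hfib u⟩
  have hf : Function.Bijective f := by
    constructor
    · intro u v huv
      have h1 : (u : 𝓞 K) * a₀ = (v : 𝓞 K) * a₀ := by
        have := congrArg (fun x : ((piC J hJ) ⁻¹' {I}) => (x.1.1 : 𝓞 K)) huv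
        exact this
      exact Units.ext (mul_right_cancel₀ ha₀0 h1)
    · intro a
      have ha : quotNZ J a.1 = I.1 := by
        have := a.2
        rw [Set.mem_preimage, Set.mem_singleton_iff, Subtype.ext_iff] at this
        exact this
      rw [quotNZ_eq_iff, ha₀, Ideal.span_singleton_eq_span_singleton] at ha
      obtain ⟨u, hu⟩ := ha.symm
      refine ⟨u, ?_⟩
      apply Subtype.ext
      apply Subtype.ext
      change (u : 𝓞 K) * a₀ = a.1.1
      rw [mul_comm]; exact hu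
  rw [← (Equiv.ofBijective f hf).tsum_eq]
  have hterm : ∀ u : (𝓞 K)ˣ, ENNReal.ofReal (rho K (logMap (mixedEmbedding K
      ((((Equiv.ofBijective f hf) u).1.1 : 𝓞 K) : K)))) =
      ENNReal.ofReal (rho K (logMap (u • mixedEmbedding K (a₀ : K)))) := by
    intro u
    rw [← mixedEmbedding_unit_mul]
    rfl
  rw [tsum_congr hterm]
  exact tsum_rho_unit_smul K (norm_mixedEmbedding_ne_zero ha₀0)

/-- **the class zeta identity** (in `ℝ≥0∞`) -/
theorem tsum_JNZ_eq {C : ClassGroup (𝓞 K)} (hJ : ClassGroup.mk0 J = C⁻¹) (s : ℝ) :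
    ∑' a : JNZ J, ENNReal.ofReal (rho K (logMap (mixedEmbedding K ((a.1 : 𝓞 K) : K)))) *
        ENNReal.ofReal ((mixedEmbedding.norm (mixedEmbedding K ((a.1 : 𝓞 K) : K)) /
          Ideal.absNorm (J : Ideal (𝓞 K))) ^ (-s)) =
      torsionOrder K * ∑' I : {I : (Ideal (𝓞 K))⁰ // ClassGroup.mk0 I = C},
        ENNReal.ofReal ((Ideal.absNorm (I.1 : Ideal (𝓞 K)) : ℝ) ^ (-s)) := by
  rw [← ENNReal.tsum_fiberwise _ (piC J hJ), ← ENNReal.tsum_mul_left]
  refine tsum_congr fun I => ?_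
  have h1 : ∀ a : (piC J hJ) ⁻¹' {I},
      ENNReal.ofReal (rho K (logMap (mixedEmbedding K ((a.1.1 : 𝓞 K) : K)))) *
        ENNReal.ofReal ((mixedEmbedding.norm (mixedEmbedding K ((a.1.1 : 𝓞 K) : K)) /
          Ideal.absNorm (J : Ideal (𝓞 K))) ^ (-s)) =
      ENNReal.ofReal (rho K (logMap (mixedEmbedding K ((a.1.1 : 𝓞 K) : K)))) *
        ENNReal.ofReal ((Ideal.absNorm (I.1 : Ideal (𝓞 K)) : ℝ) ^ (-s)) := by
    intro a
    have ha : quotNZ J a.1 = I.1 := by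
      have := a.2
      rw [Set.mem_preimage, Set.mem_singleton_iff, Subtype.ext_iff] at this
      exact this
    rw [← absNorm_quotNZ, ha]
  rw [tsum_congr h1, ENNReal.tsum_mul_right, tsum_fiber J hJ I]

end Fermat.Agent.S14.UW
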