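import Mathlib
import Fermat.Agent.S14.ClassZeta

/-!
# S14 / P4d: the class zeta identity, real form over the ideal lattice (helper6)
-/

set_option autoImplicit false

open NumberField NumberField.InfinitePlace NumberField.mixedEmbedding NumberField.Units
  NumberField.Units.dirichletUnitTheorem Module
open scoped ENNReal nonZeroDivisors

namespace Fermat.Agent.S14.UW

open scoped Classical

variable {K : Type*} [Field K] [NumberField K] (J : (Ideal (𝓞 K))⁰)

/-- real tsum of a nonnegative function through `ℝ≥0∞` -/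
lemma tsum_eq_toReal_tsum_ofReal {α : Type*} (f : α → ℝ) (hf : ∀ a, 0 ≤ f a) :
    ∑' a, f a = (∑' a, ENNReal.ofReal (f a)).toReal := by
  rw [ENNReal.tsum_toReal_eq (fun a => ENNReal.ofReal_ne_top)]
  exact tsum_congr fun a => (ENNReal.toReal_ofReal (hf a)).symm

/-- the weighted term on the nonzero elements of `J` -/
noncomputable def wterm (s : ℝ) (a : 𝓞 K) : ℝ :=
  rho K (logMap (mixedEmbedding K (a : K))) *
    (mixedEmbedding.norm (mixedEmbedding K (a : K)) / Ideal.absNorm (J : Ideal (𝓞 K))) ^ (-s)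

lemma wterm_nonneg (s : ℝ) (a : 𝓞 K) : 0 ≤ wterm J s a := by
  unfold wterm
  refine mul_nonneg (rho_nonneg K _) (Real.rpow_nonneg ?_ _)
  exact div_nonneg (mixedEmbedding.norm_nonneg _) (Nat.cast_nonneg _)

/-- **class zeta identity**, real form over `JNZ J` -/
theorem tsum_wterm_eq {C : ClassGroup (𝓞 K)} (hJ : ClassGroup.mk0 J = C⁻¹) (s : ℝ) :
    ∑' a : JNZ J, wterm J s a.1 =
      torsionOrder K * ∑' I : {I : (Ideal (𝓞 K))⁰ // ClassGroup.mk0 I = C},
        ((Ideal.absNorm (I.1 : Ideal (𝓞 K)) : ℝ)) ^ (-s) := by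
  have e1 : ∑' a : JNZ J, wterm J s a.1 =
      (∑' a : JNZ J, ENNReal.ofReal (wterm J s a.1)).toReal :=
    tsum_eq_toReal_tsum_ofReal (fun a : JNZ J => wterm J s a.1) (fun a => wterm_nonneg J s a.1)
  have e2 : ∑' I : {I : (Ideal (𝓞 K))⁰ // ClassGroup.mk0 I = C},
        ((Ideal.absNorm (I.1 : Ideal (𝓞 K)) : ℝ)) ^ (-s) =
      (∑' I : {I : (Ideal (𝓞 K))⁰ // ClassGroup.mk0 I = C},
        ENNReal.ofReal (((Ideal.absNorm (I.1 : Ideal (𝓞 K)) : ℝ)) ^ (-s))).toReal :=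
    tsum_eq_toReal_tsum_ofReal (fun I : {I : (Ideal (𝓞 K))⁰ // ClassGroup.mk0 I = C} =>
      ((Ideal.absNorm (I.1 : Ideal (𝓞 K)) : ℝ)) ^ (-s))
      (fun I => Real.rpow_nonneg (Nat.cast_nonneg _) _)
  have h := tsum_JNZ_eq J hJ s
  have h2 : ∀ a : JNZ J, ENNReal.ofReal (wterm J s a.1) =
      ENNReal.ofReal (rho K (logMap (mixedEmbedding K ((a.1 : 𝓞 K) : K)))) *
        ENNReal.ofReal ((mixedEmbedding.norm (mixedEmbedding K ((a.1 : 𝓞 K) : K)) /
          Ideal.absNorm (J : Ideal (𝓞 K))) ^ (-s)) := fun a =>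
    ENNReal.ofReal_mul (rho_nonneg K _)
  have h3 : (∑' a : JNZ J, ENNReal.ofReal (wterm J s a.1)) =
      torsionOrder K * ∑' I : {I : (Ideal (𝓞 K))⁰ // ClassGroup.mk0 I = C},
        ENNReal.ofReal ((Ideal.absNorm (I.1 : Ideal (𝓞 K)) : ℝ) ^ (-s)) :=
    (tsum_congr h2).trans h
  rw [e1, e2, h3, ENNReal.toReal_mul, ENNReal.toReal_natCast]


set_option backward.isDefEq.respectTransparency.types false in
/-- membership in the ideal lattice -/
lemma mem_idealLattice_iff {x : mixedSpace K} :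
    x ∈ mixedEmbedding.idealLattice K (FractionalIdeal.mk0 K J) ↔
      ∃ a : 𝓞 K, a ∈ (J : Ideal (𝓞 K)) ∧ mixedEmbedding K (a : K) = x := by
  rw [mixedEmbedding.mem_idealLattice]
  constructor
  · rintro ⟨y, hy, rfl⟩
    rw [SetLike.mem_coe, FractionalIdeal.coe_mk0, FractionalIdeal.mem_coeIdeal] at hy
    obtain ⟨a, ha, rfl⟩ := hy
    exact ⟨a, ha, rfl⟩
  · rintro ⟨a, ha, rfl⟩
    refine ⟨(a : K), ?_, rfl⟩
    rw [SetLike.mem_coe, FractionalIdeal.coe_mk0, FractionalIdeal.mem_coeIdeal]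
    exact ⟨a, ha, rfl⟩

/-- nonzero lattice points have norm at least `N(J)` -/
lemma absNorm_le_norm {a : 𝓞 K} (ha : a ∈ (J : Ideal (𝓞 K))) (ha0 : a ≠ 0) :
    (Ideal.absNorm (J : Ideal (𝓞 K)) : ℝ) ≤ mixedEmbedding.norm (mixedEmbedding K (a : K)) := by
  have h := absNorm_quotNZ J ⟨a, ha, ha0⟩
  have hJ0 : (0 : ℝ) < Ideal.absNorm (J : Ideal (𝓞 K)) :=
    Nat.cast_pos.mpr (Nat.pos_of_ne_zero (Ideal.absNorm_ne_zero_of_nonZeroDivisors J))
  have h1 : (1 : ℝ) ≤ Ideal.absNorm (quotNZ J ⟨a, ha, ha0⟩ : Ideal (𝓞 K)) := by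
    exact_mod_cast Nat.one_le_iff_ne_zero.mpr (Ideal.absNorm_ne_zero_of_nonZeroDivisors _)
  rw [h, le_div_iff₀ hJ0, one_mul] at h1
  exact h1

/-- **class zeta identity**, real form over the ideal lattice: for every `G` that vanishes at `0`
and agrees with the weighted term at the nonzero points of the lattice. -/
theorem tsum_idealLattice_eq {C : ClassGroup (𝓞 K)} (hJ : ClassGroup.mk0 J = C⁻¹) (s : ℝ)
    (G : mixedSpace K → ℝ) (hG0 : G 0 = 0)
    (hG : ∀ a : 𝓞 K, a ∈ (J : Ideal (𝓞 K)) → a ≠ 0 → G (mixedEmbedding K (a : K)) = wterm J s a) :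
    ∑' α : mixedEmbedding.idealLattice K (FractionalIdeal.mk0 K J), G (α : mixedSpace K) =
      torsionOrder K * ∑' I : {I : (Ideal (𝓞 K))⁰ // ClassGroup.mk0 I = C},
        ((Ideal.absNorm (I.1 : Ideal (𝓞 K)) : ℝ)) ^ (-s) := by
  rw [← tsum_wterm_eq J hJ s]
  refine tsum_eq_tsum_of_ne_zero_bij
    (fun a : Function.support (fun a : JNZ J => wterm J s a.1) =>
      (⟨mixedEmbedding K ((a.1.1 : 𝓞 K) : K),
        (mem_idealLattice_iff J).mpr ⟨a.1.1, a.1.2.1, rfl⟩⟩ :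
        mixedEmbedding.idealLattice K (FractionalIdeal.mk0 K J))) ?_ ?_ ?_
  · intro a b hab
    have h1 : mixedEmbedding K ((a.1.1 : 𝓞 K) : K) = mixedEmbedding K ((b.1.1 : 𝓞 K) : K) :=
      congrArg Subtype.val hab
    have h2 : ((a.1.1 : 𝓞 K) : K) = ((b.1.1 : 𝓞 K) : K) := mixedEmbedding_injective K h1
    apply Subtype.ext
    apply Subtype.ext
    exact RingOfIntegers.ext h2
  · intro α hα
    rw [Function.mem_support] at hα
    obtain ⟨a, haJ, ha⟩ := (mem_idealLattice_iff J).mp α.2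
    have ha0 : a ≠ 0 := by
      rintro rfl
      apply hα
      rw [← ha]
      simpa using hG0
    have hsupp : (⟨a, haJ, ha0⟩ : JNZ J) ∈ Function.support (fun a : JNZ J => wterm J s a.1) := by
      rw [Function.mem_support]
      change wterm J s a ≠ 0
      rw [← hG a haJ ha0, ha]
      exact hα
    refine ⟨⟨⟨a, haJ, ha0⟩, hsupp⟩, ?_⟩
    apply Subtype.ext
    exact ha
  · intro a
    exact hG a.1.1 a.1.2.1 a.1.2.2

end Fermat.Agent.S14.UW
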