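import Mathlib

/-!
# S14 / P4 (a): sum versus integral for a `ℤ`-lattice

`latticeSum_integral_aux`: abstract comparison with a summable majorant `D`.
`exists_latticeSum_bound`: the version with a decay hypothesis
`|G y - G x| ≤ C * (1 + ‖x‖) ^ (-(n + 1))` for `‖y - x‖ ≤ R`.
-/

set_option autoImplicit false

open MeasureTheory Module
open scoped Pointwise

namespace Fermat.Agent.S14

section LatticeSum

variable {E : Type*} [NormedAddCommGroup E] [NormedSpace ℝ E] [FiniteDimensional ℝ E]
  [MeasurableSpace E] [BorelSpace E]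

/-- Abstract sum-versus-integral comparison: if `G` varies by at most `D α` on the cell
`α + F` of a fundamental domain `F`, and `D` is summable, then the lattice sum of `G` is
summable and close to `(∫ G) / μ F`. -/
theorem latticeSum_integral_aux (L : Submodule ℤ E) [DiscreteTopology L] [IsZLattice ℝ L]
    (μ : Measure E) [μ.IsAddHaarMeasure]
    {F : Set E} (hF : IsAddFundamentalDomain L F μ) (hFfin : μ F ≠ ⊤)
    (G : E → ℝ) (hG : Integrable G μ) (D : L → ℝ) (hD : Summable D)
    (h : ∀ (α : L) (y : E), y ∈ F → |G ((α : E) + y) - G α| ≤ D α) :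
    Summable (fun α : L => G α) ∧
      |μ.real F * ∑' α : L, G α - ∫ x, G x ∂μ| ≤ μ.real F * ∑' α, D α := by
  classical
  have : MeasurableVAdd L E := (inferInstance : MeasurableVAdd L.toAddSubgroup E)
  have : VAddInvariantMeasure L E μ :=
    (inferInstance : VAddInvariantMeasure L.toAddSubgroup E μ)
  have hsum : HasSum (fun g : L => ∫ x in g +ᵥ F, G x ∂μ) (∫ x, G x ∂μ) := by
    have h1 : Integrable G (Measure.sum fun g : L => μ.restrict (g +ᵥ F)) := by
      rw [hF.sum_restrict]; exact hG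
    have h2 := hasSum_integral_measure h1
    rwa [hF.sum_restrict] at h2
  have hm : ∀ g : L, μ (g +ᵥ F) = μ F := fun g => measure_vadd μ g F
  have hmfin : ∀ g : L, μ (g +ᵥ F) < ⊤ := fun g => by rw [hm g]; exact lt_top_iff_ne_top.2 hFfin
  have hmr : ∀ g : L, μ.real (g +ᵥ F) = μ.real F := fun g => by
    rw [measureReal_def, hm g, ← measureReal_def]
  have hgb : ∀ g : L, |μ.real F * G g - ∫ x in g +ᵥ F, G x ∂μ| ≤ μ.real F * D g := by
    intro g
    have e1 : μ.real F * G g - ∫ x in g +ᵥ F, G x ∂μ = ∫ x in g +ᵥ F, (G g - G x) ∂μ := by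
      have hc : Integrable (fun _ : E => G g) (μ.restrict (g +ᵥ F)) :=
        integrableOn_const (hs := (hmfin g).ne) (hC := by simp)
      rw [integral_sub hc hG.integrableOn, setIntegral_const, smul_eq_mul, hmr g]
    rw [e1]
    have e2 := norm_setIntegral_le_of_norm_le_const (μ := μ) (s := g +ᵥ F)
      (f := fun x => G g - G x) (C := D g) (hmfin g) (by
        intro x hx
        obtain ⟨y, hy, rfl⟩ := Set.mem_vadd_set.1 hx
        rw [Real.norm_eq_abs, abs_sub_comm]
        exact h g y hy)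
    rw [Real.norm_eq_abs, hmr g] at e2
    linarith [e2, mul_comm (D g) (μ.real F)]
  have hDs : Summable (fun g : L => μ.real F * D g) := hD.mul_left _
  have hdiff : Summable (fun g : L => μ.real F * G g - ∫ x in g +ᵥ F, G x ∂μ) :=
    Summable.of_norm_bounded hDs (fun g => by rw [Real.norm_eq_abs]; exact hgb g)
  have hb : Summable (fun g : L => μ.real F * G g) := by
    have := hdiff.add hsum.summable
    simpa using this
  have hpos : μ.real F ≠ 0 := by
    rw [measureReal_def]
    exact (ENNReal.toReal_ne_zero).2 ⟨hF.measure_ne_zero (NeZero.ne μ), hFfin⟩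
  have hGs : Summable (fun α : L => G α) := by
    have := hb.mul_left (μ.real F)⁻¹
    simpa [← mul_assoc, inv_mul_cancel₀ hpos] using this
  refine ⟨hGs, ?_⟩
  have e3 : μ.real F * ∑' α : L, G α - ∫ x, G x ∂μ =
      ∑' g : L, (μ.real F * G g - ∫ x in g +ᵥ F, G x ∂μ) := by
    rw [hb.tsum_sub hsum.summable, hsum.tsum_eq, tsum_mul_left]
  rw [e3, ← tsum_mul_left]
  calc |∑' g : L, (μ.real F * G g - ∫ x in g +ᵥ F, G x ∂μ)|
      ≤ ∑' g : L, |μ.real F * G g - ∫ x in g +ᵥ F, G x ∂μ| := by
        have := norm_tsum_le_tsum_norm (f := fun g : L => μ.real F * G g - ∫ x in g +ᵥ F, G x ∂μ)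
          (by simpa [Real.norm_eq_abs] using hdiff.abs)
        simpa [Real.norm_eq_abs] using this
    _ ≤ ∑' g : L, μ.real F * D g := hdiff.abs.tsum_le_tsum hgb hDs

omit [MeasurableSpace E] [BorelSpace E] in
/-- The majorant `(1 + ‖α‖) ^ (-(n + 1))` is summable over a lattice of rank `n`. -/
theorem summable_one_add_norm_rpow (L : Submodule ℤ E) [DiscreteTopology L] [IsZLattice ℝ L] :
    Summable (fun α : L => (1 + ‖(α : E)‖) ^ (-(finrank ℝ E + 1 : ℝ))) := by
  classical
  have hr : (-(finrank ℝ E + 1 : ℝ)) < -(finrank ℤ L : ℝ) := by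
    rw [ZLattice.rank ℝ L]; linarith
  have h1 : Summable (fun α : L => ‖α‖ ^ (-(finrank ℝ E + 1 : ℝ))) :=
    ZLattice.summable_norm_rpow L _ hr
  have h2 : Summable (fun α : L => if α = 0 then (1 : ℝ) else 0) :=
    summable_of_hasFiniteSupport (Set.Finite.subset (Set.finite_singleton (0 : L)) (by
      intro α hα
      by_contra h0
      simp only [Set.mem_singleton_iff] at h0
      simp [Function.mem_support, h0] at hα))
  refine Summable.of_nonneg_of_le (fun α => by positivity) (fun α => ?_) (h1.add h2)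
  by_cases h0 : α = 0
  · subst h0
    simp only [ZeroMemClass.coe_zero, norm_zero, add_zero, Real.one_rpow, if_true]
    have : (0 : ℝ) ≤ (0 : ℝ) ^ (-(finrank ℝ E + 1 : ℝ)) := by positivity
    linarith
  · have hpos : 0 < ‖α‖ := norm_pos_iff.2 h0
    have hle : ‖α‖ ≤ 1 + ‖(α : E)‖ := by
      have : ‖α‖ = ‖(α : E)‖ := rfl
      linarith
    have := Real.rpow_le_rpow_of_nonpos hpos hle
      (show (-(finrank ℝ E + 1 : ℝ)) ≤ 0 by
        have : (0 : ℝ) ≤ finrank ℝ E := Nat.cast_nonneg _
        linarith)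
    simp only [h0, if_false, add_zero]
    exact this

/-- **Sum versus integral** for a lattice: there are constants `R, B` (depending only on the
lattice) such that for every integrable `G` with
`|G (α + y) - G α| ≤ C * (1 + ‖α‖) ^ (-(n + 1))` for all lattice points `α` and `‖y‖ ≤ R`,
the lattice sum of `G` is summable and differs from `covolume⁻¹ * ∫ G` by at most `B * C`. -/
theorem exists_latticeSum_bound (L : Submodule ℤ E) [DiscreteTopology L] [IsZLattice ℝ L]
    (μ : Measure E) [μ.IsAddHaarMeasure] :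
    ∃ R B : ℝ, 0 < R ∧ 0 ≤ B ∧ ∀ (G : E → ℝ) (C : ℝ), Integrable G μ →
      (∀ (α : L) (y : E), ‖y‖ ≤ R →
        |G ((α : E) + y) - G α| ≤ C * (1 + ‖(α : E)‖) ^ (-(finrank ℝ E + 1 : ℝ))) →
      Summable (fun α : L => G α) ∧
        |∑' α : L, G α - (ZLattice.covolume L μ)⁻¹ * ∫ x, G x ∂μ| ≤ B * C := by
  classical
  set b := Module.Free.chooseBasis ℤ L with hb
  set F := ZSpan.fundamentalDomain (b.ofZLatticeBasis ℝ) with hFdef
  have hF : IsAddFundamentalDomain L F μ := ZLattice.isAddFundamentalDomain b μ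
  have hbd : Bornology.IsBounded F := ZSpan.fundamentalDomain_isBounded _
  obtain ⟨R0, hR0⟩ := isBounded_iff_forall_norm_le.1 hbd
  have hFfin : μ F ≠ ⊤ := hbd.measure_lt_top.ne
  have hcov : ZLattice.covolume L μ = μ.real F :=
    ZLattice.covolume_eq_measure_fundamentalDomain L μ hF
  have hpos : 0 < μ.real F := by
    rw [← hcov]; exact ZLattice.covolume_pos L μ
  have hS := summable_one_add_norm_rpow (E := E) L
  refine ⟨max R0 1, ∑' α : L, (1 + ‖(α : E)‖) ^ (-(finrank ℝ E + 1 : ℝ)),
    lt_of_lt_of_le one_pos (le_max_right _ _), tsum_nonneg (fun α => by positivity), ?_⟩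
  intro G C hG hGC
  have key := latticeSum_integral_aux L μ hF hFfin G hG
    (fun α : L => C * (1 + ‖(α : E)‖) ^ (-(finrank ℝ E + 1 : ℝ))) (hS.mul_left C)
    (fun α y hy => hGC α y ((hR0 y hy).trans (le_max_left _ _)))
  refine ⟨key.1, ?_⟩
  have h2 := key.2
  rw [tsum_mul_left] at h2
  rw [hcov]
  have e : ∑' α : L, G α - (μ.real F)⁻¹ * ∫ x, G x ∂μ =
      (μ.real F)⁻¹ * (μ.real F * ∑' α : L, G α - ∫ x, G x ∂μ) := by
    field_simp
  rw [e, abs_mul, abs_of_pos (inv_pos.2 hpos)]
  calc (μ.real F)⁻¹ * |μ.real F * ∑' α : L, G α - ∫ x, G x ∂μ|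
      ≤ (μ.real F)⁻¹ * (μ.real F * (C * ∑' α : L, (1 + ‖(α : E)‖) ^ (-(finrank ℝ E + 1 : ℝ)))) :=
        mul_le_mul_of_nonneg_left h2 (inv_pos.2 hpos).le
    _ = (∑' α : L, (1 + ‖(α : E)‖) ^ (-(finrank ℝ E + 1 : ℝ))) * C := by
        field_simp

end LatticeSum

end Fermat.Agent.S14
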