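import Mathlib
import Fermat.Agent.S14.LatticeSum

/-!
# S14 / P4 (c): decay and Lipschitz bound for `G_s = ρ ∘ logMap * f_s ∘ (c * norm)`

`ρ : logSpace K → ℝ` is an abstract Lipschitz function with values in `[0, 1]` vanishing
outside a ball; `f_s t = min t (t ^ (-s))`.
-/

set_option autoImplicit false

open MeasureTheory Module NumberField NumberField.InfinitePlace NumberField.mixedEmbedding
open NumberField.Units NumberField.Units.dirichletUnitTheorem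
open scoped Classical

namespace Fermat.Agent.S14

section Basic

variable {K : Type*} [Field K] [NumberField K]

/-- `normAtPlace w x ≤ ‖x‖`. -/
theorem normAtPlace_le_norm (w : InfinitePlace K) (x : mixedSpace K) :
    normAtPlace w x ≤ ‖x‖ := by
  rw [norm_eq_sup'_normAtPlace]
  exact Finset.le_sup' (fun w => normAtPlace w x) (Finset.mem_univ w)

/-- some place realises the norm. -/
theorem exists_normAtPlace_eq_norm (x : mixedSpace K) :
    ∃ w : InfinitePlace K, normAtPlace w x = ‖x‖ := by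
  rw [norm_eq_sup'_normAtPlace]
  obtain ⟨w, -, hw⟩ := Finset.exists_mem_eq_sup' Finset.univ_nonempty
    (fun w => normAtPlace w x)
  exact ⟨w, hw.symm⟩

/-- `normAtPlace w` is `1`-Lipschitz. -/
theorem abs_normAtPlace_sub_le (w : InfinitePlace K) (x y : mixedSpace K) :
    |normAtPlace w x - normAtPlace w y| ≤ ‖x - y‖ := by
  have h1 : normAtPlace w x ≤ normAtPlace w y + normAtPlace w (x - y) := by
    have := normAtPlace_add_le w y (x - y)
    simpa using this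
  have h2 : normAtPlace w y ≤ normAtPlace w x + normAtPlace w (x - y) := by
    have := normAtPlace_add_le w x (y - x)
    have e : normAtPlace w (y - x) = normAtPlace w (x - y) := by
      rw [← normAtPlace_neg, neg_sub]
    rw [e] at this
    simpa using this
  have h3 := normAtPlace_le_norm w (x - y)
  rw [abs_le]
  constructor <;> linarith

/-- the norm is at most `‖x‖ ^ n`. -/
theorem mixedNorm_le_pow (x : mixedSpace K) :
    mixedEmbedding.norm x ≤ ‖x‖ ^ (finrank ℚ K) := by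
  rw [mixedEmbedding.norm_apply, ← sum_mult_eq, ← Finset.prod_pow_eq_pow_sum]
  exact Finset.prod_le_prod (fun w _ => pow_nonneg (normAtPlace_nonneg w x) _)
    (fun w _ => pow_le_pow_left₀ (normAtPlace_nonneg w x) (normAtPlace_le_norm w x) _)

/-- the norm is at least `m ^ n` if all coordinates are at least `m ≥ 0`. -/
theorem pow_le_mixedNorm {x : mixedSpace K} {m : ℝ} (hm : 0 ≤ m)
    (h : ∀ w, m ≤ normAtPlace w x) :
    m ^ (finrank ℚ K) ≤ mixedEmbedding.norm x := by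
  rw [mixedEmbedding.norm_apply, ← sum_mult_eq, ← Finset.prod_pow_eq_pow_sum]
  exact Finset.prod_le_prod (fun w _ => pow_nonneg hm _)
    (fun w _ => pow_le_pow_left₀ hm (h w) _)

/-- `∑ w, mult w * log (normAtPlace w x) = log (norm x)` when the norm is nonzero. -/
theorem sum_mult_mul_log {x : mixedSpace K} (hx : mixedEmbedding.norm x ≠ 0) :
    ∑ w : InfinitePlace K, (mult w : ℝ) * Real.log (normAtPlace w x) =
      Real.log (mixedEmbedding.norm x) := by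
  rw [mixedEmbedding.norm_apply, Real.log_prod]
  · refine Finset.sum_congr rfl fun w _ => ?_
    rw [Real.log_pow]
  · intro w _
    exact pow_ne_zero _ (mixedEmbedding.norm_ne_zero_iff.1 hx w)

/-- the deviation `log (normAtPlace w x) - log (norm x) / n`. -/
noncomputable def logDev (x : mixedSpace K) (w : InfinitePlace K) : ℝ :=
  Real.log (normAtPlace w x) - Real.log (mixedEmbedding.norm x) * (finrank ℚ K : ℝ)⁻¹

theorem sum_mult_mul_logDev {x : mixedSpace K} (hx : mixedEmbedding.norm x ≠ 0) :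
    ∑ w : InfinitePlace K, (mult w : ℝ) * logDev x w = 0 := by
  have hn : (finrank ℚ K : ℝ) ≠ 0 := Nat.cast_ne_zero.2 (finrank_pos).ne'
  simp only [logDev, mul_sub, Finset.sum_sub_distrib, sum_mult_mul_log hx]
  rw [← Finset.sum_mul, ← Nat.cast_sum, sum_mult_eq]
  field_simp
  ring

theorem logMap_eq_mult_mul_logDev (x : mixedSpace K) (w : {w : InfinitePlace K // w ≠ w₀}) :
    logMap x w = (mult w.1 : ℝ) * logDev x w.1 := rfl

/-- On the cone `‖logMap x‖ ≤ R` all deviations are bounded by `card * R`. -/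
theorem abs_logDev_le {x : mixedSpace K} (hx : mixedEmbedding.norm x ≠ 0) {R : ℝ}
    (h : ‖logMap x‖ ≤ R) (w : InfinitePlace K) :
    |logDev x w| ≤ (Fintype.card (InfinitePlace K) : ℝ) * R := by
  have hR : 0 ≤ R := (norm_nonneg _).trans h
  have hcard : (1 : ℝ) ≤ (Fintype.card (InfinitePlace K) : ℝ) := by
    exact_mod_cast Fintype.card_pos
  have hne : ∀ v : {w : InfinitePlace K // w ≠ w₀}, |(mult v.1 : ℝ) * logDev x v.1| ≤ R := by
    intro v
    have := norm_le_pi_norm (logMap x) v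
    rw [Real.norm_eq_abs, logMap_eq_mult_mul_logDev] at this
    exact this.trans h
  have hmult : ∀ v : InfinitePlace K, |logDev x v| ≤ |(mult v : ℝ) * logDev x v| := by
    intro v
    rw [abs_mul]
    have h1 : (1 : ℝ) ≤ |(mult v : ℝ)| := by
      rw [abs_of_nonneg (Nat.cast_nonneg _)]; exact one_le_mult
    nlinarith [abs_nonneg (logDev x v)]
  by_cases hw : w = w₀
  · subst hw
    have hsum := sum_mult_mul_logDev hx
    rw [← Finset.add_sum_erase Finset.univ _ (Finset.mem_univ (w₀ : InfinitePlace K))] at hsum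
    have e : (mult (w₀ : InfinitePlace K) : ℝ) * logDev x w₀ =
        -∑ v ∈ Finset.univ.erase (w₀ : InfinitePlace K), (mult v : ℝ) * logDev x v := by
      linarith
    have hb : |∑ v ∈ Finset.univ.erase (w₀ : InfinitePlace K), (mult v : ℝ) * logDev x v| ≤
        ∑ v ∈ Finset.univ.erase (w₀ : InfinitePlace K), R := by
      refine (Finset.abs_sum_le_sum_abs _ _).trans (Finset.sum_le_sum fun v hv => ?_)
      exact hne ⟨v, Finset.ne_of_mem_erase hv⟩
    rw [Finset.sum_const, nsmul_eq_mul] at hb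
    have hc : ((Finset.univ.erase (w₀ : InfinitePlace K)).card : ℝ) ≤
        (Fintype.card (InfinitePlace K) : ℝ) := by
      exact_mod_cast Finset.card_le_univ _
    calc |logDev x w₀| ≤ |(mult (w₀ : InfinitePlace K) : ℝ) * logDev x w₀| := hmult _
      _ = |∑ v ∈ Finset.univ.erase (w₀ : InfinitePlace K), (mult v : ℝ) * logDev x v| := by
          rw [e, abs_neg]
      _ ≤ ((Finset.univ.erase (w₀ : InfinitePlace K)).card : ℝ) * R := hb
      _ ≤ (Fintype.card (InfinitePlace K) : ℝ) * R := mul_le_mul_of_nonneg_right hc hR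
  · calc |logDev x w| ≤ |(mult w : ℝ) * logDev x w| := hmult w
      _ ≤ R := hne ⟨w, hw⟩
      _ ≤ (Fintype.card (InfinitePlace K) : ℝ) * R := by nlinarith

/-- **Cone lemma**: on `‖logMap x‖ ≤ R` all coordinates are comparable with `‖x‖`. -/
theorem normAtPlace_ge_of_logMap_le {x : mixedSpace K} (hx : mixedEmbedding.norm x ≠ 0)
    {R : ℝ} (h : ‖logMap x‖ ≤ R) (w : InfinitePlace K) :
    Real.exp (-(2 * ((Fintype.card (InfinitePlace K) : ℝ) * R))) * ‖x‖ ≤ normAtPlace w x := by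
  obtain ⟨w₁, hw₁⟩ := exists_normAtPlace_eq_norm x
  have hpos : ∀ v, 0 < normAtPlace v x := fun v =>
    lt_of_le_of_ne (normAtPlace_nonneg v x) (Ne.symm (mixedEmbedding.norm_ne_zero_iff.1 hx v))
  have h1 := abs_le.1 (abs_logDev_le hx h w)
  have h2 := abs_le.1 (abs_logDev_le hx h w₁)
  have hlog : Real.log (normAtPlace w₁ x) - 2 * ((Fintype.card (InfinitePlace K) : ℝ) * R) ≤
      Real.log (normAtPlace w x) := by
    simp only [logDev] at h1 h2
    linarith [h1.1, h2.2]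
  have := Real.exp_le_exp.2 hlog
  rw [Real.exp_log (hpos w), sub_eq_add_neg, Real.exp_add, Real.exp_log (hpos w₁), hw₁] at this
  linarith

/-- `|log a - log b| ≤ |a - b| / m` for `a, b ≥ m > 0`. -/
theorem abs_log_sub_log_le {a b m : ℝ} (hm : 0 < m) (ha : m ≤ a) (hb : m ≤ b) :
    |Real.log a - Real.log b| ≤ |a - b| / m := by
  have ha0 : 0 < a := hm.trans_le ha
  have hb0 : 0 < b := hm.trans_le hb
  have key : ∀ {u v : ℝ}, 0 < u → 0 < v → m ≤ v → Real.log u - Real.log v ≤ |u - v| / m := by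
    intro u v hu hv hmv
    have h1 : Real.log (u / v) ≤ u / v - 1 := Real.log_le_sub_one_of_pos (div_pos hu hv)
    rw [Real.log_div hu.ne' hv.ne'] at h1
    have h2 : u / v - 1 = (u - v) / v := by field_simp
    rw [h2] at h1
    have h3 : (u - v) / v ≤ |u - v| / v :=
      div_le_div_of_nonneg_right (le_abs_self _) hv.le
    have h4 : |u - v| / v ≤ |u - v| / m :=
      div_le_div_of_nonneg_left (abs_nonneg _) hm hmv
    linarith
  rw [abs_le]
  constructor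
  · have := key hb0 ha0 ha
    rw [abs_sub_comm] at this
    linarith
  · exact key ha0 hb0 hb

/-- Lipschitz bound for `log ∘ normAtPlace` on `{normAtPlace ≥ m}`. -/
theorem abs_log_normAtPlace_sub_le {x y : mixedSpace K} {m : ℝ} (hm : 0 < m)
    (hx : ∀ w, m ≤ normAtPlace w x) (hy : ∀ w, m ≤ normAtPlace w y) (w : InfinitePlace K) :
    |Real.log (normAtPlace w y) - Real.log (normAtPlace w x)| ≤ ‖y - x‖ / m :=
  (abs_log_sub_log_le hm (hy w) (hx w)).trans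
    (div_le_div_of_nonneg_right (abs_normAtPlace_sub_le w y x) hm.le)

theorem mixedNorm_ne_zero_of_le {x : mixedSpace K} {m : ℝ} (hm : 0 < m)
    (hx : ∀ w, m ≤ normAtPlace w x) : mixedEmbedding.norm x ≠ 0 :=
  mixedEmbedding.norm_ne_zero_iff.2 fun w => (hm.trans_le (hx w)).ne'

/-- Lipschitz bound for `log ∘ norm` on `{normAtPlace ≥ m}`. -/
theorem abs_log_mixedNorm_sub_le {x y : mixedSpace K} {m : ℝ} (hm : 0 < m)
    (hx : ∀ w, m ≤ normAtPlace w x) (hy : ∀ w, m ≤ normAtPlace w y) :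
    |Real.log (mixedEmbedding.norm y) - Real.log (mixedEmbedding.norm x)| ≤
      (finrank ℚ K : ℝ) * (‖y - x‖ / m) := by
  rw [← sum_mult_mul_log (mixedNorm_ne_zero_of_le hm hx),
    ← sum_mult_mul_log (mixedNorm_ne_zero_of_le hm hy), ← Finset.sum_sub_distrib]
  refine (Finset.abs_sum_le_sum_abs _ _).trans ?_
  have : ∀ w ∈ (Finset.univ : Finset (InfinitePlace K)),
      |(mult w : ℝ) * Real.log (normAtPlace w y) - (mult w : ℝ) * Real.log (normAtPlace w x)| ≤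
        (mult w : ℝ) * (‖y - x‖ / m) := by
    intro w _
    rw [← mul_sub, abs_mul, abs_of_nonneg (Nat.cast_nonneg _)]
    exact mul_le_mul_of_nonneg_left (abs_log_normAtPlace_sub_le hm hx hy w) (Nat.cast_nonneg _)
  refine (Finset.sum_le_sum this).trans ?_
  rw [← Finset.sum_mul, ← Nat.cast_sum, sum_mult_eq]

/-- Lipschitz bound for `logMap` on `{normAtPlace ≥ m}`. -/
theorem norm_logMap_sub_le {x y : mixedSpace K} {m : ℝ} (hm : 0 < m)
    (hx : ∀ w, m ≤ normAtPlace w x) (hy : ∀ w, m ≤ normAtPlace w y) :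
    ‖logMap y - logMap x‖ ≤ 4 * (‖y - x‖ / m) := by
  have hn : (0 : ℝ) < (finrank ℚ K : ℝ) := Nat.cast_pos.2 finrank_pos
  have hq : 0 ≤ ‖y - x‖ / m := div_nonneg (norm_nonneg _) hm.le
  rw [pi_norm_le_iff_of_nonneg (by positivity)]
  intro w
  rw [Pi.sub_apply, logMap_apply, logMap_apply, ← mul_sub, Real.norm_eq_abs, abs_mul,
    abs_of_nonneg (Nat.cast_nonneg _)]
  have h1 := abs_log_normAtPlace_sub_le hm hx hy w.1
  have h2 := abs_log_mixedNorm_sub_le hm hx hy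
  have h3 : |(Real.log (mixedEmbedding.norm y) - Real.log (mixedEmbedding.norm x)) *
      (finrank ℚ K : ℝ)⁻¹| ≤ ‖y - x‖ / m := by
    rw [abs_mul, abs_of_pos (inv_pos.2 hn)]
    calc |Real.log (mixedEmbedding.norm y) - Real.log (mixedEmbedding.norm x)| *
          (finrank ℚ K : ℝ)⁻¹ ≤ ((finrank ℚ K : ℝ) * (‖y - x‖ / m)) * (finrank ℚ K : ℝ)⁻¹ :=
          mul_le_mul_of_nonneg_right h2 (inv_pos.2 hn).le
      _ = ‖y - x‖ / m := by field_simp
  have h4 : |Real.log (normAtPlace w.1 y) - Real.log (mixedEmbedding.norm y) *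
      (finrank ℚ K : ℝ)⁻¹ - (Real.log (normAtPlace w.1 x) - Real.log (mixedEmbedding.norm x) *
      (finrank ℚ K : ℝ)⁻¹)| ≤ 2 * (‖y - x‖ / m) := by
    have e : Real.log (normAtPlace w.1 y) - Real.log (mixedEmbedding.norm y) *
      (finrank ℚ K : ℝ)⁻¹ - (Real.log (normAtPlace w.1 x) - Real.log (mixedEmbedding.norm x) *
      (finrank ℚ K : ℝ)⁻¹) = (Real.log (normAtPlace w.1 y) - Real.log (normAtPlace w.1 x)) -
      (Real.log (mixedEmbedding.norm y) - Real.log (mixedEmbedding.norm x)) *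
      (finrank ℚ K : ℝ)⁻¹ := by ring
    rw [e]
    refine (abs_sub _ _).trans ?_
    linarith
  have hmult : (mult w.1 : ℝ) ≤ 2 := by
    have : mult w.1 ≤ 2 := by
      rw [mult]; split_ifs <;> norm_num
    exact_mod_cast this
  calc (mult w.1 : ℝ) * _ ≤ 2 * (2 * (‖y - x‖ / m)) :=
        mul_le_mul hmult h4 (abs_nonneg _) (by norm_num)
    _ = 4 * (‖y - x‖ / m) := by ring

end Basic

section FS

/-- the radial profile: `f_s t = min t (t ^ (-s))`; equals `t ^ (-s)` for `t ≥ 1`, vanishes at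
`0`, bounded by `1`, Lipschitz in `log t`. -/
noncomputable def fS (s t : ℝ) : ℝ := min t (t ^ (-s))

theorem fS_nonneg (s : ℝ) {t : ℝ} (ht : 0 ≤ t) : 0 ≤ fS s t :=
  le_min ht (Real.rpow_nonneg ht _)

theorem fS_le_self (s t : ℝ) : fS s t ≤ t := min_le_left _ _

theorem fS_le_rpow (s t : ℝ) : fS s t ≤ t ^ (-s) := min_le_right _ _

theorem fS_zero {s : ℝ} (hs : s ≠ 0) : fS s 0 = 0 := by
  simp [fS, Real.zero_rpow (neg_ne_zero.2 hs)]

theorem fS_le_one {s : ℝ} (hs : 0 ≤ s) (t : ℝ) : fS s t ≤ 1 := by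
  rcases le_total t 1 with h | h
  · exact (fS_le_self s t).trans h
  · refine (fS_le_rpow s t).trans ?_
    exact Real.rpow_le_one_of_one_le_of_nonpos h (neg_nonpos.2 hs)

theorem fS_le_inv {s : ℝ} (hs : 1 ≤ s) {t : ℝ} (ht : 0 < t) : fS s t ≤ t⁻¹ := by
  rcases le_total t 1 with h | h
  · exact (fS_le_self s t).trans (h.trans ((one_le_inv₀ ht).2 h))
  · refine (fS_le_rpow s t).trans ?_
    rw [← Real.rpow_neg_one]
    exact Real.rpow_le_rpow_of_exponent_le h (by linarith)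

theorem fS_eq_rpow {s : ℝ} (hs : 0 ≤ s) {t : ℝ} (ht : 1 ≤ t) : fS s t = t ^ (-s) := by
  refine min_eq_right ?_
  exact (Real.rpow_le_one_of_one_le_of_nonpos ht (neg_nonpos.2 hs)).trans ht

theorem fS_eq_exp {s t : ℝ} (ht : 0 < t) :
    fS s t = Real.exp (min (Real.log t) (-s * Real.log t)) := by
  rw [fS]
  have h1 : t = Real.exp (Real.log t) := (Real.exp_log ht).symm
  have h2 : t ^ (-s) = Real.exp (-s * Real.log t) := by
    rw [Real.rpow_def_of_pos ht, mul_comm]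
  rcases le_total (Real.log t) (-s * Real.log t) with h | h
  · rw [min_eq_left h, min_eq_left]
    · exact h1
    · rw [h2]; conv_lhs => rw [h1]
      exact Real.exp_le_exp.2 h
  · rw [min_eq_right h, min_eq_right]
    · exact h2
    · rw [h2]; conv_rhs => rw [h1]
      exact Real.exp_le_exp.2 h

/-- `|e^p - e^q| ≤ M |p - q|` if `e^p, e^q ≤ M`. -/
theorem abs_exp_sub_exp_le {p q M : ℝ} (hp : Real.exp p ≤ M) (hq : Real.exp q ≤ M) :
    |Real.exp p - Real.exp q| ≤ M * |p - q| := by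
  have key : ∀ {u v : ℝ}, v ≤ u → Real.exp u ≤ M → |Real.exp u - Real.exp v| ≤ M * |u - v| := by
    intro u v huv hu
    have h1 : Real.exp v ≤ Real.exp u := Real.exp_le_exp.2 huv
    rw [abs_of_nonneg (sub_nonneg.2 h1), abs_of_nonneg (sub_nonneg.2 huv)]
    have h2 : 1 - (u - v) ≤ Real.exp (-(u - v)) := by
      have := Real.add_one_le_exp (-(u - v))
      linarith
    have h3 : Real.exp v = Real.exp u * Real.exp (-(u - v)) := by
      rw [← Real.exp_add]; congr 1; ring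
    have h4 : Real.exp u - Real.exp v ≤ Real.exp u * (u - v) := by
      rw [h3]
      have := mul_le_mul_of_nonneg_left h2 (Real.exp_pos u).le
      linarith
    exact h4.trans (mul_le_mul_of_nonneg_right hu (sub_nonneg.2 huv))
  rcases le_total q p with h | h
  · exact key h hp
  · rw [abs_sub_comm, abs_sub_comm p q]
    exact key h hq

/-- `fS` is Lipschitz in `log t`, with constant `s * M` where `M` bounds the values. -/
theorem abs_fS_sub_le {s : ℝ} (hs : 1 ≤ s) {t t' M : ℝ} (ht : 0 < t) (ht' : 0 < t')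
    (hM : fS s t ≤ M) (hM' : fS s t' ≤ M) :
    |fS s t - fS s t'| ≤ s * M * |Real.log t - Real.log t'| := by
  rw [fS_eq_exp ht] at hM ⊢
  rw [fS_eq_exp ht'] at hM' ⊢
  refine (abs_exp_sub_exp_le hM hM').trans ?_
  have hM0 : 0 ≤ M := (Real.exp_pos _).le.trans hM
  have hφ : |min (Real.log t) (-s * Real.log t) - min (Real.log t') (-s * Real.log t')| ≤
      s * |Real.log t - Real.log t'| := by
    refine (abs_min_sub_min_le_max _ _ _ _).trans ?_
    refine max_le ?_ ?_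
    · nlinarith [abs_nonneg (Real.log t - Real.log t')]
    · rw [← mul_sub, abs_mul, abs_neg, abs_of_nonneg (by linarith : (0 : ℝ) ≤ s)]
  calc M * |min (Real.log t) (-s * Real.log t) - min (Real.log t') (-s * Real.log t')|
      ≤ M * (s * |Real.log t - Real.log t'|) := mul_le_mul_of_nonneg_left hφ hM0
    _ = s * M * |Real.log t - Real.log t'| := by ring

end FS

section Decay

variable {K : Type*} [Field K] [NumberField K]

/-- `G_{s,c}(x) = ρ (logMap x) * f_s (c * norm x)`. -/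
noncomputable def Gs (ρ : logSpace K → ℝ) (s c : ℝ) (x : mixedSpace K) : ℝ :=
  ρ (logMap x) * fS s (c * mixedEmbedding.norm x)

variable {ρ : logSpace K → ℝ}

theorem Gs_nonneg (hρ0 : ∀ y, 0 ≤ ρ y) {c : ℝ} (hc : 0 ≤ c) (s : ℝ) (x : mixedSpace K) :
    0 ≤ Gs ρ s c x :=
  mul_nonneg (hρ0 _) (fS_nonneg s (mul_nonneg hc (mixedEmbedding.norm_nonneg x)))

theorem Gs_le_one (hρ1 : ∀ y, ρ y ≤ 1) {c : ℝ} (hc : 0 ≤ c) {s : ℝ}
    (hs : 0 ≤ s) (x : mixedSpace K) : Gs ρ s c x ≤ 1 := by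
  have h1 := fS_le_one hs (c * mixedEmbedding.norm x)
  have h2 := fS_nonneg s (mul_nonneg hc (mixedEmbedding.norm_nonneg x))
  calc Gs ρ s c x ≤ 1 * 1 := mul_le_mul (hρ1 _) h1 h2 zero_le_one
    _ = 1 := one_mul 1

/-- elementary inequality used for the decay. -/
theorem min_div_le_decay (n : ℕ) (hn : 1 ≤ n) {A B T : ℝ} (hA : 0 ≤ A) (hB : 0 ≤ B)
    (hT : 0 < T) :
    min (A * T ^ n) (B * (T ^ n)⁻¹) / T ≤ (A + B) * 2 ^ (n + 1) * ((1 + T) ^ (n + 1))⁻¹ := by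
  have h1T : (0 : ℝ) < (1 + T) ^ (n + 1) := by positivity
  have e0 : (A + B) * 2 ^ (n + 1) * ((1 + T) ^ (n + 1))⁻¹ * T =
      ((A + B) * 2 ^ (n + 1) * T) / (1 + T) ^ (n + 1) := by field_simp
  rw [div_le_iff₀ hT, e0, le_div_iff₀ h1T]
  rcases le_total T 1 with h | h
  · have e1 : min (A * T ^ n) (B * (T ^ n)⁻¹) ≤ A * T ^ n := min_le_left _ _
    have e2 : (1 + T) ^ (n + 1) ≤ 2 ^ (n + 1) :=
      pow_le_pow_left₀ (by linarith) (by linarith) _
    have e3 : T ^ n ≤ T := by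
      calc T ^ n ≤ T ^ 1 := pow_le_pow_of_le_one hT.le h hn
        _ = T := pow_one T
    have e4 : A * T ^ n ≤ A * T := mul_le_mul_of_nonneg_left e3 hA
    calc min (A * T ^ n) (B * (T ^ n)⁻¹) * (1 + T) ^ (n + 1)
        ≤ (A * T) * 2 ^ (n + 1) :=
          mul_le_mul (e1.trans e4) e2 h1T.le (mul_nonneg hA hT.le)
      _ ≤ (A + B) * 2 ^ (n + 1) * T := by
          have : 0 ≤ B * 2 ^ (n + 1) * T := by positivity
          nlinarith
  · have e1 : min (A * T ^ n) (B * (T ^ n)⁻¹) ≤ B * (T ^ n)⁻¹ := min_le_right _ _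
    have e2 : (1 + T) ^ (n + 1) ≤ (2 * T) ^ (n + 1) :=
      pow_le_pow_left₀ (by linarith) (by linarith) _
    have hTn : (0 : ℝ) < T ^ n := by positivity
    calc min (A * T ^ n) (B * (T ^ n)⁻¹) * (1 + T) ^ (n + 1)
        ≤ (B * (T ^ n)⁻¹) * (2 * T) ^ (n + 1) :=
          mul_le_mul e1 e2 h1T.le (by positivity)
      _ = B * 2 ^ (n + 1) * T := by
          rw [mul_pow, pow_succ T n]; field_simp
      _ ≤ (A + B) * 2 ^ (n + 1) * T := by
          have : 0 ≤ A * 2 ^ (n + 1) * T := by positivity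
          nlinarith

/-- the constant in the decay estimate. -/
noncomputable def decayConst (K : Type*) [Field K] [NumberField K] (Lρ R c R₀ : ℝ) : ℝ :=
  (1 + R₀ / (Real.exp (-(2 * ((Fintype.card (InfinitePlace K) : ℝ) * R))) / 2)) ^
      (finrank ℚ K + 1) +
    (4 * Lρ + 2 * (finrank ℚ K : ℝ)) *
      (R₀ / (Real.exp (-(2 * ((Fintype.card (InfinitePlace K) : ℝ) * R))) / 2)) *
      ((c * (1 + Real.exp (-(2 * ((Fintype.card (InfinitePlace K) : ℝ) * R))) / 2) ^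
          (finrank ℚ K) +
        (c * (Real.exp (-(2 * ((Fintype.card (InfinitePlace K) : ℝ) * R))) / 2) ^
          (finrank ℚ K))⁻¹) * 2 ^ (finrank ℚ K + 1))

theorem decayConst_nonneg {Lρ R c R₀ : ℝ} (hL : 0 ≤ Lρ) (hc : 0 < c) (hR₀ : 0 ≤ R₀) :
    0 ≤ decayConst K Lρ R c R₀ := by
  unfold decayConst
  positivity

/-- one-sided decay estimate: `x` in the support of `G`. -/
theorem abs_Gs_sub_le_of_ne_zero {Lρ : ℝ} (hLρ : 0 ≤ Lρ)
    (hρL : ∀ y y', |ρ y - ρ y'| ≤ Lρ * ‖y - y'‖)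
    (hρ0 : ∀ y, 0 ≤ ρ y) (hρ1 : ∀ y, ρ y ≤ 1) {R : ℝ} (hρs : ∀ y, R ≤ ‖y‖ → ρ y = 0)
    {c : ℝ} (hc : 0 < c) {R₀ : ℝ} (hR₀ : 0 ≤ R₀) {s : ℝ} (hs1 : 1 ≤ s) (hs2 : s ≤ 2)
    {x y : mixedSpace K} (hx : Gs ρ s c x ≠ 0) (hxy : ‖y - x‖ ≤ R₀) :
    |Gs ρ s c y - Gs ρ s c x| ≤
      decayConst K Lρ R c R₀ * ((1 + ‖x‖) ^ (finrank ℚ K + 1))⁻¹ := by
  have hs0 : (0 : ℝ) ≤ s := by linarith
  obtain ⟨n, hn⟩ : ∃ n : ℕ, n = finrank ℚ K := ⟨_, rfl⟩
  have hn1 : 1 ≤ n := hn ▸ finrank_pos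
  obtain ⟨κ, hκ⟩ : ∃ κ : ℝ, κ = Real.exp (-(2 * ((Fintype.card (InfinitePlace K) : ℝ) * R))) :=
    ⟨_, rfl⟩
  have hκ0 : 0 < κ := hκ ▸ Real.exp_pos _
  obtain ⟨δ, hδ⟩ : ∃ δ : ℝ, δ = κ / 2 := ⟨_, rfl⟩
  have hδ0 : 0 < δ := by rw [hδ]; positivity
  obtain ⟨T, hT⟩ : ∃ T : ℝ, T = ‖x‖ := ⟨_, rfl⟩
  have hD : decayConst K Lρ R c R₀ = (1 + R₀ / δ) ^ (n + 1) +
      (4 * Lρ + 2 * (n : ℝ)) * (R₀ / δ) * ((c * (1 + δ) ^ n + (c * δ ^ n)⁻¹) * 2 ^ (n + 1)) := by
    rw [hδ, hκ, hn]; rfl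
  rw [hD, ← hn, ← hT]
  clear hD
  -- facts from the support
  have hx1 : ρ (logMap x) ≠ 0 := fun h => hx (by simp [Gs, h])
  have hx2 : fS s (c * mixedEmbedding.norm x) ≠ 0 := fun h => hx (by simp [Gs, h])
  have hNx : mixedEmbedding.norm x ≠ 0 := by
    intro h
    apply hx2
    rw [h, mul_zero]
    exact fS_zero (by linarith)
  have hlx : ‖logMap x‖ ≤ R := by
    by_contra h
    exact hx1 (hρs _ (not_le.1 h).le)
  have hcone : ∀ w, κ * T ≤ normAtPlace w x := by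
    intro w; rw [hκ, hT]; exact normAtPlace_ge_of_logMap_le hNx hlx w
  have hT0 : 0 < T := by
    rw [hT, norm_pos_iff]
    intro h0
    exact hNx (h0 ▸ map_zero _)
  have h1T : (0 : ℝ) < (1 + T) ^ (n + 1) := by positivity
  have hG01 : ∀ z, 0 ≤ Gs ρ s c z ∧ Gs ρ s c z ≤ 1 := fun z =>
    ⟨Gs_nonneg hρ0 hc.le s z, Gs_le_one hρ1 hc.le hs0 z⟩
  have hterm2 : 0 ≤ (4 * Lρ + 2 * (n : ℝ)) * (R₀ / δ) *
      ((c * (1 + δ) ^ n + (c * δ ^ n)⁻¹) * 2 ^ (n + 1)) := by positivity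
  by_cases hfar : δ * T ≤ ‖y - x‖
  · -- far case: `T` is bounded
    have hTle : T ≤ R₀ / δ := by
      rw [le_div_iff₀ hδ0]; linarith
    have h1 : |Gs ρ s c y - Gs ρ s c x| ≤ 1 := by
      rw [abs_le]
      constructor <;> linarith [(hG01 x).1, (hG01 x).2, (hG01 y).1, (hG01 y).2]
    have h2 : (1 + T) ^ (n + 1) ≤ (1 + R₀ / δ) ^ (n + 1) :=
      pow_le_pow_left₀ (by linarith) (by linarith) _
    have h3 : (1 : ℝ) ≤ (1 + R₀ / δ) ^ (n + 1) * ((1 + T) ^ (n + 1))⁻¹ := by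
      rw [← div_eq_mul_inv, le_div_iff₀ h1T]; linarith
    have h4 : 0 ≤ (4 * Lρ + 2 * (n : ℝ)) * (R₀ / δ) *
      ((c * (1 + δ) ^ n + (c * δ ^ n)⁻¹) * 2 ^ (n + 1)) * ((1 + T) ^ (n + 1))⁻¹ :=
      mul_nonneg hterm2 (inv_nonneg.2 h1T.le)
    rw [add_mul]
    linarith
  · -- near case
    have hnear : ‖y - x‖ < δ * T := not_le.1 hfar
    obtain ⟨m, hm⟩ : ∃ m : ℝ, m = δ * T := ⟨_, rfl⟩
    rw [← hm] at hnear
    have hm0 : 0 < m := by rw [hm]; positivity
    have hκm : κ * T = 2 * m := by rw [hm, hδ]; ring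
    have hxm : ∀ w, m ≤ normAtPlace w x := fun w => by
      have := hcone w
      linarith
    have hym : ∀ w, m ≤ normAtPlace w y := fun w => by
      have h1 := abs_le.1 (abs_normAtPlace_sub_le w x y)
      have h2 : ‖x - y‖ = ‖y - x‖ := norm_sub_rev _ _
      have h3 := hcone w
      linarith [h1.2]
    have hNy : mixedEmbedding.norm y ≠ 0 := mixedNorm_ne_zero_of_le hm0 hym
    have hNx0 : 0 < mixedEmbedding.norm x :=
      lt_of_le_of_ne (mixedEmbedding.norm_nonneg x) (Ne.symm hNx)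
    have hNy0 : 0 < mixedEmbedding.norm y :=
      lt_of_le_of_ne (mixedEmbedding.norm_nonneg y) (Ne.symm hNy)
    have hq0 : 0 ≤ ‖y - x‖ / m := div_nonneg (norm_nonneg _) hm0.le
    have hl := norm_logMap_sub_le hm0 hxm hym
    have hlogN : |Real.log (mixedEmbedding.norm y) - Real.log (mixedEmbedding.norm x)| ≤
        (n : ℝ) * (‖y - x‖ / m) := hn ▸ abs_log_mixedNorm_sub_le hm0 hxm hym
    -- the bound `M` for `fS`
    obtain ⟨M, hM⟩ : ∃ M : ℝ, M = min (c * ((1 + δ) * T) ^ n) ((c * m ^ n)⁻¹) := ⟨_, rfl⟩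
    have hyT : ‖y‖ ≤ (1 + δ) * T := by
      have : ‖y‖ ≤ ‖x‖ + ‖y - x‖ := by
        have := norm_add_le x (y - x)
        simpa using this
      rw [← hT] at this
      rw [hm] at hnear
      linarith
    have hxT : ‖x‖ ≤ (1 + δ) * T := by
      rw [← hT]
      have : 0 ≤ δ * T := by positivity
      linarith
    have hfM : ∀ z : mixedSpace K, ‖z‖ ≤ (1 + δ) * T → (∀ w, m ≤ normAtPlace w z) →
        fS s (c * mixedEmbedding.norm z) ≤ M := by
      intro z hz hzm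
      have hNz : m ^ n ≤ mixedEmbedding.norm z := hn ▸ pow_le_mixedNorm hm0.le hzm
      have hNz0 : 0 < mixedEmbedding.norm z := lt_of_lt_of_le (by positivity) hNz
      rw [hM]
      refine le_min ?_ ?_
      · refine (fS_le_self _ _).trans (mul_le_mul_of_nonneg_left ?_ hc.le)
        exact (hn ▸ mixedNorm_le_pow z).trans (pow_le_pow_left₀ (norm_nonneg _) hz _)
      · refine (fS_le_inv hs1 (by positivity)).trans ?_
        rw [inv_le_inv₀ (by positivity) (by positivity)]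
        exact mul_le_mul_of_nonneg_left hNz hc.le
    have hMx := hfM x hxT hxm
    have hMy := hfM y hyT hym
    have hM0 : 0 ≤ M := (fS_nonneg s (mul_nonneg hc.le hNx0.le)).trans hMx
    -- difference of `fS`
    have hfdiff : |fS s (c * mixedEmbedding.norm y) - fS s (c * mixedEmbedding.norm x)| ≤
        s * M * ((n : ℝ) * (‖y - x‖ / m)) := by
      refine (abs_fS_sub_le hs1 (by positivity) (by positivity) hMy hMx).trans ?_
      rw [Real.log_mul hc.ne' hNy, Real.log_mul hc.ne' hNx, add_sub_add_left_eq_sub]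
      exact mul_le_mul_of_nonneg_left hlogN (by positivity)
    have hρdiff : |ρ (logMap y) - ρ (logMap x)| ≤ Lρ * (4 * (‖y - x‖ / m)) :=
      (hρL _ _).trans (mul_le_mul_of_nonneg_left hl hLρ)
    have e : Gs ρ s c y - Gs ρ s c x =
        (ρ (logMap y) - ρ (logMap x)) * fS s (c * mixedEmbedding.norm y) +
        ρ (logMap x) * (fS s (c * mixedEmbedding.norm y) - fS s (c * mixedEmbedding.norm x)) := by
      simp only [Gs]; ring
    have hmain : |Gs ρ s c y - Gs ρ s c x| ≤ (4 * Lρ + 2 * (n : ℝ)) * M * (‖y - x‖ / m) := by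
      rw [e]
      refine (abs_add_le _ _).trans ?_
      rw [abs_mul, abs_mul]
      have a1 : |ρ (logMap y) - ρ (logMap x)| * |fS s (c * mixedEmbedding.norm y)| ≤
          (Lρ * (4 * (‖y - x‖ / m))) * M := by
        refine mul_le_mul hρdiff ?_ (abs_nonneg _) (by positivity)
        rw [abs_of_nonneg (fS_nonneg s (mul_nonneg hc.le hNy0.le))]
        exact hMy
      have a2 : |ρ (logMap x)| * |fS s (c * mixedEmbedding.norm y) -
          fS s (c * mixedEmbedding.norm x)| ≤ 1 * (s * M * ((n : ℝ) * (‖y - x‖ / m))) := by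
        refine mul_le_mul ?_ hfdiff (abs_nonneg _) zero_le_one
        rw [abs_of_nonneg (hρ0 _)]
        exact hρ1 _
      have a3 : s * M * ((n : ℝ) * (‖y - x‖ / m)) ≤ 2 * M * ((n : ℝ) * (‖y - x‖ / m)) := by
        have : 0 ≤ M * ((n : ℝ) * (‖y - x‖ / m)) := by positivity
        nlinarith
      have : (Lρ * (4 * (‖y - x‖ / m))) * M + 2 * M * ((n : ℝ) * (‖y - x‖ / m)) =
          (4 * Lρ + 2 * (n : ℝ)) * M * (‖y - x‖ / m) := by ring
      linarith
    -- now bound `M * (‖y - x‖ / m)`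
    have hq : ‖y - x‖ / m ≤ (R₀ / δ) / T := by
      rw [hm, div_div]
      exact div_le_div_of_nonneg_right hxy (by positivity)
    have hMT : M / T ≤ (c * (1 + δ) ^ n + (c * δ ^ n)⁻¹) * 2 ^ (n + 1) *
        ((1 + T) ^ (n + 1))⁻¹ := by
      have e1 : c * ((1 + δ) * T) ^ n = (c * (1 + δ) ^ n) * T ^ n := by rw [mul_pow]; ring
      have e2 : (c * m ^ n)⁻¹ = (c * δ ^ n)⁻¹ * (T ^ n)⁻¹ := by
        rw [hm, mul_pow, ← mul_assoc, mul_inv]
      rw [hM, e1, e2]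
      exact min_div_le_decay n hn1 (by positivity) (by positivity) hT0
    have h4L : 0 ≤ 4 * Lρ + 2 * (n : ℝ) := by
      have : (0 : ℝ) ≤ (n : ℝ) := Nat.cast_nonneg n
      linarith
    have hRδ : 0 ≤ R₀ / δ := div_nonneg hR₀ hδ0.le
    calc |Gs ρ s c y - Gs ρ s c x|
        ≤ (4 * Lρ + 2 * (n : ℝ)) * M * (‖y - x‖ / m) := hmain
      _ ≤ (4 * Lρ + 2 * (n : ℝ)) * M * ((R₀ / δ) / T) :=
          mul_le_mul_of_nonneg_left hq (mul_nonneg h4L hM0)
      _ = (4 * Lρ + 2 * (n : ℝ)) * (R₀ / δ) * (M / T) := by ring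
      _ ≤ (4 * Lρ + 2 * (n : ℝ)) * (R₀ / δ) * ((c * (1 + δ) ^ n + (c * δ ^ n)⁻¹) * 2 ^ (n + 1) *
            ((1 + T) ^ (n + 1))⁻¹) := mul_le_mul_of_nonneg_left hMT (mul_nonneg h4L hRδ)
      _ = ((4 * Lρ + 2 * (n : ℝ)) * (R₀ / δ) * ((c * (1 + δ) ^ n + (c * δ ^ n)⁻¹) * 2 ^ (n + 1))) *
            ((1 + T) ^ (n + 1))⁻¹ := by ring
      _ ≤ ((1 + R₀ / δ) ^ (n + 1) + (4 * Lρ + 2 * (n : ℝ)) * (R₀ / δ) *
            ((c * (1 + δ) ^ n + (c * δ ^ n)⁻¹) * 2 ^ (n + 1))) * ((1 + T) ^ (n + 1))⁻¹ :=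
          mul_le_mul_of_nonneg_right
            (le_add_of_nonneg_left (pow_nonneg (add_nonneg zero_le_one hRδ) _))
            (inv_nonneg.2 h1T.le)

/-- two-sided decay estimate. -/
theorem abs_Gs_sub_le {Lρ : ℝ} (hLρ : 0 ≤ Lρ)
    (hρL : ∀ y y', |ρ y - ρ y'| ≤ Lρ * ‖y - y'‖)
    (hρ0 : ∀ y, 0 ≤ ρ y) (hρ1 : ∀ y, ρ y ≤ 1) {R : ℝ} (hρs : ∀ y, R ≤ ‖y‖ → ρ y = 0)
    {c : ℝ} (hc : 0 < c) {R₀ : ℝ} (hR₀ : 0 ≤ R₀) {s : ℝ} (hs1 : 1 ≤ s) (hs2 : s ≤ 2)
    (x y : mixedSpace K) (hxy : ‖y - x‖ ≤ R₀) :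
    |Gs ρ s c y - Gs ρ s c x| ≤
      (decayConst K Lρ R c R₀ * (1 + R₀) ^ (finrank ℚ K + 1)) *
        ((1 + ‖x‖) ^ (finrank ℚ K + 1))⁻¹ := by
  have hD := decayConst_nonneg (K := K) (R := R) hLρ hc hR₀
  obtain ⟨n, hn⟩ : ∃ n : ℕ, n = finrank ℚ K + 1 := ⟨_, rfl⟩
  rw [← hn]
  have hx0 : (0 : ℝ) < (1 + ‖x‖) ^ n := pow_pos (by positivity) _
  have hy0 : (0 : ℝ) < (1 + ‖y‖) ^ n := pow_pos (by positivity) _
  have hR1 : (1 : ℝ) ≤ (1 + R₀) ^ n := one_le_pow₀ (by linarith)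
  by_cases hx : Gs ρ s c x = 0
  · by_cases hy : Gs ρ s c y = 0
    · rw [hx, hy, sub_zero, abs_zero]
      exact mul_nonneg (mul_nonneg hD (by linarith)) (inv_nonneg.2 hx0.le)
    · have hyx : ‖x - y‖ ≤ R₀ := by rwa [norm_sub_rev]
      have h1 := abs_Gs_sub_le_of_ne_zero hLρ hρL hρ0 hρ1 hρs hc hR₀ hs1 hs2 hy hyx
      rw [← hn, abs_sub_comm] at h1
      refine h1.trans ?_
      rw [mul_assoc]
      refine mul_le_mul_of_nonneg_left ?_ hD
      rw [← div_eq_mul_inv, le_div_iff₀ hx0, inv_mul_le_iff₀ hy0, ← mul_pow]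
      refine pow_le_pow_left₀ (by positivity) ?_ _
      have : ‖x‖ ≤ ‖y‖ + ‖x - y‖ := by
        have := norm_add_le y (x - y)
        simpa using this
      nlinarith [norm_nonneg y]
  · have h1 := abs_Gs_sub_le_of_ne_zero hLρ hρL hρ0 hρ1 hρs hc hR₀ hs1 hs2 hx hxy
    rw [← hn] at h1
    refine h1.trans ?_
    refine mul_le_mul_of_nonneg_right ?_ (inv_nonneg.2 hx0.le)
    nlinarith

/-- the decay estimate in the form required by `exists_latticeSum_bound`. -/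
theorem abs_Gs_add_sub_le {Lρ : ℝ} (hLρ : 0 ≤ Lρ)
    (hρL : ∀ y y', |ρ y - ρ y'| ≤ Lρ * ‖y - y'‖)
    (hρ0 : ∀ y, 0 ≤ ρ y) (hρ1 : ∀ y, ρ y ≤ 1) {R : ℝ} (hρs : ∀ y, R ≤ ‖y‖ → ρ y = 0)
    {c : ℝ} (hc : 0 < c) {R₀ : ℝ} (hR₀ : 0 ≤ R₀) {s : ℝ} (hs1 : 1 ≤ s) (hs2 : s ≤ 2)
    (x y : mixedSpace K) (hy : ‖y‖ ≤ R₀) :
    |Gs ρ s c (x + y) - Gs ρ s c x| ≤
      (decayConst K Lρ R c R₀ * (1 + R₀) ^ (finrank ℚ K + 1)) *
        (1 + ‖x‖) ^ (-(finrank ℝ (mixedSpace K) + 1 : ℝ)) := by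
  have h := abs_Gs_sub_le hLρ hρL hρ0 hρ1 hρs hc hR₀ hs1 hs2 x (x + y) (by simpa using hy)
  have e : (1 + ‖x‖) ^ (-(finrank ℝ (mixedSpace K) + 1 : ℝ)) =
      ((1 + ‖x‖) ^ (finrank ℚ K + 1))⁻¹ := by
    rw [mixedEmbedding.finrank, Real.rpow_neg (by positivity)]
    congr 1
    rw [← Real.rpow_natCast]
    congr 1
    push_cast
    ring
  rw [e]
  exact h

end Decay

section Integrable

variable {K : Type*} [Field K] [NumberField K] {ρ : logSpace K → ℝ}

theorem measurable_fS (s : ℝ) : Measurable (fS s) :=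
  measurable_id.min (measurable_id.pow_const _)

theorem measurable_logMap : Measurable (logMap : mixedSpace K → logSpace K) := by
  unfold logMap
  refine measurable_pi_iff.mpr fun w ↦ measurable_const.mul ?_
  exact (continuous_normAtPlace _).measurable.log.sub <|
    (mixedEmbedding.continuous_norm _).measurable.log.mul measurable_const

theorem measurable_Gs (hρ : Continuous ρ) (s c : ℝ) : Measurable (Gs ρ s c) := by
  unfold Gs
  exact (hρ.measurable.comp measurable_logMap).mul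
    ((measurable_fS s).comp ((mixedEmbedding.continuous_norm K).measurable.const_mul c))

/-- pointwise bound `G ≤ C (1 + ‖x‖) ^ (-(n s))`. -/
theorem Gs_le_rpow (hρ1 : ∀ y, ρ y ≤ 1) {R : ℝ}
    (hρs : ∀ y, R ≤ ‖y‖ → ρ y = 0) {c : ℝ} (hc : 0 < c) {s : ℝ} (hs1 : 1 ≤ s)
    (x : mixedSpace K) :
    Gs ρ s c x ≤ ((2 : ℝ) ^ ((finrank ℚ K : ℝ) * s) *
      (1 + (c * (Real.exp (-(2 * ((Fintype.card (InfinitePlace K) : ℝ) * R)))) ^
        (finrank ℚ K)) ^ (-s))) * (1 + ‖x‖) ^ (-((finrank ℚ K : ℝ) * s)) := by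
  have hs0 : (0 : ℝ) ≤ s := by linarith
  obtain ⟨n, hn⟩ : ∃ n : ℕ, n = finrank ℚ K := ⟨_, rfl⟩
  obtain ⟨κ, hκ⟩ : ∃ κ : ℝ, κ = Real.exp (-(2 * ((Fintype.card (InfinitePlace K) : ℝ) * R))) :=
    ⟨_, rfl⟩
  have hκ0 : 0 < κ := hκ ▸ Real.exp_pos _
  obtain ⟨T, hT⟩ : ∃ T : ℝ, T = ‖x‖ := ⟨_, rfl⟩
  have hT0' : 0 ≤ T := hT ▸ norm_nonneg x
  rw [← hn, ← hκ, ← hT]
  have hns : (0 : ℝ) ≤ (n : ℝ) * s := mul_nonneg (Nat.cast_nonneg _) hs0
  have hA : (0 : ℝ) ≤ (c * κ ^ n) ^ (-s) := Real.rpow_nonneg (by positivity) _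
  have h2 : (0 : ℝ) < (2 : ℝ) ^ ((n : ℝ) * s) := Real.rpow_pos_of_pos (by norm_num) _
  have h1T : (0 : ℝ) < (1 + T) ^ (-((n : ℝ) * s)) := Real.rpow_pos_of_pos (by linarith) _
  by_cases hx : Gs ρ s c x = 0
  · rw [hx]; positivity
  have hx1 : ρ (logMap x) ≠ 0 := fun h => hx (by simp [Gs, h])
  have hx2 : fS s (c * mixedEmbedding.norm x) ≠ 0 := fun h => hx (by simp [Gs, h])
  have hNx : mixedEmbedding.norm x ≠ 0 := by
    intro h
    apply hx2
    rw [h, mul_zero]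
    exact fS_zero (by linarith)
  have hlx : ‖logMap x‖ ≤ R := by
    by_contra h
    exact hx1 (hρs _ (not_le.1 h).le)
  have hcone : ∀ w, κ * T ≤ normAtPlace w x := by
    intro w; rw [hκ, hT]; exact normAtPlace_ge_of_logMap_le hNx hlx w
  have hT0 : 0 < T := by
    rw [hT, norm_pos_iff]
    intro h0
    exact hNx (h0 ▸ map_zero _)
  have hN : (κ * T) ^ n ≤ mixedEmbedding.norm x := hn ▸ pow_le_mixedNorm (by positivity) hcone
  have hfS0 := fS_nonneg s (mul_nonneg hc.le (mixedEmbedding.norm_nonneg x))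
  have hG1 : Gs ρ s c x ≤ fS s (c * mixedEmbedding.norm x) := by
    unfold Gs
    calc ρ (logMap x) * fS s (c * mixedEmbedding.norm x)
        ≤ 1 * fS s (c * mixedEmbedding.norm x) := mul_le_mul_of_nonneg_right (hρ1 _) hfS0
      _ = _ := one_mul _
  -- (1 + T)^(-ns) * 2^(ns) ≥ ...
  have e2T : (1 + T) ^ (-((n : ℝ) * s)) = ((1 + T) ^ ((n : ℝ) * s))⁻¹ :=
    Real.rpow_neg (by linarith) _
  have h1Tp : (0 : ℝ) < (1 + T) ^ ((n : ℝ) * s) := Real.rpow_pos_of_pos (by linarith) _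
  rcases le_total T 1 with hT1 | hT1
  · -- G ≤ 1 ≤ 2^(ns) (1+T)^(-ns)
    have h3 : (1 + T) ^ ((n : ℝ) * s) ≤ (2 : ℝ) ^ ((n : ℝ) * s) :=
      Real.rpow_le_rpow (by linarith) (by linarith) hns
    have h4 : (1 : ℝ) ≤ (2 : ℝ) ^ ((n : ℝ) * s) * (1 + T) ^ (-((n : ℝ) * s)) := by
      rw [e2T, ← div_eq_mul_inv, le_div_iff₀ h1Tp]; linarith
    have h5 := hG1.trans (fS_le_one hs0 _)
    calc Gs ρ s c x ≤ 1 := h5
      _ ≤ (2 : ℝ) ^ ((n : ℝ) * s) * (1 + T) ^ (-((n : ℝ) * s)) := h4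
      _ ≤ (2 : ℝ) ^ ((n : ℝ) * s) * (1 + (c * κ ^ n) ^ (-s)) * (1 + T) ^ (-((n : ℝ) * s)) := by
          have : 0 ≤ (2 : ℝ) ^ ((n : ℝ) * s) * (1 + T) ^ (-((n : ℝ) * s)) * (c * κ ^ n) ^ (-s) := by
            positivity
          nlinarith
  · -- G ≤ (c N)^(-s) ≤ (c κ^n)^(-s) T^(-ns) ≤ (c κ^n)^(-s) 2^(ns) (1+T)^(-ns)
    have hcN : c * (κ * T) ^ n ≤ c * mixedEmbedding.norm x := mul_le_mul_of_nonneg_left hN hc.le
    have h3 : fS s (c * mixedEmbedding.norm x) ≤ (c * (κ * T) ^ n) ^ (-s) :=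
      (fS_le_rpow _ _).trans
        (Real.rpow_le_rpow_of_nonpos (by positivity) hcN (by linarith))
    have e1 : (c * (κ * T) ^ n) ^ (-s) = (c * κ ^ n) ^ (-s) * (T ^ ((n : ℝ) * s))⁻¹ := by
      rw [mul_pow, ← mul_assoc, Real.mul_rpow (by positivity) (by positivity)]
      congr 1
      rw [← Real.rpow_natCast, ← Real.rpow_mul hT0.le, ← Real.rpow_neg hT0.le]
      congr 1
      ring
    have hTp : (0 : ℝ) < T ^ ((n : ℝ) * s) := Real.rpow_pos_of_pos hT0 _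
    have h4 : (1 + T) ^ ((n : ℝ) * s) ≤ (2 : ℝ) ^ ((n : ℝ) * s) * T ^ ((n : ℝ) * s) := by
      rw [← Real.mul_rpow (by norm_num) hT0.le]
      exact Real.rpow_le_rpow (by linarith) (by linarith) hns
    have h5 : (T ^ ((n : ℝ) * s))⁻¹ ≤ (2 : ℝ) ^ ((n : ℝ) * s) * (1 + T) ^ (-((n : ℝ) * s)) := by
      rw [e2T, ← div_eq_mul_inv, le_div_iff₀ h1Tp, inv_mul_le_iff₀ hTp]
      linarith
    calc Gs ρ s c x ≤ (c * (κ * T) ^ n) ^ (-s) := hG1.trans h3
      _ = (c * κ ^ n) ^ (-s) * (T ^ ((n : ℝ) * s))⁻¹ := e1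
      _ ≤ (c * κ ^ n) ^ (-s) * ((2 : ℝ) ^ ((n : ℝ) * s) * (1 + T) ^ (-((n : ℝ) * s))) :=
          mul_le_mul_of_nonneg_left h5 hA
      _ ≤ (2 : ℝ) ^ ((n : ℝ) * s) * (1 + (c * κ ^ n) ^ (-s)) * (1 + T) ^ (-((n : ℝ) * s)) := by
          have : 0 ≤ (2 : ℝ) ^ ((n : ℝ) * s) * (1 + T) ^ (-((n : ℝ) * s)) := by positivity
          nlinarith

/-- `G_{s,c}` is integrable for `s > 1`. -/
theorem integrable_Gs (hρc : Continuous ρ) (hρ0 : ∀ y, 0 ≤ ρ y) (hρ1 : ∀ y, ρ y ≤ 1) {R : ℝ}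
    (hρs : ∀ y, R ≤ ‖y‖ → ρ y = 0) {c : ℝ} (hc : 0 < c) {s : ℝ} (hs1 : 1 < s) :
    Integrable (Gs ρ s c) (volume : Measure (mixedSpace K)) := by
  have hn : (0 : ℝ) < (finrank ℚ K : ℝ) := Nat.cast_pos.2 finrank_pos
  have hr : (finrank ℝ (mixedSpace K) : ℝ) < (finrank ℚ K : ℝ) * s := by
    rw [mixedEmbedding.finrank]
    nlinarith
  have hint := (integrable_one_add_norm (E := mixedSpace K) (μ := volume) hr).const_mul
    ((2 : ℝ) ^ ((finrank ℚ K : ℝ) * s) *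
      (1 + (c * (Real.exp (-(2 * ((Fintype.card (InfinitePlace K) : ℝ) * R)))) ^
        (finrank ℚ K)) ^ (-s)))
  refine hint.mono' (measurable_Gs hρc s c).aestronglyMeasurable (Filter.Eventually.of_forall ?_)
  intro x
  rw [Real.norm_eq_abs, abs_of_nonneg (Gs_nonneg hρ0 hc.le s x)]
  exact Gs_le_rpow hρ1 hρs hc hs1.le x

end Integrable

end Fermat.Agent.S14
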