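import Mathlib
import Fermat.Agent.S14.GsBound

/-!
# S14 / P4 (c): the lattice sum of `G_{s,c}` over an ideal lattice

`integral_Gs_eq`: `∫ G_{s,c} = c⁻¹ ∫ G_{s,1}` (scaling);
`exists_bound_idealLattice`: the lattice sum over `idealLattice K I` differs from
`covolume⁻¹ * c⁻¹ * ∫ G_{s,1}` by a constant independent of `s ∈ (1, 2]`.
-/

set_option autoImplicit false

open MeasureTheory Module NumberField NumberField.InfinitePlace NumberField.mixedEmbedding
open NumberField.Units NumberField.Units.dirichletUnitTheorem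
open scoped Classical nonZeroDivisors

namespace Fermat.Agent.S14

variable {K : Type*} [Field K] [NumberField K] {ρ : logSpace K → ℝ}

/-- behaviour of `G` under real scaling. -/
theorem Gs_smul_eq {s : ℝ} (hs : s ≠ 0) {t : ℝ} (ht : 0 < t) (c : ℝ) (x : mixedSpace K) :
    Gs ρ s c (t • x) = Gs ρ s (c * t ^ (finrank ℚ K)) x := by
  unfold Gs
  rw [mixedEmbedding.norm_smul, abs_of_pos ht]
  by_cases hx : mixedEmbedding.norm x = 0
  · rw [hx, mul_zero, mul_zero, mul_zero, fS_zero hs, mul_zero, mul_zero]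
  · rw [logMap_real_smul hx ht.ne', mul_assoc]

/-- scaling of the integral. -/
theorem integral_Gs_eq {s : ℝ} (hs : s ≠ 0) {c : ℝ} (hc : 0 < c) :
    ∫ x : mixedSpace K, Gs ρ s c x = c⁻¹ * ∫ x : mixedSpace K, Gs ρ s 1 x := by
  have hn : finrank ℚ K ≠ 0 := finrank_pos.ne'
  obtain ⟨t, ht0, ht⟩ : ∃ t : ℝ, 0 < t ∧ t ^ (finrank ℚ K) = c :=
    ⟨c ^ ((finrank ℚ K : ℝ)⁻¹), Real.rpow_pos_of_pos hc _,
      Real.rpow_inv_natCast_pow hc.le hn⟩
  have h1 : ∀ x : mixedSpace K, Gs ρ s c x = Gs ρ s 1 (t • x) := by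
    intro x
    rw [Gs_smul_eq hs ht0, one_mul, ht]
  simp_rw [h1]
  rw [Measure.integral_comp_smul (μ := (volume : Measure (mixedSpace K))) (Gs ρ s 1) t,
    mixedEmbedding.finrank, ht, abs_of_pos (inv_pos.2 hc), smul_eq_mul]

/-- **the lattice sum over an ideal lattice**: uniform comparison with the integral. -/
theorem exists_bound_idealLattice (I : (FractionalIdeal (𝓞 K)⁰ K)ˣ) {Lρ : ℝ} (hLρ : 0 ≤ Lρ)
    (hρL : ∀ y y', |ρ y - ρ y'| ≤ Lρ * ‖y - y'‖)
    (hρ0 : ∀ y, 0 ≤ ρ y) (hρ1 : ∀ y, ρ y ≤ 1) {R : ℝ} (hρs : ∀ y, R ≤ ‖y‖ → ρ y = 0)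
    {c : ℝ} (hc : 0 < c) :
    ∃ B : ℝ, ∀ s : ℝ, 1 < s → s ≤ 2 →
      Summable (fun α : mixedEmbedding.idealLattice K I => Gs ρ s c (α : mixedSpace K)) ∧
      |∑' α : mixedEmbedding.idealLattice K I, Gs ρ s c (α : mixedSpace K) -
        (ZLattice.covolume (mixedEmbedding.idealLattice K I))⁻¹ *
          (c⁻¹ * ∫ x : mixedSpace K, Gs ρ s 1 x)| ≤ B := by
  obtain ⟨R₀, B₀, hR₀, hB₀, h⟩ := exists_latticeSum_bound (mixedEmbedding.idealLattice K I)
    (volume : Measure (mixedSpace K))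
  have hρc : Continuous ρ := by
    have : LipschitzWith ⟨Lρ, hLρ⟩ ρ := LipschitzWith.of_dist_le_mul fun y y' => by
      rw [Real.dist_eq, dist_eq_norm]
      exact hρL y y'
    exact this.continuous
  refine ⟨B₀ * (decayConst K Lρ R c R₀ * (1 + R₀) ^ (finrank ℚ K + 1)), ?_⟩
  intro s hs1 hs2
  have hs0 : s ≠ 0 := by linarith
  have key := h (Gs ρ s c) (decayConst K Lρ R c R₀ * (1 + R₀) ^ (finrank ℚ K + 1))
    (integrable_Gs hρc hρ0 hρ1 hρs hc hs1)
    (fun α y hy => abs_Gs_add_sub_le hLρ hρL hρ0 hρ1 hρs hc hR₀.le hs1.le hs2 α y hy)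
  rw [integral_Gs_eq hs0 hc] at key
  exact key

end Fermat.Agent.S14
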