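import Mathlib
import Fermat.Agent.S14.DensityDefs
import Fermat.Agent.S14.ZetaIdeal
import Fermat.Agent.S14.ClassZetaReal
import Fermat.Agent.S14.GsLattice

/-!
# S14 / P4 (c, d): the partial zeta functions of two ideal classes differ by `O(1)`

`classZetaSummable F : Dens.ClassZetaSummable F`,
`classZetaBounded F : Dens.ClassZetaBounded F`.
-/

set_option autoImplicit false

open MeasureTheory Module NumberField NumberField.InfinitePlace NumberField.mixedEmbedding
open NumberField.Units NumberField.Units.dirichletUnitTheorem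
open scoped Classical nonZeroDivisors

namespace Fermat.Agent.S14

variable (F : Type*) [Field F] [NumberField F]

/-- summability of the partial zeta functions. -/
theorem classZetaSummable : Dens.ClassZetaSummable F := by
  intro s hs C
  exact (EP.summable_idealTerm F hs).subtype _

/-- the common main term. -/
noncomputable def zetaMain (s : ℝ) : ℝ :=
  ((2⁻¹ : ℝ) ^ nrComplexPlaces F * √|(discr F : ℝ)|)⁻¹ *
    ∫ x : mixedSpace F, Gs (UW.rho F) s 1 x

/-- `w * ζ(s, C)` is the common main term up to `O(1)`. -/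
theorem exists_bound_classZeta (C : ClassGroup (𝓞 F)) :
    ∃ B : ℝ, ∀ s : ℝ, 1 < s → s ≤ 2 →
      |(torsionOrder F : ℝ) * Dens.classZeta F C s - zetaMain F s| ≤ B := by
  obtain ⟨J, hJ⟩ := ClassGroup.mk0_surjective C⁻¹
  have hN0 : (0 : ℝ) < (Ideal.absNorm (J : Ideal (𝓞 F)) : ℝ) :=
    Nat.cast_pos.mpr (Nat.pos_of_ne_zero (Ideal.absNorm_ne_zero_of_nonZeroDivisors J))
  have hc : (0 : ℝ) < ((Ideal.absNorm (J : Ideal (𝓞 F)) : ℝ))⁻¹ := inv_pos.2 hN0
  have hρs : ∀ y : logSpace F, UW.rhoRad F + 1 ≤ ‖y‖ → UW.rho F y = 0 := fun y hy =>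
    UW.rho_eq_zero_of_lt F (by linarith)
  obtain ⟨B, hB⟩ := exists_bound_idealLattice (K := F) (FractionalIdeal.mk0 F J)
    (UW.rhoLip_nonneg F) (UW.abs_rho_sub_le F) (UW.rho_nonneg F) (UW.rho_le_one F) hρs hc
  refine ⟨B, fun s hs1 hs2 => ?_⟩
  have hs0 : s ≠ 0 := by linarith
  obtain ⟨-, hb⟩ := hB s hs1 hs2
  -- identify the lattice sum
  have hG0 : Gs (UW.rho F) s ((Ideal.absNorm (J : Ideal (𝓞 F)) : ℝ))⁻¹ 0 = 0 := by
    unfold Gs
    rw [map_zero, mul_zero, fS_zero hs0, mul_zero]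
  have hG : ∀ a : 𝓞 F, a ∈ (J : Ideal (𝓞 F)) → a ≠ 0 →
      Gs (UW.rho F) s ((Ideal.absNorm (J : Ideal (𝓞 F)) : ℝ))⁻¹ (mixedEmbedding F (a : F)) =
        UW.wterm J s a := by
    intro a ha ha0
    unfold Gs UW.wterm
    congr 1
    have h1 := UW.absNorm_le_norm J ha ha0
    have e : ((Ideal.absNorm (J : Ideal (𝓞 F)) : ℝ))⁻¹ *
        mixedEmbedding.norm (mixedEmbedding F (a : F)) =
        mixedEmbedding.norm (mixedEmbedding F (a : F)) / Ideal.absNorm (J : Ideal (𝓞 F)) := by
      rw [div_eq_mul_inv, mul_comm]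
    rw [e]
    refine fS_eq_rpow (by linarith) ?_
    rw [le_div_iff₀ hN0, one_mul]
    exact h1
  have hsum := UW.tsum_idealLattice_eq J hJ s
    (Gs (UW.rho F) s ((Ideal.absNorm (J : Ideal (𝓞 F)) : ℝ))⁻¹) hG0 hG
  rw [hsum] at hb
  -- identify the main term
  have hcov : (ZLattice.covolume (mixedEmbedding.idealLattice F (FractionalIdeal.mk0 F J)))⁻¹ *
      ((((Ideal.absNorm (J : Ideal (𝓞 F)) : ℝ))⁻¹)⁻¹ *
        ∫ x : mixedSpace F, Gs (UW.rho F) s 1 x) = zetaMain F s := by
    rw [covolume_idealLattice, FractionalIdeal.coe_mk0, FractionalIdeal.coeIdeal_absNorm,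
      Rat.cast_natCast, inv_inv]
    unfold zetaMain
    have hD : (0 : ℝ) < (2⁻¹ : ℝ) ^ nrComplexPlaces F * √|(discr F : ℝ)| := by
      have : (0 : ℝ) < √|(discr F : ℝ)| :=
        Real.sqrt_pos.2 (abs_pos.2 (Int.cast_ne_zero.2 (discr_ne_zero F)))
      positivity
    field_simp
  rw [hcov] at hb
  exact hb

/-- **the partial zeta functions of two classes differ by `O(1)` on `(1, 2]`**. -/
theorem classZetaBounded : Dens.ClassZetaBounded F := by
  choose B hB using exists_bound_classZeta F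
  have hw : (0 : ℝ) < (torsionOrder F : ℝ) := Nat.cast_pos.2 (torsionOrder_pos F)
  refine ⟨(2 * ∑ C : ClassGroup (𝓞 F), |B C|) / (torsionOrder F : ℝ), ?_⟩
  intro s hs1 hs2 C C'
  have h1 := hB C s hs1 hs2
  have h2 := hB C' s hs1 hs2
  have hC : |B C| ≤ ∑ C : ClassGroup (𝓞 F), |B C| :=
    Finset.single_le_sum (f := fun C => |B C|) (fun _ _ => abs_nonneg _) (Finset.mem_univ C)
  have hC' : |B C'| ≤ ∑ C : ClassGroup (𝓞 F), |B C| :=
    Finset.single_le_sum (f := fun C => |B C|) (fun _ _ => abs_nonneg _) (Finset.mem_univ C')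
  rw [le_div_iff₀ hw]
  have e : |Dens.classZeta F C s - Dens.classZeta F C' s| * (torsionOrder F : ℝ) =
      |((torsionOrder F : ℝ) * Dens.classZeta F C s - zetaMain F s) -
        ((torsionOrder F : ℝ) * Dens.classZeta F C' s - zetaMain F s)| := by
    have e' : ((torsionOrder F : ℝ) * Dens.classZeta F C s - zetaMain F s) -
        ((torsionOrder F : ℝ) * Dens.classZeta F C' s - zetaMain F s) =
        (Dens.classZeta F C s - Dens.classZeta F C' s) * (torsionOrder F : ℝ) := by ring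
    rw [e', abs_mul, abs_of_pos hw]
  rw [e]
  refine (abs_sub _ _).trans ?_
  have := le_abs_self (B C)
  have := le_abs_self (B C')
  linarith

end Fermat.Agent.S14
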