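import Mathlib
import Fermat.Agent.S14.DensityDefs
import Fermat.Agent.S14.EulerLog

/-!
# S14, piece 86-P4h: primes of degree `≥ 2` and primes over `p` have a bounded prime zeta sum

At most `[F : ℚ]` primes lie over a rational prime `q`, and a prime `P` over `q` whose norm is not
a prime number has `N(P) ≥ q ^ 2`; so `∑ N(P) ^ (-s) ≤ [F : ℚ] * ∑ 1 / m ^ 2` for `s ≥ 1`.
-/

set_option autoImplicit false

open scoped NumberField nonZeroDivisors ENNReal
open IsDedekindDomain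

namespace Fermat.Agent.S14.HD

variable {F : Type*} [Field F] [NumberField F]

/-- the rational prime under a prime of `F` -/
noncomputable def ratPrime (v : HeightOneSpectrum (𝓞 F)) : ℕ := (Ideal.absNorm v.asIdeal).minFac

lemma absNorm_isPrimePow (v : HeightOneSpectrum (𝓞 F)) : IsPrimePow (Ideal.absNorm v.asIdeal) := by
  have hfin : Finite (𝓞 F ⧸ v.asIdeal) := Ideal.finiteQuotientOfFreeOfNeBot v.asIdeal v.ne_bot
  let _ := Ideal.Quotient.field v.asIdeal
  let _ := Fintype.ofFinite (𝓞 F ⧸ v.asIdeal)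
  have := Fintype.isPrimePow_card_of_field (α := 𝓞 F ⧸ v.asIdeal)
  rwa [Ideal.absNorm_apply, Submodule.cardQuot_apply, Nat.card_eq_fintype_card]

lemma exists_pow (v : HeightOneSpectrum (𝓞 F)) :
    ∃ k : ℕ, 0 < k ∧ (ratPrime v).Prime ∧ Ideal.absNorm v.asIdeal = ratPrime v ^ k := by
  obtain ⟨q, k, hq, hk, h⟩ := absNorm_isPrimePow v
  have hq' : q.Prime := Nat.prime_iff.mpr hq
  have : ratPrime v = q := by
    unfold ratPrime
    rw [← h, Nat.pow_minFac hk.ne', hq'.minFac_eq]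
  rw [this]
  exact ⟨k, hk, hq', h.symm⟩

lemma ratPrime_prime (v : HeightOneSpectrum (𝓞 F)) : (ratPrime v).Prime :=
  (exists_pow v).choose_spec.2.1

lemma ratPrime_mem (v : HeightOneSpectrum (𝓞 F)) : ((ratPrime v : ℕ) : 𝓞 F) ∈ v.asIdeal := by
  obtain ⟨k, hk, hq, h⟩ := exists_pow v
  have h1 := Ideal.absNorm_mem v.asIdeal
  rw [h] at h1
  push_cast at h1
  exact v.isPrime.mem_of_pow_mem k h1

lemma sq_le_of_not_prime (v : HeightOneSpectrum (𝓞 F)) (h : ¬ (Ideal.absNorm v.asIdeal).Prime) :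
    ratPrime v ^ 2 ≤ Ideal.absNorm v.asIdeal := by
  obtain ⟨k, hk, hq, hN⟩ := exists_pow v
  have hk2 : 2 ≤ k := by
    by_contra hlt
    have : k = 1 := by omega
    rw [this, pow_one] at hN
    exact h (hN ▸ hq)
  rw [hN]
  exact Nat.pow_le_pow_right hq.pos hk2

lemma eq_of_dvd_absNorm (v : HeightOneSpectrum (𝓞 F)) {p : ℕ} (hp : p.Prime)
    (h : p ∣ Ideal.absNorm v.asIdeal) : ratPrime v = p := by
  obtain ⟨k, hk, hq, hN⟩ := exists_pow v
  rw [hN] at h
  exact ((Nat.prime_dvd_prime_iff_eq hp hq).mp (hp.dvd_of_dvd_pow h)).symm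

lemma card_fiber_le (T : Finset (HeightOneSpectrum (𝓞 F))) (q : ℕ) (hq : q.Prime) :
    (T.filter (fun v => ratPrime v = q)).card ≤ Module.finrank ℚ F := by
  classical
  have hq0 : (q : ℤ) ≠ 0 := by exact_mod_cast hq.ne_zero
  have hqZ : Prime (q : ℤ) := Nat.prime_iff_prime_int.mp hq
  have hmax : (Ideal.span {(q : ℤ)}).IsMaximal :=
    ((Ideal.span_singleton_prime hq0).mpr hqZ).isMaximal (by
      rw [Ne, Ideal.span_singleton_eq_bot]; exact hq0)
  have hne : Ideal.span {(q : ℤ)} ≠ ⊥ := by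
    rw [Ne, Ideal.span_singleton_eq_bot]; exact hq0
  have hsub : (T.filter (fun v => ratPrime v = q)).image (fun v => v.asIdeal) ⊆
      IsDedekindDomain.primesOverFinset (Ideal.span {(q : ℤ)}) (𝓞 F) := by
    intro P hP
    rw [Finset.mem_image] at hP
    obtain ⟨v, hv, rfl⟩ := hP
    rw [Finset.mem_filter] at hv
    rw [IsDedekindDomain.mem_primesOverFinset_iff hne]
    refine ⟨v.isPrime, ⟨?_⟩⟩
    have hle : Ideal.span {(q : ℤ)} ≤ Ideal.under ℤ v.asIdeal := by
      rw [Ideal.span_le, Set.singleton_subset_iff]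
      change (q : ℤ) ∈ Ideal.comap (algebraMap ℤ (𝓞 F)) v.asIdeal
      rw [Ideal.mem_comap]
      have := ratPrime_mem v
      rw [hv.2] at this
      simpa using this
    have hproper : Ideal.under ℤ v.asIdeal ≠ ⊤ := by
      have : (Ideal.under ℤ v.asIdeal).IsPrime := Ideal.IsPrime.under ℤ v.asIdeal
      exact this.ne_top
    exact hmax.eq_of_le hproper hle
  have hinj : Function.Injective (fun v : HeightOneSpectrum (𝓞 F) => v.asIdeal) :=
    fun v w h => HeightOneSpectrum.ext h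
  calc (T.filter (fun v => ratPrime v = q)).card
      = ((T.filter (fun v => ratPrime v = q)).image (fun v => v.asIdeal)).card :=
        (Finset.card_image_of_injective _ hinj).symm
    _ ≤ (IsDedekindDomain.primesOverFinset (Ideal.span {(q : ℤ)}) (𝓞 F)).card := Finset.card_le_card hsub
    _ ≤ Module.finrank ℚ F := Ideal.card_primesOverFinset_le_finrank (𝓞 F) ℚ F hne

lemma one_le_absNorm (v : HeightOneSpectrum (𝓞 F)) : (1 : ℝ) ≤ Ideal.absNorm v.asIdeal := by
  have : Ideal.absNorm v.asIdeal ≠ 0 := by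
    rw [Ne, Ideal.absNorm_eq_zero_iff]
    exact v.ne_bot
  exact_mod_cast Nat.one_le_iff_ne_zero.mpr this

/-- the sum over primes of degree `≥ 2`, finite form -/
theorem sum_highDeg_le (T : Finset (HeightOneSpectrum (𝓞 F)))
    (hT : ∀ v ∈ T, ¬ (Ideal.absNorm v.asIdeal).Prime) {s : ℝ} (hs : 1 ≤ s) :
    ∑ v ∈ T, (Ideal.absNorm v.asIdeal : ℝ) ^ (-s) ≤
      Module.finrank ℚ F * ∑' m : ℕ, 1 / (m : ℝ) ^ 2 := by
  classical
  have hsum : Summable (fun m : ℕ => 1 / (m : ℝ) ^ 2) :=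
    Real.summable_one_div_nat_pow.mpr (by norm_num)
  have h1 : ∀ v ∈ T, (Ideal.absNorm v.asIdeal : ℝ) ^ (-s) ≤ 1 / ((ratPrime v : ℕ) : ℝ) ^ 2 := by
    intro v hv
    have hN1 := one_le_absNorm v
    have hq := sq_le_of_not_prime v (hT v hv)
    have hq' : ((ratPrime v : ℕ) : ℝ) ^ 2 ≤ Ideal.absNorm v.asIdeal := by exact_mod_cast hq
    have hqpos : (0:ℝ) < ((ratPrime v : ℕ) : ℝ) ^ 2 := by
      have := (ratPrime_prime v).pos
      positivity
    calc (Ideal.absNorm v.asIdeal : ℝ) ^ (-s) ≤ (Ideal.absNorm v.asIdeal : ℝ) ^ (-1 : ℝ) :=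
          Real.rpow_le_rpow_of_exponent_le hN1 (by linarith)
      _ = 1 / (Ideal.absNorm v.asIdeal : ℝ) := by
          rw [Real.rpow_neg_one, one_div]
      _ ≤ 1 / ((ratPrime v : ℕ) : ℝ) ^ 2 := one_div_le_one_div_of_le hqpos hq'
  calc ∑ v ∈ T, (Ideal.absNorm v.asIdeal : ℝ) ^ (-s)
      ≤ ∑ v ∈ T, 1 / ((ratPrime v : ℕ) : ℝ) ^ 2 := Finset.sum_le_sum h1
    _ = ∑ q ∈ T.image ratPrime, (T.filter (fun v => ratPrime v = q)).card • (1 / (q : ℝ) ^ 2) :=
        Finset.sum_comp (fun q : ℕ => 1 / (q : ℝ) ^ 2) ratPrime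
    _ ≤ ∑ q ∈ T.image ratPrime, (Module.finrank ℚ F : ℝ) * (1 / (q : ℝ) ^ 2) := by
        apply Finset.sum_le_sum
        intro q hq
        rw [Finset.mem_image] at hq
        obtain ⟨v, -, rfl⟩ := hq
        rw [nsmul_eq_mul]
        apply mul_le_mul_of_nonneg_right _ (by positivity)
        exact_mod_cast card_fiber_le T (ratPrime v) (ratPrime_prime v)
    _ = (Module.finrank ℚ F : ℝ) * ∑ q ∈ T.image ratPrime, 1 / (q : ℝ) ^ 2 := by
        rw [Finset.mul_sum]
    _ ≤ Module.finrank ℚ F * ∑' m : ℕ, 1 / (m : ℝ) ^ 2 := by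
        apply mul_le_mul_of_nonneg_left _ (Nat.cast_nonneg _)
        exact hsum.sum_le_tsum _ (fun m _ => by positivity)

/-- the sum over primes over `p`, finite form -/
theorem sum_over_le (p : ℕ) (hp : p.Prime) (T : Finset (HeightOneSpectrum (𝓞 F)))
    (hT : ∀ v ∈ T, p ∣ Ideal.absNorm v.asIdeal) {s : ℝ} (hs : 0 ≤ s) :
    ∑ v ∈ T, (Ideal.absNorm v.asIdeal : ℝ) ^ (-s) ≤ Module.finrank ℚ F := by
  classical
  have hTeq : T.filter (fun v => ratPrime v = p) = T := by
    apply Finset.filter_true_of_mem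
    intro v hv
    exact eq_of_dvd_absNorm v hp (hT v hv)
  calc ∑ v ∈ T, (Ideal.absNorm v.asIdeal : ℝ) ^ (-s) ≤ ∑ v ∈ T, (1 : ℝ) := by
        apply Finset.sum_le_sum
        intro v _
        exact Real.rpow_le_one_of_one_le_of_nonpos (one_le_absNorm v) (by linarith)
    _ = T.card := by simp
    _ ≤ Module.finrank ℚ F := by
        have := card_fiber_le T p hp
        rw [hTeq] at this
        exact_mod_cast this

end Fermat.Agent.S14.HD

namespace Fermat.Agent.S14

open Dens HD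

/-- **86-P4h**: primes of degree `≥ 2` and primes over `p` have a bounded prime zeta sum. -/
theorem highDegBounded (p : ℕ) [hp : Fact p.Prime] (F : Type) [Field F] [NumberField F] :
    HighDegBounded p F := by
  classical
  have hsum : Summable (fun m : ℕ => 1 / (m : ℝ) ^ 2) :=
    Real.summable_one_div_nat_pow.mpr (by norm_num)
  have hts : 0 ≤ ∑' m : ℕ, 1 / (m : ℝ) ^ 2 := tsum_nonneg (fun m => by positivity)
  refine ⟨Module.finrank ℚ F * (∑' m : ℕ, 1 / (m : ℝ) ^ 2) + Module.finrank ℚ F,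
    by positivity, fun s hs1 hs2 => ?_⟩
  refine EP.pz_le_of_finset F _ s _ (fun T hT => ?_)
  have hsplit : ∑ v ∈ T, (Ideal.absNorm v.asIdeal : ℝ) ^ (-s) =
      ∑ v ∈ T.filter (fun v => ¬ p ∣ Ideal.absNorm v.asIdeal),
        (Ideal.absNorm v.asIdeal : ℝ) ^ (-s) +
      ∑ v ∈ T.filter (fun v => ¬ ¬ p ∣ Ideal.absNorm v.asIdeal),
        (Ideal.absNorm v.asIdeal : ℝ) ^ (-s) :=
    (Finset.sum_filter_add_sum_filter_not T _ _).symm
  rw [hsplit]
  apply add_le_add
  · apply sum_highDeg_le _ _ hs1.le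
    intro v hv
    rw [Finset.mem_filter] at hv
    rcases hT v hv.1 with h | h
    · exact h
    · exact absurd h hv.2
  · apply sum_over_le p hp.out _ _ (by linarith)
    intro v hv
    rw [Finset.mem_filter] at hv
    exact not_not.mp hv.2

end Fermat.Agent.S14
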