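import Mathlib
import Fermat.Agent.S14.DensityDefs

/-!
# S14, piece 86-P4e: primes modulo which `η` is a `p`-th power have upper density `≤ 1 / p`

`F` a number field containing a primitive `p`-th root of unity, `η ∈ 𝓞 F` not a `p`-th power,
`F' = F[X] / (X ^ p - η)`, `α` the class of `X`.  For a prime `P` of `F` not dividing
`d * p * η` (`d` the discriminant of `1, α, …, α ^ (p - 1)`) modulo which `η` is a `p`-th power,
the polynomial `X ^ p - η` has `p` distinct roots `r` modulo `P`, and each root gives a ring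
homomorphism `𝓞 F' → 𝓞 F / P`, `α ↦ r` (Kummer–Dedekind, `quotMapEquivQuotQuotMap`), whose
kernel is a prime of `F'` of the same norm as `P`.  Hence
`p * ∑_{P ∈ S} N(P) ^ (-s) ≤ ∑_Q N(Q) ^ (-s) + p * #bad ≤ log (1 / (s - 1)) + C`.
-/

set_option autoImplicit false
set_option linter.unusedSectionVars false
set_option linter.style.haveILetI false

open scoped NumberField nonZeroDivisors ENNReal
open IsDedekindDomain Polynomial

namespace Fermat.Agent.S14.SP

/-- Kummer–Dedekind, existence half: a root `r` of the minimal polynomial of `x` modulo `P`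
gives a ring homomorphism `B → A / P` over `A` sending `x` to `r`. -/
theorem exists_ringHom_of_root {A B : Type*} [CommRing A] [IsDomain A] [IsIntegrallyClosed A]
    [CommRing B] [IsDedekindDomain B] [Algebra A B] [Module.IsTorsionFree A B]
    (x : B) (hx' : IsIntegral A x) (P : Ideal A)
    (hx : (conductor A x).comap (algebraMap A B) ⊔ P = ⊤)
    (r : A ⧸ P) (hr : ((minpoly A x).map (Ideal.Quotient.mk P)).eval r = 0) :
    ∃ ψ : B →+* A ⧸ P, (∀ a, ψ (algebraMap A B a) = Ideal.Quotient.mk P a) ∧ ψ x = r := by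
  classical
  let e := KummerDedekind.quotMapEquivQuotQuotMap hx hx'
  let ev : (A ⧸ P)[X] ⧸ Ideal.span {(minpoly A x).map (Ideal.Quotient.mk P)} →+* A ⧸ P :=
    Ideal.Quotient.lift _ (Polynomial.evalRingHom r) (by
      intro q hq
      rw [Ideal.mem_span_singleton] at hq
      obtain ⟨c, rfl⟩ := hq
      simp [hr])
  have key : ∀ Q : A[X], e (Ideal.Quotient.mk _ (Polynomial.aeval x Q)) =
      Ideal.Quotient.mk _ (Q.map (Ideal.Quotient.mk P)) := by
    intro Q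
    rw [← KummerDedekind.quotMapEquivQuotQuotMap_symm_apply hx hx' Q]
    exact e.apply_symm_apply _
  refine ⟨ev.comp (e.toRingHom.comp (Ideal.Quotient.mk _)), ?_, ?_⟩
  · intro a
    have := key (C a)
    simp only [aeval_C, Polynomial.map_C] at this
    simp only [RingHom.coe_comp, Function.comp_apply, RingEquiv.toRingHom_eq_coe, RingHom.coe_coe, this]
    simp [ev]
  · have := key X
    simp only [aeval_X, Polynomial.map_X] at this
    simp only [RingHom.coe_comp, Function.comp_apply, RingEquiv.toRingHom_eq_coe, RingHom.coe_coe, this]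
    simp [ev]

section NF

variable {F F' : Type*} [Field F] [NumberField F] [Field F'] [NumberField F'] [Algebra F F']

/-- `Q` is the kernel of a ring homomorphism `𝓞 F' → 𝓞 F / v` over `𝓞 F` sending `α` to `r`. -/
def IsOver (α : 𝓞 F') (v : HeightOneSpectrum (𝓞 F)) (r : 𝓞 F ⧸ v.asIdeal)
    (Q : HeightOneSpectrum (𝓞 F')) : Prop :=
  ∃ ψ : 𝓞 F' →+* 𝓞 F ⧸ v.asIdeal,
    (∀ a, ψ (algebraMap (𝓞 F) (𝓞 F') a) = Ideal.Quotient.mk v.asIdeal a) ∧ ψ α = r ∧
      Q.asIdeal = RingHom.ker ψ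

theorem IsOver.absNorm_eq {α : 𝓞 F'} {v : HeightOneSpectrum (𝓞 F)} {r : 𝓞 F ⧸ v.asIdeal}
    {Q : HeightOneSpectrum (𝓞 F')} (h : IsOver α v r Q) :
    Ideal.absNorm Q.asIdeal = Ideal.absNorm v.asIdeal := by
  obtain ⟨ψ, h1, -, h3⟩ := h
  have hsurj : Function.Surjective ψ := by
    intro y
    obtain ⟨a, rfl⟩ := Ideal.Quotient.mk_surjective y
    exact ⟨_, h1 a⟩
  rw [h3, Ideal.absNorm_apply, Ideal.absNorm_apply, Submodule.cardQuot_apply,
    Submodule.cardQuot_apply]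
  exact Nat.card_congr (RingHom.quotientKerEquivOfSurjective hsurj).toEquiv

theorem IsOver.comap_eq {α : 𝓞 F'} {v : HeightOneSpectrum (𝓞 F)} {r : 𝓞 F ⧸ v.asIdeal}
    {Q : HeightOneSpectrum (𝓞 F')} (h : IsOver α v r Q) :
    Q.asIdeal.comap (algebraMap (𝓞 F) (𝓞 F')) = v.asIdeal := by
  obtain ⟨ψ, h1, -, h3⟩ := h
  ext a
  rw [Ideal.mem_comap, h3, RingHom.mem_ker, h1, Ideal.Quotient.eq_zero_iff_mem]

theorem IsOver.left_unique {α : 𝓞 F'} {v v' : HeightOneSpectrum (𝓞 F)} {r : 𝓞 F ⧸ v.asIdeal}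
    {r' : 𝓞 F ⧸ v'.asIdeal}
    {Q : HeightOneSpectrum (𝓞 F')} (h : IsOver α v r Q) (h' : IsOver α v' r' Q) : v = v' := by
  apply HeightOneSpectrum.ext
  rw [← h.comap_eq, ← h'.comap_eq]

theorem IsOver.root_unique {α : 𝓞 F'} {v : HeightOneSpectrum (𝓞 F)} {r r' : 𝓞 F ⧸ v.asIdeal}
    {Q : HeightOneSpectrum (𝓞 F')} (h : IsOver α v r Q) (h' : IsOver α v r' Q) : r = r' := by
  obtain ⟨ψ, h1, h2, h3⟩ := h
  obtain ⟨ψ', h1', h2', h3'⟩ := h'
  obtain ⟨a, rfl⟩ := Ideal.Quotient.mk_surjective r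
  have hmem : α - algebraMap (𝓞 F) (𝓞 F') a ∈ Q.asIdeal := by
    rw [h3, RingHom.mem_ker, map_sub, h1, h2, sub_self]
  rw [h3', RingHom.mem_ker, map_sub, h1', h2', sub_eq_zero] at hmem
  exact hmem.symm

theorem exists_isOver (p : ℕ) (η : 𝓞 F) (α : 𝓞 F')
    (hmin : minpoly (𝓞 F) α = X ^ p - C η)
    (d : 𝓞 F) (hcond : algebraMap (𝓞 F) (𝓞 F') d ∈ conductor (𝓞 F) α)
    (v : HeightOneSpectrum (𝓞 F)) (hd : d ∉ v.asIdeal)
    (r : 𝓞 F ⧸ v.asIdeal) (hr : r ^ p = Ideal.Quotient.mk _ η) :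
    ∃ Q : HeightOneSpectrum (𝓞 F'), IsOver α v r Q := by
  have hint : IsIntegral (𝓞 F) α := Algebra.IsIntegral.isIntegral α
  have hmax : v.asIdeal.IsMaximal := v.isMaximal
  have hx : (conductor (𝓞 F) α).comap (algebraMap (𝓞 F) (𝓞 F')) ⊔ v.asIdeal = ⊤ := by
    by_contra hne
    have h1 : v.asIdeal = (conductor (𝓞 F) α).comap (algebraMap (𝓞 F) (𝓞 F')) ⊔ v.asIdeal :=
      hmax.eq_of_le hne le_sup_right
    apply hd
    rw [h1]
    exact Ideal.mem_sup_left (Ideal.mem_comap.mpr hcond)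
  obtain ⟨ψ, h1, h2⟩ := exists_ringHom_of_root α hint v.asIdeal hx r (by
    rw [hmin]; simp [hr])
  have hsurj : Function.Surjective ψ := by
    intro y
    obtain ⟨a, rfl⟩ := Ideal.Quotient.mk_surjective y
    exact ⟨_, h1 a⟩
  have hkmax : (RingHom.ker ψ).IsMaximal := by
    letI := Ideal.Quotient.field v.asIdeal
    exact RingHom.ker_isMaximal_of_surjective ψ hsurj
  have hne : RingHom.ker ψ ≠ ⊥ := by
    intro hbot
    have hinj : Function.Injective ψ := (RingHom.injective_iff_ker_eq_bot ψ).mpr hbot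
    have hfin : Finite (𝓞 F ⧸ v.asIdeal) := by
      exact Ideal.finiteQuotientOfFreeOfNeBot v.asIdeal v.ne_bot
    have : Finite (𝓞 F') := Finite.of_injective ψ hinj
    exact not_finite (𝓞 F')
  exact ⟨⟨RingHom.ker ψ, hkmax.isPrime, hne⟩, ψ, h1, h2, rfl⟩

theorem exists_roots (p : ℕ) [hp : Fact p.Prime] (ζ : 𝓞 F) (hζ : IsPrimitiveRoot ζ p) (η : 𝓞 F)
    (v : HeightOneSpectrum (𝓞 F)) (hpv : (p : 𝓞 F) ∉ v.asIdeal) (hηv : η ∉ v.asIdeal)
    (x : 𝓞 F ⧸ v.asIdeal) (hx : x ^ p = Ideal.Quotient.mk _ η) :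
    ∃ f : Fin p → 𝓞 F ⧸ v.asIdeal, Function.Injective f ∧
      ∀ i, (f i) ^ p = Ideal.Quotient.mk _ η := by
  let _ := Ideal.Quotient.field v.asIdeal
  set z : 𝓞 F ⧸ v.asIdeal := Ideal.Quotient.mk _ ζ with hz
  have hzp : z ^ p = 1 := by
    rw [hz, ← map_pow, hζ.pow_eq_one, map_one]
  have hz1 : z ≠ 1 := by
    intro h1
    have hsum := hζ.geom_sum_eq_zero hp.out.one_lt
    have := congrArg (Ideal.Quotient.mk v.asIdeal) hsum
    rw [map_sum, map_zero] at this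
    simp only [map_pow, ← hz, h1, one_pow, Finset.sum_const, Finset.card_range, nsmul_eq_mul,
      mul_one] at this
    apply hpv
    rw [← Ideal.Quotient.eq_zero_iff_mem, map_natCast]
    exact this
  have hx0 : x ≠ 0 := by
    rintro rfl
    rw [zero_pow hp.out.ne_zero] at hx
    exact hηv (Ideal.Quotient.eq_zero_iff_mem.mp hx.symm)
  have hord : orderOf z = p := orderOf_eq_prime hzp hz1
  refine ⟨fun i => x * z ^ (i : ℕ), ?_, ?_⟩
  · intro i j hij
    have h2 : z ^ (i : ℕ) = z ^ (j : ℕ) := mul_left_cancel₀ hx0 hij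
    have := pow_injOn_Iio_orderOf (x := z) (by simp [hord] : (i : ℕ) ∈ Set.Iio (orderOf z))
      (by simp [hord] : (j : ℕ) ∈ Set.Iio (orderOf z)) h2
    exact Fin.ext this
  · intro i
    rw [mul_pow, hx, ← pow_mul, mul_comm (i : ℕ) p, pow_mul, hzp, one_pow, mul_one]

theorem absNorm_rpow_le_one (v : HeightOneSpectrum (𝓞 F)) {s : ℝ} (hs : 0 ≤ s) :
    (Ideal.absNorm v.asIdeal : ℝ) ^ (-s) ≤ 1 := by
  apply Real.rpow_le_one_of_one_le_of_nonpos _ (by linarith)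
  have : Ideal.absNorm v.asIdeal ≠ 0 := by
    rw [Ne, Ideal.absNorm_eq_zero_iff]
    exact v.ne_bot
  exact_mod_cast Nat.one_le_iff_ne_zero.mpr this

theorem core (p : ℕ) [hp : Fact p.Prime] (ζ : 𝓞 F) (hζ : IsPrimitiveRoot ζ p) (η : 𝓞 F)
    (hη0 : η ≠ 0) (α : 𝓞 F')
    (hmin : minpoly (𝓞 F) α = X ^ p - C η)
    (d : 𝓞 F) (hd0 : d ≠ 0) (hcond : algebraMap (𝓞 F) (𝓞 F') d ∈ conductor (𝓞 F) α)
    (CU : ℝ) (hU : ∀ s ∈ Set.Ioc (1:ℝ) 2, ∀ T : Finset (HeightOneSpectrum (𝓞 F')),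
      ∑ w ∈ T, (Ideal.absNorm w.asIdeal : ℝ) ^ (-s) ≤ Real.log (1 / (s - 1)) + CU) :
    ∃ C : ℝ, ∀ s ∈ Set.Ioc (1:ℝ) 2, ∀ S : Finset (HeightOneSpectrum (𝓞 F)),
      (∀ v ∈ S, ∃ x : 𝓞 F ⧸ v.asIdeal, x ^ p = Ideal.Quotient.mk _ η) →
      (p : ℝ) * ∑ v ∈ S, (Ideal.absNorm v.asIdeal : ℝ) ^ (-s) ≤ Real.log (1 / (s - 1)) + C := by
  classical
  have hp0 : (p : 𝓞 F) ≠ 0 := by exact_mod_cast hp.out.ne_zero
  have hprod0 : d * (p : 𝓞 F) * η ≠ 0 := mul_ne_zero (mul_ne_zero hd0 hp0) hη0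
  have hbadfin : {v : HeightOneSpectrum (𝓞 F) | v.asIdeal ∣ Ideal.span {d * (p : 𝓞 F) * η}}.Finite :=
    Ideal.finite_factors (by
      rw [Ne, Ideal.zero_eq_bot, Ideal.span_singleton_eq_bot]; exact hprod0)
  set bad : Finset (HeightOneSpectrum (𝓞 F)) := hbadfin.toFinset with hbad
  have hgood : ∀ v : HeightOneSpectrum (𝓞 F), v ∉ bad →
      d ∉ v.asIdeal ∧ (p : 𝓞 F) ∉ v.asIdeal ∧ η ∉ v.asIdeal := by
    intro v hv
    rw [hbad, Set.Finite.mem_toFinset, Set.mem_ofPred_eq, Ideal.dvd_span_singleton] at hv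
    refine ⟨fun h => hv ?_, fun h => hv ?_, fun h => hv ?_⟩
    · exact Ideal.mul_mem_right _ _ (Ideal.mul_mem_right _ _ h)
    · exact Ideal.mul_mem_right _ _ (Ideal.mul_mem_left _ _ h)
    · exact Ideal.mul_mem_left _ _ h
  refine ⟨CU + p * bad.card, fun s hs S hS => ?_⟩
  have hs0 : (0:ℝ) ≤ s := by linarith [hs.1]
  set g : HeightOneSpectrum (𝓞 F) → ℝ := fun v => (Ideal.absNorm v.asIdeal : ℝ) ^ (-s) with hg
  set Sg := S.filter (fun v => v ∉ bad) with hSg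
  set Sb := S.filter (fun v => ¬ (v ∉ bad)) with hSb
  have hsplit : ∑ v ∈ S, g v = ∑ v ∈ Sg, g v + ∑ v ∈ Sb, g v :=
    (Finset.sum_filter_add_sum_filter_not S _ _).symm
  -- the bad part
  have hbadsum : ∑ v ∈ Sb, g v ≤ bad.card := by
    have h1 : Sb ⊆ bad := by
      intro v hv
      rw [hSb, Finset.mem_filter] at hv
      exact not_not.mp hv.2
    calc ∑ v ∈ Sb, g v ≤ ∑ v ∈ Sb, (1:ℝ) :=
          Finset.sum_le_sum fun v _ => absNorm_rpow_le_one v hs0
      _ = Sb.card := by simp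
      _ ≤ bad.card := by exact_mod_cast Finset.card_le_card h1
  -- the good part
  have hx : ∀ w : {v // v ∈ Sg}, ∃ x : 𝓞 F ⧸ w.1.asIdeal, x ^ p = Ideal.Quotient.mk _ η :=
    fun w => hS w.1 (Finset.mem_filter.mp w.2).1
  have hf : ∀ w : {v // v ∈ Sg}, ∃ f : Fin p → 𝓞 F ⧸ w.1.asIdeal, Function.Injective f ∧
      ∀ i, (f i) ^ p = Ideal.Quotient.mk _ η := by
    intro w
    obtain ⟨x, hx⟩ := hx w
    have hw := hgood w.1 (Finset.mem_filter.mp w.2).2
    exact exists_roots p ζ hζ η w.1 hw.2.1 hw.2.2 x hx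
  choose f hfinj hfroot using hf
  have hQ : ∀ (w : {v // v ∈ Sg}) (i : Fin p), ∃ Q : HeightOneSpectrum (𝓞 F'),
      IsOver α w.1 (f w i) Q := by
    intro w i
    have hw := hgood w.1 (Finset.mem_filter.mp w.2).2
    exact exists_isOver p η α hmin d hcond w.1 hw.1 (f w i) (hfroot w i)
  choose Φ hΦ using hQ
  have hinj : Set.InjOn (fun wi : {v // v ∈ Sg} × Fin p => Φ wi.1 wi.2)
      (↑(Sg.attach ×ˢ (Finset.univ : Finset (Fin p)))) := by
    rintro ⟨w, i⟩ - ⟨w', i'⟩ - h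
    simp only at h
    have h1 := hΦ w i
    have h2 := hΦ w' i'
    rw [← h] at h2
    have hww : w = w' := Subtype.ext (h1.left_unique h2)
    subst hww
    have := h1.root_unique h2
    rw [hfinj w this]
  have hsumT : ∑ Q ∈ (Sg.attach ×ˢ (Finset.univ : Finset (Fin p))).image
        (fun wi : {v // v ∈ Sg} × Fin p => Φ wi.1 wi.2),
        (Ideal.absNorm Q.asIdeal : ℝ) ^ (-s) = (p : ℝ) * ∑ v ∈ Sg, g v := by
    rw [Finset.sum_image hinj, Finset.sum_product]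
    simp only [(hΦ _ _).absNorm_eq, Finset.sum_const, Finset.card_univ, Fintype.card_fin,
      nsmul_eq_mul]
    rw [← Finset.mul_sum, Finset.sum_attach Sg (fun v => (Ideal.absNorm v.asIdeal : ℝ) ^ (-s))]
  have hT := hU s hs ((Sg.attach ×ˢ (Finset.univ : Finset (Fin p))).image
        (fun wi : {v // v ∈ Sg} × Fin p => Φ wi.1 wi.2))
  rw [hsumT] at hT
  have hpnn : (0:ℝ) ≤ p := Nat.cast_nonneg p
  calc (p : ℝ) * ∑ v ∈ S, g v = (p : ℝ) * ∑ v ∈ Sg, g v + p * ∑ v ∈ Sb, g v := by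
        rw [hsplit, mul_add]
    _ ≤ (Real.log (1 / (s - 1)) + CU) + p * bad.card :=
        add_le_add hT (mul_le_mul_of_nonneg_left hbadsum hpnn)
    _ = Real.log (1 / (s - 1)) + (CU + p * bad.card) := by ring

theorem core_of_powerBasis (p : ℕ) [hp : Fact p.Prime] (ζ : 𝓞 F) (hζ : IsPrimitiveRoot ζ p)
    (η : 𝓞 F) (hη0 : η ≠ 0)
    (pb : PowerBasis F F') (hmin : minpoly F pb.gen = X ^ p - C (η : F))
    (CU : ℝ) (hU : ∀ s ∈ Set.Ioc (1:ℝ) 2, ∀ T : Finset (HeightOneSpectrum (𝓞 F')),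
      ∑ w ∈ T, (Ideal.absNorm w.asIdeal : ℝ) ^ (-s) ≤ Real.log (1 / (s - 1)) + CU) :
    ∃ C : ℝ, ∀ s ∈ Set.Ioc (1:ℝ) 2, ∀ S : Finset (HeightOneSpectrum (𝓞 F)),
      (∀ v ∈ S, ∃ x : 𝓞 F ⧸ v.asIdeal, x ^ p = Ideal.Quotient.mk _ η) →
      (p : ℝ) * ∑ v ∈ S, (Ideal.absNorm v.asIdeal : ℝ) ^ (-s) ≤ Real.log (1 / (s - 1)) + C := by
  classical
  have hmapeq : (X ^ p - C η : (𝓞 F)[X]).map (algebraMap (𝓞 F) F) = X ^ p - C (η : F) := by
    simp
  have hmonic : (X ^ p - C η : (𝓞 F)[X]).Monic :=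
    monic_X_pow_sub_C η hp.out.ne_zero
  have hint' : IsIntegral (𝓞 F) pb.gen := by
    refine ⟨X ^ p - C η, hmonic, ?_⟩
    have h := minpoly.aeval F pb.gen
    rw [hmin, ← hmapeq, aeval_map_algebraMap] at h
    exact h
  have hintZ : IsIntegral ℤ pb.gen := isIntegral_trans _ hint'
  set α : 𝓞 F' := ⟨pb.gen, hintZ⟩ with hα
  have hαcoe : algebraMap (𝓞 F') F' α = pb.gen := rfl
  have hintα : IsIntegral (𝓞 F) α := Algebra.IsIntegral.isIntegral α
  have hminα : minpoly (𝓞 F) α = X ^ p - C η := by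
    have h := minpoly.isIntegrallyClosed_eq_field_fractions F F' hintα
    rw [hαcoe, hmin, ← hmapeq] at h
    exact (Polynomial.map_injective _ (FaithfulSMul.algebraMap_injective (𝓞 F) F) h).symm
  -- the discriminant
  have hdint : IsIntegral (𝓞 F) (Algebra.discr F pb.basis) := by
    apply Algebra.discr_isIntegral
    intro i
    rw [pb.basis_eq_pow]
    exact hint'.pow _
  obtain ⟨d, hd⟩ := IsIntegrallyClosed.isIntegral_iff.mp hdint
  have hd0 : d ≠ 0 := by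
    rintro rfl
    rw [map_zero] at hd
    exact Algebra.discr_not_zero_of_basis F pb.basis hd.symm
  have hcond : algebraMap (𝓞 F) (𝓞 F') d ∈ conductor (𝓞 F) α := by
    rw [mem_conductor_iff]
    intro b
    have hb : IsIntegral (𝓞 F) (algebraMap (𝓞 F') F' b) :=
      (Algebra.IsIntegral.isIntegral b).algebraMap
    have H := Algebra.discr_mul_isIntegral_mem_adjoin F hint' hb
    rw [← hd] at H
    let ι : 𝓞 F' →ₐ[𝓞 F] F' := IsScalarTower.toAlgHom (𝓞 F) (𝓞 F') F'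
    have hι : Function.Injective ι := NumberField.RingOfIntegers.coe_injective
    have h2 : Algebra.adjoin (𝓞 F) {pb.gen} = (Algebra.adjoin (𝓞 F) {α}).map ι := by
      rw [AlgHom.map_adjoin_singleton]
      rfl
    rw [h2] at H
    obtain ⟨y, hy, hyeq⟩ := H
    have : y = algebraMap (𝓞 F) (𝓞 F') d * b := by
      apply hι
      refine hyeq.trans ?_
      simp only [ι, IsScalarTower.coe_toAlgHom', map_mul]
      rw [Algebra.smul_def, ← IsScalarTower.algebraMap_apply (𝓞 F) (𝓞 F') F',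
        ← IsScalarTower.algebraMap_apply (𝓞 F) F F']
    rw [← this]
    exact hy
  exact core p ζ hζ η hη0 α hminα d hd0 hcond CU hU

end NF

open Dens

theorem lg_nonneg {s : ℝ} (hs1 : 1 < s) (hs2 : s ≤ 2) : 0 ≤ lg s := by
  unfold lg
  apply Real.log_nonneg
  rw [le_div_iff₀ (by linarith)]
  linarith

/-- from the `ℝ≥0∞` form of the upper bound to finite sums -/
theorem finite_of_upperFrac {K : Type*} [Field K] [NumberField K]
    (h : UpperFrac K Set.univ 1) :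
    ∃ CU : ℝ, ∀ s ∈ Set.Ioc (1:ℝ) 2, ∀ T : Finset (HeightOneSpectrum (𝓞 K)),
      ∑ w ∈ T, (Ideal.absNorm w.asIdeal : ℝ) ^ (-s) ≤ Real.log (1 / (s - 1)) + CU := by
  obtain ⟨C, hC, h⟩ := h
  refine ⟨C, fun s hs T => ?_⟩
  have h1 := h s hs.1 hs.2
  have hnn : 0 ≤ 1 * lg s + C := by
    have := lg_nonneg hs.1 hs.2
    linarith
  have h2 : ENNReal.ofReal (∑ w ∈ T, (Ideal.absNorm w.asIdeal : ℝ) ^ (-s)) ≤
      ENNReal.ofReal (1 * lg s + C) := by
    rw [ENNReal.ofReal_sum_of_nonneg (fun w _ => by positivity)]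
    refine le_trans ?_ h1
    unfold pz
    rw [tsum_univ (fun w : HeightOneSpectrum (𝓞 K) =>
      ENNReal.ofReal ((Ideal.absNorm w.asIdeal : ℝ) ^ (-s)))]
    exact ENNReal.sum_le_tsum T
  have h3 := (ENNReal.ofReal_le_ofReal_iff hnn).mp h2
  rw [one_mul] at h3
  exact h3

/-- from finite sums to the `ℝ≥0∞` form -/
theorem upperFrac_of_finite {K : Type*} [Field K] [NumberField K]
    (S : Set (HeightOneSpectrum (𝓞 K))) (p : ℕ) (hp : 0 < p) (C : ℝ)
    (h : ∀ s ∈ Set.Ioc (1:ℝ) 2, ∀ T : Finset (HeightOneSpectrum (𝓞 K)), (∀ v ∈ T, v ∈ S) →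
      (p : ℝ) * ∑ v ∈ T, (Ideal.absNorm v.asIdeal : ℝ) ^ (-s) ≤ Real.log (1 / (s - 1)) + C) :
    UpperFrac K S (1 / p) := by
  have hp0 : (0:ℝ) < p := by exact_mod_cast hp
  refine ⟨max C 0 / p, by positivity, fun s hs1 hs2 => ?_⟩
  unfold pz
  rw [ENNReal.tsum_eq_iSup_sum]
  refine iSup_le fun t => ?_
  have h1 := h s ⟨hs1, hs2⟩ (t.map (Function.Embedding.subtype _)) (by
    intro v hv
    rw [Finset.mem_map] at hv
    obtain ⟨w, -, rfl⟩ := hv
    exact w.2)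
  rw [Finset.sum_map] at h1
  simp only [Function.Embedding.coe_subtype] at h1
  rw [← ENNReal.ofReal_sum_of_nonneg (fun w _ => by positivity)]
  apply ENNReal.ofReal_le_ofReal
  have h2 : Real.log (1 / (s - 1)) + C ≤ lg s + max C 0 := by
    unfold lg
    linarith [le_max_left C 0]
  have h3 : ∑ w ∈ t, (Ideal.absNorm w.1.asIdeal : ℝ) ^ (-s) ≤ (lg s + max C 0) / p := by
    rw [le_div_iff₀ hp0, mul_comm]
    exact h1.trans h2
  refine h3.trans (le_of_eq ?_)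
  field_simp

end Fermat.Agent.S14.SP

namespace Fermat.Agent.S14

open SP Dens

/-- **86-P4e**: the primes modulo which `η` is a `p`-th power have upper density `≤ 1 / p`,
given the upper bound `∑_Q N(Q)^(-s) ≤ log (1/(s-1)) + C` for every number field. -/
theorem splitUpper_of_upperAll (p : ℕ) [hp : Fact p.Prime] (F : Type) [Field F] [NumberField F]
    (hU : ∀ (K : Type) [Field K] [NumberField K], UpperFrac K Set.univ 1) :
    SplitUpper p F := by
  rintro ⟨ζ', hζ'⟩ η hη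
  have hζint : IsIntegral ℤ ζ' := hζ'.isIntegral hp.out.pos
  obtain ⟨ζ, hζeq⟩ : ∃ x : 𝓞 F, algebraMap (𝓞 F) F x = ζ' := ⟨⟨ζ', hζint⟩, rfl⟩
  have hζ : IsPrimitiveRoot ζ p := by
    apply IsPrimitiveRoot.of_map_of_injective (f := algebraMap (𝓞 F) F) _
      NumberField.RingOfIntegers.coe_injective
    rw [hζeq]
    exact hζ'
  have hη0 : η ≠ 0 := by
    rintro rfl
    exact hη 0 (zero_pow hp.out.ne_zero)
  have hη' : ∀ b : F, b ^ p ≠ (η : F) := by
    intro b hb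
    have hbint : IsIntegral ℤ b := by
      apply IsIntegral.of_pow hp.out.pos
      rw [hb]
      exact NumberField.RingOfIntegers.isIntegral_coe η
    obtain ⟨x, hx⟩ : ∃ x : 𝓞 F, algebraMap (𝓞 F) F x = b := ⟨⟨b, hbint⟩, rfl⟩
    refine hη x (NumberField.RingOfIntegers.ext ?_)
    change algebraMap (𝓞 F) F (x ^ p) = algebraMap (𝓞 F) F η
    rw [map_pow, hx]
    exact hb
  have hirr : Irreducible (X ^ p - C (η : F)) :=
    (X_pow_sub_C_irreducible_iff_of_prime hp.out).mpr hη'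
  have : Fact (Irreducible (X ^ p - C (η : F))) := ⟨hirr⟩
  have hf0 : (X ^ p - C (η : F)) ≠ 0 := hirr.ne_zero
  have hmonic : (X ^ p - C (η : F)).Monic := monic_X_pow_sub_C _ hp.out.ne_zero
  let pb : PowerBasis F (AdjoinRoot (X ^ p - C (η : F))) := AdjoinRoot.powerBasis hf0
  have : Module.Finite F (AdjoinRoot (X ^ p - C (η : F))) := pb.finite
  have : NumberField (AdjoinRoot (X ^ p - C (η : F))) :=
    NumberField.of_module_finite F (AdjoinRoot (X ^ p - C (η : F)))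
  have hmin : minpoly F pb.gen = X ^ p - C (η : F) := by
    rw [AdjoinRoot.powerBasis_gen, AdjoinRoot.minpoly_root hf0, hmonic.leadingCoeff, inv_one,
      C_1, mul_one]
  obtain ⟨CU, hCU⟩ := finite_of_upperFrac (hU (AdjoinRoot (X ^ p - C (η : F))))
  obtain ⟨C, hC⟩ := core_of_powerBasis p ζ hζ η hη0 pb hmin CU hCU
  exact upperFrac_of_finite _ p hp.out.pos C (fun s hs T hT => hC s hs T hT)

end Fermat.Agent.S14
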