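import Mathlib
import Fermat.Agent.S14.SplitPrimes
import Fermat.Agent.S14.EulerLog

/-!
# S14, piece 86-P4e, final form: `SplitUpper p F`
-/

set_option autoImplicit false

namespace Fermat.Agent.S14

/-- **86-P4e**: the primes modulo which `η` is a `p`-th power have upper density `≤ 1 / p`. -/
theorem splitUpper (p : ℕ) [Fact p.Prime] (F : Type) [Field F] [NumberField F] :
    SplitUpper p F :=
  splitUpper_of_upperAll p F (fun K _ _ => EP.upperAll K)

end Fermat.Agent.S14
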