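import Mathlib
import Fermat.Agent.S14.DensityDefs
import Fermat.Agent.S14.EulerLog
import Fermat.Agent.S14.ClassUpper
import Fermat.Agent.S14.ClassZetaFinal
import Fermat.Agent.S14.SplitUpperFinal
import Fermat.Agent.S14.HighDeg

/-!
# S14 / P4: the density statement (assembly, helper6)

`DensityStatement p F` for every number field `F` and every prime `p ≥ 3`:
a degree one prime, prime to `p`, outside the kernel of a nonzero functional on `Cl / p`,
modulo which a given non-`p`-th power is not a `p`-th power.
-/

set_option autoImplicit false

namespace Fermat.Agent.S14

/-- **86-P4**: the density statement. -/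
theorem densityStatement (p : ℕ) [hp : Fact p.Prime] (h3 : 3 ≤ p)
    (F : Type) [Field F] [NumberField F] : DensityStatement p F :=
  densityStatement_of_parts p F h3 (EP.lowerAll F)
    (classUpper_of_bounded p F (classZetaBounded F)) (splitUpper p F) (highDegBounded p F)

end Fermat.Agent.S14
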