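import Mathlib
import Fermat.Prelude.Def_ExtCitation_AdmissibleExtension_v2
import Fermat.Prelude.Def_ExtCitation_KummerBridge

/-!
# S14, piece 86-P1/P2 interface: the Kummer datum of a non-split admissible extension

`KummerDatum p ζ β` (everything inside `AlgebraicClosure ℚ`): `ζ` is a primitive `p`-th root of unity,
`β ≠ 0`, `β ^ p ∈ ℚ(ζ)`, `β ∉ ℚ(ζ)`, every `σ ∈ G_ℚ` sends `β` to `β ^ (χ(σ)^2) * γ` with
`γ ∈ ℚ(ζ)` (`χ` the mod `p` cyclotomic character), the inertia groups at the primes `q ≠ p` fix `β`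
as soon as they fix `ζ`, and so do the decomposition groups at `p`.

86-P1 produces it from a non-split admissible extension; 86-P2 consumes it.
-/

set_option autoImplicit false

namespace Fermat.Agent.S14

open ExtCitation

/-- the Kummer datum cut out by a non-split admissible extension of `μ_p` by `ℤ/p`. -/
structure KummerDatum (p : ℕ) [Fact p.Prime] (ζ β : AlgebraicClosure ℚ) : Prop where
  prim : IsPrimitiveRoot ζ p
  ne_zero : β ≠ 0
  pow_mem : β ^ p ∈ IntermediateField.adjoin ℚ ({ζ} : Set (AlgebraicClosure ℚ))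
  not_mem : β ∉ IntermediateField.adjoin ℚ ({ζ} : Set (AlgebraicClosure ℚ))
  omega : ∀ σ : AlgebraicClosure ℚ ≃ₐ[ℚ] AlgebraicClosure ℚ,
    ∃ γ ∈ IntermediateField.adjoin ℚ ({ζ} : Set (AlgebraicClosure ℚ)),
      σ β = β ^ ((((cycloChar p σ : (ZMod p)ˣ) : ZMod p)) ^ 2).val * γ
  unram : ∀ q : ℕ, q.Prime → q ≠ p → ∀ A : ValuationSubring (AlgebraicClosure ℚ),
    A.LiesOverPrime q → ∀ σ ∈ A.inertiaSubgroupIn ℚ, σ ζ = ζ → σ β = β
  split : ∀ A : ValuationSubring (AlgebraicClosure ℚ), A.LiesOverPrime p →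
    ∀ σ ∈ A.decompositionSubgroup ℚ, σ ζ = ζ → σ β = β

/-- the statement of 86-P1. -/
def KummerDatumStatement (p : ℕ) [Fact p.Prime] : Prop :=
  ∀ (V : Type) [AddCommGroup V] [Module (ZMod p) V]
    [DistribMulAction (AlgebraicClosure ℚ ≃ₐ[ℚ] AlgebraicClosure ℚ) V]
    [SMulCommClass (AlgebraicClosure ℚ ≃ₐ[ℚ] AlgebraicClosure ℚ) (ZMod p) V]
    (C : Submodule (ZMod p) V), IsAdmissibleExtensionCts p V C → ¬ SplitsGlobally C →
    ∃ ζ β : AlgebraicClosure ℚ, KummerDatum p ζ β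

end Fermat.Agent.S14
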