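import Mathlib
import Fermat.Agent.S14.KummerDatum

/-!
# S14, piece 86-P1 (a): the cocycle of an admissible extension

For an admissible extension `C ⊂ V` we choose `c0 ∈ C`, `v0 ∉ C` and write
`σ • v0 = χ(σ) • v0 + b(σ) • c0`.  Then `b (σ τ) = χ(τ) b(σ) + b(τ)`, and `V` splits globally as soon as
`b` vanishes on the kernel of `χ`.
-/

set_option autoImplicit false
set_option linter.style.haveILetI false
set_option linter.unusedSectionVars false

namespace Fermat.Agent.S14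

open ExtCitation

local notation "GQ" => (AlgebraicClosure ℚ ≃ₐ[ℚ] AlgebraicClosure ℚ)

/-- the mod `p` cyclotomic character with values in `ZMod p`. -/
noncomputable def chiZ (p : ℕ) [Fact p.Prime] (σ : GQ) : ZMod p :=
  ((cycloChar p σ : (ZMod p)ˣ) : ZMod p)

section Chi

variable {p : ℕ} [Fact p.Prime]

lemma chiZ_mul (σ τ : GQ) : chiZ p (σ * τ) = chiZ p σ * chiZ p τ := by
  simp [chiZ, map_mul]

lemma chiZ_one : chiZ p (1 : GQ) = 1 := by
  simp [chiZ]

lemma chiZ_ne_zero (σ : GQ) : chiZ p σ ≠ 0 := Units.ne_zero _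

lemma chiZ_eq_cycloExp (σ : GQ) : chiZ p σ = (cycloExp p σ : ZMod p) := coe_cycloChar p σ

lemma chiZ_inv (σ : GQ) : chiZ p σ⁻¹ = (chiZ p σ)⁻¹ := by
  have h : chiZ p σ⁻¹ * chiZ p σ = 1 := by
    rw [← chiZ_mul, inv_mul_cancel, chiZ_one]
  exact eq_inv_of_mul_eq_one_left h

end Chi

/-- a basis `(v0, c0)` of an admissible extension adapted to `C`, with its cocycle `b`. -/
structure ExtBasis (p : ℕ) [Fact p.Prime] (V : Type) [AddCommGroup V] [Module (ZMod p) V]
    [DistribMulAction GQ V] (C : Submodule (ZMod p) V) (c0 v0 : V) (b : GQ → ZMod p) : Prop where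
  c0_mem : c0 ∈ C
  c0_ne : c0 ≠ 0
  span : ∀ c ∈ C, ∃ a : ZMod p, c = a • c0
  v0_not_mem : v0 ∉ C
  act : ∀ σ : GQ, σ • v0 = chiZ p σ • v0 + b σ • c0
  fix : ∀ σ : GQ, σ • c0 = c0
  total : ∀ v : V, ∃ x y : ZMod p, v = x • v0 + y • c0

section Basis

variable {p : ℕ} [Fact p.Prime]
variable {V : Type} [AddCommGroup V] [Module (ZMod p) V] [DistribMulAction GQ V]
  [SMulCommClass GQ (ZMod p) V]
variable {C : Submodule (ZMod p) V}

omit [SMulCommClass GQ (ZMod p) V] in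
lemma galA_indep_of_not_mem {c0 v0 : V} (hc0 : c0 ∈ C) (hc0' : c0 ≠ 0) (hv0 : v0 ∉ C)
    {x y : ZMod p} (h : x • v0 + y • c0 = 0) : x = 0 ∧ y = 0 := by
  have hx : x = 0 := by
    by_contra hx
    apply hv0
    have h1 : x • v0 = -(y • c0) := eq_neg_of_add_eq_zero_left h
    have h2 : v0 = x⁻¹ • (-(y • c0)) := by
      rw [← h1, smul_smul, inv_mul_cancel₀ hx, one_smul]
    rw [h2]
    exact C.smul_mem _ (C.neg_mem (C.smul_mem _ hc0))
  refine ⟨hx, ?_⟩
  rw [hx, zero_smul, zero_add] at h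
  rcases smul_eq_zero.mp h with h | h
  · exact h
  · exact absurd h hc0'

theorem exists_extBasis (hadm : IsAdmissibleExtension p V C) :
    ∃ (c0 v0 : V) (b : GQ → ZMod p), ExtBasis p V C c0 v0 b := by
  classical
  have hp : p.Prime := Fact.out
  haveI : NeZero p := ⟨hp.ne_zero⟩
  have hcardC := hadm.card_sub
  have hcardV := hadm.card_total
  haveI hfinC : Finite C := Nat.finite_of_card_ne_zero (by rw [hcardC]; exact hp.ne_zero)
  haveI hfinV : Finite V :=
    Nat.finite_of_card_ne_zero (by rw [hcardV]; exact pow_ne_zero _ hp.ne_zero)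
  haveI : Nontrivial C := by
    rw [← Finite.one_lt_card_iff_nontrivial, hcardC]
    exact hp.one_lt
  obtain ⟨⟨c0, hc0⟩, hc0ne⟩ := exists_ne (0 : C)
  have hc0' : c0 ≠ 0 := fun h => hc0ne (Subtype.ext h)
  -- `C` is spanned by `c0`
  have hspan : ∀ c ∈ C, ∃ a : ZMod p, c = a • c0 := by
    let f : ZMod p → C := fun a => ⟨a • c0, C.smul_mem a hc0⟩
    have hinj : Function.Injective f := by
      intro a a' h
      have h1 : a • c0 = a' • c0 := congrArg Subtype.val h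
      have h2 : (a - a') • c0 = 0 := by rw [sub_smul, h1, sub_self]
      rcases smul_eq_zero.mp h2 with h3 | h3
      · exact sub_eq_zero.mp h3
      · exact absurd h3 hc0'
    have hbij : Function.Bijective f :=
      hinj.bijective_of_nat_card_le (by rw [hcardC, Nat.card_zmod])
    intro c hc
    obtain ⟨a, ha⟩ := hbij.2 ⟨c, hc⟩
    exact ⟨a, (congrArg Subtype.val ha).symm⟩
  -- `v0` outside `C`
  obtain ⟨v0, hv0⟩ : ∃ v0 : V, v0 ∉ C := by
    by_contra hall
    push Not at hall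
    have hcard : Nat.card C = Nat.card V :=
      Nat.card_congr ⟨fun c => c.1, fun v => ⟨v, hall v⟩, fun _ => rfl, fun _ => rfl⟩
    rw [hcardC, hcardV] at hcard
    have h2 : p * 1 = p * p := by rw [mul_one, ← sq]; exact hcard
    have h3 := Nat.eq_of_mul_eq_mul_left hp.pos h2
    exact hp.one_lt.ne h3
  -- the cocycle
  have hb : ∀ σ : GQ, ∃ a : ZMod p, σ • v0 - chiZ p σ • v0 = a • c0 := by
    intro σ
    have h := hadm.cyclo_quot σ v0
    rw [← chiZ_eq_cycloExp] at h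
    exact hspan _ h
  choose b hb using hb
  refine ⟨c0, v0, b, hc0, hc0', hspan, hv0, ?_, fun σ => hadm.fixed_sub σ c0 hc0, ?_⟩
  · intro σ
    rw [← hb σ]
    abel
  · -- totality by counting
    let g : ZMod p × ZMod p → V := fun xy => xy.1 • v0 + xy.2 • c0
    have hinj : Function.Injective g := by
      rintro ⟨x, y⟩ ⟨x', y'⟩ h
      have h1 : (x - x') • v0 + (y - y') • c0 = 0 := by
        have h0 : x • v0 + y • c0 = x' • v0 + y' • c0 := h
        rw [sub_smul, sub_smul]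
        have : x • v0 - x' • v0 + (y • c0 - y' • c0) = (x • v0 + y • c0) - (x' • v0 + y' • c0) := by
          abel
        rw [this, h0, sub_self]
      obtain ⟨hx, hy⟩ := galA_indep_of_not_mem hc0 hc0' hv0 h1
      rw [sub_eq_zero.mp hx, sub_eq_zero.mp hy]
    have hbij : Function.Bijective g :=
      hinj.bijective_of_nat_card_le (by
        rw [hcardV, Nat.card_prod, Nat.card_zmod, sq])
    intro v
    obtain ⟨⟨x, y⟩, hxy⟩ := hbij.2 v
    exact ⟨x, y, hxy.symm⟩

end Basis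

section Cocycle

variable {p : ℕ} [Fact p.Prime]
variable {V : Type} [AddCommGroup V] [Module (ZMod p) V] [DistribMulAction GQ V]
  [SMulCommClass GQ (ZMod p) V]
variable {C : Submodule (ZMod p) V} {c0 v0 : V} {b : GQ → ZMod p}

omit [SMulCommClass GQ (ZMod p) V] in
lemma ExtBasis.indep (hE : ExtBasis p V C c0 v0 b) {x y : ZMod p}
    (h : x • v0 + y • c0 = 0) : x = 0 ∧ y = 0 :=
  galA_indep_of_not_mem hE.c0_mem hE.c0_ne hE.v0_not_mem h

omit [SMulCommClass GQ (ZMod p) V] in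
lemma ExtBasis.eq_of_eq (hE : ExtBasis p V C c0 v0 b) {x y x' y' : ZMod p}
    (h : x • v0 + y • c0 = x' • v0 + y' • c0) : x = x' ∧ y = y' := by
  have h1 : (x - x') • v0 + (y - y') • c0 = 0 := by
    rw [sub_smul, sub_smul]
    have : x • v0 - x' • v0 + (y • c0 - y' • c0) = (x • v0 + y • c0) - (x' • v0 + y' • c0) := by
      abel
    rw [this, h, sub_self]
  obtain ⟨hx, hy⟩ := hE.indep h1
  exact ⟨sub_eq_zero.mp hx, sub_eq_zero.mp hy⟩

/-- the cocycle relation. -/
lemma ExtBasis.b_mul (hE : ExtBasis p V C c0 v0 b) (σ τ : GQ) :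
    b (σ * τ) = chiZ p τ * b σ + b τ := by
  have h1 : (σ * τ) • v0 = chiZ p (σ * τ) • v0 + b (σ * τ) • c0 := hE.act _
  have h2 : (σ * τ) • v0 = chiZ p (σ * τ) • v0 + (chiZ p τ * b σ + b τ) • c0 := by
    rw [mul_smul, hE.act τ, smul_add, smul_comm σ (chiZ p τ) v0, smul_comm σ (b τ) c0, hE.fix σ,
      hE.act σ, smul_add, smul_smul, smul_smul, chiZ_mul, add_smul, mul_comm (chiZ p σ)]
    abel
  exact (hE.eq_of_eq (h1.symm.trans h2)).2

lemma ExtBasis.b_one (hE : ExtBasis p V C c0 v0 b) : b 1 = 0 := by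
  have h := hE.b_mul 1 1
  rw [mul_one, chiZ_one, one_mul] at h
  have : b 1 + 0 = b 1 + b 1 := by rw [add_zero]; exact h
  exact (add_left_cancel this).symm

/-- `b` is additive on the kernel of `χ`. -/
lemma ExtBasis.b_mul_of_chi (hE : ExtBasis p V C c0 v0 b) (σ τ : GQ) (hτ : chiZ p τ = 1) :
    b (σ * τ) = b σ + b τ := by
  rw [hE.b_mul, hτ, one_mul]

lemma ExtBasis.b_pow_of_chi (hE : ExtBasis p V C c0 v0 b) (σ : GQ) (hσ : chiZ p σ = 1) (n : ℕ) :
    b (σ ^ n) = n * b σ := by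
  induction n with
  | zero => simp [hE.b_one]
  | succ n ih =>
    rw [pow_succ, hE.b_mul_of_chi _ _ hσ, ih]
    push_cast
    ring

lemma chiZ_pow (σ : GQ) (n : ℕ) : chiZ p (σ ^ n) = chiZ p σ ^ n := by
  induction n with
  | zero => simp [chiZ_one]
  | succ n ih => rw [pow_succ, chiZ_mul, ih, pow_succ]

lemma ExtBasis.b_inv_of_chi (hE : ExtBasis p V C c0 v0 b) (σ : GQ) (hσ : chiZ p σ = 1) :
    b σ⁻¹ = - b σ := by
  have h := hE.b_mul_of_chi σ⁻¹ σ hσ
  rw [inv_mul_cancel, hE.b_one] at h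
  exact eq_neg_of_add_eq_zero_left h.symm

/-- conjugation: `b (g⁻¹ h g) = χ(g) b(h)` for `h` in the kernel of `χ`. -/
lemma ExtBasis.b_conj (hE : ExtBasis p V C c0 v0 b) (g h : GQ) (hh : chiZ p h = 1) :
    b (g⁻¹ * h * g) = chiZ p g * b h := by
  -- b (g * (g⁻¹ h g)) = b (h g)
  have hc : chiZ p (g⁻¹ * h * g) = 1 := by
    rw [chiZ_mul, chiZ_mul, hh, mul_one, chiZ_inv, inv_mul_cancel₀ (chiZ_ne_zero g)]
  have h1 : b (g * (g⁻¹ * h * g)) = b g + b (g⁻¹ * h * g) := hE.b_mul_of_chi _ _ hc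
  have h2 : g * (g⁻¹ * h * g) = h * g := by group
  rw [h2, hE.b_mul] at h1
  -- χ(g) b(h) + b(g) = b(g) + b(g⁻¹ h g)
  have h3 : b g + chiZ p g * b h = b g + b (g⁻¹ * h * g) := by
    rw [← h1]; ring
  exact (add_left_cancel h3).symm

/-- if `b = (χ - 1) t` the extension splits globally. -/
theorem ExtBasis.splitsGlobally (hE : ExtBasis p V C c0 v0 b) (t : ZMod p)
    (ht : ∀ σ : GQ, b σ = (chiZ p σ - 1) * t) : SplitsGlobally C := by
  set v1 : V := v0 + t • c0 with hv1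
  have hact : ∀ σ : GQ, σ • v1 = chiZ p σ • v1 := by
    intro σ
    rw [hv1, smul_add, smul_comm σ t c0, hE.fix σ, hE.act σ, ht σ, smul_add, smul_smul]
    have : ((chiZ p σ - 1) * t) • c0 = (chiZ p σ * t) • c0 - t • c0 := by
      rw [sub_mul, one_mul, sub_smul]
    rw [this]
    abel
  have hv1C : v1 ∉ C := by
    intro h
    apply hE.v0_not_mem
    have : v0 = v1 - t • c0 := by rw [hv1]; abel
    rw [this]
    exact C.sub_mem h (C.smul_mem _ hE.c0_mem)
  refine ⟨Submodule.span (ZMod p) {v1}, ?_, ?_⟩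
  · intro σ x hx
    rw [Submodule.mem_span_singleton] at hx ⊢
    obtain ⟨a, rfl⟩ := hx
    refine ⟨a * chiZ p σ, ?_⟩
    rw [smul_comm σ a v1, hact σ, smul_smul]
  · rw [isCompl_iff]
    constructor
    · rw [Submodule.disjoint_def]
      intro x hxC hx
      rw [Submodule.mem_span_singleton] at hx
      obtain ⟨a, rfl⟩ := hx
      by_cases ha : a = 0
      · rw [ha, zero_smul]
      · exfalso
        apply hv1C
        have : v1 = a⁻¹ • (a • v1) := by rw [smul_smul, inv_mul_cancel₀ ha, one_smul]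
        rw [this]
        exact C.smul_mem _ hxC
    · rw [codisjoint_iff, eq_top_iff]
      intro v _
      obtain ⟨x, y, rfl⟩ := hE.total v
      have : x • v0 + y • c0 = (y - x * t) • c0 + x • v1 := by
        rw [hv1, smul_add, sub_smul, smul_smul]
        abel
      rw [this]
      exact Submodule.add_mem_sup (C.smul_mem _ hE.c0_mem)
        (Submodule.mem_span_singleton.mpr ⟨x, rfl⟩)

/-- if `b` vanishes on the kernel of `χ` it is of the form `(χ - 1) t`. -/
theorem ExtBasis.exists_t (hE : ExtBasis p V C c0 v0 b)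
    (h : ∀ σ : GQ, chiZ p σ = 1 → b σ = 0) : ∃ t : ZMod p, ∀ σ : GQ, b σ = (chiZ p σ - 1) * t := by
  by_cases hex : ∃ σ0 : GQ, chiZ p σ0 ≠ 1
  · obtain ⟨σ0, hσ0⟩ := hex
    have hne : chiZ p σ0 - 1 ≠ 0 := sub_ne_zero.mpr hσ0
    refine ⟨b σ0 / (chiZ p σ0 - 1), fun σ => ?_⟩
    -- b (σ σ0) = b (σ0 σ)
    have hcomm : b (σ * σ0) = b (σ0 * σ) := by
      set c : GQ := (σ0 * σ)⁻¹ * (σ * σ0) with hc
      have hcχ : chiZ p c = 1 := by
        rw [hc, chiZ_mul, chiZ_inv, chiZ_mul, chiZ_mul, mul_comm (chiZ p σ) (chiZ p σ0)]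
        exact inv_mul_cancel₀ (mul_ne_zero (chiZ_ne_zero _) (chiZ_ne_zero _))
      have h1 : σ * σ0 = (σ0 * σ) * c := by rw [hc]; group
      rw [h1, hE.b_mul_of_chi _ _ hcχ, h c hcχ, add_zero]
    rw [hE.b_mul, hE.b_mul] at hcomm
    -- χ(σ0) b σ + b σ0 = χ(σ) b σ0 + b σ
    have h2 : (chiZ p σ0 - 1) * b σ = (chiZ p σ - 1) * b σ0 := by
      have : chiZ p σ0 * b σ + b σ0 - b σ - b σ0 = chiZ p σ * b σ0 + b σ - b σ - b σ0 := by
        rw [hcomm]
      calc (chiZ p σ0 - 1) * b σ = chiZ p σ0 * b σ + b σ0 - b σ - b σ0 := by ring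
        _ = chiZ p σ * b σ0 + b σ - b σ - b σ0 := this
        _ = (chiZ p σ - 1) * b σ0 := by ring
    field_simp
    rw [mul_comm (b σ), h2]
  · push Not at hex
    exact ⟨0, fun σ => by rw [h σ (hex σ), mul_zero]⟩

/-- a non-split admissible extension has an element of the kernel of `χ` with `b = 1`. -/
theorem ExtBasis.exists_b_eq_one (hE : ExtBasis p V C c0 v0 b) (hns : ¬ SplitsGlobally C) :
    ∃ h : GQ, chiZ p h = 1 ∧ b h = 1 := by
  have hp : p.Prime := Fact.out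
  haveI : NeZero p := ⟨hp.ne_zero⟩
  have hex : ∃ σ : GQ, chiZ p σ = 1 ∧ b σ ≠ 0 := by
    by_contra hno
    push Not at hno
    obtain ⟨t, ht⟩ := hE.exists_t hno
    exact hns (hE.splitsGlobally t ht)
  obtain ⟨σ, hσ, hbσ⟩ := hex
  refine ⟨σ ^ ((b σ)⁻¹).val, ?_, ?_⟩
  · rw [chiZ_pow, hσ, one_pow]
  · rw [hE.b_pow_of_chi σ hσ, ZMod.natCast_val, ZMod.cast_id', id, inv_mul_cancel₀ hbσ]

end Cocycle

end Fermat.Agent.S14
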