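import Mathlib
import Fermat.Agent.S14.GaloisACocycle

/-!
# S14, piece 86-P1 (b): the Lagrange resolvent

Inside `AlgebraicClosure ℚ`: for a cocycle `b` as in `ExtBasis` and `h1` in the kernel of `χ` with
`b h1 = 1` we construct `β ≠ 0` with `h β = ζ ^ (b h) β` for every `h` in the kernel of `χ`.
-/

set_option autoImplicit false
set_option linter.style.haveILetI false
set_option linter.unusedSectionVars false

namespace Fermat.Agent.S14

open ExtCitation

local notation "Qbar" => AlgebraicClosure ℚ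
local notation "GQ" => (AlgebraicClosure ℚ ≃ₐ[ℚ] AlgebraicClosure ℚ)

section Chi

variable {p : ℕ} [Fact p.Prime]

lemma chiZ_spec {ζ : Qbar} (hζ : IsPrimitiveRoot ζ p) (σ : GQ) :
    σ ζ = ζ ^ (chiZ p σ).val := by
  have hp : p.Prime := Fact.out
  haveI : NeZero p := ⟨hp.ne_zero⟩
  set t : Qbarˣ := (hζ.isUnit hp.ne_zero).unit with ht
  have htmem : t ∈ rootsOfUnity p Qbar := by
    rw [mem_rootsOfUnity]
    ext
    simp [ht, hζ.pow_eq_one]
  have h := modularCyclotomicCharacter.spec Qbar (card_rootsOfUnity_eq_self p)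
    (σ : Qbar ≃+* Qbar) htmem
  have ht' : (t : Qbar) = ζ := rfl
  rw [ht'] at h
  exact h

lemma chiZ_eq_one_iff {ζ : Qbar} (hζ : IsPrimitiveRoot ζ p) (σ : GQ) :
    chiZ p σ = 1 ↔ σ ζ = ζ := by
  have hp : p.Prime := Fact.out
  haveI : NeZero p := ⟨hp.ne_zero⟩
  haveI : Fact (1 < p) := ⟨hp.one_lt⟩
  constructor
  · intro h
    rw [chiZ_spec hζ σ, h, ZMod.val_one, pow_one]
  · intro h
    have h1 : ζ ^ (chiZ p σ).val = ζ ^ 1 := by rw [← chiZ_spec hζ σ, h, pow_one]
    have h2 := hζ.pow_inj (ZMod.val_lt _) hp.one_lt h1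
    have h3 : ((chiZ p σ).val : ZMod p) = ((1 : ℕ) : ZMod p) := by rw [h2]
    rw [ZMod.natCast_zmod_val, Nat.cast_one] at h3
    exact h3

/-- `ζ ^ x` for `x : ZMod p` depends only on `x`. -/
lemma galA_zpw_natCast {ζ : Qbar} (hζ : IsPrimitiveRoot ζ p) (n : ℕ) :
    ζ ^ ((n : ZMod p)).val = ζ ^ n := by
  rw [ZMod.val_natCast, ← pow_eq_pow_mod n hζ.pow_eq_one]

lemma galA_zpw_mul {ζ : Qbar} (hζ : IsPrimitiveRoot ζ p) (x y : ZMod p) :
    ζ ^ (x * y).val = (ζ ^ x.val) ^ y.val := by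
  rw [ZMod.val_mul, ← pow_eq_pow_mod _ hζ.pow_eq_one, pow_mul]

end Chi

section Resolvent

variable {p : ℕ} [Fact p.Prime]
variable {V : Type} [AddCommGroup V] [Module (ZMod p) V] [DistribMulAction GQ V]
  [SMulCommClass GQ (ZMod p) V]
variable {C : Submodule (ZMod p) V} {c0 v0 : V} {b : GQ → ZMod p}

/-- the subgroup `N = {χ = 1, b = 0}`. -/
def ExtBasis.kerSub (hE : ExtBasis p V C c0 v0 b) : Subgroup GQ where
  carrier := {σ | chiZ p σ = 1 ∧ b σ = 0}
  one_mem' := ⟨chiZ_one, hE.b_one⟩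
  mul_mem' := by
    rintro σ τ ⟨h1, h2⟩ ⟨h3, h4⟩
    refine ⟨by rw [chiZ_mul, h1, h3, one_mul], ?_⟩
    rw [hE.b_mul_of_chi σ τ h3, h2, h4, add_zero]
  inv_mem' := by
    rintro σ ⟨h1, h2⟩
    refine ⟨by rw [chiZ_inv, h1, inv_one], ?_⟩
    rw [hE.b_inv_of_chi σ h1, h2, neg_zero]

lemma ExtBasis.mem_kerSub (hE : ExtBasis p V C c0 v0 b) (σ : GQ) :
    σ ∈ hE.kerSub ↔ chiZ p σ = 1 ∧ b σ = 0 := Iff.rfl

/-- the pointwise stabiliser of `V`. -/
def galA_stabSub (V : Type) [AddCommGroup V] [DistribMulAction GQ V] : Subgroup GQ where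
  carrier := {σ | ∀ v : V, σ • v = v}
  one_mem' := fun v => one_smul _ v
  mul_mem' := by
    intro σ τ h1 h2 v
    rw [mul_smul, h2 v, h1 v]
  inv_mem' := by
    intro σ h v
    rw [inv_smul_eq_iff, h v]

lemma ExtBasis.stabSub_le (hE : ExtBasis p V C c0 v0 b) : galA_stabSub V ≤ hE.kerSub := by
  intro σ hσ
  have h1 : σ • v0 = v0 := hσ v0
  have h2 := hE.act σ
  rw [h1] at h2
  have h3 : (1 : ZMod p) • v0 + (0 : ZMod p) • c0 = chiZ p σ • v0 + b σ • c0 := by
    rw [one_smul, zero_smul, add_zero]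
    exact h2
  obtain ⟨h4, h5⟩ := hE.eq_of_eq h3
  exact ⟨h4.symm, h5.symm⟩

lemma ExtBasis.isClosed_kerSub (hE : ExtBasis p V C c0 v0 b)
    (hopen : IsOpen {σ : GQ | ∀ v : V, σ • v = v}) : IsClosed (hE.kerSub : Set GQ) := by
  have h1 : IsOpen ((galA_stabSub V : Subgroup GQ) : Set GQ) := hopen
  have h2 : IsOpen (hE.kerSub : Set GQ) := Subgroup.isOpen_mono hE.stabSub_le h1
  exact Subgroup.isClosed_of_isOpen _ h2

/-- the resolvent sum. -/
noncomputable def galA_resolvent (p : ℕ) (ζ : Qbar) (h1 : GQ) (θ : Qbar) : Qbar :=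
  ∑ i ∈ Finset.range p, (ζ⁻¹) ^ i * (h1 ^ i) θ

/-- existence of `θ` in the fixed field of `N` with nonzero resolvent. -/
theorem ExtBasis.exists_resolvent_ne_zero (hE : ExtBasis p V C c0 v0 b)
    (hopen : IsOpen {σ : GQ | ∀ v : V, σ • v = v})
    {ζ : Qbar} (hζ : IsPrimitiveRoot ζ p) {h1 : GQ} (hχ : chiZ p h1 = 1) (hb : b h1 = 1) :
    ∃ θ : Qbar, (∀ n ∈ hE.kerSub, n θ = θ) ∧ galA_resolvent p ζ h1 θ ≠ 0 := by
  classical
  have hp : p.Prime := Fact.out
  haveI : NeZero p := ⟨hp.ne_zero⟩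
  haveI : Algebra.IsAlgebraic ℚ Qbar := AlgebraicClosure.isAlgebraic ℚ
  haveI : IsAlgClosure ℚ Qbar := ⟨inferInstance, inferInstance⟩
  haveI : IsGalois ℚ Qbar := IsAlgClosure.isGalois ℚ Qbar
  set L : IntermediateField ℚ Qbar := IntermediateField.fixedField hE.kerSub with hL
  have hLN : L.fixingSubgroup = hE.kerSub :=
    InfiniteGalois.fixingSubgroup_fixedField ⟨hE.kerSub, hE.isClosed_kerSub hopen⟩
  -- the characters
  let f : Fin p → (L →* Qbar) := fun i =>
    { toFun := fun x => (h1 ^ (i : ℕ)) (x : Qbar)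
      map_one' := by simp
      map_mul' := by intro x y; simp }
  have hfinj : Function.Injective f := by
    intro i j hij
    by_contra hne
    -- wlog i < j
    have key : ∀ i j : Fin p, (i : ℕ) < j → f i = f j → False := by
      intro i j hlt hij
      have hfix : h1 ^ ((j : ℕ) - i) ∈ L.fixingSubgroup := by
        rw [IntermediateField.mem_fixingSubgroup_iff]
        intro x hx
        have h2 : (h1 ^ (i : ℕ)) x = (h1 ^ (j : ℕ)) x := by
          have := congrArg (fun g : L →* Qbar => g ⟨x, hx⟩) hij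
          exact this
        have h3 : h1 ^ (j : ℕ) = h1 ^ (i : ℕ) * h1 ^ ((j : ℕ) - i) := by
          rw [← pow_add, Nat.add_sub_cancel' hlt.le]
        rw [h3, AlgEquiv.mul_apply] at h2
        exact ((h1 ^ (i : ℕ)).injective h2).symm
      rw [hLN, hE.mem_kerSub] at hfix
      have h4 := hfix.2
      rw [hE.b_pow_of_chi h1 hχ, hb, mul_one] at h4
      rw [ZMod.natCast_eq_zero_iff] at h4
      have h5 : (j : ℕ) - i < p := lt_of_le_of_lt (Nat.sub_le _ _) j.2
      have h6 : 0 < (j : ℕ) - i := Nat.sub_pos_of_lt hlt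
      exact absurd (Nat.le_of_dvd h6 h4) (not_le.mpr h5)
    rcases lt_or_gt_of_ne (fun h => hne (Fin.ext h) : (i : ℕ) ≠ j) with h | h
    · exact key i j h hij
    · exact key j i h hij.symm
  have hli := (linearIndependent_monoidHom L Qbar).comp f hfinj
  by_contra hall
  push Not at hall
  have hsum : ∑ i : Fin p, ((ζ⁻¹) ^ (i : ℕ)) • (((fun g : L →* Qbar => (g : L → Qbar)) ∘ f) i) = 0 := by
    funext x
    have hx : ∀ n ∈ hE.kerSub, n (x : Qbar) = x := by
      intro n hn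
      have hx2 : (x : Qbar) ∈ IntermediateField.fixedField hE.kerSub := x.2
      rw [IntermediateField.mem_fixedField_iff] at hx2
      exact hx2 n hn
    have h0 := hall (x : Qbar) hx
    rw [galA_resolvent, ← Fin.sum_univ_eq_sum_range (fun i => (ζ⁻¹) ^ i * (h1 ^ i) (x : Qbar)) p] at h0
    rw [Finset.sum_apply, Pi.zero_apply, ← h0]
    refine Finset.sum_congr rfl (fun i _ => ?_)
    simp [f]
  have h0 := Fintype.linearIndependent_iff.mp hli (fun i => (ζ⁻¹) ^ (i : ℕ)) hsum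
    ⟨0, hp.pos⟩
  simp at h0

end Resolvent

end Fermat.Agent.S14
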