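import Mathlib
import Fermat.Agent.S14.GaloisAResolvent

/-!
# S14, piece 86-P1 (c): the Kummer datum of a non-split admissible extension

`kummerDatum p : KummerDatumStatement p`.
-/

set_option autoImplicit false
set_option linter.style.haveILetI false
set_option linter.unusedSectionVars false
set_option linter.unusedVariables false

namespace Fermat.Agent.S14

open ExtCitation

local notation "Qbar" => AlgebraicClosure ℚ
local notation "GQ" => (AlgebraicClosure ℚ ≃ₐ[ℚ] AlgebraicClosure ℚ)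

section Beta

variable {p : ℕ} [Fact p.Prime]
variable {V : Type} [AddCommGroup V] [Module (ZMod p) V] [DistribMulAction GQ V]
  [SMulCommClass GQ (ZMod p) V]
variable {C : Submodule (ZMod p) V} {c0 v0 : V} {b : GQ → ZMod p}

lemma galA_zeta_ne_zero {ζ : Qbar} (hζ : IsPrimitiveRoot ζ p) : ζ ≠ 0 :=
  hζ.ne_zero (Fact.out : p.Prime).ne_zero

lemma galA_resolvent_h1 (hE : ExtBasis p V C c0 v0 b) {ζ : Qbar} (hζ : IsPrimitiveRoot ζ p) {h1 : GQ}
    (hχ : chiZ p h1 = 1) (hb : b h1 = 1) {θ : Qbar} (hθ : ∀ n ∈ hE.kerSub, n θ = θ) :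
    h1 (galA_resolvent p ζ h1 θ) = ζ * galA_resolvent p ζ h1 θ := by
  have hζ0 : ζ ≠ 0 := galA_zeta_ne_zero hζ
  have h1ζ : h1 ζ = ζ := (chiZ_eq_one_iff hζ h1).mp hχ
  have hpθ : (h1 ^ p) θ = θ := by
    apply hθ
    refine ⟨by rw [chiZ_pow, hχ, one_pow], ?_⟩
    rw [hE.b_pow_of_chi h1 hχ, hb, mul_one, ZMod.natCast_self]
  set F : ℕ → Qbar := fun j => (ζ⁻¹) ^ j * (h1 ^ j) θ with hF
  have hres : galA_resolvent p ζ h1 θ = ∑ i ∈ Finset.range p, F i := rfl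
  have hstep : ∀ i : ℕ, h1 (F i) = ζ * F (i + 1) := by
    intro i
    simp only [hF]
    rw [map_mul, map_pow, map_inv₀, h1ζ, pow_succ (ζ⁻¹) i, pow_succ' h1 i, AlgEquiv.mul_apply]
    have e : ζ * (ζ⁻¹ ^ i * ζ⁻¹ * h1 ((h1 ^ i) θ)) = ζ⁻¹ ^ i * (ζ * ζ⁻¹) * h1 ((h1 ^ i) θ) := by
      ring
    rw [e, mul_inv_cancel₀ hζ0, mul_one]
  have hFp : F p = F 0 := by
    simp only [hF]
    rw [hpθ, inv_pow, hζ.pow_eq_one, inv_one, pow_zero, pow_zero]
    rfl
  rw [hres, map_sum]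
  rw [Finset.sum_congr rfl (fun i _ => hstep i), ← Finset.mul_sum]
  congr 1
  have h2 := Finset.sum_range_succ' F p
  have h3 := Finset.sum_range_succ F p
  -- sum_{i<p} F (i+1) + F 0 = sum_{i<p} F i + F p
  have h4 : ∑ i ∈ Finset.range p, F (i + 1) + F 0 = ∑ i ∈ Finset.range p, F i + F p := by
    rw [← h2, ← h3]
  rw [hFp] at h4
  exact add_right_cancel h4

lemma galA_resolvent_ker (hE : ExtBasis p V C c0 v0 b) {ζ : Qbar} (hζ : IsPrimitiveRoot ζ p) {h1 : GQ}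
    (hχ : chiZ p h1 = 1) {θ : Qbar} (hθ : ∀ n ∈ hE.kerSub, n θ = θ)
    {n : GQ} (hn : n ∈ hE.kerSub) :
    n (galA_resolvent p ζ h1 θ) = galA_resolvent p ζ h1 θ := by
  have hnζ : n ζ = ζ := (chiZ_eq_one_iff hζ n).mp hn.1
  rw [galA_resolvent, map_sum]
  refine Finset.sum_congr rfl (fun i _ => ?_)
  rw [map_mul, map_pow, map_inv₀, hnζ]
  congr 1
  -- n (h1^i θ) = h1^i ((h1^i)⁻¹ n h1^i θ)
  have hconj : (h1 ^ i)⁻¹ * n * h1 ^ i ∈ hE.kerSub := by
    refine ⟨?_, ?_⟩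
    · rw [chiZ_mul, chiZ_mul, chiZ_inv, hn.1, mul_one,
        inv_mul_cancel₀ (chiZ_ne_zero _)]
    · rw [hE.b_conj (h1 ^ i) n hn.1, hn.2, mul_zero]
  have h2 : n * h1 ^ i = h1 ^ i * ((h1 ^ i)⁻¹ * n * h1 ^ i) := by group
  have h3 : n ((h1 ^ i) θ) = (n * h1 ^ i) θ := rfl
  rw [h3, h2, AlgEquiv.mul_apply, hθ _ hconj]

lemma galA_resolvent_pow (hE : ExtBasis p V C c0 v0 b) {ζ : Qbar} (hζ : IsPrimitiveRoot ζ p) {h1 : GQ}
    (hχ : chiZ p h1 = 1) (hb : b h1 = 1) {θ : Qbar} (hθ : ∀ n ∈ hE.kerSub, n θ = θ) (k : ℕ) :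
    (h1 ^ k) (galA_resolvent p ζ h1 θ) = ζ ^ k * galA_resolvent p ζ h1 θ := by
  have h1ζ : h1 ζ = ζ := (chiZ_eq_one_iff hζ h1).mp hχ
  induction k with
  | zero => simp
  | succ k ih =>
    rw [pow_succ' h1 k, AlgEquiv.mul_apply, ih, map_mul, map_pow, h1ζ,
      galA_resolvent_h1 hE hζ hχ hb hθ, pow_succ]
    ring

/-- the Kummer property of the resolvent. -/
lemma galA_resolvent_act (hE : ExtBasis p V C c0 v0 b) {ζ : Qbar} (hζ : IsPrimitiveRoot ζ p) {h1 : GQ}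
    (hχ : chiZ p h1 = 1) (hb : b h1 = 1) {θ : Qbar} (hθ : ∀ n ∈ hE.kerSub, n θ = θ)
    (h : GQ) (hh : chiZ p h = 1) :
    h (galA_resolvent p ζ h1 θ) = ζ ^ (b h).val * galA_resolvent p ζ h1 θ := by
  have hp : p.Prime := Fact.out
  haveI : NeZero p := ⟨hp.ne_zero⟩
  set k : ℕ := (b h).val with hk
  have hχk : chiZ p (h1 ^ k) = 1 := by rw [chiZ_pow, hχ, one_pow]
  have hn : (h1 ^ k)⁻¹ * h ∈ hE.kerSub := by
    refine ⟨?_, ?_⟩
    · rw [chiZ_mul, chiZ_inv, hχk, hh, inv_one, one_mul]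
    · rw [hE.b_mul_of_chi _ _ hh, hE.b_inv_of_chi _ hχk, hE.b_pow_of_chi h1 hχ, hb, mul_one, hk,
        ZMod.natCast_zmod_val, neg_add_cancel]
  have h2 : h = h1 ^ k * ((h1 ^ k)⁻¹ * h) := by group
  rw [h2, AlgEquiv.mul_apply, galA_resolvent_ker hE hζ hχ hθ hn, galA_resolvent_pow hE hζ hχ hb hθ k]

end Beta

section Fix

lemma galA_fix_adjoin {ζ : Qbar} {σ : GQ} (hσ : σ ζ = ζ) :
    ∀ x ∈ IntermediateField.adjoin ℚ ({ζ} : Set Qbar), σ x = x := by
  intro x hx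
  have hle : IntermediateField.adjoin ℚ ({ζ} : Set Qbar) ≤
      IntermediateField.fixedField (Subgroup.zpowers σ) := by
    rw [IntermediateField.adjoin_le_iff, Set.singleton_subset_iff]
    change ζ ∈ IntermediateField.fixedField (Subgroup.zpowers σ)
    rw [IntermediateField.mem_fixedField_iff]
    intro g hg
    have hstab : Subgroup.zpowers σ ≤ MulAction.stabilizer GQ ζ := by
      rw [Subgroup.zpowers_le]
      exact hσ
    exact hstab hg
  have h2 := hle hx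
  rw [IntermediateField.mem_fixedField_iff] at h2
  exact h2 σ (Subgroup.mem_zpowers σ)

lemma galA_mem_adjoin_of_fix {ζ x : Qbar} (h : ∀ σ : GQ, σ ζ = ζ → σ x = x) :
    x ∈ IntermediateField.adjoin ℚ ({ζ} : Set Qbar) := by
  haveI : Algebra.IsAlgebraic ℚ Qbar := AlgebraicClosure.isAlgebraic ℚ
  haveI : IsAlgClosure ℚ Qbar := ⟨inferInstance, inferInstance⟩
  haveI : IsGalois ℚ Qbar := IsAlgClosure.isGalois ℚ Qbar
  rw [← InfiniteGalois.fixedField_fixingSubgroup (IntermediateField.adjoin ℚ ({ζ} : Set Qbar)),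
    IntermediateField.mem_fixedField_iff]
  intro σ hσ
  apply h σ
  rw [IntermediateField.mem_fixingSubgroup_iff] at hσ
  exact hσ ζ (IntermediateField.mem_adjoin_simple_self ℚ ζ)

end Fix

/-- **86-P1**: a non-split admissible extension produces a Kummer datum. -/
theorem kummerDatum (p : ℕ) [Fact p.Prime] : KummerDatumStatement p := by
  intro V _ _ _ _ C hadm hns
  have hp : p.Prime := Fact.out
  haveI : NeZero p := ⟨hp.ne_zero⟩
  haveI : NeZero (p : Qbar) := ⟨Nat.cast_ne_zero.mpr hp.ne_zero⟩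
  obtain ⟨c0, v0, b, hE⟩ := exists_extBasis hadm.toIsAdmissibleExtension
  obtain ⟨h1, hχ, hb⟩ := hE.exists_b_eq_one hns
  obtain ⟨ζ, hζ⟩ : ∃ ζ : Qbar, IsPrimitiveRoot ζ p :=
    HasEnoughRootsOfUnity.exists_primitiveRoot Qbar p
  obtain ⟨θ, hθ, hne⟩ := hE.exists_resolvent_ne_zero hadm.open_kernel hζ hχ hb
  set β : Qbar := galA_resolvent p ζ h1 θ with hβ
  have hζ0 : ζ ≠ 0 := galA_zeta_ne_zero hζ
  have hact : ∀ h : GQ, chiZ p h = 1 → h β = ζ ^ (b h).val * β :=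
    fun h hh => galA_resolvent_act hE hζ hχ hb hθ h hh
  have hker : ∀ σ : GQ, σ ∈ hE.kerSub → σ β = β := by
    intro σ hσ
    rw [hact σ hσ.1, hσ.2, ZMod.val_zero, pow_zero, one_mul]
  refine ⟨ζ, β, ⟨hζ, hne, ?_, ?_, ?_, ?_, ?_⟩⟩
  · -- β ^ p ∈ ℚ(ζ)
    apply galA_mem_adjoin_of_fix
    intro σ hσ
    have hσχ : chiZ p σ = 1 := (chiZ_eq_one_iff hζ σ).mpr hσ
    rw [map_pow, hact σ hσχ, mul_pow, ← pow_mul, mul_comm (b σ).val p, pow_mul, hζ.pow_eq_one,
      one_pow, one_mul]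
  · -- β ∉ ℚ(ζ)
    intro hmem
    have h1ζ : h1 ζ = ζ := (chiZ_eq_one_iff hζ h1).mp hχ
    have h2 := galA_fix_adjoin h1ζ β hmem
    rw [hact h1 hχ, hb] at h2
    haveI : Fact (1 < p) := ⟨hp.one_lt⟩
    rw [ZMod.val_one, pow_one] at h2
    have h3 : (ζ - 1) * β = 0 := by rw [sub_mul, one_mul, h2, sub_self]
    rcases mul_eq_zero.mp h3 with h4 | h4
    · exact hζ.ne_one hp.one_lt (sub_eq_zero.mp h4)
    · exact hne h4
  · -- omega
    intro σ
    set m : ℕ := ((chiZ p σ) ^ 2).val with hm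
    refine ⟨σ β * (β ^ m)⁻¹, ?_, ?_⟩
    · apply galA_mem_adjoin_of_fix
      intro h hh
      have hhχ : chiZ p h = 1 := (chiZ_eq_one_iff hζ h).mpr hh
      have hconjχ : chiZ p (σ⁻¹ * h * σ) = 1 := by
        rw [chiZ_mul, chiZ_mul, chiZ_inv, hhχ, mul_one, inv_mul_cancel₀ (chiZ_ne_zero _)]
      have h2 : h * σ = σ * (σ⁻¹ * h * σ) := by group
      have h3 : h (σ β) = (h * σ) β := rfl
      have h4 : h (σ β) = ζ ^ (chiZ p σ * (chiZ p σ * b h)).val * σ β := by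
        rw [h3, h2, AlgEquiv.mul_apply, hact _ hconjχ, hE.b_conj σ h hhχ, map_mul, map_pow,
          chiZ_spec hζ σ, ← galA_zpw_mul hζ]
      have h5 : h (β ^ m) = ζ ^ (chiZ p σ * (chiZ p σ * b h)).val * β ^ m := by
        rw [map_pow, hact h hhχ, mul_pow, hm, ← galA_zpw_mul hζ]
        congr 2
        ring_nf
      rw [map_mul, map_inv₀, h4, h5, mul_inv]
      have hz : ζ ^ (chiZ p σ * (chiZ p σ * b h)).val ≠ 0 := pow_ne_zero _ hζ0
      field_simp
    · have hβm : β ^ m ≠ 0 := pow_ne_zero _ hne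
      change σ β = β ^ m * (σ β * (β ^ m)⁻¹)
      rw [mul_comm (σ β), ← mul_assoc, mul_inv_cancel₀ hβm, one_mul]
  · -- unramified outside p
    intro q hq hqp A hA σ hσ hσζ
    apply hker
    apply hE.stabSub_le
    exact fun x => hadm.unramified_outside q hq hqp A hA σ hσ x
  · -- split at p
    intro A hA σ hσ hσζ
    have hσχ : chiZ p σ = 1 := (chiZ_eq_one_iff hζ σ).mpr hσζ
    apply hker
    refine ⟨hσχ, ?_⟩
    obtain ⟨C', hC', hcompl⟩ := hadm.locally_split A hA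
    have hv0 : v0 ∈ C ⊔ C' := by rw [hcompl.sup_eq_top]; exact Submodule.mem_top
    obtain ⟨c, hc, c', hc', hsum⟩ := Submodule.mem_sup.mp hv0
    have h2 : σ • v0 = c + σ • c' := by
      rw [← hsum, smul_add, hadm.fixed_sub σ c hc]
    have h3 : σ • v0 = c + c' + b σ • c0 := by
      rw [hE.act σ, hσχ, one_smul, hsum]
    have h4 : b σ • c0 = σ • c' - c' := by
      have : c + σ • c' = c + c' + b σ • c0 := h2.symm.trans h3
      have h5 : σ • c' = c' + b σ • c0 := by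
        have := add_left_cancel (a := c) (b := σ • c') (c := c' + b σ • c0)
          (by rw [this, add_assoc])
        exact this
      rw [h5]; abel
    have h6 : b σ • c0 ∈ C ⊓ C' := by
      refine ⟨C.smul_mem _ hE.c0_mem, ?_⟩
      rw [h4]
      exact C'.sub_mem (hC' σ hσ c' hc') hc'
    rw [hcompl.inf_eq_bot, Submodule.mem_bot] at h6
    rcases smul_eq_zero.mp h6 with h7 | h7
    · exact h7
    · exact absurd h7 hE.c0_ne

end Fermat.Agent.S14
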