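import Mathlib
import Fermat.Agent.S13.InertiaLift

/-!
# S14, piece 86-P2: the "totally ramified" lemma (TR)

`A` a valuation subring of `Qbar`, `K ⊂ Qbar` a subfield with uniformizer `π` for `v_A`,
`θ ∈ K(β)` with `v_A(θ) ^ p = v_A(π)` and `[K(β) : K] ≤ p`.  Then `1, θ, …, θ ^ (p-1)` is a
`K`-basis of `K(β)`, the valuations of the terms of `∑ c_i θ ^ i` are pairwise distinct, and an
automorphism `g` of `Qbar / K` with `v(g θ) ≤ v(θ)` is trivial modulo `𝔪_A` on `A ∩ K(β)`;
hence (S13 `exists_inertia_lift`) `g` agrees on `K(β)` with an element of the inertia group of `A`.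
-/

set_option autoImplicit false
set_option linter.style.haveILetI false

open scoped Pointwise

namespace Fermat.Agent.S14.GS

local notation "Qbar" => AlgebraicClosure ℚ
local notation "GalQ" => (AlgebraicClosure ℚ ≃ₐ[ℚ] AlgebraicClosure ℚ)

section val

variable {L : Type*} [Field L] (A : ValuationSubring L)

/-- valuation of a sum whose nonzero terms have pairwise distinct valuations -/
theorem val_le_sum_of_distinct {ι : Type*} [DecidableEq ι] (s : Finset ι) (t : ι → L)
    (hd : ∀ i ∈ s, ∀ j ∈ s, i ≠ j → A.valuation (t i) = A.valuation (t j) → t i = 0)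
    (i : ι) (hi : i ∈ s) :
    A.valuation (t i) ≤ A.valuation (∑ j ∈ s, t j) := by
  obtain ⟨i₀, hi₀, hmax⟩ := s.exists_max_image (fun j => A.valuation (t j)) ⟨i, hi⟩
  by_cases h0 : t i₀ = 0
  · have hall : ∀ j ∈ s, t j = 0 := by
      intro j hj
      have := hmax j hj
      rw [h0, map_zero] at this
      exact (Valuation.zero_iff _).mp (le_antisymm this zero_le)
    rw [hall i hi]
    simp
  · have hlt : ∀ j ∈ s.erase i₀, A.valuation (t j) < A.valuation (t i₀) := by
      intro j hj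
      rw [Finset.mem_erase] at hj
      refine lt_of_le_of_ne (hmax j hj.2) (fun heq => h0 ?_)
      exact hd i₀ hi₀ j hj.2 (Ne.symm hj.1) heq.symm
    have hne : A.valuation (t i₀) ≠ 0 := (Valuation.ne_zero_iff _).mpr h0
    have hrest : A.valuation (∑ j ∈ s.erase i₀, t j) < A.valuation (t i₀) :=
      Valuation.map_sum_lt _ hne hlt
    have hsum : ∑ j ∈ s, t j = t i₀ + ∑ j ∈ s.erase i₀, t j :=
      (Finset.add_sum_erase s t hi₀).symm
    rw [hsum, Valuation.map_add_eq_of_lt_left _ hrest]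
    exact hmax i hi

/-- the uniformizer package: `π` is a uniformizer of the subfield `K` for `v_A`, and
`v(θ) ^ p = v(π)`. -/
structure IsTR (K : Set L) (p : ℕ) (π θ : L) : Prop where
  pi_lt : A.valuation π < 1
  pi_ne : π ≠ 0
  val_K : ∀ c ∈ K, c ≠ 0 → ∃ m : ℤ, A.valuation c = A.valuation π ^ m
  theta : A.valuation θ ^ p = A.valuation π

variable {A}

theorem IsTR.pi_pos {K : Set L} {p : ℕ} {π θ : L} (h : IsTR A K p π θ) :
    0 < A.valuation π :=
  lt_of_le_of_ne zero_le (Ne.symm ((Valuation.ne_zero_iff _).mpr h.pi_ne))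

theorem IsTR.theta_ne {K : Set L} {p : ℕ} {π θ : L} (h : IsTR A K p π θ) (hp : 0 < p) :
    θ ≠ 0 := by
  intro h0
  have := h.theta
  rw [h0, map_zero, zero_pow hp.ne'] at this
  exact h.pi_pos.ne this

/-- `v(c θ ^ i) ^ p = v(π) ^ (p m + i)` -/
theorem IsTR.val_term_pow {K : Set L} {p : ℕ} {π θ : L} (h : IsTR A K p π θ)
    {c : L} {m : ℤ} (hm : A.valuation c = A.valuation π ^ m) (i : ℕ) :
    A.valuation (c * θ ^ i) ^ p = A.valuation π ^ ((p : ℤ) * m + i) := by
  rw [map_mul, map_pow, mul_pow, hm, ← pow_mul, mul_comm i p, pow_mul, h.theta,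
    zpow_add₀ h.pi_pos.ne', zpow_natCast, ← zpow_natCast (A.valuation π ^ m) p, ← zpow_mul,
    mul_comm m]

/-- the terms `c_i θ ^ i`, `i < p`, have pairwise distinct valuations -/
theorem IsTR.distinct {K : Set L} {p : ℕ} {π θ : L} (h : IsTR A K p π θ)
    {c c' : L} (hc : c ∈ K) (hc' : c' ∈ K) {i j : ℕ} (hi : i < p) (hj : j < p) (hij : i ≠ j)
    (heq : A.valuation (c * θ ^ i) = A.valuation (c' * θ ^ j)) : c * θ ^ i = 0 := by
  by_contra hne
  have hp : 0 < p := lt_of_le_of_lt (Nat.zero_le _) hi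
  have hc0 : c ≠ 0 := fun h0 => hne (by rw [h0, zero_mul])
  have hne' : c' * θ ^ j ≠ 0 := by
    intro h0
    rw [h0, map_zero] at heq
    exact hne ((Valuation.zero_iff _).mp heq)
  have hc0' : c' ≠ 0 := fun h0 => hne' (by rw [h0, zero_mul])
  obtain ⟨m, hm⟩ := h.val_K c hc hc0
  obtain ⟨m', hm'⟩ := h.val_K c' hc' hc0'
  have h1 := h.val_term_pow hm i
  have h2 := h.val_term_pow hm' j
  rw [heq, h2] at h1
  have h3 := (zpow_right_inj₀ h.pi_pos h.pi_lt.ne).mp h1
  have h4 : ((i : ℤ)) % p = (j : ℤ) % p := by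
    have e1 : (i : ℤ) = ((p : ℤ) * m' + j) - (p : ℤ) * m := by rw [h3]; ring
    rw [e1]
    have : (p : ℤ) * m' + j - p * m = j + p * (m' - m) := by ring
    rw [this, Int.add_mul_emod_self_left]
  have h5 : (i : ℤ) = j := by
    rw [Int.emod_eq_of_lt (by positivity) (by exact_mod_cast hi),
      Int.emod_eq_of_lt (by positivity) (by exact_mod_cast hj)] at h4
    exact h4
  exact hij (by exact_mod_cast h5)

/-- a term `c θ ^ i` with `0 < i < p` does not have valuation one -/
theorem IsTR.val_ne_one {K : Set L} {p : ℕ} {π θ : L} (h : IsTR A K p π θ)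
    {c : L} (hc : c ∈ K) {i : ℕ} (hi0 : 0 < i) (hi : i < p) :
    A.valuation (c * θ ^ i) ≠ 1 := by
  intro h1
  have hc0 : c ≠ 0 := by
    intro h0
    rw [h0, zero_mul, map_zero] at h1
    exact zero_ne_one h1
  obtain ⟨m, hm⟩ := h.val_K c hc hc0
  have h2 := h.val_term_pow hm i
  rw [h1, one_pow, ← zpow_zero (A.valuation π)] at h2
  have h3 := (zpow_right_inj₀ h.pi_pos h.pi_lt.ne).mp h2
  have h4 : ((i : ℤ)) % p = 0 := by
    have e1 : (i : ℤ) = 0 + (p : ℤ) * (-m) := by linarith
    rw [e1, Int.add_mul_emod_self_left]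
    simp
  rw [Int.emod_eq_of_lt (by positivity) (by exact_mod_cast hi)] at h4
  have : i = 0 := by exact_mod_cast h4
  omega

/-- if `∑_{i<p} c_i θ ^ i ∈ A` then every term is in `A` -/
theorem IsTR.term_le {K : Set L} {p : ℕ} {π θ : L} (h : IsTR A K p π θ)
    (c : ℕ → L) (hc : ∀ i, c i ∈ K) {i : ℕ} (hi : i < p) :
    A.valuation (c i * θ ^ i) ≤ A.valuation (∑ j ∈ Finset.range p, c j * θ ^ j) := by
  classical
  apply val_le_sum_of_distinct A (Finset.range p) (fun j => c j * θ ^ j)
  · intro a ha b hb hab heq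
    exact h.distinct (hc a) (hc b) (Finset.mem_range.mp ha) (Finset.mem_range.mp hb) hab heq
  · exact Finset.mem_range.mpr hi

/-- if `∑_{i<p} c_i θ ^ i ∈ A` then every term with `i ≥ 1` is in `𝔪_A` -/
theorem IsTR.term_lt {K : Set L} {p : ℕ} {π θ : L} (h : IsTR A K p π θ)
    (c : ℕ → L) (hc : ∀ i, c i ∈ K) (hx : A.valuation (∑ j ∈ Finset.range p, c j * θ ^ j) ≤ 1)
    {i : ℕ} (hi0 : 0 < i) (hi : i < p) :
    A.valuation (c i * θ ^ i) < 1 :=
  lt_of_le_of_ne ((h.term_le c hc hi).trans hx) (h.val_ne_one (hc i) hi0 hi)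

/-- if `∑_{i<p} c_i θ ^ i = 0` then every term vanishes -/
theorem IsTR.term_eq_zero {K : Set L} {p : ℕ} {π θ : L} (h : IsTR A K p π θ)
    (c : ℕ → L) (hc : ∀ i, c i ∈ K) (hx : ∑ j ∈ Finset.range p, c j * θ ^ j = 0)
    {i : ℕ} (hi : i < p) : c i * θ ^ i = 0 := by
  have := h.term_le c hc hi
  rw [hx, map_zero] at this
  exact (Valuation.zero_iff _).mp (le_antisymm this zero_le)

end val

section span

open Fermat.Agent.FrobLib Fermat.Agent.S13

variable (K : IntermediateField ℚ Qbar)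

theorem isIntegral_of_pow_mem {p : ℕ} (hp : 0 < p) {β : Qbar} (hβ : β ^ p ∈ K) :
    IsIntegral K β := by
  refine ⟨Polynomial.X ^ p - Polynomial.C (⟨β ^ p, hβ⟩ : K),
    Polynomial.monic_X_pow_sub_C _ hp.ne', ?_⟩
  simp [Polynomial.eval₂_sub, Polynomial.eval₂_pow]

theorem finrank_adjoin_le {p : ℕ} (hp : 0 < p) {β : Qbar} (hβ : β ^ p ∈ K) :
    Module.finrank K (IntermediateField.adjoin K ({β} : Set Qbar)) ≤ p := by
  have hint := isIntegral_of_pow_mem K hp hβ
  rw [IntermediateField.adjoin.finrank hint]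
  have hmon : (Polynomial.X ^ p - Polynomial.C (⟨β ^ p, hβ⟩ : K)).Monic :=
    Polynomial.monic_X_pow_sub_C _ hp.ne'
  have h0 : Polynomial.aeval β (Polynomial.X ^ p - Polynomial.C (⟨β ^ p, hβ⟩ : K)) = 0 := by
    simp
  have h1 := minpoly.min K β hmon h0
  have h2 := Polynomial.natDegree_le_natDegree h1
  rwa [Polynomial.natDegree_X_pow_sub_C] at h2

/-- elements of `K(β)` are `K`-combinations of `1, θ, …, θ ^ (p-1)` -/
theorem exists_coeffs (A : ValuationSubring Qbar) {p : ℕ} (hp : 0 < p) {π θ β : Qbar}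
    (h : IsTR A (K : Set Qbar) p π θ) (hβ : β ^ p ∈ K)
    (hθ : θ ∈ IntermediateField.adjoin K ({β} : Set Qbar)) {x : Qbar}
    (hx : x ∈ IntermediateField.adjoin K ({β} : Set Qbar)) :
    ∃ c : ℕ → Qbar, (∀ i, c i ∈ K) ∧ x = ∑ i ∈ Finset.range p, c i * θ ^ i := by
  classical
  have hint := isIntegral_of_pow_mem K hp hβ
  haveI : FiniteDimensional K (IntermediateField.adjoin K ({β} : Set Qbar)) :=
    IntermediateField.adjoin.finiteDimensional hint
  set F := IntermediateField.adjoin K ({β} : Set Qbar) with hF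
  let b : Fin p → F := fun i => (⟨θ, hθ⟩ : F) ^ (i : ℕ)
  have hli : LinearIndependent K b := by
    rw [Fintype.linearIndependent_iff]
    intro g hg i
    let c : ℕ → Qbar := fun j => if hj : j < p then ((g ⟨j, hj⟩ : K) : Qbar) else 0
    have hc : ∀ j, c j ∈ K := by
      intro j
      by_cases hj : j < p
      · simp only [c, hj, dif_pos]
        exact (g ⟨j, hj⟩).2
      · simp only [c, hj, dif_neg, not_false_eq_true]
        exact zero_mem K
    have hsum : ∑ j ∈ Finset.range p, c j * θ ^ j = 0 := by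
      have h1 := congrArg (fun y : F => (y : Qbar)) hg
      simp only [ZeroMemClass.coe_zero] at h1
      rw [← h1, Finset.sum_range]
      push_cast
      refine (Finset.sum_congr rfl fun j _ => ?_).trans (by rfl : _ = _)
      simp only [c, j.2, dif_pos, b]
      rfl
    have := h.term_eq_zero c hc hsum i.2
    have hθ0 := h.theta_ne hp
    have hci : c i = 0 := (mul_eq_zero.mp this).resolve_right (pow_ne_zero _ hθ0)
    simp only [c, i.2, dif_pos] at hci
    exact_mod_cast hci
  have hcard : Fintype.card (Fin p) = Module.finrank K F := by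
    apply le_antisymm
    · exact hli.fintype_card_le_finrank
    · rw [Fintype.card_fin]
      exact finrank_adjoin_le K hp hβ
  haveI : Nonempty (Fin p) := ⟨⟨0, hp⟩⟩
  let B := basisOfLinearIndependentOfCardEqFinrank hli hcard
  have hB : ∀ i, B i = b i := fun i => by
    simp [B]
  have hrepr := B.sum_repr ⟨x, hx⟩
  obtain ⟨r, hr⟩ : ∃ r : Fin p → K, r = fun i => B.repr ⟨x, hx⟩ i := ⟨_, rfl⟩
  have h1 : x = ∑ i : Fin p, (r i : Qbar) * θ ^ (i : ℕ) := by
    have h2 := congrArg (fun y : F => (y : Qbar)) hrepr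
    simp only at h2
    rw [← h2, hr]
    push_cast
    refine Finset.sum_congr rfl fun j _ => ?_
    rw [hB]
    rfl
  refine ⟨fun j => if hj : j < p then ((r ⟨j, hj⟩ : K) : Qbar) else 0, ?_, ?_⟩
  · intro j
    by_cases hj : j < p
    · simp only [hj, dif_pos]
      exact (r ⟨j, hj⟩).2
    · simp only [hj, dif_neg, not_false_eq_true]
      exact zero_mem K
  · rw [h1, Finset.sum_range]
    refine Finset.sum_congr rfl fun j _ => ?_
    simp only [j.2, dif_pos]

end span

section lift

open Fermat.Agent.FrobLib Fermat.Agent.S13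

variable (K : IntermediateField ℚ Qbar)

theorem map_mem_adjoin {β : Qbar} (g' : Qbar ≃ₐ[K] Qbar)
    (hg' : g' β ∈ IntermediateField.adjoin K ({β} : Set Qbar)) {x : Qbar}
    (hx : x ∈ IntermediateField.adjoin K ({β} : Set Qbar)) :
    g' x ∈ IntermediateField.adjoin K ({β} : Set Qbar) := by
  have h1 : (IntermediateField.adjoin K ({β} : Set Qbar)).map (g' : Qbar →ₐ[K] Qbar)
      ≤ IntermediateField.adjoin K ({β} : Set Qbar) := by
    rw [IntermediateField.adjoin_map, Set.image_singleton,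
      IntermediateField.adjoin_simple_le_iff]
    exact hg'
  exact h1 ⟨x, hx, rfl⟩

/-- **TR**: in the totally ramified situation, an automorphism `g` of `Qbar / K` with
`v(g θ) ≤ v(θ)` agrees on `K(β)` with an element of the inertia group of `A`. -/
theorem exists_inertia_agree (A : ValuationSubring Qbar) {q : ℕ} (hq : q.Prime)
    (hA : A.LiesOverPrime q) {p : ℕ} (hp : 0 < p) {π θ β : Qbar}
    (h : IsTR A (K : Set Qbar) p π θ) (hβ : β ^ p ∈ K)
    (hθ : θ ∈ IntermediateField.adjoin K ({β} : Set Qbar))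
    (g : Qbar ≃ₐ[K] Qbar)
    (hgβ : g β ∈ IntermediateField.adjoin K ({β} : Set Qbar))
    (hgβ' : g.symm β ∈ IntermediateField.adjoin K ({β} : Set Qbar))
    (hε : A.valuation (g θ) ≤ A.valuation θ) :
    ∃ σ : GalQ, σ ∈ A.inertiaSubgroupIn ℚ ∧ (∀ x ∈ K, σ x = x) ∧ σ β = g β := by
  set F := IntermediateField.adjoin K ({β} : Set Qbar) with hF
  let F' : IntermediateField ℚ Qbar := F.restrictScalars ℚ
  let σ₀ : GalQ := g.restrictScalars ℚ
  have hθ0 := h.theta_ne hp
  have hvθ : A.valuation θ ≠ 0 := (Valuation.ne_zero_iff _).mpr hθ0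
  have hε1 : A.valuation (g θ / θ) ≤ 1 := by
    rw [map_div₀]
    exact div_le_one_of_le₀ hε zero_le
  obtain ⟨σ, hσ, hσF⟩ := exists_inertia_lift F' A hq hA σ₀
    (fun x hx => map_mem_adjoin K g.symm hgβ' hx)
    (fun x hx => map_mem_adjoin K g hgβ hx)
    (by
      intro b hb hbF
      obtain ⟨c, hc, hsum⟩ := exists_coeffs K A hp h hβ hθ hbF
      have hbA : A.valuation b ≤ 1 := (A.valuation_le_one_iff b).mpr (mem_of_isIntegral_int A hb)
      rw [A.mem_nonunits_iff]
      have hσb : σ₀ b - b = ∑ i ∈ Finset.range p, (c i * θ ^ i) * ((g θ / θ) ^ i - 1) := by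
        have e1 : σ₀ b = g b := rfl
        rw [e1]
        conv_lhs => rw [hsum]
        rw [map_sum, ← Finset.sum_sub_distrib]
        refine Finset.sum_congr rfl fun i _ => ?_
        have e2 : g (c i) = c i := g.commutes ⟨c i, hc i⟩
        rw [map_mul, map_pow, e2, div_pow]
        field_simp
      rw [hσb]
      apply Valuation.map_sum_lt _ one_ne_zero
      intro i hi
      rcases Nat.eq_zero_or_pos i with h0 | h0
      · subst h0
        simp
      · have h1 := h.term_lt c hc (hsum ▸ hbA) h0 (Finset.mem_range.mp hi)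
        have h2 : A.valuation ((g θ / θ) ^ i - 1) ≤ 1 := by
          apply (Valuation.map_sub _ _ _).trans
          rw [map_pow, map_one]
          exact max_le (pow_le_one₀ zero_le hε1) le_rfl
        rw [map_mul]
        calc A.valuation (c i * θ ^ i) * A.valuation ((g θ / θ) ^ i - 1)
            ≤ A.valuation (c i * θ ^ i) * 1 := by gcongr
          _ < 1 := by rwa [mul_one])
  refine ⟨σ, hσ, fun x hx => ?_, ?_⟩
  · have hxF : x ∈ F' := by
      have : (algebraMap K Qbar ⟨x, hx⟩) ∈ F := F.algebraMap_mem ⟨x, hx⟩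
      exact this
    rw [hσF x hxF]
    exact g.commutes ⟨x, hx⟩
  · exact hσF β (IntermediateField.mem_adjoin_simple_self K β)

end lift

end Fermat.Agent.S14.GS
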