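import Mathlib
import Fermat.Agent.S14.GaloisSideTR

/-!
# S14, piece 86-P2: bridge between the places of a number field `K ⊂ Qbar` and the valuation
subrings of `Qbar`
-/

set_option autoImplicit false
set_option linter.style.haveILetI false

open scoped NumberField nonZeroDivisors
open IsDedekindDomain WithZero

namespace Fermat.Agent.S14.GS

local notation "Qbar" => AlgebraicClosure ℚ

section bridge

open Fermat.Agent.FrobLib

set_option linter.unusedSectionVars false

variable (K : IntermediateField ℚ Qbar) [NumberField K] (v : HeightOneSpectrum (𝓞 K))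
  (A : ValuationSubring Qbar)

/-- `A` lies over the place `v` of `K` -/
def LiesOverPlace : Prop := ∀ x : 𝓞 K, x ∈ v.asIdeal → (((x : K)) : Qbar) ∈ A.nonunits

theorem isIntegral_coe_int (x : 𝓞 K) : IsIntegral ℤ (((x : K)) : Qbar) := by
  have h1 : IsIntegral ℤ (x : K) := x.2
  exact h1.map (IsScalarTower.toAlgHom ℤ K Qbar)

theorem val_int_le_one (x : 𝓞 K) : A.valuation (((x : K)) : Qbar) ≤ 1 :=
  (A.valuation_le_one_iff _).mpr (mem_of_isIntegral_int A (isIntegral_coe_int K x))

variable {K v A}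

theorem val_eq_one_of_not_mem (hA : LiesOverPlace K v A) {x : 𝓞 K} (hx : x ∉ v.asIdeal) :
    A.valuation (((x : K)) : Qbar) = 1 := by
  haveI := v.isMaximal
  obtain ⟨y, m, hm, hy⟩ := Ideal.IsMaximal.exists_inv v.isMaximal hx
  have h1 : A.valuation (((m : K)) : Qbar) < 1 := (A.mem_nonunits_iff).mp (hA m hm)
  have h2 : (((y : K)) : Qbar) * (((x : K)) : Qbar) = 1 - (((m : K)) : Qbar) := by
    have : (((y * x + m : 𝓞 K) : K) : Qbar) = (((1 : 𝓞 K) : K) : Qbar) := by rw [hy]
    push_cast at this
    linear_combination this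
  have h3 : A.valuation (1 - (((m : K)) : Qbar)) = 1 := by
    have := Valuation.map_add_eq_of_lt_left A.valuation (x := (1 : Qbar)) (y := -(((m : K)) : Qbar))
      (by rw [Valuation.map_neg, map_one]; exact h1)
    rw [map_one, ← sub_eq_add_neg] at this
    exact this
  have h4 : A.valuation (((y : K)) : Qbar) * A.valuation (((x : K)) : Qbar) = 1 := by
    rw [← map_mul, h2, h3]
  apply le_antisymm (val_int_le_one K A x)
  calc (1 : A.ValueGroup) = A.valuation (((y : K)) : Qbar) * A.valuation (((x : K)) : Qbar) := h4.symm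
    _ ≤ 1 * A.valuation (((x : K)) : Qbar) := by
        gcongr
        exact val_int_le_one K A y
    _ = A.valuation (((x : K)) : Qbar) := one_mul _

theorem val_lt_one_of_mem (hA : LiesOverPlace K v A) {x : 𝓞 K} (hx : x ∈ v.asIdeal) :
    A.valuation (((x : K)) : Qbar) < 1 := (A.mem_nonunits_iff).mp (hA x hx)

theorem val_of_valuation_le_one (hA : LiesOverPlace K v A) {c : K} (hc : v.valuation K c ≤ 1) :
    ∃ (n : 𝓞 K) (d : 𝓞 K), d ∉ v.asIdeal ∧ c * (d : K) = (n : K) ∧
      A.valuation (c : Qbar) = A.valuation (((n : K)) : Qbar) ∧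
      v.valuation K c = v.valuation K (n : K) := by
  obtain ⟨n, ⟨d, hd⟩, hnd⟩ := v.exists_primeCompl_mul_eq_of_integer c hc
  have hd' : d ∉ v.asIdeal := hd
  have hvd := val_eq_one_of_not_mem hA hd'
  refine ⟨n, d, hd', hnd, ?_, ?_⟩
  · have : A.valuation ((c * (d : K) : K) : Qbar) = A.valuation (((n : K)) : Qbar) := by rw [hnd]
    push_cast at this
    rw [map_mul, hvd, mul_one] at this
    exact this
  · have h1 : v.valuation K (d : K) = 1 := by
      rw [HeightOneSpectrum.valuation_of_algebraMap]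
      exact (v.intValuation_eq_one_iff_mem_primeCompl d).mpr hd
    have := congrArg (v.valuation K) hnd
    rw [map_mul, h1, mul_one] at this
    exact this

theorem val_eq_one_of_valuation_eq_one (hA : LiesOverPlace K v A) {c : K}
    (hc : v.valuation K c = 1) : A.valuation (c : Qbar) = 1 := by
  obtain ⟨n, d, hd, hnd, h1, h2⟩ := val_of_valuation_le_one hA hc.le
  rw [h1]
  apply val_eq_one_of_not_mem hA
  rw [hc, HeightOneSpectrum.valuation_of_algebraMap] at h2
  exact (v.intValuation_eq_one_iff_mem_primeCompl n).mp h2.symm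

theorem val_lt_one_of_valuation_lt_one (hA : LiesOverPlace K v A) {c : K}
    (hc : v.valuation K c < 1) : A.valuation (c : Qbar) < 1 := by
  obtain ⟨n, d, hd, hnd, h1, h2⟩ := val_of_valuation_le_one hA hc.le
  rw [h1]
  apply val_lt_one_of_mem hA
  rw [h2] at hc
  exact (v.valuation_lt_one_iff_mem n).mp hc

theorem val_eq_zpow (hA : LiesOverPlace K v A) {π : K} (hπ : v.valuation K π = exp (-1 : ℤ))
    {c : K} {m : ℤ} (hc : v.valuation K c = exp (-m)) :
    A.valuation (c : Qbar) = A.valuation (π : Qbar) ^ m := by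
  have hπ0 : π ≠ 0 := by
    intro h0
    rw [h0, map_zero] at hπ
    exact exp_ne_zero hπ.symm
  have h1 : v.valuation K (c * π ^ (-m)) = 1 := by
    rw [map_mul, map_zpow₀, hc, hπ, ← exp_zsmul, ← exp_add]
    simp
  have h2 := val_eq_one_of_valuation_eq_one hA h1
  have e1 : ((c * π ^ (-m) : K) : Qbar) = (c : Qbar) * (π : Qbar) ^ (-m) := by
    rw [MulMemClass.coe_mul]
    congr 1
  rw [e1, map_mul, map_zpow₀] at h2
  have hπv : A.valuation (π : Qbar) ≠ 0 := by
    rw [Valuation.ne_zero_iff]
    exact_mod_cast hπ0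
  rw [zpow_neg, mul_inv_eq_one₀ (zpow_ne_zero _ hπv)] at h2
  exact h2

theorem exists_exp_valuation (v : HeightOneSpectrum (𝓞 K)) {c : K} (hc : c ≠ 0) :
    ∃ m : ℤ, v.valuation K c = exp (-m) := by
  have h0 : v.valuation K c ≠ 0 := (Valuation.ne_zero_iff _).mpr hc
  exact ⟨-log (v.valuation K c), by rw [neg_neg, exp_log h0]⟩

/-- the `IsTR` package at a place `v` of `K` -/
theorem isTR_of_place (hA : LiesOverPlace K v A) {π : K} (hπ : v.valuation K π = exp (-1 : ℤ))
    {p : ℕ} {θ : Qbar} (hθ : A.valuation θ ^ p = A.valuation (π : Qbar)) :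
    IsTR A (K : Set Qbar) p (π : Qbar) θ where
  pi_lt := val_lt_one_of_valuation_lt_one hA (by rw [hπ, ← exp_zero, exp_lt_exp]; norm_num)
  pi_ne := by
    intro h0
    have : π = 0 := by exact_mod_cast h0
    rw [this, map_zero] at hπ
    exact exp_ne_zero hπ.symm
  val_K := by
    intro c hc hc0
    have hc0' : (⟨c, hc⟩ : K) ≠ 0 := by
      intro h0
      exact hc0 (congrArg Subtype.val h0)
    obtain ⟨m, hm⟩ := exists_exp_valuation v hc0'
    exact ⟨m, val_eq_zpow hA hπ hm⟩
  theta := hθ

end bridge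

end Fermat.Agent.S14.GS
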