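import Mathlib
import Fermat.Agent.S14.Defs
import Fermat.Agent.S14.KummerDatum

/-!
# S14, piece 86-P2: from a Kummer datum to the Galois side statement (interface)

`K = ℚ(ζ) ⊂ Qbar`, `α = β ^ p`.  The pieces:

* `GS.NotPowStatement`   (N) `α` is not a `p`-th power in `K`
* `GS.OmegaStatement`    (O) `α` is of type `ω ^ 2`
* `GS.ValStatement`      (V) `p ∣ v(α)` for all finite places `v` of `K`
* `GS.IdealPowStatement` (I) `p ∣ v(α)` for all `v` implies `(α) = I ^ p`
* `GS.LocalStatementGS`  (L) `α` is a `p`-th power modulo `(1 - ζ) ^ 3`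
-/

set_option autoImplicit false
set_option linter.style.haveILetI false

open scoped NumberField nonZeroDivisors
open IsDedekindDomain

noncomputable section

namespace Fermat.Agent.S14.GS

local notation "Qbar" => AlgebraicClosure ℚ

theorem isAlgebraic_Qbar : Algebra.IsAlgebraic ℚ Qbar :=
  haveI : IsAlgClosure ℚ Qbar := AlgebraicClosure.instIsAlgClosure ℚ
  IsAlgClosure.isAlgebraic

theorem isIntegral_Qbar : Algebra.IsIntegral ℚ Qbar :=
  haveI := isAlgebraic_Qbar
  inferInstance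

/-- the field `ℚ(ζ)` inside `Qbar` -/
abbrev KF (ζ : Qbar) : IntermediateField ℚ Qbar := IntermediateField.adjoin ℚ ({ζ} : Set Qbar)

theorem zeta_mem (ζ : Qbar) : ζ ∈ KF ζ := IntermediateField.mem_adjoin_simple_self ℚ ζ

theorem finiteDimensional_KF {p : ℕ} [Fact p.Prime] {ζ : Qbar} (hζ : IsPrimitiveRoot ζ p) :
    FiniteDimensional ℚ (KF ζ) := by
  have h1 : IsIntegral ℤ ζ := hζ.isIntegral (Fact.out : p.Prime).pos
  have h2 : IsIntegral ℚ ζ := h1.tower_top
  exact IntermediateField.adjoin.finiteDimensional h2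

theorem numberField_KF {p : ℕ} [Fact p.Prime] {ζ : Qbar} (hζ : IsPrimitiveRoot ζ p) :
    NumberField (KF ζ) :=
  { to_charZero := inferInstance, to_finiteDimensional := finiteDimensional_KF hζ }

theorem isCyclotomicExtension_KF {p : ℕ} [Fact p.Prime] {ζ : Qbar} (hζ : IsPrimitiveRoot ζ p) :
    IsCyclotomicExtension {p} ℚ (KF ζ) :=
  haveI : NeZero p := ⟨(Fact.out : p.Prime).ne_zero⟩
  haveI := isIntegral_Qbar
  hζ.intermediateField_adjoin_isCyclotomicExtension ℚ

/-- `ζ` as an element of `K` -/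
def zetaK (ζ : Qbar) : KF ζ := ⟨ζ, zeta_mem ζ⟩

theorem isPrimitiveRoot_zetaK {p : ℕ} {ζ : Qbar} (hζ : IsPrimitiveRoot ζ p) :
    IsPrimitiveRoot (zetaK ζ) p :=
  IsPrimitiveRoot.of_map_of_injective (f := algebraMap (KF ζ) Qbar)
    (by simpa [zetaK] using hζ) (FaithfulSMul.algebraMap_injective _ _)

theorem isIntegral_zetaK {p : ℕ} [Fact p.Prime] {ζ : Qbar} (hζ : IsPrimitiveRoot ζ p) :
    IsIntegral ℤ (zetaK ζ) :=
  (isPrimitiveRoot_zetaK hζ).isIntegral (Fact.out : p.Prime).pos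

/-- `ζ` as an element of `𝓞 K` -/
def zetaO {p : ℕ} [Fact p.Prime] {ζ : Qbar} (hζ : IsPrimitiveRoot ζ p) : 𝓞 (KF ζ) :=
  ⟨zetaK ζ, isIntegral_zetaK hζ⟩

theorem coe_zetaO {p : ℕ} [Fact p.Prime] {ζ : Qbar} (hζ : IsPrimitiveRoot ζ p) :
    ((zetaO hζ : 𝓞 (KF ζ)) : KF ζ) = zetaK ζ := rfl

theorem isPrimitiveRoot_zetaO {p : ℕ} [Fact p.Prime] {ζ : Qbar} (hζ : IsPrimitiveRoot ζ p) :
    IsPrimitiveRoot (zetaO hζ) p :=
  IsPrimitiveRoot.of_map_of_injective (f := algebraMap (𝓞 (KF ζ)) (KF ζ))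
    (by
      have := isPrimitiveRoot_zetaK hζ
      exact this) (FaithfulSMul.algebraMap_injective _ _)

/-- `α = β ^ p` as an element of `K` -/
def alphaK {p : ℕ} [Fact p.Prime] {ζ β : Qbar} (h : KummerDatum p ζ β) : KF ζ :=
  ⟨β ^ p, h.pow_mem⟩

theorem alphaK_ne_zero {p : ℕ} [Fact p.Prime] {ζ β : Qbar} (h : KummerDatum p ζ β) :
    alphaK h ≠ 0 := by
  intro h0
  have := congrArg (fun x : KF ζ => (x : Qbar)) h0
  simp only [alphaK, ZeroMemClass.coe_zero] at this
  exact h.ne_zero (pow_eq_zero_iff (Fact.out : p.Prime).ne_zero |>.mp this)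

section statements

variable (p : ℕ) [Fact p.Prime]

/-- (N) `α` is not a `p`-th power in `K`. -/
def NotPowStatement : Prop :=
  ∀ {ζ β : Qbar} (h : KummerDatum p ζ β), ¬ ∃ x : KF ζ, x ^ p = alphaK h

/-- (O) `α` is of type `ω ^ 2`. -/
def OmegaStatement : Prop :=
  ∀ {ζ β : Qbar} (h : KummerDatum p ζ β) [NumberField (KF ζ)]
    [IsCyclotomicExtension {p} ℚ (KF ζ)], IsOmegaTwo p (KF ζ) (alphaK h)

/-- (V) `p ∣ v(α)` for all finite places `v` of `K`. -/
def ValStatement : Prop :=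
  ∀ {ζ β : Qbar} (h : KummerDatum p ζ β) [NumberField (KF ζ)]
    (v : HeightOneSpectrum (𝓞 (KF ζ))),
    ∃ n : ℤ, v.valuation (KF ζ) (alphaK h) = WithZero.exp ((p : ℤ) * n)

/-- (I) an element all of whose valuations are divisible by `p` generates a `p`-th power ideal.
(General number field.) -/
def IdealPowStatement : Prop :=
  ∀ (K : Type) [Field K] [NumberField K] [IsCyclotomicExtension {p} ℚ K] (α : K), α ≠ 0 →
    (∀ v : HeightOneSpectrum (𝓞 K), ∃ n : ℤ, v.valuation K α = WithZero.exp ((p : ℤ) * n)) →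
    IsIdealPow p K α

/-- (L) `α` is a `p`-th power modulo `(1 - ζ) ^ 3`. -/
def LocalPowStatement : Prop :=
  ∀ {ζ β : Qbar} (h : KummerDatum p ζ β) [NumberField (KF ζ)]
    [IsCyclotomicExtension {p} ℚ (KF ζ)], IsLocalPow p (KF ζ) (zetaO h.prim) (alphaK h)

end statements

/-- assembly of 86-P2 from its pieces -/
theorem galoisSide_of_pieces (p : ℕ) [Fact p.Prime]
    (hN : NotPowStatement p) (hO : OmegaStatement p) (hV : ValStatement p)
    (hI : IdealPowStatement p) (hL : LocalPowStatement p)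
    {ζ β : Qbar} (h : KummerDatum p ζ β) :
    ∃ (K : Type) (_ : Field K) (_ : NumberField K) (_ : IsCyclotomicExtension {p} ℚ K)
      (ζ' : 𝓞 K) (_ : IsPrimitiveRoot ζ' p) (α : K),
      α ≠ 0 ∧ IsIdealPow p K α ∧ IsOmegaTwo p K α ∧ IsLocalPow p K ζ' α ∧ ¬ ∃ x : K, x ^ p = α := by
  haveI := numberField_KF h.prim
  haveI := isCyclotomicExtension_KF h.prim
  exact ⟨KF ζ, inferInstance, inferInstance, inferInstance, zetaO h.prim,
    isPrimitiveRoot_zetaO h.prim, alphaK h, alphaK_ne_zero h,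
    hI (KF ζ) (alphaK h) (alphaK_ne_zero h) (fun v => hV h v), hO h, hL h, hN h⟩

/-- 86-P1 + 86-P2 give the Galois side. -/
theorem galoisSide_of_pieces' (p : ℕ) [Fact p.Prime]
    (hK : KummerDatumStatement p)
    (hN : NotPowStatement p) (hO : OmegaStatement p) (hV : ValStatement p)
    (hI : IdealPowStatement p) (hL : LocalPowStatement p) : GaloisSideStatement p := by
  intro V _ _ _ _ C hadm hns
  obtain ⟨ζ, β, h⟩ := hK V C hadm hns
  exact galoisSide_of_pieces p hN hO hV hI hL h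

end Fermat.Agent.S14.GS

end
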