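import Mathlib
import Fermat.Agent.S14.GaloisSideDefs
import Fermat.Agent.S14.GaloisSideBridge

/-!
# S14, piece 86-P2: (N) and (V) for a Kummer datum
-/

set_option autoImplicit false
set_option linter.style.haveILetI false
set_option linter.unusedSectionVars false

open scoped NumberField nonZeroDivisors
open IsDedekindDomain WithZero

namespace Fermat.Agent.S14.GS

local notation "Qbar" => AlgebraicClosure ℚ
local notation "GalQ" => (AlgebraicClosure ℚ ≃ₐ[ℚ] AlgebraicClosure ℚ)

open Fermat.Agent.FrobLib Fermat.Agent.S13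

section general

theorem val_eq_one_of_pow_eq_one (A : ValuationSubring Qbar) {ω : Qbar} {n : ℕ} (hn : n ≠ 0)
    (h : ω ^ n = 1) : A.valuation ω = 1 := by
  have := congrArg A.valuation h
  rw [map_pow, map_one] at this
  exact (pow_eq_one_iff_of_nonneg zero_le hn).mp this

theorem val_natCast_le_one (A : ValuationSubring Qbar) (n : ℕ) : A.valuation (n : Qbar) ≤ 1 :=
  (A.valuation_le_one_iff _).mpr (natCast_mem A n)

theorem exists_prime_val_lt_one (A : ValuationSubring Qbar) :
    ∀ N : ℕ, N ≠ 0 → A.valuation (N : Qbar) < 1 → ∃ q : ℕ, q.Prime ∧ A.valuation (q : Qbar) < 1 := by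
  intro N
  induction N using Nat.strong_induction_on with
  | _ N ih =>
    intro hN0 hN
    have hN1 : N ≠ 1 := by
      rintro rfl
      simp at hN
    have hq := Nat.minFac_prime hN1
    by_cases hlt : A.valuation ((N.minFac : ℕ) : Qbar) < 1
    · exact ⟨_, hq, hlt⟩
    · have heq : A.valuation ((N.minFac : ℕ) : Qbar) = 1 :=
        le_antisymm (val_natCast_le_one A _) (not_lt.mp hlt)
      have hdiv : N = N.minFac * (N / N.minFac) := (Nat.mul_div_cancel' (Nat.minFac_dvd N)).symm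
      have hN' : A.valuation ((N / N.minFac : ℕ) : Qbar) < 1 := by
        have : A.valuation (N : Qbar) = A.valuation ((N.minFac : ℕ) : Qbar) *
            A.valuation ((N / N.minFac : ℕ) : Qbar) := by
          rw [← map_mul, ← Nat.cast_mul, ← hdiv]
        rw [this, heq, one_mul] at hN
        exact hN
      have hlt' : N / N.minFac < N := Nat.div_lt_self (Nat.pos_of_ne_zero hN0) hq.one_lt
      have hne : N / N.minFac ≠ 0 := by
        intro h0
        rw [h0, mul_zero] at hdiv
        exact hN0 hdiv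
      exact ih _ hlt' hne hN'

end general

section place

variable {K : IntermediateField ℚ Qbar} [NumberField K]

theorem exists_liesOverPlace (v : HeightOneSpectrum (𝓞 K)) :
    ∃ A : ValuationSubring Qbar, LiesOverPlace K v A := by
  let f : 𝓞 K →+* Qbar := (algebraMap K Qbar).comp (algebraMap (𝓞 K) K)
  have hf : Function.Injective f :=
    (FaithfulSMul.algebraMap_injective K Qbar).comp (FaithfulSMul.algebraMap_injective (𝓞 K) K)
  have hfr : Function.Bijective f.rangeRestrict :=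
    ⟨fun a b hab => hf (by
      have := congrArg (Subtype.val : f.range → Qbar) hab
      exact this), f.rangeRestrict_surjective⟩
  have hI : v.asIdeal.map f.rangeRestrict ≠ ⊤ := by
    intro h
    have := Ideal.comap_map_of_bijective f.rangeRestrict hfr (I := v.asIdeal)
    rw [h, Ideal.comap_top] at this
    exact v.isPrime.ne_top this.symm
  obtain ⟨A, -, hA⟩ := Ideal.image_subset_nonunits_valuationSubring _ hI
  refine ⟨A, fun x hx => ?_⟩
  exact hA ⟨f.rangeRestrict x, Ideal.mem_map_of_mem _ hx, rfl⟩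

theorem exists_prime_of_liesOverPlace {v : HeightOneSpectrum (𝓞 K)} {A : ValuationSubring Qbar}
    (hA : LiesOverPlace K v A) : ∃ q : ℕ, q.Prime ∧ A.LiesOverPrime q := by
  have h1 : ((Ideal.absNorm v.asIdeal : ℕ) : 𝓞 K) ∈ v.asIdeal := Ideal.absNorm_mem _
  have h2 := hA _ h1
  have h3 : Ideal.absNorm v.asIdeal ≠ 0 := by
    rw [Ne, Ideal.absNorm_eq_zero_iff]
    exact v.ne_bot
  have h4 : A.valuation ((Ideal.absNorm v.asIdeal : ℕ) : Qbar) < 1 := by
    rw [← A.mem_nonunits_iff]
    simpa using h2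
  obtain ⟨q, hq, hlt⟩ := exists_prime_val_lt_one A _ h3 h4
  exact ⟨q, hq, (A.mem_nonunits_iff).mpr hlt⟩

end place

section kummer

variable {p : ℕ} [hp : Fact p.Prime] {ζ β : Qbar}

theorem mem_KF_of_pow_eq_one (hζ : IsPrimitiveRoot ζ p) {ω : Qbar} (h : ω ^ p = 1) :
    ω ∈ KF ζ := by
  haveI : NeZero p := ⟨hp.out.ne_zero⟩
  obtain ⟨k, -, rfl⟩ := hζ.eq_pow_of_pow_eq_one h
  exact pow_mem (zeta_mem ζ) k

theorem kummer_g_apply (h : KummerDatum p ζ β) (g : Qbar ≃ₐ[KF ζ] Qbar) :
    ∃ ω : Qbar, ω ^ p = 1 ∧ g β = ω * β := by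
  have hβ := h.ne_zero
  refine ⟨g β / β, ?_, by field_simp⟩
  rw [div_pow, ← map_pow]
  have : g (β ^ p) = β ^ p := g.commutes ⟨β ^ p, h.pow_mem⟩
  rw [this, div_self (pow_ne_zero _ hβ)]

theorem kummer_map_mem (h : KummerDatum p ζ β) (g : Qbar ≃ₐ[KF ζ] Qbar) :
    g β ∈ IntermediateField.adjoin (KF ζ) ({β} : Set Qbar) := by
  obtain ⟨ω, hω, hg⟩ := kummer_g_apply h g
  rw [hg]
  exact mul_mem
    ((IntermediateField.adjoin (KF ζ) ({β} : Set Qbar)).algebraMap_mem
      ⟨ω, mem_KF_of_pow_eq_one h.prim hω⟩)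
    (IntermediateField.mem_adjoin_simple_self (KF ζ) β)

theorem kummer_exists_moving (h : KummerDatum p ζ β) : ∃ g : Qbar ≃ₐ[KF ζ] Qbar, g β ≠ β := by
  by_contra hall
  push Not at hall
  exact h.not_mem (mem_of_fixed_relative (KF ζ) hall)

theorem kummer_hfix (h : KummerDatum p ζ β) (A : ValuationSubring Qbar) {q : ℕ} (hq : q.Prime)
    (hA : A.LiesOverPrime q) : ∀ σ ∈ A.inertiaSubgroupIn ℚ, σ ζ = ζ → σ β = β := by
  by_cases hqp : q = p
  · subst hqp
    intro σ hσ
    obtain ⟨x, -, rfl⟩ := hσ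
    exact h.split A hA _ x.2
  · exact h.unram q hq hqp A hA

/-- the totally ramified situation is impossible for a Kummer datum -/
theorem kummer_TR_false (h : KummerDatum p ζ β) (A : ValuationSubring Qbar) {q : ℕ}
    (hq : q.Prime) (hA : A.LiesOverPrime q) {π θ : Qbar}
    (hTR : IsTR A (KF ζ : Set Qbar) p π θ)
    (hθ : θ ∈ IntermediateField.adjoin (KF ζ) ({β} : Set Qbar))
    (hε : ∀ g : Qbar ≃ₐ[KF ζ] Qbar, A.valuation (g θ) ≤ A.valuation θ) : False := by
  obtain ⟨g, hg⟩ := kummer_exists_moving h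
  obtain ⟨σ, hσ, hσK, hσβ⟩ := exists_inertia_agree (KF ζ) A hq hA hp.out.pos hTR h.pow_mem hθ g
    (kummer_map_mem h g) (kummer_map_mem h g.symm) (hε g)
  exact hg (hσβ ▸ kummer_hfix h A hq hA σ hσ (hσK ζ (zeta_mem ζ)))

/-- (N) -/
theorem notPowStatement (p : ℕ) [Fact p.Prime] : NotPowStatement p := by
  rintro ζ β h ⟨x, hx⟩
  have hp0 : p ≠ 0 := (Fact.out : p.Prime).ne_zero
  have h1 : (x : Qbar) ^ p = β ^ p := by
    have := congrArg Subtype.val hx
    simpa [alphaK] using this
  have hx0 : (x : Qbar) ≠ 0 := by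
    intro h0
    rw [h0, zero_pow hp0] at h1
    exact h.ne_zero (pow_eq_zero_iff hp0 |>.mp h1.symm)
  have h2 : (β / x) ^ p = 1 := by
    rw [div_pow, h1, div_self (pow_ne_zero _ h.ne_zero)]
  have h3 : β / x ∈ KF ζ := mem_KF_of_pow_eq_one h.prim h2
  apply h.not_mem
  have : β = (β / x) * x := by field_simp
  rw [this]
  exact mul_mem h3 x.2

theorem val_map_eq (h : KummerDatum p ζ β) (A : ValuationSubring Qbar)
    (g : Qbar ≃ₐ[KF ζ] Qbar) : A.valuation (g β) = A.valuation β := by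
  obtain ⟨ω, hω, hg⟩ := kummer_g_apply h g
  rw [hg, map_mul, val_eq_one_of_pow_eq_one A hp.out.ne_zero hω, one_mul]

/-- (V) -/
theorem valStatement (p : ℕ) [Fact p.Prime] : ValStatement p := by
  intro ζ β h _ v
  have hpP : p.Prime := Fact.out
  obtain ⟨A, hA⟩ := exists_liesOverPlace v
  obtain ⟨q, hq, hAq⟩ := exists_prime_of_liesOverPlace hA
  obtain ⟨π, hπ⟩ := v.valuation_exists_uniformizer (KF ζ)
  obtain ⟨n, hn⟩ := exists_exp_valuation v (alphaK_ne_zero h)
  have hvα : A.valuation (β ^ p) = A.valuation (π : Qbar) ^ n := val_eq_zpow hA hπ hn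
  by_cases hdvd : (p : ℤ) ∣ n
  · obtain ⟨k, hk⟩ := hdvd
    exact ⟨-k, by rw [hn, hk]; congr 1; ring⟩
  · exfalso
    have hcop : IsCoprime n (p : ℤ) := by
      rw [Int.isCoprime_iff_gcd_eq_one, Int.gcd_comm]
      have h1 : Nat.Coprime p n.natAbs := by
        rw [Nat.Prime.coprime_iff_not_dvd hpP]
        intro h2
        exact hdvd (Int.natCast_dvd.mpr h2)
      simpa [Int.gcd] using h1
    obtain ⟨u, w, huw⟩ := hcop
    have hTRπ := isTR_of_place (p := 1) (θ := (π : Qbar)) hA hπ (pow_one _)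
    have hπpos : A.valuation (π : Qbar) ≠ 0 := hTRπ.pi_pos.ne'
    have hβv : A.valuation β ≠ 0 := (Valuation.ne_zero_iff _).mpr h.ne_zero
    have hθ : A.valuation (β ^ u * (π : Qbar) ^ w) ^ p = A.valuation (π : Qbar) := by
      rw [map_mul, map_zpow₀, map_zpow₀, mul_pow, ← zpow_natCast (A.valuation β ^ u) p,
        ← zpow_mul, mul_comm u (p : ℤ), zpow_mul, zpow_natCast, ← map_pow, hvα,
        ← zpow_natCast (A.valuation (π : Qbar) ^ w) p, ← zpow_mul, ← zpow_mul,
        ← zpow_add₀ hπpos]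
      have : n * u + w * (p : ℤ) = 1 := by linarith
      rw [this, zpow_one]
    have hTR := isTR_of_place hA hπ hθ
    apply kummer_TR_false h A hq hAq hTR
    · exact mul_mem (zpow_mem (IntermediateField.mem_adjoin_simple_self (KF ζ) β) u)
        (zpow_mem ((IntermediateField.adjoin (KF ζ) ({β} : Set Qbar)).algebraMap_mem π) w)
    · intro g
      have e1 : g (π : Qbar) = π := g.commutes π
      rw [map_mul, map_zpow₀, map_zpow₀, e1, map_mul, map_mul, map_zpow₀, map_zpow₀,
        val_map_eq h A g, map_zpow₀]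

end kummer

end Fermat.Agent.S14.GS
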