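import Mathlib
import Fermat.Agent.S14.GaloisSideVal

/-!
# S14, piece 86-P2: (L) `α` is a `p`-th power modulo `(1 - ζ) ^ 3`
-/

set_option autoImplicit false
set_option linter.style.haveILetI false
set_option linter.unusedSectionVars false

open scoped NumberField nonZeroDivisors
open IsDedekindDomain WithZero

namespace Fermat.Agent.S14.GS

local notation "Qbar" => AlgebraicClosure ℚ

open Fermat.Agent.FrobLib Fermat.Agent.S13

section general

variable (A : ValuationSubring Qbar)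

/-- `v((1 + t) ^ p - 1 - t ^ p) ≤ v(p) v(t)` for `v(t) ≤ 1` -/
theorem val_binom {p : ℕ} (hp : p.Prime) {t : Qbar} (ht : A.valuation t ≤ 1) :
    A.valuation ((1 + t) ^ p - 1 - t ^ p) ≤ A.valuation (p : Qbar) * A.valuation t := by
  obtain ⟨n, rfl⟩ : ∃ n, p = n + 1 := ⟨p - 1, by have := hp.pos; omega⟩
  have h1 : (1 + t) ^ (n + 1) - 1 - t ^ (n + 1) =
      ∑ m ∈ Finset.range n, t ^ (m + 1) * ((n + 1).choose (m + 1) : Qbar) := by
    rw [add_comm 1 t, add_pow, Finset.sum_range_succ, Finset.sum_range_succ']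
    simp
    ring
  rw [h1]
  apply Valuation.map_sum_le
  intro m hm
  have hm' : m < n := Finset.mem_range.mp hm
  obtain ⟨k, hk⟩ := hp.dvd_choose_self (Nat.succ_ne_zero m) (by omega : m + 1 < n + 1)
  rw [hk, map_mul, Nat.cast_mul, map_mul, mul_comm]
  have h2 : A.valuation (t ^ (m + 1)) ≤ A.valuation t := by
    rw [map_pow, pow_succ]
    calc A.valuation t ^ m * A.valuation t ≤ 1 * A.valuation t := by
          gcongr
          exact pow_le_one₀ zero_le ht
      _ = A.valuation t := one_mul _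
  calc A.valuation ((n + 1 : ℕ) : Qbar) * A.valuation (k : Qbar) * A.valuation (t ^ (m + 1))
      ≤ A.valuation ((n + 1 : ℕ) : Qbar) * 1 * A.valuation t := by
        gcongr
        exact val_natCast_le_one A k
    _ = A.valuation ((n + 1 : ℕ) : Qbar) * A.valuation t := by rw [mul_one]

/-- `v(x ^ u π ^ w) ^ p = v(π)` when `v(x ^ p) = v(π) ^ n` and `u n + w p = 1` -/
theorem val_theta_pow {x π : Qbar} {n u w : ℤ} {p : ℕ}
    (hx : A.valuation (x ^ p) = A.valuation π ^ n) (hπ : A.valuation π ≠ 0)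
    (huw : u * n + w * p = 1) :
    A.valuation (x ^ u * π ^ w) ^ p = A.valuation π := by
  rw [map_mul, map_zpow₀, map_zpow₀, mul_pow, ← zpow_natCast (A.valuation x ^ u) p,
    ← zpow_mul, mul_comm u (p : ℤ), zpow_mul, zpow_natCast, ← map_pow, hx,
    ← zpow_natCast (A.valuation π ^ w) p, ← zpow_mul, ← zpow_mul, ← zpow_add₀ hπ]
  have : n * u + w * (p : ℤ) = 1 := by linarith
  rw [this, zpow_one]

end general

section cyclo

variable {p : ℕ} [hp : Fact p.Prime] {K : Type} [Field K] [NumberField K]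
  [IsCyclotomicExtension {p} ℚ K] {ζ : K} (hζ : IsPrimitiveRoot ζ p)

theorem exists_int_sub_dvd (a : 𝓞 K) : ∃ c : ℤ, (hζ.toInteger - 1) ∣ a - (c : 𝓞 K) := by
  obtain ⟨f, hf⟩ := hζ.integralPowerBasis.exists_eq_aeval' a
  rw [IsPrimitiveRoot.integralPowerBasis_gen] at hf
  refine ⟨f.eval 1, ?_⟩
  have := Polynomial.sub_dvd_eval_sub hζ.toInteger 1 (f.map (algebraMap ℤ (𝓞 K)))
  rw [Polynomial.eval_map, Polynomial.eval_map, ← Polynomial.aeval_def, ← hf] at this
  convert this using 2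
  rw [Polynomial.eval₂_at_one]
  simp

/-- the place `(ζ - 1)` -/
noncomputable def vP : HeightOneSpectrum (𝓞 K) where
  asIdeal := Ideal.span {hζ.toInteger - 1}
  isPrime := (Ideal.span_singleton_prime (hζ.zeta_sub_one_prime').ne_zero).mpr
    hζ.zeta_sub_one_prime'
  ne_bot := by
    rw [Ne, Ideal.span_singleton_eq_bot]
    exact (hζ.zeta_sub_one_prime').ne_zero

theorem vP_valuation_pi : (vP hζ).valuation K (ζ - 1) = exp (-1 : ℤ) := by
  have h1 : (ζ - 1 : K) = algebraMap (𝓞 K) K (hζ.toInteger - 1) := by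
    rw [map_sub, map_one]
    rfl
  rw [h1, HeightOneSpectrum.valuation_of_algebraMap]
  exact (vP hζ).intValuation_singleton (hζ.zeta_sub_one_prime').ne_zero rfl

theorem vP_valuation_prime_lt : (vP hζ).valuation K (p : K) < 1 := by
  have h1 : (p : K) = algebraMap (𝓞 K) K (p : 𝓞 K) := by simp
  rw [h1, HeightOneSpectrum.valuation_lt_one_iff_mem]
  exact Ideal.mem_span_singleton.mpr hζ.toInteger_sub_one_dvd_prime'

theorem vP_valuation_one_sub : (vP hζ).valuation K (1 - ζ) = exp (-1 : ℤ) := by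
  rw [Valuation.map_sub_swap]
  exact vP_valuation_pi hζ

/-- (L0): an approximation modulo `π ^ 3` gives `IsLocalPow` -/
theorem isLocalPow_of_approx {α y : K} (hy : y ≠ 0)
    (h : (vP hζ).valuation K (α / y ^ p - 1) ≤ exp (-3 : ℤ)) :
    IsLocalPow p K hζ.toInteger α := by
  have hπ := vP_valuation_one_sub hζ
  have hπ0 : (1 - ζ : K) ≠ 0 := by
    intro h0
    rw [h0, map_zero] at hπ
    exact exp_ne_zero hπ.symm
  have hvx : (vP hζ).valuation K ((α / y ^ p - 1) / (1 - ζ) ^ 3) ≤ 1 := by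
    rw [map_div₀, map_pow, hπ, ← exp_nsmul]
    rw [div_le_one₀ exp_pos]
    refine h.trans (le_of_eq ?_)
    rw [exp_inj]
    norm_num
  obtain ⟨n, ⟨d, hd⟩, hnd⟩ := (vP hζ).exists_primeCompl_mul_eq_of_integer _ hvx
  refine ⟨y, hy, n, d, ?_, ?_⟩
  · intro hdvd
    apply hd
    show d ∈ Ideal.span {hζ.toInteger - 1}
    rw [Ideal.mem_span_singleton]
    have : hζ.toInteger - 1 = -(1 - hζ.toInteger) := by ring
    rw [this, neg_dvd]
    exact hdvd
  · have e1 : ((hζ.toInteger : 𝓞 K) : K) = ζ := rfl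
    rw [e1]
    have hyp : y ^ p ≠ 0 := pow_ne_zero _ hy
    have h3 : (1 - ζ : K) ^ 3 ≠ 0 := pow_ne_zero _ hπ0
    have hnd' : (α / y ^ p - 1) / (1 - ζ) ^ 3 * (d : K) = (n : K) := hnd
    field_simp at hnd'
    linear_combination hnd'

/-- (L1) + (L2): after scaling by a `p`-th power, `α ≡ 1` modulo `π` -/
theorem exists_approx_one {α : K}
    (hV : ∃ n : ℤ, (vP hζ).valuation K α = exp ((p : ℤ) * n)) :
    ∃ y : K, y ≠ 0 ∧ (vP hζ).valuation K (α / y ^ p - 1) < 1 := by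
  obtain ⟨n, hn⟩ := hV
  have hπ := vP_valuation_pi hζ
  have hπ0 : (ζ - 1 : K) ≠ 0 := by
    intro h0
    rw [h0, map_zero] at hπ
    exact exp_ne_zero hπ.symm
  have hy₁0 : (ζ - 1 : K) ^ (-n) ≠ 0 := zpow_ne_zero _ hπ0
  have hy₁ : (vP hζ).valuation K (((ζ - 1 : K) ^ (-n)) ^ p) = exp ((p : ℤ) * n) := by
    rw [map_pow, map_zpow₀, hπ, ← exp_zsmul, ← exp_nsmul]
    congr 1
    simp
  have hα₁ : (vP hζ).valuation K (α / ((ζ - 1 : K) ^ (-n)) ^ p) = 1 := by
    rw [map_div₀, hn, hy₁, div_self exp_ne_zero]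
  obtain ⟨a, ha⟩ := (vP hζ).exists_valuation_sub_lt_of_integer hα₁.le 1
  rw [Units.val_one] at ha
  obtain ⟨c, hc⟩ := exists_int_sub_dvd hζ a
  have hac : (vP hζ).valuation K ((a : K) - (c : K)) < 1 := by
    have : ((a : K) - (c : K)) = algebraMap (𝓞 K) K (a - (c : 𝓞 K)) := by simp
    rw [this, HeightOneSpectrum.valuation_lt_one_iff_mem]
    exact Ideal.mem_span_singleton.mpr hc
  set α₁ : K := α / ((ζ - 1 : K) ^ (-n)) ^ p with hα₁def
  have hαc : (vP hζ).valuation K (α₁ - (c : K)) < 1 := by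
    have : α₁ - (c : K) = -((a : K) - α₁) + ((a : K) - (c : K)) := by ring
    rw [this]
    exact lt_of_le_of_lt (Valuation.map_add _ _ _) (max_lt (by rwa [Valuation.map_neg]) hac)
  have hc1 : (vP hζ).valuation K (c : K) = 1 := by
    have : (c : K) = α₁ + -(α₁ - (c : K)) := by ring
    rw [this, Valuation.map_add_eq_of_lt_left, hα₁]
    rw [Valuation.map_neg, hα₁]
    exact hαc
  have hF : (p : ℤ) ∣ c ^ p - c := by
    rw [← ZMod.intCast_zmod_eq_zero_iff_dvd]
    push_cast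
    rw [ZMod.pow_card, sub_self]
  have hcp : (vP hζ).valuation K ((c : K) ^ p - (c : K)) < 1 := by
    obtain ⟨m, hm⟩ := hF
    have : ((c : K) ^ p - (c : K)) = (p : K) * (m : K) := by
      have := congrArg (Int.cast : ℤ → K) hm
      push_cast at this
      exact this
    rw [this, map_mul]
    have hm1 : (vP hζ).valuation K (m : K) ≤ 1 := by
      have : (m : K) = algebraMap (𝓞 K) K (m : 𝓞 K) := by simp
      rw [this]
      exact HeightOneSpectrum.valuation_le_one _ _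
    calc (vP hζ).valuation K (p : K) * (vP hζ).valuation K (m : K)
        ≤ (vP hζ).valuation K (p : K) * 1 := by gcongr
      _ < 1 := by rw [mul_one]; exact vP_valuation_prime_lt hζ
  have hαcp : (vP hζ).valuation K (α₁ - (c : K) ^ p) < 1 := by
    have : α₁ - (c : K) ^ p = (α₁ - (c : K)) + -((c : K) ^ p - (c : K)) := by ring
    rw [this]
    exact lt_of_le_of_lt (Valuation.map_add _ _ _) (max_lt hαc (by rwa [Valuation.map_neg]))
  have hc0 : (c : K) ≠ 0 := by
    intro h0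
    rw [h0, map_zero] at hc1
    exact zero_ne_one hc1
  refine ⟨(ζ - 1 : K) ^ (-n) * (c : K), mul_ne_zero hy₁0 hc0, ?_⟩
  have : α / ((ζ - 1 : K) ^ (-n) * (c : K)) ^ p - 1 = (α₁ - (c : K) ^ p) / (c : K) ^ p := by
    rw [hα₁def, mul_pow]
    field_simp
  rw [this, map_div₀, map_pow, hc1, one_pow, div_one]
  exact hαcp

end cyclo

section main

variable {p : ℕ} [hp : Fact p.Prime] {ζ β : Qbar}

/-- `v(ω - 1) ≤ v(ζ - 1)` for a `p`-th root of unity `ω` -/
theorem val_root_sub_one_le (A : ValuationSubring Qbar) (hζ : IsPrimitiveRoot ζ p) {ω : Qbar}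
    (hω : ω ^ p = 1) : A.valuation (ω - 1) ≤ A.valuation (ζ - 1) := by
  haveI : NeZero p := ⟨hp.out.ne_zero⟩
  obtain ⟨j, -, rfl⟩ := hζ.eq_pow_of_pow_eq_one hω
  rw [← mul_geom_sum, map_mul]
  have h1 : A.valuation (∑ i ∈ Finset.range j, ζ ^ i) ≤ 1 := by
    apply Valuation.map_sum_le
    intro i _
    rw [map_pow, val_eq_one_of_pow_eq_one A hp.out.ne_zero hζ.pow_eq_one, one_pow]
  calc A.valuation (ζ - 1) * A.valuation (∑ i ∈ Finset.range j, ζ ^ i)
      ≤ A.valuation (ζ - 1) * 1 := by gcongr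
    _ = A.valuation (ζ - 1) := mul_one _

/-- `v(p) ≤ v(ζ - 1) ^ 2` for `p ≥ 3` -/
theorem val_prime_le (A : ValuationSubring Qbar) (hζ : IsPrimitiveRoot ζ p) (h3 : 3 ≤ p)
    [NumberField (KF ζ)] [IsCyclotomicExtension {p} ℚ (KF ζ)] :
    A.valuation (p : Qbar) ≤ A.valuation (ζ - 1) ^ 2 := by
  have hζK := isPrimitiveRoot_zetaK hζ
  have h1 : (hζK.toInteger - 1) ^ (p - 1) ∣ (p : 𝓞 (KF ζ)) :=
    (IsCyclotomicExtension.Rat.associated_zeta_sub_one_pow_prime p hζK).dvd
  have h2 : (hζK.toInteger - 1) ^ 2 ∣ (p : 𝓞 (KF ζ)) :=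
    (pow_dvd_pow _ (by omega)).trans h1
  obtain ⟨m, hm⟩ := h2
  have h3 : (p : Qbar) = (ζ - 1) ^ 2 * (((m : KF ζ)) : Qbar) := by
    have : ((((p : 𝓞 (KF ζ)) : KF ζ)) : Qbar) =
        (((((hζK.toInteger - 1) ^ 2 * m : 𝓞 (KF ζ)) : KF ζ)) : Qbar) := by rw [hm]
    push_cast at this
    rw [this]
    rfl
  rw [h3, map_mul, map_pow]
  calc A.valuation (ζ - 1) ^ 2 * A.valuation (((m : KF ζ)) : Qbar)
      ≤ A.valuation (ζ - 1) ^ 2 * 1 := by
        gcongr
        exact val_int_le_one (KF ζ) A m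
    _ = A.valuation (ζ - 1) ^ 2 := mul_one _

/-- (L) -/
theorem localPow_aux (h3 : 3 ≤ p) (h : KummerDatum p ζ β) [NumberField (KF ζ)]
    [IsCyclotomicExtension {p} ℚ (KF ζ)] :
    IsLocalPow p (KF ζ) (isPrimitiveRoot_zetaK h.prim).toInteger (alphaK h) := by
  have hζK := isPrimitiveRoot_zetaK h.prim
  have hpP : p.Prime := hp.out
  by_contra hnot
  obtain ⟨y, hy, hlt⟩ := exists_approx_one hζK (α := alphaK h) (by
    obtain ⟨n, hn⟩ := valStatement p h (vP hζK)
    exact ⟨n, hn⟩)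
  have hgt : exp (-3 : ℤ) < (vP hζK).valuation (KF ζ) (alphaK h / y ^ p - 1) := by
    by_contra hle
    exact hnot (isLocalPow_of_approx hζK hy (not_lt.mp hle))
  obtain ⟨c, hc⟩ : ∃ c : KF ζ, c = alphaK h / y ^ p - 1 := ⟨_, rfl⟩
  rw [← hc] at hlt hgt
  have hc0 : c ≠ 0 := by
    intro h0
    rw [h0, map_zero] at hgt
    exact not_lt.mpr zero_le hgt
  obtain ⟨k, hk⟩ := exists_exp_valuation (vP hζK) hc0
  have hk1 : 0 < k := by
    rw [hk, ← exp_zero, exp_lt_exp] at hlt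
    linarith
  have hk3 : k < 3 := by
    rw [hk, exp_lt_exp] at hgt
    linarith
  obtain ⟨A, hA⟩ := exists_liesOverPlace (vP hζK)
  obtain ⟨q, hq, hAq⟩ := exists_prime_of_liesOverPlace hA
  have hπ := vP_valuation_pi hζK
  have hTRπ := isTR_of_place (p := 1) (θ := ((zetaK ζ - 1 : KF ζ) : Qbar)) hA hπ (pow_one _)
  have hπQ : ((zetaK ζ - 1 : KF ζ) : Qbar) = ζ - 1 := rfl
  have hvπ1 : A.valuation (ζ - 1) < 1 := hπQ ▸ hTRπ.pi_lt
  have hvπpos : 0 < A.valuation (ζ - 1) := hπQ ▸ hTRπ.pi_pos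
  have hvπ0 : A.valuation (ζ - 1) ≠ 0 := hvπpos.ne'
  have hvc : A.valuation (c : Qbar) = A.valuation (ζ - 1) ^ k := by
    have := val_eq_zpow hA hπ hk
    rwa [hπQ] at this
  have hyQ : (y : Qbar) ≠ 0 := by
    intro h0
    exact hy (Subtype.ext h0)
  obtain ⟨β₂, hβ₂⟩ : ∃ β₂ : Qbar, β₂ = β / (y : Qbar) := ⟨_, rfl⟩
  have hβ₂p : β₂ ^ p = 1 + (c : Qbar) := by
    have e1 : (c : Qbar) = β ^ p / (y : Qbar) ^ p - 1 := by
      rw [hc]
      rfl
    rw [hβ₂, div_pow, e1]
    ring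
  obtain ⟨t, ht⟩ : ∃ t : Qbar, t = β₂ - 1 := ⟨_, rfl⟩
  have hvc1 : A.valuation (c : Qbar) < 1 := val_lt_one_of_valuation_lt_one hA hlt
  have hvβ₂p : A.valuation (β₂ ^ p) = 1 := by
    rw [hβ₂p, Valuation.map_add_eq_of_lt_left, map_one]
    rw [map_one]
    exact hvc1
  have hvβ₂ : A.valuation β₂ = 1 := by
    rw [map_pow] at hvβ₂p
    exact (pow_eq_one_iff_of_nonneg zero_le hpP.ne_zero).mp hvβ₂p
  have hvt1 : A.valuation t ≤ 1 := by
    rw [ht]
    exact (Valuation.map_sub _ _ _).trans (max_le hvβ₂.le (by rw [map_one]))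
  have hbin := val_binom A hpP hvt1
  have hβt : (1 + t) = β₂ := by rw [ht]; ring
  rw [hβt, hβ₂p] at hbin
  have hvp : A.valuation (p : Qbar) ≤ A.valuation (ζ - 1) ^ 2 := val_prime_le A h.prim h3
  have hvp1 : A.valuation (p : Qbar) < 1 :=
    hvp.trans_lt (pow_lt_one₀ zero_le hvπ1 (by norm_num))
  obtain ⟨R, hR⟩ : ∃ R : Qbar, R = 1 + (c : Qbar) - 1 - t ^ p := ⟨_, rfl⟩
  rw [← hR] at hbin
  have htp : t ^ p = (c : Qbar) + -R := by rw [hR]; ring
  have hvt : A.valuation t < 1 := by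
    by_contra hnlt
    have h1 : A.valuation t = 1 := le_antisymm hvt1 (not_lt.mp hnlt)
    have h2 : A.valuation (t ^ p) = 1 := by rw [map_pow, h1, one_pow]
    have h3 : A.valuation (t ^ p) < 1 := by
      rw [htp]
      refine lt_of_le_of_lt (Valuation.map_add _ _ _) (max_lt hvc1 ?_)
      rw [Valuation.map_neg]
      calc A.valuation R ≤ A.valuation (p : Qbar) * A.valuation t := hbin
        _ = A.valuation (p : Qbar) := by rw [h1, mul_one]
        _ < 1 := hvp1
    exact absurd h2 h3.ne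
  have hvppos : 0 < A.valuation (p : Qbar) := by
    apply lt_of_le_of_ne zero_le
    intro h0
    have := (Valuation.zero_iff _).mp h0.symm
    exact hpP.ne_zero (by exact_mod_cast this)
  have hvR : A.valuation R < A.valuation (c : Qbar) := by
    calc A.valuation R ≤ A.valuation (p : Qbar) * A.valuation t := hbin
      _ < A.valuation (p : Qbar) * 1 := by gcongr
      _ = A.valuation (p : Qbar) := mul_one _
      _ ≤ A.valuation (ζ - 1) ^ 2 := hvp
      _ = A.valuation (ζ - 1) ^ (2 : ℤ) := by norm_cast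
      _ ≤ A.valuation (ζ - 1) ^ k :=
          zpow_le_zpow_right_of_le_one₀ hvπpos hvπ1.le (by omega)
      _ = A.valuation (c : Qbar) := hvc.symm
  have hvtp : A.valuation (t ^ p) = A.valuation (ζ - 1) ^ k := by
    rw [htp, Valuation.map_add_eq_of_lt_left, hvc]
    rwa [Valuation.map_neg]
  have hvt_gt : A.valuation (ζ - 1) < A.valuation t := by
    by_contra hle
    have h1 : A.valuation t ^ p ≤ A.valuation (ζ - 1) ^ p :=
      pow_le_pow_left₀ zero_le (not_lt.mp hle) p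
    have h2 : A.valuation (ζ - 1) ^ (p : ℤ) < A.valuation (ζ - 1) ^ k :=
      zpow_lt_zpow_right_of_lt_one₀ hvπpos hvπ1 (by omega)
    rw [zpow_natCast] at h2
    rw [map_pow] at hvtp
    rw [hvtp] at h1
    exact absurd h2 (not_lt.mpr h1)
  obtain ⟨u, w, huw⟩ : ∃ u w : ℤ, u * k + w * (p : ℤ) = 1 := by
    rcases (by omega : k = 1 ∨ k = 2) with h1 | h2
    · exact ⟨1, 0, by rw [h1]; ring⟩
    · rcases hpP.eq_two_or_odd' with h2' | ⟨m, hm⟩
      · omega
      · exact ⟨-(m : ℤ), 1, by rw [h2, hm]; push_cast; ring⟩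
  have hθ := val_theta_pow A hvtp hvπ0 huw
  have hTR := isTR_of_place hA hπ (θ := t ^ u * (ζ - 1) ^ w) (by rw [hπQ]; exact hθ)
  rw [hπQ] at hTR
  have hβmem : β ∈ IntermediateField.adjoin (KF ζ) ({β} : Set Qbar) :=
    IntermediateField.mem_adjoin_simple_self (KF ζ) β
  apply kummer_TR_false h A hq hAq hTR
  · refine mul_mem (zpow_mem ?_ u) (zpow_mem ?_ w)
    · rw [ht, hβ₂]
      exact sub_mem (div_mem hβmem
        ((IntermediateField.adjoin (KF ζ) ({β} : Set Qbar)).algebraMap_mem y)) (one_mem _)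
    · exact (IntermediateField.adjoin (KF ζ) ({β} : Set Qbar)).algebraMap_mem (zetaK ζ - 1)
  · intro g
    obtain ⟨ω, hω, hg⟩ := kummer_g_apply h g
    have e1 : g (ζ - 1) = ζ - 1 := g.commutes (zetaK ζ - 1)
    have e2 : g (y : Qbar) = y := g.commutes y
    have e3 : g t = t + (ω - 1) * β₂ := by
      rw [ht, hβ₂, map_sub, map_div₀, map_one, e2, hg]
      field_simp
      ring
    have e4 : A.valuation (g t) = A.valuation t := by
      rw [e3, Valuation.map_add_eq_of_lt_left]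
      rw [map_mul, hvβ₂, mul_one]
      exact (val_root_sub_one_le A h.prim hω).trans_lt hvt_gt
    rw [map_mul, map_zpow₀, map_zpow₀, e1, map_mul, map_mul, map_zpow₀, map_zpow₀, e4,
      map_zpow₀]

/-- (L) -/
theorem localPowStatement (p : ℕ) [Fact p.Prime] (h3 : 3 ≤ p) : LocalPowStatement p := by
  intro ζ β h _ _
  exact localPow_aux h3 h

end main

end Fermat.Agent.S14.GS
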