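import Mathlib
import Fermat.Agent.S14.GaloisSideDefs
import Fermat.Agent.S14.GaloisAResolvent

/-!
# S14, piece 86-P2 (O): `α = β ^ p` is of type `ω ^ 2`

`omegaStatement p : GS.OmegaStatement p`: every `τ ∈ Gal(K/ℚ)` lifts to `σ ∈ G_ℚ`, the cyclotomic
exponents of `τ` and `σ` agree, and `σ β = β ^ (χ(σ)^2) γ` with `γ ∈ K` gives
`τ α = α ^ (χ^2) γ ^ p`.
-/

set_option autoImplicit false
set_option linter.style.haveILetI false
set_option linter.unusedSectionVars false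

open scoped NumberField nonZeroDivisors
open JacobiSumStickelberger

namespace Fermat.Agent.S14.GS

open ExtCitation

local notation "Qbar" => AlgebraicClosure ℚ
local notation "GQ" => (AlgebraicClosure ℚ ≃ₐ[ℚ] AlgebraicClosure ℚ)

/-- the cyclotomic exponent `cyc` acts on every primitive `p`-th root of unity of `K`. -/
theorem cyc_spec (p : ℕ) [Fact p.Prime] (K : Type) [Field K] [NumberField K]
    [IsCyclotomicExtension {p} ℚ K] (τ : K ≃ₐ[ℚ] K) {z : K} (hz : IsPrimitiveRoot z p) :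
    τ z = z ^ (cyc p K τ).val := by
  have hp : p.Prime := Fact.out
  haveI : NeZero p := ⟨hp.ne_zero⟩
  have hμ := IsCyclotomicExtension.zeta_spec p ℚ K
  have h1 : (IsCyclotomicExtension.zeta p ℚ K) ^ (cyc p K τ).val =
      τ (IsCyclotomicExtension.zeta p ℚ K) := by
    have := hμ.autToPow_spec ℚ τ
    exact this
  obtain ⟨a, -, ha⟩ := hμ.eq_pow_of_pow_eq_one hz.pow_eq_one
  rw [← ha, map_pow, ← h1, ← pow_mul, ← pow_mul, mul_comm]

theorem omegaStatement (p : ℕ) [Fact p.Prime] : OmegaStatement p := by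
  intro ζ β h _ _ τ
  have hp : p.Prime := Fact.out
  haveI : NeZero p := ⟨hp.ne_zero⟩
  haveI : Algebra.IsAlgebraic ℚ Qbar := isAlgebraic_Qbar
  haveI : IsAlgClosure ℚ Qbar := ⟨inferInstance, inferInstance⟩
  haveI : IsGalois ℚ Qbar := IsAlgClosure.isGalois ℚ Qbar
  haveI : Normal ℚ Qbar := IsGalois.to_normal
  set σ : GQ := τ.liftNormal Qbar with hσdef
  have hσ : ∀ x : KF ζ, σ (x : Qbar) = ((τ x : KF ζ) : Qbar) :=
    fun x => AlgEquiv.liftNormal_commutes τ Qbar x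
  obtain ⟨γ, hγ, hσβ⟩ := h.omega σ
  -- the exponents agree
  have hcyc : cyc p (KF ζ) τ = chiZ p σ := by
    have h1 : τ (zetaK ζ) = (zetaK ζ) ^ (cyc p (KF ζ) τ).val :=
      cyc_spec p (KF ζ) τ (isPrimitiveRoot_zetaK h.prim)
    have h2 : σ ζ = ζ ^ (cyc p (KF ζ) τ).val := by
      have h3 := hσ (zetaK ζ)
      rw [h1] at h3
      exact h3
    have h4 : ζ ^ (cyc p (KF ζ) τ).val = ζ ^ (chiZ p σ).val := by
      rw [← h2, chiZ_spec h.prim σ]
    have h5 := h.prim.pow_inj (ZMod.val_lt _) (ZMod.val_lt _) h4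
    exact ZMod.val_injective p h5
  refine ⟨⟨γ, hγ⟩, ?_⟩
  apply Subtype.ext
  have h6 : ((τ (alphaK h) : KF ζ) : Qbar) = σ (β ^ p) := (hσ (alphaK h)).symm
  rw [h6, map_pow, hσβ, hcyc]
  have h7 : (((alphaK h) ^ ((chiZ p σ) ^ 2).val * (⟨γ, hγ⟩ : KF ζ) ^ p : KF ζ) : Qbar) =
      (β ^ p) ^ ((chiZ p σ) ^ 2).val * γ ^ p := by
    simp [alphaK]
  rw [h7, mul_pow, ← pow_mul, ← pow_mul, mul_comm p]
  rfl

end Fermat.Agent.S14.GS
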