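import Mathlib
import Fermat.Agent.S14.GaloisSideDefs

/-!
# S14 (item 86), piece P2 (I): `GS.IdealPowStatement p`

In a Dedekind domain, a nonzero element of the fraction field all of whose valuations are
divisible by `p` generates the `p`-th power of a fractional ideal.

Main result: `Fermat.Agent.S14.idealPowStatement`.
-/

set_option autoImplicit false

open scoped NumberField nonZeroDivisors
open IsDedekindDomain FractionalIdeal

namespace Fermat.Agent.S14.IPV

variable {R : Type*} [CommRing R] [IsDedekindDomain R] {K : Type*} [Field K] [Algebra R K]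
  [IsFractionRing R K]

/-- the valuation of an element in terms of the exponent of its principal fractional ideal -/
theorem valuation_eq_exp_neg_count (v : HeightOneSpectrum R) {α : K} (hα : α ≠ 0) :
    v.valuation K α = WithZero.exp (-(count K v (spanSingleton R⁰ α))) := by
  obtain ⟨n, d, rfl⟩ := IsLocalization.exists_mk'_eq R⁰ α
  have hn : n ≠ 0 := by
    rintro rfl
    simp at hα
  have hd : (d : R) ≠ 0 := nonZeroDivisors.coe_ne_zero d
  have h0 : spanSingleton R⁰ (IsLocalization.mk' K n d) ≠ 0 := spanSingleton_ne_zero_iff.mpr hα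
  have hI : spanSingleton R⁰ (IsLocalization.mk' K n d) =
      spanSingleton R⁰ ((algebraMap R K) d)⁻¹ * ↑(Ideal.span {n} : Ideal R) := by
    rw [coeIdeal_span_singleton, spanSingleton_mul_spanSingleton]
    apply congr_arg
    rw [IsFractionRing.mk'_eq_div, div_eq_mul_inv, mul_comm]
  rw [count_well_defined K v h0 hI, HeightOneSpectrum.valuation_of_mk', v.intValuation_if_neg hn,
    v.intValuation_if_neg hd, ← WithZero.exp_sub]
  congr 1
  ring

/-- an element all of whose valuations are divisible by `p` generates a `p`-th power -/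
theorem exists_pow_eq_spanSingleton (p : ℕ) (hp : p ≠ 0) {α : K} (hα : α ≠ 0)
    (h : ∀ v : HeightOneSpectrum R, ∃ n : ℤ, v.valuation K α = WithZero.exp ((p : ℤ) * n)) :
    ∃ I : FractionalIdeal R⁰ K, spanSingleton R⁰ α = I ^ p := by
  set J := spanSingleton R⁰ α with hJ
  have hJ0 : J ≠ 0 := spanSingleton_ne_zero_iff.mpr hα
  have hc : ∀ v : HeightOneSpectrum R, ∃ m : ℤ, count K v J = m * p := by
    intro v
    obtain ⟨n, hn⟩ := h v
    rw [valuation_eq_exp_neg_count v hα, WithZero.exp_inj] at hn
    exact ⟨-n, by linarith⟩
  choose m hm using hc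
  refine ⟨∏ᶠ v : HeightOneSpectrum R, (v.asIdeal : FractionalIdeal R⁰ K) ^ (m v), ?_⟩
  have hfin : (Function.mulSupport fun v : HeightOneSpectrum R =>
      (v.asIdeal : FractionalIdeal R⁰ K) ^ (m v)).Finite := by
    have hff := finite_factors J
    rw [Filter.eventually_cofinite] at hff
    refine hff.subset ?_
    intro v hv
    simp only [Function.mem_mulSupport] at hv
    intro h0
    apply hv
    have : m v = 0 := by
      rw [hm v] at h0
      exact (mul_eq_zero.mp h0).resolve_right (by exact_mod_cast hp)
    rw [this, zpow_zero]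
  rw [finprod_pow hfin]
  conv_lhs => rw [← finprod_heightOneSpectrum_factorization' K hJ0]
  refine finprod_congr fun v => ?_
  rw [hm v, zpow_mul, zpow_natCast]

end Fermat.Agent.S14.IPV

namespace Fermat.Agent.S14

/-- **86-P2 (I)** -/
theorem idealPowStatement (p : ℕ) [hp : Fact p.Prime] : GS.IdealPowStatement p := by
  intro K _ _ _ α hα h
  exact IPV.exists_pow_eq_spanSingleton p hp.out.ne_zero hα h

end Fermat.Agent.S14
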