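import Mathlib
import Fermat.Agent.S14.GaloisSideLocal
import Fermat.Agent.S14.GaloisSideOmega
import Fermat.Agent.S14.IdealPowVal
import Fermat.Agent.S14.GaloisAFinal

/-!
# S14, pieces 86-P1 + 86-P2: the Galois side statement
-/

set_option autoImplicit false

namespace Fermat.Agent.S14

/-- **GALOIS SIDE** (86-P1 + 86-P2) -/
theorem galoisSide (p : ℕ) [Fact p.Prime] (h3 : 3 ≤ p) : GaloisSideStatement p :=
  GS.galoisSide_of_pieces' p (kummerDatum p) (GS.notPowStatement p) (GS.omegaStatement p)
    (GS.valStatement p) (idealPowStatement p) (GS.localPowStatement p h3)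

end Fermat.Agent.S14
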