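import Mathlib

/-!
# S14 (item 86), piece P6, polynomial part

Computation modulo `X ^ 3` in `𝔽_p[X]` of the image of the cyclotomic unit of type `ω²`
under `ζ ↦ 1 + X`:

`∏_{a ∈ 𝔽_p^×} (∑_{i < (a⁻¹).val} (1 + X) ^ i) ^ (a.val ^ 2) ≡ B (1 - X ^ 2 / 24) mod X ^ 3`, `B ≠ 0`.
-/

set_option autoImplicit false

open Polynomial

namespace Fermat.Agent.S14.Loc

section shape

variable {F : Type*} [Field F]

/-- `P ≡ c (1 + y X + (w + y² / 2) X²) mod X³` -/
def Shape (P : F[X]) (c y w : F) : Prop :=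
  P.coeff 0 = c ∧ P.coeff 1 = c * y ∧ P.coeff 2 = c * (w + y ^ 2 / 2)

theorem coeff_mul_zero' (P Q : F[X]) : (P * Q).coeff 0 = P.coeff 0 * Q.coeff 0 :=
  Polynomial.mul_coeff_zero P Q

theorem coeff_mul_one' (P Q : F[X]) :
    (P * Q).coeff 1 = P.coeff 0 * Q.coeff 1 + P.coeff 1 * Q.coeff 0 := by
  rw [Polynomial.coeff_mul]
  simp [Finset.Nat.antidiagonal_succ]

theorem coeff_mul_two' (P Q : F[X]) :
    (P * Q).coeff 2 = P.coeff 0 * Q.coeff 2 + P.coeff 1 * Q.coeff 1 + P.coeff 2 * Q.coeff 0 := by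
  rw [Polynomial.coeff_mul]
  simp [Finset.Nat.antidiagonal_succ]
  ring

theorem Shape.one : Shape (1 : F[X]) 1 0 0 := by
  refine ⟨by simp, by simp [Polynomial.coeff_one], ?_⟩
  simp [Polynomial.coeff_one]

theorem Shape.mul (h2 : (2 : F) ≠ 0) {P Q : F[X]} {c y w c' y' w' : F} (hP : Shape P c y w)
    (hQ : Shape Q c' y' w') : Shape (P * Q) (c * c') (y + y') (w + w') := by
  obtain ⟨p0, p1, p2⟩ := hP
  obtain ⟨q0, q1, q2⟩ := hQ
  refine ⟨?_, ?_, ?_⟩
  · rw [coeff_mul_zero', p0, q0]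
  · rw [coeff_mul_one', p0, p1, q0, q1]; ring
  · rw [coeff_mul_two', p0, p1, p2, q0, q1, q2]
    field_simp
    ring

theorem Shape.pow (h2 : (2 : F) ≠ 0) {P : F[X]} {c y w : F} (hP : Shape P c y w) (n : ℕ) :
    Shape (P ^ n) (c ^ n) (n * y) (n * w) := by
  induction n with
  | zero => simpa using Shape.one (F := F)
  | succ n ih =>
    have := Shape.mul h2 ih hP
    rw [pow_succ, pow_succ]
    have e1 : ((n + 1 : ℕ) : F) * y = n * y + y := by push_cast; ring
    have e2 : ((n + 1 : ℕ) : F) * w = n * w + w := by push_cast; ring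
    rw [e1, e2]
    exact this

theorem Shape.prod (h2 : (2 : F) ≠ 0) {ι : Type*} (s : Finset ι) (P : ι → F[X]) (c y w : ι → F)
    (h : ∀ i ∈ s, Shape (P i) (c i) (y i) (w i)) :
    Shape (∏ i ∈ s, P i) (∏ i ∈ s, c i) (∑ i ∈ s, y i) (∑ i ∈ s, w i) := by
  classical
  induction s using Finset.induction_on with
  | empty => simpa using Shape.one (F := F)
  | insert i s hi ih =>
    rw [Finset.prod_insert hi, Finset.prod_insert hi, Finset.sum_insert hi, Finset.sum_insert hi]
    exact Shape.mul h2 (h i (Finset.mem_insert_self i s))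
      (ih fun j hj => h j (Finset.mem_insert_of_mem hj))

end shape

section geom

variable (F : Type*) [Field F]

/-- the polynomial `∑_{i < n} (1 + X) ^ i` -/
noncomputable def gs (n : ℕ) : F[X] := ∑ i ∈ Finset.range n, (1 + X) ^ i

theorem coeff_gs (n j : ℕ) : (gs F n).coeff j = (n.choose (j + 1) : F) := by
  unfold gs
  rw [Polynomial.finsetSum_coeff]
  simp only [Polynomial.coeff_one_add_X_pow]
  induction n with
  | zero => simp
  | succ n ih =>
    rw [Finset.sum_range_succ, ih, Nat.choose_succ_succ n j]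
    push_cast
    ring

theorem two_mul_choose_two (n : ℕ) : (2 : F) * (n.choose 2 : F) = n * (n - 1) := by
  induction n with
  | zero => simp
  | succ n ih =>
    rw [Nat.choose_succ_succ n 1, Nat.choose_one_right]
    push_cast
    linear_combination ih

theorem six_mul_choose_three (n : ℕ) :
    (6 : F) * (n.choose 3 : F) = n * (n - 1) * (n - 2) := by
  induction n with
  | zero => simp
  | succ n ih =>
    rw [Nat.choose_succ_succ n 2]
    push_cast
    linear_combination ih + 3 * two_mul_choose_two F n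

theorem shape_gs (h2 : (2 : F) ≠ 0) (h3 : (3 : F) ≠ 0) (n : ℕ) :
    Shape (gs F n) (n : F) (((n : F) - 1) / 2) (((n : F) - 1) * ((n : F) - 5) / 24) := by
  have h6 : (6 : F) ≠ 0 := by
    have : (6 : F) = 2 * 3 := by norm_num
    rw [this]; exact mul_ne_zero h2 h3
  have h24 : (24 : F) ≠ 0 := by
    have : (24 : F) = 2 * 2 * 6 := by norm_num
    rw [this]; exact mul_ne_zero (mul_ne_zero h2 h2) h6
  refine ⟨?_, ?_, ?_⟩
  · rw [coeff_gs]; simp
  · have e : (gs F n).coeff 1 = (n.choose 2 : F) := coeff_gs F n 1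
    rw [e]
    have := two_mul_choose_two F n
    field_simp
    linear_combination this
  · have e : (gs F n).coeff 2 = (n.choose 3 : F) := coeff_gs F n 2
    rw [e]
    have := six_mul_choose_three F n
    field_simp
    linear_combination 32 * this

end geom

section main

variable (p : ℕ) [hp : Fact p.Prime]

/-- the representative in `{1, …, p - 1}` of `a⁻¹` -/
noncomputable def invVal (a : (ZMod p)ˣ) : ℕ := ((a⁻¹ : (ZMod p)ˣ) : ZMod p).val

/-- the square of the representative in `{1, …, p - 1}` of `a` -/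
noncomputable def sqVal (a : (ZMod p)ˣ) : ℕ := ((a : ZMod p).val) ^ 2

theorem cast_invVal (a : (ZMod p)ˣ) : ((invVal p a : ℕ) : ZMod p) = ((a⁻¹ : (ZMod p)ˣ) : ZMod p) := by
  have : NeZero p := ⟨hp.out.ne_zero⟩
  unfold invVal
  rw [ZMod.natCast_zmod_val]

theorem cast_sqVal (a : (ZMod p)ˣ) : ((sqVal p a : ℕ) : ZMod p) = (a : ZMod p) ^ 2 := by
  have : NeZero p := ⟨hp.out.ne_zero⟩
  unfold sqVal
  rw [Nat.cast_pow, ZMod.natCast_zmod_val]

theorem invVal_pos (a : (ZMod p)ˣ) : 0 < invVal p a := by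
  unfold invVal
  rw [Nat.pos_iff_ne_zero, Ne, ZMod.val_eq_zero]
  exact Units.ne_zero _

theorem invVal_lt (a : (ZMod p)ˣ) : invVal p a < p := by
  have : NeZero p := ⟨hp.out.ne_zero⟩
  exact ZMod.val_lt _

/-- the image of the cyclotomic unit of type `ω²` under `ζ ↦ 1 + X` -/
noncomputable def eps2Poly : (ZMod p)[X] :=
  ∏ a : (ZMod p)ˣ, gs (ZMod p) (invVal p a) ^ sqVal p a

theorem two_ne_zero_zmod (hp5 : 5 ≤ p) : (2 : ZMod p) ≠ 0 := by
  intro h
  have h' : ((2 : ℕ) : ZMod p) = 0 := by exact_mod_cast h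
  rw [ZMod.natCast_eq_zero_iff] at h'
  have := Nat.le_of_dvd (by norm_num) h'
  omega

theorem three_ne_zero_zmod (hp5 : 5 ≤ p) : (3 : ZMod p) ≠ 0 := by
  intro h
  have h' : ((3 : ℕ) : ZMod p) = 0 := by exact_mod_cast h
  rw [ZMod.natCast_eq_zero_iff] at h'
  have := Nat.le_of_dvd (by norm_num) h'
  omega

theorem sum_units_pow (hp5 : 5 ≤ p) (i : ℕ) (hi : 0 < i) (hi' : i < 4) :
    ∑ a : (ZMod p)ˣ, ((a : ZMod p)) ^ i = 0 := by
  classical
  have h := FiniteField.sum_pow_units (ZMod p) i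
  rw [ZMod.card] at h
  rw [if_neg] at h
  · simpa using h
  · intro hd
    have := Nat.le_of_dvd hi hd
    omega

theorem sum_units_one : ∑ _a : (ZMod p)ˣ, (1 : ZMod p) = -1 := by
  classical
  have h := FiniteField.sum_pow_units (ZMod p) 0
  rw [if_pos (dvd_zero _)] at h
  simpa using h

theorem shape_eps2Poly (hp5 : 5 ≤ p) :
    ∃ B : ZMod p, B ≠ 0 ∧ Shape (eps2Poly p) B 0 (-(1 / 24)) := by
  have h2 := two_ne_zero_zmod p hp5
  have h3 := three_ne_zero_zmod p hp5
  have h24 : (24 : ZMod p) ≠ 0 := by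
    have : (24 : ZMod p) = 2 * 2 * 2 * 3 := by norm_num
    rw [this]
    exact mul_ne_zero (mul_ne_zero (mul_ne_zero h2 h2) h2) h3
  have hs := Shape.prod h2 (Finset.univ : Finset (ZMod p)ˣ)
    (fun a => gs (ZMod p) (invVal p a) ^ sqVal p a)
    (fun a => ((invVal p a : ℕ) : ZMod p) ^ sqVal p a)
    (fun a => (sqVal p a : ZMod p) * ((((invVal p a : ℕ) : ZMod p) - 1) / 2))
    (fun a => (sqVal p a : ZMod p) *
      ((((invVal p a : ℕ) : ZMod p) - 1) * (((invVal p a : ℕ) : ZMod p) - 5) / 24))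
    (fun a _ => Shape.pow h2 (shape_gs (ZMod p) h2 h3 (invVal p a)) (sqVal p a))
  refine ⟨∏ a : (ZMod p)ˣ, ((invVal p a : ℕ) : ZMod p) ^ sqVal p a, ?_, ?_⟩
  · rw [Finset.prod_ne_zero_iff]
    intro a _
    refine pow_ne_zero _ ?_
    rw [cast_invVal]
    exact Units.ne_zero _
  · have e1 : ∑ a : (ZMod p)ˣ, (sqVal p a : ZMod p) * ((((invVal p a : ℕ) : ZMod p) - 1) / 2) = 0 := by
      have : ∀ a : (ZMod p)ˣ, (sqVal p a : ZMod p) * ((((invVal p a : ℕ) : ZMod p) - 1) / 2) =
          ((a : ZMod p) ^ 1 - (a : ZMod p) ^ 2) / 2 := by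
        intro a
        rw [cast_sqVal, cast_invVal]
        have ha : (a : ZMod p) * ((a⁻¹ : (ZMod p)ˣ) : ZMod p) = 1 := by
          rw [← Units.val_mul, mul_inv_cancel, Units.val_one]
        have key : (a : ZMod p) ^ 2 * (((a⁻¹ : (ZMod p)ˣ) : ZMod p) - 1) =
            (a : ZMod p) ^ 1 - (a : ZMod p) ^ 2 := by
          linear_combination (a : ZMod p) * ha
        rw [← key]
        ring
      simp_rw [this]
      rw [← Finset.sum_div, Finset.sum_sub_distrib, sum_units_pow p hp5 1 (by norm_num) (by norm_num),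
        sum_units_pow p hp5 2 (by norm_num) (by norm_num)]
      simp
    have e2 : ∑ a : (ZMod p)ˣ, (sqVal p a : ZMod p) *
        ((((invVal p a : ℕ) : ZMod p) - 1) * (((invVal p a : ℕ) : ZMod p) - 5) / 24) =
        -(1 / 24) := by
      have : ∀ a : (ZMod p)ˣ, (sqVal p a : ZMod p) *
          ((((invVal p a : ℕ) : ZMod p) - 1) * (((invVal p a : ℕ) : ZMod p) - 5) / 24) =
          (1 - 6 * (a : ZMod p) ^ 1 + 5 * (a : ZMod p) ^ 2) / 24 := by
        intro a
        rw [cast_sqVal, cast_invVal]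
        have ha : (a : ZMod p) * ((a⁻¹ : (ZMod p)ˣ) : ZMod p) = 1 := by
          rw [← Units.val_mul, mul_inv_cancel, Units.val_one]
        have key : (a : ZMod p) ^ 2 * ((((a⁻¹ : (ZMod p)ˣ) : ZMod p) - 1) *
            (((a⁻¹ : (ZMod p)ˣ) : ZMod p) - 5)) =
            1 - 6 * (a : ZMod p) ^ 1 + 5 * (a : ZMod p) ^ 2 := by
          linear_combination
            ((a : ZMod p) * ((a⁻¹ : (ZMod p)ˣ) : ZMod p) + 1 - 6 * (a : ZMod p)) * ha
        rw [← key]
        ring
      simp_rw [this]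
      rw [← Finset.sum_div, Finset.sum_add_distrib, Finset.sum_sub_distrib, ← Finset.mul_sum,
        ← Finset.mul_sum, sum_units_pow p hp5 1 (by norm_num) (by norm_num),
        sum_units_pow p hp5 2 (by norm_num) (by norm_num), sum_units_one]
      ring
    rw [e1, e2] at hs
    exact hs

/-- **Main computation.** If `eps2Poly ^ k` is congruent to a constant modulo `X ^ 3`
then `p ∣ k`. -/
theorem dvd_of_X_pow_three_dvd (hp5 : 5 ≤ p) (k : ℕ) (c : ZMod p)
    (h : (X : (ZMod p)[X]) ^ 3 ∣ eps2Poly p ^ k - C c) : p ∣ k := by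
  have h2 := two_ne_zero_zmod p hp5
  have h3 := three_ne_zero_zmod p hp5
  obtain ⟨B, hB, hS⟩ := shape_eps2Poly p hp5
  have hk := (Shape.pow h2 hS k).2.2
  rw [Polynomial.X_pow_dvd_iff] at h
  have h0 := h 2 (by norm_num)
  rw [Polynomial.coeff_sub, Polynomial.coeff_C, if_neg (by norm_num), sub_zero, hk] at h0
  have h24 : (24 : ZMod p) ≠ 0 := by
    have : (24 : ZMod p) = 2 * 2 * 2 * 3 := by norm_num
    rw [this]
    exact mul_ne_zero (mul_ne_zero (mul_ne_zero h2 h2) h2) h3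
  have hk0 : (k : ZMod p) = 0 := by
    have hBk : B ^ k ≠ 0 := pow_ne_zero _ hB
    have : (k : ZMod p) * -(1 / 24) + ((k : ZMod p) * 0) ^ 2 / 2 = 0 := by
      rcases mul_eq_zero.mp h0 with h | h
      · exact absurd h hBk
      · exact h
    have h' : (k : ZMod p) * (1 / 24) = 0 := by linear_combination -this
    rcases mul_eq_zero.mp h' with h | h
    · exact h
    · exact absurd h (one_div_ne_zero h24)
  exact (ZMod.natCast_eq_zero_iff k p).mp hk0

end main

end Fermat.Agent.S14.Loc
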