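import Mathlib
import Fermat.Agent.S14.LocalPoly
import Fermat.Agent.Kummer.KLGlue
import Fermat.Agent.Kummer.Frob

/-!
# S14 (item 86), piece P6: the cyclotomic unit of type `ω²` is not a local `p`-th power

`K` the `p`-th cyclotomic field, `p ≥ 5`, `ζ` a primitive `p`-th root of unity, `π = 1 - ζ`.

* `eps2 hζ : 𝓞 K` : the unit `∏_{a ∈ 𝔽_p^×} (∑_{i < (a⁻¹).val} ζ ^ i) ^ (a.val ^ 2)`;
* `isUnit_eps2`;
* `eps2_pow_sub_intCast` : `π ^ 3 ∣ eps2 ^ k - n` (`n : ℤ`) implies `p ∣ k`;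
* `eps2_pow_sub_pow` : `π ^ 3 ∣ eps2 ^ k - β ^ p` implies `p ∣ k`;
* `eps2_pow_mul_pow` : `π ^ 3 ∣ eps2 ^ k * γ ^ p - β ^ p` with `γ` prime to `π` implies `p ∣ k`.
-/

set_option autoImplicit false

open NumberField Polynomial

namespace Fermat.Agent.S14.Loc

variable {p : ℕ} [hp : Fact p.Prime] {K : Type*} [Field K] [NumberField K]
  [IsCyclotomicExtension {p} ℚ K] {ζ : K} (hζ : IsPrimitiveRoot ζ p)

/-- the geometric sums `1 + ζ + ⋯ + ζ ^ (n - 1)` in `𝓞 K` -/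
noncomputable def gsum (n : ℕ) : 𝓞 K := ∑ i ∈ Finset.range n, hζ.toInteger ^ i

/-- the cyclotomic unit of type `ω²` -/
noncomputable def eps2 : 𝓞 K := ∏ a : (ZMod p)ˣ, gsum hζ (invVal p a) ^ sqVal p a

omit [NumberField K] [IsCyclotomicExtension {p} ℚ K] in
theorem isUnit_gsum {n : ℕ} (h0 : 0 < n) (hn : n < p) : IsUnit (gsum hζ n) := by
  unfold gsum
  refine hζ.toInteger_isPrimitiveRoot.geom_sum_isUnit hp.out.two_le ?_
  exact Nat.Coprime.symm ((Nat.Prime.coprime_iff_not_dvd hp.out).mpr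
    (Nat.not_dvd_of_pos_of_lt h0 hn))

omit [NumberField K] [IsCyclotomicExtension {p} ℚ K] in
theorem isUnit_eps2 : IsUnit (eps2 hζ) := by
  unfold eps2
  rw [IsUnit.prod_univ_iff]
  intro a
  exact (isUnit_gsum hζ (invVal_pos p a) (invVal_lt p a)).pow _

theorem evTrunc_gsum (n : ℕ) :
    Kummer.evTrunc hζ (gsum hζ n) = Ideal.Quotient.mk _ (gs (ZMod p) n) := by
  unfold gsum gs
  rw [map_sum, map_sum]
  refine Finset.sum_congr rfl fun i _ => ?_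
  rw [map_pow, map_pow, Kummer.evTrunc_zeta]

theorem evTrunc_eps2 :
    Kummer.evTrunc hζ (eps2 hζ) = Ideal.Quotient.mk _ (eps2Poly p) := by
  unfold eps2 eps2Poly
  rw [map_prod, map_prod]
  refine Finset.prod_congr rfl fun a _ => ?_
  rw [map_pow, map_pow, evTrunc_gsum]

theorem evTrunc_one_sub_zeta :
    Kummer.evTrunc hζ (1 - hζ.toInteger) = Ideal.Quotient.mk _ (-X) := by
  rw [map_sub, map_one, Kummer.evTrunc_zeta, ← map_one (Ideal.Quotient.mk _), ← map_sub]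
  congr 1
  ring

/-- transfer of a congruence modulo `π ^ 3` to `𝔽_p[X]` -/
theorem X_pow_three_dvd_of_evTrunc (hp5 : 5 ≤ p) {x : 𝓞 K} {P : (ZMod p)[X]}
    (hx : Kummer.evTrunc hζ x = Ideal.Quotient.mk _ P) (h : (1 - hζ.toInteger) ^ 3 ∣ x) :
    (X : (ZMod p)[X]) ^ 3 ∣ P := by
  obtain ⟨y, rfl⟩ := h
  obtain ⟨Q, hQ⟩ := Ideal.Quotient.mk_surjective (Kummer.evTrunc hζ y)
  rw [map_mul, map_pow, evTrunc_one_sub_zeta, ← hQ, ← map_pow, ← map_mul, Ideal.Quotient.eq,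
    Ideal.mem_span_singleton] at hx
  have h3 : (X : (ZMod p)[X]) ^ 3 ∣ X ^ (p - 1) := pow_dvd_pow X (by omega)
  have h4 : (X : (ZMod p)[X]) ^ 3 ∣ (-X) ^ 3 * Q := by
    refine Dvd.dvd.mul_right ?_ _
    rw [neg_pow]
    exact Dvd.intro_left _ rfl
  have := (dvd_sub (h3.trans hx) h4)
  have e : (-X) ^ 3 * Q - P - (-X) ^ 3 * Q = -P := by ring
  rw [e] at this
  exact (dvd_neg.mp this)

theorem eps2_pow_sub_intCast (hp5 : 5 ≤ p) (k : ℕ) (n : ℤ)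
    (h : (1 - hζ.toInteger) ^ 3 ∣ eps2 hζ ^ k - (n : 𝓞 K)) : p ∣ k := by
  refine dvd_of_X_pow_three_dvd p hp5 k (n : ZMod p) ?_
  refine X_pow_three_dvd_of_evTrunc hζ hp5 ?_ h
  rw [map_sub, map_pow, evTrunc_eps2, Kummer.evTrunc_intCast, ← map_pow, ← map_sub]

theorem eps2_pow_sub_pow (hp5 : 5 ≤ p) (k : ℕ) (β : 𝓞 K)
    (h : (1 - hζ.toInteger) ^ 3 ∣ eps2 hζ ^ k - β ^ p) : p ∣ k := by
  obtain ⟨c, hc⟩ := Kummer.exists_int_pow_sub_dvd (p := p) β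
  refine dvd_of_X_pow_three_dvd p hp5 k (c : ZMod p) ?_
  refine X_pow_three_dvd_of_evTrunc hζ hp5 ?_ h
  have h1 : Kummer.evTrunc hζ (β ^ p) = Ideal.Quotient.mk _ (C (c : ZMod p)) := by
    obtain ⟨r, hr⟩ := hc
    have : β ^ p = (c : 𝓞 K) + (p : 𝓞 K) * r := by rw [← hr]; ring
    rw [this, map_add, map_mul, Kummer.evTrunc_prime, zero_mul, add_zero, Kummer.evTrunc_intCast]
  rw [map_sub, map_pow, evTrunc_eps2, h1, ← map_pow, ← map_sub]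

theorem prime_one_sub_zeta : Prime (1 - hζ.toInteger) := by
  have h := (hζ.zeta_sub_one_prime').neg
  rwa [neg_sub] at h

theorem one_sub_zeta_dvd_prime : (1 - hζ.toInteger) ∣ (p : 𝓞 K) := by
  have h := hζ.toInteger_sub_one_dvd_prime'
  rwa [← neg_sub, neg_dvd] at h

/-- the constant term of a `p`-th power prime to `π` is not zero -/
theorem intCast_ne_zero_of_not_dvd {γ : 𝓞 K} (hγ : ¬ (1 - hζ.toInteger) ∣ γ) {c : ℤ}
    (hc : (p : 𝓞 K) ∣ γ ^ p - (c : 𝓞 K)) : (c : ZMod p) ≠ 0 := by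
  intro h0
  rw [ZMod.intCast_zmod_eq_zero_iff_dvd] at h0
  have h1 : (p : 𝓞 K) ∣ (c : 𝓞 K) := by
    obtain ⟨d, rfl⟩ := h0
    exact ⟨(d : 𝓞 K), by push_cast; ring⟩
  have h2 : (p : 𝓞 K) ∣ γ ^ p := by
    have := dvd_add hc h1
    rwa [sub_add_cancel] at this
  exact hγ ((prime_one_sub_zeta hζ).dvd_of_dvd_pow ((one_sub_zeta_dvd_prime hζ).trans h2))

theorem eps2_pow_mul_pow (hp5 : 5 ≤ p) (k : ℕ) (γ β : 𝓞 K) (hγ : ¬ (1 - hζ.toInteger) ∣ γ)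
    (h : (1 - hζ.toInteger) ^ 3 ∣ eps2 hζ ^ k * γ ^ p - β ^ p) : p ∣ k := by
  obtain ⟨c₁, hc₁⟩ := Kummer.exists_int_pow_sub_dvd (p := p) γ
  obtain ⟨c₂, hc₂⟩ := Kummer.exists_int_pow_sub_dvd (p := p) β
  have hc₁0 : (c₁ : ZMod p) ≠ 0 := intCast_ne_zero_of_not_dvd hζ hγ hc₁
  refine dvd_of_X_pow_three_dvd p hp5 k ((c₁ : ZMod p)⁻¹ * (c₂ : ZMod p)) ?_
  have key : ∀ (δ : 𝓞 K) (c : ℤ), (p : 𝓞 K) ∣ δ ^ p - (c : 𝓞 K) →
      Kummer.evTrunc hζ (δ ^ p) = Ideal.Quotient.mk _ (C (c : ZMod p)) := by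
    intro δ c hc
    obtain ⟨r, hr⟩ := hc
    have : δ ^ p = (c : 𝓞 K) + (p : 𝓞 K) * r := by rw [← hr]; ring
    rw [this, map_add, map_mul, Kummer.evTrunc_prime, zero_mul, add_zero, Kummer.evTrunc_intCast]
  have h3 : (X : (ZMod p)[X]) ^ 3 ∣ eps2Poly p ^ k * C (c₁ : ZMod p) - C (c₂ : ZMod p) := by
    refine X_pow_three_dvd_of_evTrunc hζ hp5 ?_ h
    rw [map_sub, map_mul, map_pow, evTrunc_eps2, key γ c₁ hc₁, key β c₂ hc₂, ← map_pow,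
      ← map_mul, ← map_sub]
  have h4 : eps2Poly p ^ k - C ((c₁ : ZMod p)⁻¹ * (c₂ : ZMod p)) =
      C ((c₁ : ZMod p)⁻¹) * (eps2Poly p ^ k * C (c₁ : ZMod p) - C (c₂ : ZMod p)) := by
    have e : C ((c₁ : ZMod p)⁻¹) * C (c₁ : ZMod p) = 1 := by
      rw [← C_mul, inv_mul_cancel₀ hc₁0, C_1]
    rw [C_mul]
    linear_combination (-(eps2Poly p ^ k)) * e
  rw [h4]
  exact Dvd.dvd.mul_left h3 _

end Fermat.Agent.S14.Loc
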