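import Mathlib
import Fermat.Agent.S14.Defs
import Fermat.Agent.S14.LocalEps

/-!
# S14 (item 86), piece P6: `LocalStatement p K` for `p ≥ 5`

`η₂ = ∏_{0 < b < p} (1 - ζ ^ b) ^ (b ^ (-2))`.  If `η₂ ^ j x ^ p` is a `p`-th power modulo
`(1 - ζ) ^ 3` (in the multiplicative sense of `IsLocalPow`), then `p ∣ j`.

Main result: `Fermat.Agent.S14.localStatement_of_five_le`.
-/

set_option autoImplicit false

open NumberField

namespace Fermat.Agent.S14.Loc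

/-- cancellation of powers of a prime (one direction) -/
theorem eq_of_prime_pow_mul_eq_aux {R : Type*} [CommRing R] [IsDomain R] {π X Y : R}
    (hπ : Prime π) {u v : ℕ} (huv : u ≤ v) (h : π ^ u * X = π ^ v * Y) (hX : ¬ π ∣ X) :
    u = v ∧ X = Y := by
  obtain ⟨d, rfl⟩ := Nat.exists_eq_add_of_le huv
  rw [pow_add, mul_assoc] at h
  have h' := mul_left_cancel₀ (pow_ne_zero u hπ.ne_zero) h
  rcases Nat.eq_zero_or_pos d with rfl | hd
  · exact ⟨rfl, by simpa using h'⟩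
  · exact absurd (h' ▸ Dvd.dvd.mul_right (dvd_pow_self π hd.ne') Y) hX

/-- cancellation of powers of a prime -/
theorem eq_of_prime_pow_mul_eq {R : Type*} [CommRing R] [IsDomain R] {π X Y : R}
    (hπ : Prime π) {u v : ℕ} (h : π ^ u * X = π ^ v * Y) (hX : ¬ π ∣ X) (hY : ¬ π ∣ Y) :
    u = v ∧ X = Y := by
  rcases le_total u v with huv | huv
  · exact eq_of_prime_pow_mul_eq_aux hπ huv h hX
  · obtain ⟨h1, h2⟩ := eq_of_prime_pow_mul_eq_aux hπ huv h.symm hY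
    exact ⟨h1.symm, h2.symm⟩

theorem val_inv_sq {p : ℕ} (b : ℕ) :
    (((b : ZMod p)⁻¹) ^ 2).val = ((b : ZMod p)⁻¹).val ^ 2 % p := by
  rw [pow_two, ZMod.val_mul, pow_two]

variable {p : ℕ} [hp : Fact p.Prime] {K : Type} [Field K] [NumberField K]
  [IsCyclotomicExtension {p} ℚ K] {ζ : K} (hζ : IsPrimitiveRoot ζ p)

omit [NumberField K] [IsCyclotomicExtension {p} ℚ K] in
theorem one_sub_zeta_pow_eq (b : ℕ) :
    1 - hζ.toInteger ^ b = (1 - hζ.toInteger) * gsum hζ b := by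
  unfold gsum
  rw [mul_neg_geom_sum]

omit [NumberField K] [IsCyclotomicExtension {p} ℚ K] in
theorem eps2_eq_prod_Ioo :
    eps2 hζ = ∏ b ∈ Finset.Ioo 0 p, gsum hζ b ^ (((b : ZMod p)⁻¹).val ^ 2) := by
  have : NeZero p := ⟨hp.out.ne_zero⟩
  unfold eps2
  refine Finset.prod_bij (fun a _ => invVal p a) ?_ ?_ ?_ ?_
  · intro a _
    exact Finset.mem_Ioo.mpr ⟨invVal_pos p a, invVal_lt p a⟩
  · intro a₁ _ a₂ _ h
    unfold invVal at h
    have h1 := ZMod.val_injective p h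
    have h2 : a₁⁻¹ = a₂⁻¹ := Units.ext h1
    exact inv_injective h2
  · intro b hb
    rw [Finset.mem_Ioo] at hb
    have hb0 : (b : ZMod p) ≠ 0 := by
      rw [Ne, ZMod.natCast_eq_zero_iff]
      exact Nat.not_dvd_of_pos_of_lt hb.1 hb.2
    refine ⟨(Units.mk0 (b : ZMod p) hb0)⁻¹, Finset.mem_univ _, ?_⟩
    unfold invVal
    rw [inv_inv, Units.val_mk0, ZMod.val_natCast_of_lt hb.2]
  · intro a _
    congr 1
    rw [cast_invVal, Units.val_inv_eq_inv_val, inv_inv]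
    rfl

/-- the unit relating `η₂` and `ε₂` -/
noncomputable def corrUnit : 𝓞 K :=
  ∏ b ∈ Finset.Ioo 0 p, gsum hζ b ^ (((b : ZMod p)⁻¹).val ^ 2 / p)

omit [NumberField K] [IsCyclotomicExtension {p} ℚ K] in
theorem isUnit_corrUnit : IsUnit (corrUnit hζ) := by
  unfold corrUnit
  rw [IsUnit.prod_iff]
  intro b hb
  rw [Finset.mem_Ioo] at hb
  exact (isUnit_gsum hζ hb.1 hb.2).pow _

omit [NumberField K] [IsCyclotomicExtension {p} ℚ K] in
theorem eta2_mul_pow :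
    eta2 p K hζ.toInteger * corrUnit hζ ^ p =
      (1 - hζ.toInteger) ^ (∑ b ∈ Finset.Ioo 0 p, (((b : ZMod p)⁻¹) ^ 2).val) * eps2 hζ := by
  unfold eta2 corrUnit
  rw [eps2_eq_prod_Ioo, ← Finset.prod_pow, ← Finset.prod_mul_distrib, ← Finset.prod_pow_eq_pow_sum,
    ← Finset.prod_mul_distrib]
  refine Finset.prod_congr rfl fun b _ => ?_
  rw [one_sub_zeta_pow_eq, mul_pow, ← pow_mul, mul_assoc, ← pow_add, val_inv_sq,
    Nat.mod_add_div' ]

/-- the exponent of `1 - ζ` in `η₂` -/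
noncomputable def piExp (p : ℕ) : ℕ := ∑ b ∈ Finset.Ioo 0 p, (((b : ZMod p)⁻¹) ^ 2).val

/-- the main step, for integral data: comparison of the valuations, and the unit parts -/
theorem exists_unit_parts (j : ℕ) {A B a b : 𝓞 K} (hA : A ≠ 0) (hB : B ≠ 0)
    (hb : ¬ (1 - hζ.toInteger) ∣ b)
    (h : eta2 p K hζ.toInteger ^ j * A ^ p * b = B ^ p * (b + (1 - hζ.toInteger) ^ 3 * a)) :
    ∃ (m n : ℕ) (A₁ B₁ : 𝓞 K), ¬ (1 - hζ.toInteger) ∣ A₁ ∧ piExp p * j + m * p = n * p ∧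
      eps2 hζ ^ j * A₁ ^ p * b = B₁ ^ p * (b + (1 - hζ.toInteger) ^ 3 * a) := by
  have hπ : Prime (1 - hζ.toInteger) := prime_one_sub_zeta hζ
  set π : 𝓞 K := 1 - hζ.toInteger with hπdef
  set U : 𝓞 K := corrUnit hζ with hUdef
  have hU : IsUnit U := isUnit_corrUnit hζ
  have hrel : eta2 p K hζ.toInteger * U ^ p = π ^ piExp p * eps2 hζ := eta2_mul_pow hζ
  -- multiply by `U ^ (p j)`
  have h1 : π ^ (piExp p * j) * (eps2 hζ ^ j * A ^ p * b) =
      (B * U ^ j) ^ p * (b + π ^ 3 * a) := by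
    have e1 : π ^ (piExp p * j) * eps2 hζ ^ j = eta2 p K hζ.toInteger ^ j * (U ^ j) ^ p := by
      rw [pow_mul, ← mul_pow, ← hrel, mul_pow, ← pow_mul, ← pow_mul, mul_comm p j]
    calc π ^ (piExp p * j) * (eps2 hζ ^ j * A ^ p * b)
        = (π ^ (piExp p * j) * eps2 hζ ^ j) * (A ^ p * b) := by ring
      _ = (eta2 p K hζ.toInteger ^ j * A ^ p * b) * (U ^ j) ^ p := by rw [e1]; ring
      _ = (B * U ^ j) ^ p * (b + π ^ 3 * a) := by rw [h]; ring
  have hBU : B * U ^ j ≠ 0 := mul_ne_zero hB (pow_ne_zero _ hU.ne_zero)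
  obtain ⟨m, A₁, hA₁, hAeq⟩ := WfDvdMonoid.max_power_factor hA hπ.irreducible
  obtain ⟨n, B₁, hB₁, hBeq⟩ := WfDvdMonoid.max_power_factor hBU hπ.irreducible
  have h2 : π ^ (piExp p * j + m * p) * (eps2 hζ ^ j * A₁ ^ p * b) =
      π ^ (n * p) * (B₁ ^ p * (b + π ^ 3 * a)) := by
    rw [hBeq, hAeq] at h1
    calc π ^ (piExp p * j + m * p) * (eps2 hζ ^ j * A₁ ^ p * b)
        = π ^ (piExp p * j) * (eps2 hζ ^ j * (π ^ m * A₁) ^ p * b) := by
          rw [pow_add, pow_mul]; ring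
      _ = (π ^ n * B₁) ^ p * (b + π ^ 3 * a) := h1
      _ = π ^ (n * p) * (B₁ ^ p * (b + π ^ 3 * a)) := by rw [pow_mul]; ring
  have hX : ¬ π ∣ eps2 hζ ^ j * A₁ ^ p * b := by
    intro hd
    rcases hπ.dvd_or_dvd hd with hd | hd
    · rcases hπ.dvd_or_dvd hd with hd | hd
      · exact hπ.not_isUnit (isUnit_of_dvd_unit hd ((isUnit_eps2 hζ).pow j))
      · exact hA₁ (hπ.dvd_of_dvd_pow hd)
    · exact hb hd
  have hY : ¬ π ∣ B₁ ^ p * (b + π ^ 3 * a) := by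
    intro hd
    rcases hπ.dvd_or_dvd hd with hd | hd
    · exact hB₁ (hπ.dvd_of_dvd_pow hd)
    · apply hb
      have h3 : π ∣ π ^ 3 * a := Dvd.dvd.mul_right (dvd_pow_self π (by norm_num)) a
      exact (dvd_add_left h3).mp hd
  obtain ⟨h3, h4⟩ := eq_of_prime_pow_mul_eq hπ h2 hX hY
  exact ⟨m, n, A₁, B₁, hA₁, h3, h4⟩

/-- the main step, for integral data, `p ≥ 5` -/
theorem dvd_of_integral_eq (hp5 : 5 ≤ p) (j : ℕ) {A B a b : 𝓞 K} (hA : A ≠ 0) (hB : B ≠ 0)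
    (hb : ¬ (1 - hζ.toInteger) ∣ b)
    (h : eta2 p K hζ.toInteger ^ j * A ^ p * b = B ^ p * (b + (1 - hζ.toInteger) ^ 3 * a)) :
    p ∣ j := by
  have hπ : Prime (1 - hζ.toInteger) := prime_one_sub_zeta hζ
  obtain ⟨m, n, A₁, B₁, hA₁, -, h3⟩ := exists_unit_parts hζ j hA hB hb h
  have h4 : (1 - hζ.toInteger) ^ 3 ∣ (eps2 hζ ^ j * A₁ ^ p - B₁ ^ p) * b := by
    refine ⟨B₁ ^ p * a, ?_⟩
    linear_combination h3
  exact eps2_pow_mul_pow hζ hp5 j A₁ B₁ hA₁ (hπ.pow_dvd_of_dvd_mul_right 3 hb h4)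

theorem piExp_two : piExp 2 = 1 := by
  unfold piExp
  have : Finset.Ioo 0 2 = {1} := by decide
  rw [this, Finset.sum_singleton]
  have h1 : (((1 : ℕ) : ZMod 2)⁻¹) ^ 2 = 1 := by simp
  rw [h1]
  rfl

theorem piExp_three : piExp 3 = 2 := by
  unfold piExp
  have : Finset.Ioo 0 3 = {1, 2} := by decide
  rw [this, Finset.sum_pair (by norm_num)]
  have h0 : ∀ x : ZMod 3, x ≠ 0 → x ^ 2 = 1 := by decide
  have h1 : (((1 : ℕ) : ZMod 3)⁻¹) ^ 2 = 1 := by simp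
  have h2 : (((2 : ℕ) : ZMod 3)⁻¹) ^ 2 = 1 := by
    refine h0 _ (inv_ne_zero ?_)
    decide
  rw [h1, h2]
  rfl

/-- the main step, for integral data, `p ≤ 3` -/
theorem dvd_of_integral_eq' (hp3 : p ≤ 3) (j : ℕ) {A B a b : 𝓞 K} (hA : A ≠ 0) (hB : B ≠ 0)
    (hb : ¬ (1 - hζ.toInteger) ∣ b)
    (h : eta2 p K hζ.toInteger ^ j * A ^ p * b = B ^ p * (b + (1 - hζ.toInteger) ^ 3 * a)) :
    p ∣ j := by
  obtain ⟨m, n, A₁, B₁, -, h3, -⟩ := exists_unit_parts hζ j hA hB hb h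
  have h2 := hp.out.two_le
  have hp23 : p = 2 ∨ p = 3 := by omega
  have hdvd : p ∣ piExp p * j := by
    have : p ∣ piExp p * j + m * p := by rw [h3]; exact Dvd.intro_left _ rfl
    exact (Nat.dvd_add_left (Dvd.intro_left _ rfl)).mp this
  rcases hp23 with h | h
  · have e : piExp p = 1 := by rw [h]; exact piExp_two
    rwa [e, one_mul] at hdvd
  · have e : piExp p = 2 := by rw [h]; exact piExp_three
    rw [e] at hdvd
    rcases (Nat.Prime.dvd_mul hp.out).mp hdvd with h' | h'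
    · exact absurd (Nat.le_of_dvd (by norm_num) h') (by omega)
    · exact h'

end Fermat.Agent.S14.Loc

namespace Fermat.Agent.S14

open Loc

variable (p : ℕ) [hp : Fact p.Prime] (K : Type) [Field K] [NumberField K]
  [IsCyclotomicExtension {p} ℚ K]

/-- **P6** the local statement (all primes `p`). -/
theorem localStatement : LocalStatement p K := by
  have : NeZero p := ⟨hp.out.ne_zero⟩
  intro ζ' hζ' j x hx h
  have hζ : IsPrimitiveRoot (algebraMap (𝓞 K) K ζ') p :=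
    hζ'.map_of_injective RingOfIntegers.coe_injective
  have hζeq : hζ.toInteger = ζ' := RingOfIntegers.ext rfl
  obtain ⟨y, hy, a, b, hb, heq⟩ := h
  obtain ⟨x₁, x₂, hx₂, rfl⟩ := IsFractionRing.div_surjective (A := 𝓞 K) x
  obtain ⟨y₁, y₂, hy₂, rfl⟩ := IsFractionRing.div_surjective (A := 𝓞 K) y
  have hx₂0 : algebraMap (𝓞 K) K x₂ ≠ 0 :=
    RingOfIntegers.coe_ne_zero_iff.mpr (nonZeroDivisors.ne_zero hx₂)
  have hy₂0 : algebraMap (𝓞 K) K y₂ ≠ 0 :=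
    RingOfIntegers.coe_ne_zero_iff.mpr (nonZeroDivisors.ne_zero hy₂)
  have hx₁0 : x₁ ≠ 0 := by
    rintro rfl
    simp at hx
  have hy₁0 : y₁ ≠ 0 := by
    rintro rfl
    simp at hy
  have key : eta2 p K hζ.toInteger ^ j * (x₁ * y₂) ^ p * b =
      (y₁ * x₂) ^ p * (b + (1 - hζ.toInteger) ^ 3 * a) := ?_
  · have hA : x₁ * y₂ ≠ 0 := mul_ne_zero hx₁0 (nonZeroDivisors.ne_zero hy₂)
    have hB : y₁ * x₂ ≠ 0 := mul_ne_zero hy₁0 (nonZeroDivisors.ne_zero hx₂)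
    have hb' : ¬ (1 - hζ.toInteger) ∣ b := by rwa [hζeq]
    rcases Nat.lt_or_ge p 5 with h5 | h5
    · have h4 : p ≠ 4 := by
        rintro h
        have := hp.out
        rw [h] at this
        exact absurd this (by decide)
      exact dvd_of_integral_eq' hζ (by omega) j hA hB hb' key
    · exact dvd_of_integral_eq hζ h5 j hA hB hb' key
  rw [hζeq]
  apply RingOfIntegers.coe_injective
  simp only [map_mul, map_pow, map_add, map_sub, map_one]
  simp only [RingOfIntegers.coe_eq_algebraMap] at heq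
  have hX : (algebraMap (𝓞 K) K x₁ / algebraMap (𝓞 K) K x₂) ^ p * algebraMap (𝓞 K) K x₂ ^ p =
      algebraMap (𝓞 K) K x₁ ^ p := by
    rw [div_pow, div_mul_cancel₀ _ (pow_ne_zero _ hx₂0)]
  have hY : (algebraMap (𝓞 K) K y₁ / algebraMap (𝓞 K) K y₂) ^ p * algebraMap (𝓞 K) K y₂ ^ p =
      algebraMap (𝓞 K) K y₁ ^ p := by
    rw [div_pow, div_mul_cancel₀ _ (pow_ne_zero _ hy₂0)]
  generalize (algebraMap (𝓞 K) K x₁ / algebraMap (𝓞 K) K x₂) ^ p = u at heq hX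
  generalize (algebraMap (𝓞 K) K y₁ / algebraMap (𝓞 K) K y₂) ^ p = v at heq hY
  linear_combination (algebraMap (𝓞 K) K x₂ ^ p * algebraMap (𝓞 K) K y₂ ^ p) * heq
    - (algebraMap (𝓞 K) K (eta2 p K ζ') ^ j * algebraMap (𝓞 K) K b * algebraMap (𝓞 K) K y₂ ^ p) * hX
    + (algebraMap (𝓞 K) K x₂ ^ p *
        (algebraMap (𝓞 K) K b + (1 - algebraMap (𝓞 K) K ζ') ^ 3 * algebraMap (𝓞 K) K a)) * hY

end Fermat.Agent.S14
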