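import Fermat.Agent.S14.ThaineKBase

/-!
# S14, 86-P3 K-side (lead): from the Thaine element to Thaine's relation
-/

set_option autoImplicit false

open scoped NumberField nonZeroDivisors Pointwise
open JacobiSumStickelberger

namespace Fermat.Agent.S14

variable (p : ℕ) [hp : Fact p.Prime]
variable (K : Type) [Field K] [NumberField K] [IsCyclotomicExtension {p} ℚ K]

open Classical in
/-- the functional `ψ` evaluated on the class of an ideal (`0` on the zero ideal). -/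
noncomputable def thaineKPhi
    (ψ : haveI : NeZero p := ⟨hp.out.ne_zero⟩; ClGalModule p (𝓞 K) →ₗ[ZMod p] ZMod p)
    (I : Ideal (𝓞 K)) : ZMod p :=
  haveI : NeZero p := ⟨hp.out.ne_zero⟩
  if h : I ∈ (Ideal (𝓞 K))⁰ then ψ (clProj p (𝓞 K) (Additive.ofMul (ClassGroup.mk0 ⟨I, h⟩))) else 0

omit [NumberField K] [IsCyclotomicExtension {p} ℚ K] in
/-- `η₂` as a product over the units of `ZMod p`. -/
theorem thaineK_eta2_eq_prod_units (ζ : 𝓞 K) :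
    eta2 p K ζ = ∏ d : (ZMod p)ˣ,
      (1 - ζ ^ (((d⁻¹ : (ZMod p)ˣ) : ZMod p)).val) ^ (((d : ZMod p)) ^ 2).val := by
  classical
  haveI : NeZero p := ⟨hp.out.ne_zero⟩
  unfold eta2
  have hcop : ∀ b ∈ Finset.Ioo 0 p, Nat.Coprime b p := by
    intro b hb
    rw [Finset.mem_Ioo] at hb
    exact (Nat.coprime_of_lt_prime hb.1.ne' hb.2 hp.out).symm
  refine Finset.prod_nbij'
    (fun b => if h : Nat.Coprime b p then (ZMod.unitOfCoprime b h)⁻¹ else 1)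
    (fun d => (((d⁻¹ : (ZMod p)ˣ) : ZMod p)).val) ?_ ?_ ?_ ?_ ?_
  · intro b _
    exact Finset.mem_univ _
  · intro d _
    rw [Finset.mem_Ioo]
    refine ⟨Nat.pos_of_ne_zero fun h => ?_, ZMod.val_lt _⟩
    rw [ZMod.val_eq_zero] at h
    exact (d⁻¹).ne_zero h
  · intro b hb
    have hb' := Finset.mem_Ioo.mp hb
    simp only [dif_pos (hcop b hb), inv_inv, ZMod.coe_unitOfCoprime]
    exact ZMod.val_natCast_of_lt hb'.2
  · intro d _
    have hc : Nat.Coprime (((d⁻¹ : (ZMod p)ˣ) : ZMod p)).val p := by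
      apply hcop
      rw [Finset.mem_Ioo]
      refine ⟨Nat.pos_of_ne_zero fun h => ?_, ZMod.val_lt _⟩
      rw [ZMod.val_eq_zero] at h
      exact (d⁻¹).ne_zero h
    simp only [dif_pos hc]
    rw [inv_eq_iff_eq_inv]
    apply Units.ext
    rw [ZMod.coe_unitOfCoprime, ZMod.natCast_zmod_val]
  · intro b hb
    have hb' := Finset.mem_Ioo.mp hb
    simp only [dif_pos (hcop b hb), inv_inv, ZMod.coe_unitOfCoprime, Units.val_inv_eq_inv_val]
    rw [ZMod.val_natCast_of_lt hb'.2]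


section
variable {p K}
variable (ψ : haveI : NeZero p := ⟨hp.out.ne_zero⟩; ClGalModule p (𝓞 K) →ₗ[ZMod p] ZMod p)

theorem thaineKPhi_of_mem {I : Ideal (𝓞 K)} (h : I ∈ (Ideal (𝓞 K))⁰) :
    haveI : NeZero p := ⟨hp.out.ne_zero⟩
    thaineKPhi p K ψ I = ψ (clProj p (𝓞 K) (Additive.ofMul (ClassGroup.mk0 ⟨I, h⟩))) := by
  unfold thaineKPhi
  rw [dif_pos h]

theorem thaineKPhi_mul {I J : Ideal (𝓞 K)} (hI : I ∈ (Ideal (𝓞 K))⁰) (hJ : J ∈ (Ideal (𝓞 K))⁰) :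
    thaineKPhi p K ψ (I * J) = thaineKPhi p K ψ I + thaineKPhi p K ψ J := by
  haveI : NeZero p := ⟨hp.out.ne_zero⟩
  rw [thaineKPhi_of_mem ψ (mul_mem hI hJ), thaineKPhi_of_mem ψ hI, thaineKPhi_of_mem ψ hJ]
  have : (⟨I * J, mul_mem hI hJ⟩ : (Ideal (𝓞 K))⁰) = ⟨I, hI⟩ * ⟨J, hJ⟩ := rfl
  rw [this, map_mul, ofMul_mul, map_add, map_add]

theorem thaineKPhi_one : thaineKPhi p K ψ 1 = 0 := by
  haveI : NeZero p := ⟨hp.out.ne_zero⟩
  rw [thaineKPhi_of_mem ψ (one_mem _)]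
  have : (⟨1, one_mem _⟩ : (Ideal (𝓞 K))⁰) = 1 := rfl
  rw [this, map_one, ofMul_one, map_zero, map_zero]

theorem thaineKPhi_span {β : 𝓞 K} (hβ : β ≠ 0) : thaineKPhi p K ψ (Ideal.span {β}) = 0 := by
  haveI : NeZero p := ⟨hp.out.ne_zero⟩
  have hmem : Ideal.span {β} ∈ (Ideal (𝓞 K))⁰ :=
    mem_nonZeroDivisors_iff_ne_zero.mpr (by simpa using hβ)
  rw [thaineKPhi_of_mem ψ hmem]
  have : ClassGroup.mk0 ⟨Ideal.span {β}, hmem⟩ = 1 :=
    (ClassGroup.mk0_eq_one_iff hmem).mpr ⟨⟨β, rfl⟩⟩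
  rw [this, ofMul_one, map_zero, map_zero]

theorem thaineKPhi_multiset_prod (s : Multiset (Ideal (𝓞 K)))
    (hs : ∀ v ∈ s, v ∈ (Ideal (𝓞 K))⁰) :
    s.prod ∈ (Ideal (𝓞 K))⁰ ∧ thaineKPhi p K ψ s.prod = (s.map (thaineKPhi p K ψ)).sum := by
  induction s using Multiset.induction_on with
  | empty =>
    refine ⟨by simp, ?_⟩
    simp only [Multiset.prod_zero, Multiset.map_zero, Multiset.sum_zero]
    exact thaineKPhi_one ψ
  | cons a s ih =>
    have ha : a ∈ (Ideal (𝓞 K))⁰ := hs a (Multiset.mem_cons_self a s)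
    obtain ⟨h1, h2⟩ := ih fun v hv => hs v (Multiset.mem_cons_of_mem hv)
    refine ⟨by rw [Multiset.prod_cons]; exact mul_mem ha h1, ?_⟩
    rw [Multiset.prod_cons, thaineKPhi_mul ψ ha h1, h2, Multiset.map_cons, Multiset.sum_cons]

theorem thaineKPhi_map
    (hψ : haveI : NeZero p := ⟨hp.out.ne_zero⟩
      ∀ (d : (ZMod p)ˣ) (a : ClGalModule p (𝓞 K)), ψ (clGalAction p K d a) = (d : ZMod p) ^ 2 * ψ a)
    {P : Ideal (𝓞 K)} (hP : P ∈ (Ideal (𝓞 K))⁰) (d : (ZMod p)ˣ) :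
    haveI : NeZero p := ⟨hp.out.ne_zero⟩
    thaineKPhi p K ψ (P.map (clRingAction p K d : 𝓞 K →+* 𝓞 K)) =
      (d : ZMod p) ^ 2 * thaineKPhi p K ψ P := by
  haveI : NeZero p := ⟨hp.out.ne_zero⟩
  have hmem : P.map (clRingAction p K d : 𝓞 K →+* 𝓞 K) ∈ (Ideal (𝓞 K))⁰ :=
    (Ideal.mapNonZero (clRingAction p K d) ⟨P, hP⟩).2
  rw [thaineKPhi_of_mem ψ hmem, thaineKPhi_of_mem ψ hP, ← hψ, clGalAction_clProj_mk0]
  rfl

theorem thaineK_mem_map_natCast (d : (ZMod p)ˣ) {P : Ideal (𝓞 K)} {l : ℕ} (hlP : (l : 𝓞 K) ∈ P) :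
    haveI : NeZero p := ⟨hp.out.ne_zero⟩
    (l : 𝓞 K) ∈ P.map (clRingAction p K d : 𝓞 K →+* 𝓞 K) := by
  haveI : NeZero p := ⟨hp.out.ne_zero⟩
  have := Ideal.mem_map_of_mem (clRingAction p K d : 𝓞 K →+* 𝓞 K) hlP
  simpa using this

theorem thaineK_map_isPrime (d : (ZMod p)ˣ) {P : Ideal (𝓞 K)} [P.IsPrime] :
    haveI : NeZero p := ⟨hp.out.ne_zero⟩
    (P.map (clRingAction p K d : 𝓞 K →+* 𝓞 K)).IsPrime := by
  haveI : NeZero p := ⟨hp.out.ne_zero⟩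
  exact Ideal.map_isPrime_of_equiv (clRingAction p K d)

/-- the class relation: `(∑_d m_d d²) ψ[P] = 0`. -/
theorem thaineK_class_relation
    (hψ : haveI : NeZero p := ⟨hp.out.ne_zero⟩
      ∀ (d : (ZMod p)ˣ) (a : ClGalModule p (𝓞 K)), ψ (clGalAction p K d a) = (d : ZMod p) ^ 2 * ψ a)
    {P : Ideal (𝓞 K)} [P.IsPrime] (hP : P ∈ (Ideal (𝓞 K))⁰) {l : ℕ} (hl : l.Prime)
    (hlP : (l : 𝓞 K) ∈ P)
    (hinj : haveI : NeZero p := ⟨hp.out.ne_zero⟩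
      Function.Injective fun d : (ZMod p)ˣ => P.map (clRingAction p K d : 𝓞 K →+* 𝓞 K))
    {β : 𝓞 K} (hβ : β ≠ 0)
    (hA : ∀ v : Ideal (𝓞 K), v.IsPrime → v ≠ ⊥ → (l : 𝓞 K) ∉ v →
        p ∣ multiplicity v (Ideal.span {β})) :
    haveI : NeZero p := ⟨hp.out.ne_zero⟩
    (∑ d : (ZMod p)ˣ,
        ((multiplicity (P.map (clRingAction p K d : 𝓞 K →+* 𝓞 K)) (Ideal.span {β}) : ℕ) : ZMod p) *
          (d : ZMod p) ^ 2) * thaineKPhi p K ψ P = 0 := by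
  classical
  haveI : NeZero p := ⟨hp.out.ne_zero⟩
  set I : Ideal (𝓞 K) := Ideal.span {β} with hI
  have hI0 : I ≠ ⊥ := by simpa [hI] using hβ
  set s := UniqueFactorizationMonoid.normalizedFactors I with hs
  have hsprime : ∀ v ∈ s, v.IsPrime := fun v hv =>
    Ideal.isPrime_of_prime (UniqueFactorizationMonoid.prime_of_normalized_factor v hv)
  have hsne : ∀ v ∈ s, v ≠ ⊥ := fun v hv =>
    (UniqueFactorizationMonoid.prime_of_normalized_factor v hv).ne_zero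
  have hsmem : ∀ v ∈ s, v ∈ (Ideal (𝓞 K))⁰ := fun v hv =>
    mem_nonZeroDivisors_iff_ne_zero.mpr (hsne v hv)
  have hcount : ∀ v : Ideal (𝓞 K), v.IsPrime → v ≠ ⊥ → s.count v = multiplicity v I := by
    intro v hv hv0
    have hirr : Irreducible v := (Ideal.prime_of_isPrime hv0 hv).irreducible
    rw [UniqueFactorizationMonoid.multiplicity_eq_count_normalizedFactors hirr hI0, normalize_eq]
  have hsum : (s.map (thaineKPhi p K ψ)).sum = 0 := by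
    rw [← (thaineKPhi_multiset_prod ψ s hsmem).2, hs, Ideal.prod_normalizedFactors_eq_self hI0]
    exact thaineKPhi_span ψ hβ
  rw [Finset.sum_multiset_map_count] at hsum
  -- rewrite with multiplicities
  have hsum2 : ∑ v ∈ s.toFinset, ((multiplicity v I : ℕ) : ZMod p) * thaineKPhi p K ψ v = 0 := by
    rw [← hsum]
    refine Finset.sum_congr rfl fun v hv => ?_
    rw [Multiset.mem_toFinset] at hv
    rw [hcount v (hsprime v hv) (hsne v hv), nsmul_eq_mul]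
  -- split
  rw [← Finset.sum_filter_add_sum_filter_not s.toFinset (fun v => (l : 𝓞 K) ∈ v)] at hsum2
  have hzero : ∑ v ∈ s.toFinset.filter (fun v => ¬ (l : 𝓞 K) ∈ v),
      ((multiplicity v I : ℕ) : ZMod p) * thaineKPhi p K ψ v = 0 := by
    refine Finset.sum_eq_zero fun v hv => ?_
    rw [Finset.mem_filter, Multiset.mem_toFinset] at hv
    have := hA v (hsprime v hv.1) (hsne v hv.1) hv.2
    rw [(ZMod.natCast_eq_zero_iff _ _).mpr this, zero_mul]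
  rw [hzero, add_zero] at hsum2
  -- compare with the image of `d ↦ P_d`
  have hsub : s.toFinset.filter (fun v => (l : 𝓞 K) ∈ v) ⊆
      Finset.univ.image fun d : (ZMod p)ˣ => P.map (clRingAction p K d : 𝓞 K →+* 𝓞 K) := by
    intro v hv
    rw [Finset.mem_filter, Multiset.mem_toFinset] at hv
    haveI := hsprime v hv.1
    obtain ⟨d, hd⟩ := thaineK_exists_map_eq p K hl hlP hv.2
    exact Finset.mem_image.mpr ⟨d, Finset.mem_univ _, hd.symm⟩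
  rw [Finset.sum_subset hsub, Finset.sum_image fun d _ e _ h => hinj h] at hsum2
  · rw [Finset.sum_mul, ← hsum2]
    refine Finset.sum_congr rfl fun d _ => ?_
    rw [thaineKPhi_map ψ hψ hP d, mul_assoc]
  · intro v hv hvn
    obtain ⟨d, -, rfl⟩ := Finset.mem_image.mp hv
    have hpr := thaineK_map_isPrime (p := p) (K := K) d (P := P)
    have hne : P.map (clRingAction p K d : 𝓞 K →+* 𝓞 K) ≠ ⊥ :=
      mem_nonZeroDivisors_iff_ne_zero.mp (Ideal.mapNonZero (clRingAction p K d) ⟨P, hP⟩).2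
    have hnot : P.map (clRingAction p K d : 𝓞 K →+* 𝓞 K) ∉ s := by
      intro hmem
      exact hvn (Finset.mem_filter.mpr ⟨Multiset.mem_toFinset.mpr hmem,
        thaineK_mem_map_natCast d hlP⟩)
    rw [← hcount _ hpr hne, Multiset.count_eq_zero_of_notMem hnot, Nat.cast_zero, zero_mul]

omit hp [NumberField K] [IsCyclotomicExtension {p} ℚ K] in
theorem thaineK_pow_trick {M : Type*} [CommMonoid M] {e t : M} {n : ℕ} (hn : 1 ≤ n)
    (h : e * t ^ n = 1) : (e * t ^ (n - 1)) ^ n = e := by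
  obtain ⟨k, rfl⟩ : ∃ k, n = k + 1 := ⟨n - 1, (Nat.sub_add_cancel hn).symm⟩
  rw [Nat.add_sub_cancel]
  calc (e * t ^ k) ^ (k + 1) = e * (e * t ^ (k + 1)) ^ k := by
        rw [mul_pow, mul_pow, pow_succ e k, ← pow_mul, ← pow_mul, mul_comm (k + 1) k]
        rw [mul_comm (e ^ k) e, mul_assoc]
    _ = e := by rw [h, one_pow, mul_one]

/-- pulling a congruence modulo `P_d` back to `P`. -/
theorem thaineK_pullback (d : (ZMod p)ˣ) {P : Ideal (𝓞 K)} {ζ : 𝓞 K} (hζ : ζ ^ p = 1) (s m : ℕ)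
    (h : haveI : NeZero p := ⟨hp.out.ne_zero⟩
      (1 - ζ) * (s : 𝓞 K) ^ m - 1 ∈ P.map (clRingAction p K d : 𝓞 K →+* 𝓞 K)) :
    (1 - ζ ^ (((d⁻¹ : (ZMod p)ˣ) : ZMod p)).val) * (s : 𝓞 K) ^ m - 1 ∈ P := by
  haveI : NeZero p := ⟨hp.out.ne_zero⟩
  rw [Ideal.map_comap_of_equiv, Ideal.mem_comap] at h
  have hsymm : ∀ x : 𝓞 K, (clRingAction p K d).symm x = clRingAction p K d⁻¹ x := by
    intro x
    rw [map_inv]
    rfl
  have h2 : ((clRingAction p K d).symm : 𝓞 K →+* 𝓞 K) ((1 - ζ) * (s : 𝓞 K) ^ m - 1) =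
      (1 - ζ ^ (((d⁻¹ : (ZMod p)ˣ) : ZMod p)).val) * (s : 𝓞 K) ^ m - 1 := by
    show (clRingAction p K d).symm ((1 - ζ) * (s : 𝓞 K) ^ m - 1) = _
    rw [hsymm, map_sub, map_mul, map_sub, map_pow, map_one, map_natCast,
      thaineK_galois_zeta p K d⁻¹ hζ]
  rw [← h2]
  exact h

/-- **P3, K-side**: Thaine's relation from the Thaine element, given the injectivity of
`d ↦ P_d`. -/
theorem thaine_of_element_aux (ζ : 𝓞 K) (hζ : IsPrimitiveRoot ζ p)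
    (P : (Ideal (𝓞 K))⁰) (hP : (P : Ideal (𝓞 K)).IsPrime)
    (hl : (Ideal.absNorm (P : Ideal (𝓞 K))).Prime)
    (hinj : haveI : NeZero p := ⟨hp.out.ne_zero⟩
      Function.Injective fun d : (ZMod p)ˣ =>
        (P : Ideal (𝓞 K)).map (clRingAction p K d : 𝓞 K →+* 𝓞 K))
    (hη : ¬ ∃ x : 𝓞 K ⧸ (P : Ideal (𝓞 K)), x ^ p = Ideal.Quotient.mk _ (eta2 p K ζ))
    (β : 𝓞 K) (s : ℕ) (hβ : β ≠ 0)
    (hA : ∀ v : Ideal (𝓞 K), v.IsPrime → v ≠ ⊥ →
        ((Ideal.absNorm (P : Ideal (𝓞 K)) : ℕ) : 𝓞 K) ∉ v →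
        p ∣ multiplicity v (Ideal.span {β}))
    (hB : ∀ v : Ideal (𝓞 K), v.IsPrime → ((Ideal.absNorm (P : Ideal (𝓞 K)) : ℕ) : 𝓞 K) ∈ v →
        (1 - ζ) * (s : 𝓞 K) ^ (multiplicity v (Ideal.span {β})) - 1 ∈ v)
    (ψ : haveI : NeZero p := ⟨hp.out.ne_zero⟩; ClGalModule p (𝓞 K) →ₗ[ZMod p] ZMod p)
    (hψ : haveI : NeZero p := ⟨hp.out.ne_zero⟩
      ∀ (d : (ZMod p)ˣ) (a : ClGalModule p (𝓞 K)),
        ψ (clGalAction p K d a) = (d : ZMod p) ^ 2 * ψ a) :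
    haveI : NeZero p := ⟨hp.out.ne_zero⟩
    ψ (clProj p (𝓞 K) (Additive.ofMul (ClassGroup.mk0 P))) = 0 := by
  haveI : NeZero p := ⟨hp.out.ne_zero⟩
  haveI := hP
  by_contra hne
  have hlP : ((Ideal.absNorm (P : Ideal (𝓞 K)) : ℕ) : 𝓞 K) ∈ (P : Ideal (𝓞 K)) :=
    Ideal.absNorm_mem _
  have hrel := thaineK_class_relation ψ hψ P.2 hl hlP hinj hβ hA
  have hΦ : thaineKPhi p K ψ (P : Ideal (𝓞 K)) ≠ 0 := by
    rw [thaineKPhi_of_mem ψ P.2]
    exact hne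
  have hsum : (∑ d : (ZMod p)ˣ,
      ((multiplicity ((P : Ideal (𝓞 K)).map (clRingAction p K d : 𝓞 K →+* 𝓞 K))
        (Ideal.span {β}) : ℕ) : ZMod p) * (d : ZMod p) ^ 2) = 0 :=
    (mul_eq_zero.mp hrel).resolve_right hΦ
  set m : (ZMod p)ˣ → ℕ := fun d =>
    multiplicity ((P : Ideal (𝓞 K)).map (clRingAction p K d : 𝓞 K →+* 𝓞 K)) (Ideal.span {β})
    with hm
  have hζp : ζ ^ p = 1 := hζ.pow_eq_one
  -- the congruences modulo `P`
  have hcong : ∀ d : (ZMod p)ˣ,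
      Ideal.Quotient.mk (P : Ideal (𝓞 K))
        (1 - ζ ^ (((d⁻¹ : (ZMod p)ˣ) : ZMod p)).val) *
        (Ideal.Quotient.mk (P : Ideal (𝓞 K)) (s : 𝓞 K)) ^ (m d) = 1 := by
    intro d
    have h1 := hB _ (thaineK_map_isPrime (p := p) (K := K) d (P := (P : Ideal (𝓞 K))))
      (thaineK_mem_map_natCast d hlP)
    have h2 := thaineK_pullback d hζp s _ h1
    rw [← map_pow, ← map_mul, ← map_one (Ideal.Quotient.mk (P : Ideal (𝓞 K)))]
    exact (Ideal.Quotient.mk_eq_mk_iff_sub_mem _ _).mpr h2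
  -- the product
  set N : ℕ := ∑ d : (ZMod p)ˣ, m d * (((d : ZMod p)) ^ 2).val with hN
  have hprod : Ideal.Quotient.mk (P : Ideal (𝓞 K)) (eta2 p K ζ) *
      (Ideal.Quotient.mk (P : Ideal (𝓞 K)) (s : 𝓞 K)) ^ N = 1 := by
    rw [thaineK_eta2_eq_prod_units, map_prod, hN, ← Finset.prod_pow_eq_pow_sum,
      ← Finset.prod_mul_distrib]
    refine Finset.prod_eq_one fun d _ => ?_
    rw [map_pow, pow_mul, ← mul_pow, hcong d, one_pow]
  have hNp : p ∣ N := by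
    rw [← ZMod.natCast_eq_zero_iff, hN, Nat.cast_sum, ← hsum]
    refine Finset.sum_congr rfl fun d _ => ?_
    rw [Nat.cast_mul, ZMod.natCast_zmod_val]
  obtain ⟨N', hN'⟩ := hNp
  apply hη
  refine ⟨Ideal.Quotient.mk (P : Ideal (𝓞 K)) (eta2 p K ζ) *
      ((Ideal.Quotient.mk (P : Ideal (𝓞 K)) (s : 𝓞 K)) ^ N') ^ (p - 1), ?_⟩
  set e := Ideal.Quotient.mk (P : Ideal (𝓞 K)) (eta2 p K ζ) with he
  set t := (Ideal.Quotient.mk (P : Ideal (𝓞 K)) (s : 𝓞 K)) ^ N' with ht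
  have het : e * t ^ p = 1 := by
    rw [ht, ← pow_mul, mul_comm N' p, ← hN']
    exact hprod
  exact thaineK_pow_trick hp.out.one_le het

end

end Fermat.Agent.S14
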