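import Mathlib
import Fermat.Agent.S14.CoreAlg

/-!
# S14 (item 86), piece P3, K-side sub-pieces

`P` a prime of degree one of `K = ℚ(ζ_p)`, of norm `l ≠ p`:

* `thaine_absNorm_dvd` : `p ∣ l - 1`;
* `thaineK_map_injective` : the conjugates `g_d P` (`d ∈ (ℤ/p)ˣ`) are pairwise distinct.
-/

set_option autoImplicit false
set_option linter.style.haveILetI false

open scoped NumberField nonZeroDivisors
open NumberField JacobiSumStickelberger

namespace Fermat.Agent.S14.TKI

variable {p : ℕ} [hp : Fact p.Prime] {K : Type} [Field K] [NumberField K]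
  [IsCyclotomicExtension {p} ℚ K]

/-- the action of the Galois group on the `p`-th roots of unity of `K` -/
theorem galois_zeta_K (d : (ZMod p)ˣ) {ζ : K} (hζ : ζ ^ p = 1) :
    haveI : NeZero p := ⟨hp.out.ne_zero⟩
    (cycloGalEquiv p K).symm d ζ = ζ ^ (d : ZMod p).val := by
  haveI : NeZero p := ⟨hp.out.ne_zero⟩
  have hz := IsCyclotomicExtension.zeta_spec p ℚ K
  have h1 : hz.autToPow ℚ ((cycloGalEquiv p K).symm d) = d :=
    (cycloGalEquiv p K).apply_symm_apply d
  have h2 := hz.autToPow_spec ℚ ((cycloGalEquiv p K).symm d)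
  rw [h1] at h2
  obtain ⟨i, -, rfl⟩ := hz.eq_pow_of_pow_eq_one hζ
  rw [map_pow, ← h2, ← pow_mul, ← pow_mul, mul_comm]

/-- the action of the Galois group on the `p`-th roots of unity of `𝓞 K` -/
theorem galois_zeta_O (d : (ZMod p)ˣ) {ζ : 𝓞 K} (hζ : ζ ^ p = 1) :
    haveI : NeZero p := ⟨hp.out.ne_zero⟩
    clRingAction p K d ζ = ζ ^ (d : ZMod p).val := by
  haveI : NeZero p := ⟨hp.out.ne_zero⟩
  apply RingOfIntegers.coe_injective
  rw [coreAlg_clRingAction_apply, map_pow]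
  refine galois_zeta_K d ?_
  rw [← map_pow, hζ, map_one]

/-- a prime of degree one and of norm prime to `p` contains no `ξ - 1`, `ξ` a primitive `p`-th
root of unity -/
theorem sub_one_not_mem {P : Ideal (𝓞 K)} [hP : P.IsPrime] (hpl : ¬ p ∣ Ideal.absNorm P)
    {ξ : 𝓞 K} (hξ : IsPrimitiveRoot ξ p) : ξ - 1 ∉ P := by
  intro hmem
  have hξK : IsPrimitiveRoot (algebraMap (𝓞 K) K ξ) p :=
    hξ.map_of_injective RingOfIntegers.coe_injective
  have hdvd : ξ - 1 ∣ (p : 𝓞 K) := by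
    have h := hξK.toInteger_sub_one_dvd_prime'
    have e : hξK.toInteger = ξ := RingOfIntegers.ext rfl
    rwa [e] at h
  have hpP : (p : 𝓞 K) ∈ P := by
    obtain ⟨c, hc⟩ := hdvd
    rw [hc]
    exact P.mul_mem_right _ hmem
  have hlP : ((Ideal.absNorm P : ℕ) : 𝓞 K) ∈ P := Ideal.absNorm_mem P
  have hcop : Nat.Coprime p (Ideal.absNorm P) := (Nat.Prime.coprime_iff_not_dvd hp.out).mpr hpl
  have h1 : (1 : 𝓞 K) ∈ P := by
    obtain ⟨a, b, hab⟩ := Nat.Coprime.isCoprime hcop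
    have e : (1 : 𝓞 K) = (a : 𝓞 K) * (p : 𝓞 K) + (b : 𝓞 K) * ((Ideal.absNorm P : ℕ) : 𝓞 K) := by
      have := congrArg (Int.cast : ℤ → 𝓞 K) hab
      push_cast at this
      exact this.symm
    rw [e]
    exact P.add_mem (P.mul_mem_left _ hpP) (P.mul_mem_left _ hlP)
  exact hP.ne_top ((Ideal.eq_top_iff_one P).mpr h1)

end Fermat.Agent.S14.TKI

namespace Fermat.Agent.S14

open TKI

/-- `p ∣ l - 1` for the norm `l ≠ p` of a prime of degree one. -/
theorem thaine_absNorm_dvd (p : ℕ) [hp : Fact p.Prime] (K : Type) [Field K] [NumberField K]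
    [IsCyclotomicExtension {p} ℚ K] (P : Ideal (𝓞 K)) [hP : P.IsPrime]
    (hl : (Ideal.absNorm P).Prime) (hpl : ¬ p ∣ Ideal.absNorm P) : p ∣ Ideal.absNorm P - 1 := by
  haveI : NeZero p := ⟨hp.out.ne_zero⟩
  have hP0 : P ≠ ⊥ := by
    rintro rfl
    rw [Ideal.absNorm_bot] at hl
    exact Nat.not_prime_zero hl
  haveI hmax : P.IsMaximal := hP.isMaximal hP0
  letI : Field (𝓞 K ⧸ P) := Ideal.Quotient.field P
  haveI : Finite (𝓞 K ⧸ P) := Nat.finite_of_card_ne_zero (by
    rw [← Submodule.cardQuot_apply, ← Ideal.absNorm_apply]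
    exact hl.ne_zero)
  letI : Fintype (𝓞 K ⧸ P) := Fintype.ofFinite _
  have hcard : Fintype.card (𝓞 K ⧸ P) = Ideal.absNorm P := by
    rw [← Nat.card_eq_fintype_card, ← Submodule.cardQuot_apply, ← Ideal.absNorm_apply]
  have hz := (IsCyclotomicExtension.zeta_spec p ℚ K).toInteger_isPrimitiveRoot
  set ζ : 𝓞 K := (IsCyclotomicExtension.zeta_spec p ℚ K).toInteger with hζdef
  set x : 𝓞 K ⧸ P := Ideal.Quotient.mk P ζ with hx
  have hxp : x ^ p = 1 := by
    rw [hx, ← map_pow, hz.pow_eq_one, map_one]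
  have hx1 : x ≠ 1 := by
    intro h
    rw [hx, ← map_one (Ideal.Quotient.mk P), Ideal.Quotient.eq] at h
    exact sub_one_not_mem hpl hz h
  have hx0 : x ≠ 0 := by
    intro h
    rw [h, zero_pow hp.out.ne_zero] at hxp
    exact zero_ne_one hxp
  have hord : orderOf x = p := orderOf_eq_prime hxp hx1
  have hpow : x ^ (Fintype.card (𝓞 K ⧸ P) - 1) = 1 := FiniteField.pow_card_sub_one_eq_one x hx0
  rw [hcard] at hpow
  rw [← hord]
  exact orderOf_dvd_of_pow_eq_one hpow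

/-- the conjugates of a prime of degree one and of norm prime to `p` are pairwise distinct. -/
theorem thaineK_map_injective (p : ℕ) [hp : Fact p.Prime] (K : Type) [Field K] [NumberField K]
    [IsCyclotomicExtension {p} ℚ K] {P : Ideal (𝓞 K)} [hP : P.IsPrime]
    (hl : (Ideal.absNorm P).Prime) (hpl : ¬ p ∣ Ideal.absNorm P) {d e : (ZMod p)ˣ}
    (h : haveI : NeZero p := ⟨hp.out.ne_zero⟩
      P.map (clRingAction p K d : 𝓞 K →+* 𝓞 K) = P.map (clRingAction p K e : 𝓞 K →+* 𝓞 K)) :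
    d = e := by
  haveI : NeZero p := ⟨hp.out.ne_zero⟩
  set g := clRingAction p K with hg
  -- `g (e⁻¹ d)` stabilises `P`
  have hstab : ∀ x ∈ P, g (e⁻¹ * d) x ∈ P := by
    intro x hx
    have h1 : g d x ∈ P.map (g d : 𝓞 K →+* 𝓞 K) := Ideal.mem_map_of_mem _ hx
    rw [h] at h1
    have h2 : g d x ∈ P.map (g e) := h1
    rw [Ideal.mem_map_of_equiv] at h2
    obtain ⟨y, hy, hye⟩ := h2
    have : g (e⁻¹ * d) x = y := by
      rw [map_mul, RingAut.mul_apply, ← hye, map_inv, RingAut.inv_apply,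
        RingEquiv.symm_apply_apply]
    rw [this]
    exact hy
  -- every element is congruent to an integer modulo `P`
  have hcardq : Nat.card (𝓞 K ⧸ P) = Ideal.absNorm P := by
    rw [← Submodule.cardQuot_apply, ← Ideal.absNorm_apply]
  have hint : ∀ x : 𝓞 K, ∃ n : ℤ, x - (n : 𝓞 K) ∈ P := by
    intro x
    haveI : Fact (Ideal.absNorm P).Prime := ⟨hl⟩
    have h1ne : (1 : 𝓞 K ⧸ P) ≠ 0 := by
      intro h0
      rw [← map_one (Ideal.Quotient.mk P), Ideal.Quotient.eq_zero_iff_mem] at h0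
      exact hP.ne_top ((Ideal.eq_top_iff_one P).mpr h0)
    have hmem : Ideal.Quotient.mk P x ∈ AddSubgroup.zmultiples (1 : 𝓞 K ⧸ P) :=
      mem_zmultiples_of_prime_card hcardq h1ne
    obtain ⟨n, hn⟩ := AddSubgroup.mem_zmultiples_iff.mp hmem
    refine ⟨n, ?_⟩
    rw [← Ideal.Quotient.eq, ← hn]
    simp
  have hcongr : ∀ x : 𝓞 K, g (e⁻¹ * d) x - x ∈ P := by
    intro x
    obtain ⟨n, hn⟩ := hint x
    have h1 := hstab _ hn
    rw [map_sub, map_intCast] at h1
    have e1 : g (e⁻¹ * d) x - x = (g (e⁻¹ * d) x - (n : 𝓞 K)) - (x - (n : 𝓞 K)) := by ring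
    rw [e1]
    exact P.sub_mem h1 hn
  -- apply this to `ζ`
  have hz := (IsCyclotomicExtension.zeta_spec p ℚ K).toInteger_isPrimitiveRoot
  set ζ : 𝓞 K := (IsCyclotomicExtension.zeta_spec p ℚ K).toInteger with hζdef
  have hζ := hcongr ζ
  rw [hg, galois_zeta_O _ hz.pow_eq_one] at hζ
  by_contra hde
  have hc1 : e⁻¹ * d ≠ 1 := by
    intro h1
    apply hde
    have := congrArg (fun t => e * t) h1
    simpa using this
  set c : (ZMod p)ˣ := e⁻¹ * d with hc
  have hval0 : (c : ZMod p).val ≠ 0 := by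
    rw [Ne, ZMod.val_eq_zero]
    exact c.ne_zero
  have hval1 : (c : ZMod p).val ≠ 1 := by
    intro h1
    apply hc1
    apply Units.ext
    have h2 : ((c : ZMod p).val : ZMod p) = ((1 : ℕ) : ZMod p) := by rw [h1]
    rw [ZMod.natCast_zmod_val, Nat.cast_one] at h2
    exact h2
  have hvallt : (c : ZMod p).val < p := ZMod.val_lt _
  obtain ⟨k, hk⟩ : ∃ k, (c : ZMod p).val = k + 1 := ⟨(c : ZMod p).val - 1, by omega⟩
  have hk0 : 0 < k := by omega
  have hkp : k < p := by omega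
  have hfac : ζ ^ (c : ZMod p).val - ζ = ζ * (ζ ^ k - 1) := by
    rw [hk]; ring
  rw [hfac] at hζ
  rcases hP.mem_or_mem hζ with h1 | h1
  · have : (1 : 𝓞 K) ∈ P := by
      rw [← hz.pow_eq_one]
      exact Ideal.pow_mem_of_mem P h1 p hp.out.pos
    exact hP.ne_top ((Ideal.eq_top_iff_one P).mpr this)
  · have hprim : IsPrimitiveRoot (ζ ^ k) p :=
      hz.pow_of_coprime k ((Nat.Prime.coprime_iff_not_dvd hp.out).mpr
        (Nat.not_dvd_of_pos_of_lt hk0 hkp)).symm
    exact sub_one_not_mem hpl hprim h1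

end Fermat.Agent.S14
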