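import Mathlib

/-!
# S14, piece 86-P3 (M-side): Thaine's element

For a prime `l ≡ 1 mod p`, in `M = K(ζ_l)` (`K = ℚ(ζ_p)`) the unit `η = 1 - ζ_p ζ_l` has relative
norm `1`; Hilbert 90 gives `γ` with `η σ(γ) = γ`; `β = N_{M/K} γ` has prime factorisation
divisible by `p` away from `l`, and at the primes `v ∣ l` the exponent `a_v` satisfies
`(1 - ζ_p) s ^ a_v ≡ 1 mod v` (`σ ζ_l = ζ_l ^ s`).
-/

set_option autoImplicit false
set_option linter.style.haveILetI false
open scoped NumberField nonZeroDivisors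

namespace Fermat.Agent.S14

theorem thM_isCyclo (p : ℕ) [hp : Fact p.Prime]
    (K : Type) [Field K] [NumberField K] [IsCyclotomicExtension {p} ℚ K]
    (l : ℕ) [hl : Fact l.Prime]
    (M : Type) [Field M] [NumberField M] [Algebra K M] [IsCyclotomicExtension {l} K M]
    (hpl : p ≠ l) : IsCyclotomicExtension {p * l} ℚ M := by
  have h1 : IsCyclotomicExtension ({p} ∪ {l}) ℚ M :=
    IsCyclotomicExtension.trans {p} {l} ℚ K M (algebraMap K M).injective
  have hp0 : p ≠ 0 := hp.out.ne_zero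
  have hl0 : l ≠ 0 := hl.out.ne_zero
  haveI : NeZero p := ⟨hp0⟩
  haveI : NeZero l := ⟨hl0⟩
  rw [IsCyclotomicExtension.iff_adjoin_eq_top] at h1 ⊢
  obtain ⟨h1a, h1b⟩ := h1
  obtain ⟨a, ha⟩ := h1a p (by simp) hp0
  obtain ⟨b, hb⟩ := h1a l (by simp) hl0
  refine ⟨?_, ?_⟩
  · intro s hs hs0
    rw [Set.mem_singleton_iff] at hs
    subst hs
    refine ⟨a * b, ?_⟩
    have hcop : Nat.Coprime p l := (Nat.coprime_primes hp.out hl.out).mpr hpl
    have := (Commute.all a b).orderOf_mul_eq_mul_orderOf_of_coprime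
      (by rw [← ha.eq_orderOf, ← hb.eq_orderOf]; exact hcop)
    rw [← ha.eq_orderOf, ← hb.eq_orderOf] at this
    rw [← this]
    exact IsPrimitiveRoot.orderOf (a * b)
  · rw [eq_top_iff, ← h1b]
    apply Algebra.adjoin_mono
    rintro x ⟨s, hs, hs0, hx⟩
    refine ⟨p * l, rfl, mul_ne_zero hp0 hl0, ?_⟩
    rcases hs with hs | hs
    · rw [Set.mem_singleton_iff] at hs; subst hs
      rw [pow_mul, hx, one_pow]
    · rw [Set.mem_singleton_iff] at hs; subst hs
      rw [mul_comm, pow_mul, hx, one_pow]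

theorem thM_finrank (p : ℕ) [hp : Fact p.Prime]
    (K : Type) [Field K] [NumberField K] [IsCyclotomicExtension {p} ℚ K]
    (l : ℕ) [hl : Fact l.Prime]
    (M : Type) [Field M] [NumberField M] [Algebra K M] [IsCyclotomicExtension {l} K M]
    (hpl : p ≠ l) : Module.finrank K M = l - 1 := by
  haveI := thM_isCyclo p K l M hpl
  haveI : NeZero p := ⟨hp.out.ne_zero⟩
  haveI : NeZero (p * l) := ⟨mul_ne_zero hp.out.ne_zero hl.out.ne_zero⟩
  have h1 : Module.finrank ℚ M = (p * l).totient :=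
    IsCyclotomicExtension.finrank M (Polynomial.cyclotomic.irreducible_rat (NeZero.pos _))
  have h2 : Module.finrank ℚ K = p.totient :=
    IsCyclotomicExtension.finrank K (Polynomial.cyclotomic.irreducible_rat (NeZero.pos _))
  have h3 := Module.finrank_mul_finrank ℚ K M
  have hcop : Nat.Coprime p l := (Nat.coprime_primes hp.out hl.out).mpr hpl
  rw [h1, h2, Nat.totient_mul hcop, Nat.totient_prime hl.out] at h3
  have hpos : 0 < p.totient := Nat.totient_pos.mpr hp.out.pos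
  exact Nat.eq_of_mul_eq_mul_left hpos h3

/-- ramification index of a prime of `M` over `K`, in terms of the rational prime below. -/
theorem thM_ramificationIdx_aux (p : ℕ) [hp : Fact p.Prime]
    (K : Type) [Field K] [NumberField K] [IsCyclotomicExtension {p} ℚ K]
    (l : ℕ) [hl : Fact l.Prime]
    (M : Type) [Field M] [NumberField M] [Algebra K M] [IsCyclotomicExtension {l} K M]
    (hpl : p ≠ l) (Q : Ideal (𝓞 M)) [hQ : Q.IsPrime] (hQ0 : Q ≠ ⊥) :
    ((l : 𝓞 M) ∈ Q → Q.ramificationIdx (𝓞 K) = l - 1) ∧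
    ((l : 𝓞 M) ∉ Q → Q.ramificationIdx (𝓞 K) = 1) := by
  haveI := thM_isCyclo p K l M hpl
  haveI : NeZero Q := ⟨hQ0⟩
  set q := Ideal.absNorm (Ideal.under ℤ Q) with hq
  have hqprime : q.Prime := Nat.absNorm_under_prime Q
  haveI : Fact q.Prime := ⟨hqprime⟩
  haveI hlo : Q.LiesOver (Ideal.span {(q : ℤ)}) := Int.liesOver_span_absNorm Q
  have hmem : (l : 𝓞 M) ∈ Q ↔ q = l := by
    rw [← Int.cast_natCast, Int.cast_mem_ideal_iff, Int.natCast_dvd_natCast,
      Nat.prime_dvd_prime_iff_eq hqprime hl.out]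
  -- the prime of K below
  set P : Ideal (𝓞 K) := Q.under (𝓞 K) with hP
  haveI : Q.LiesOver P := ⟨rfl⟩
  haveI : P.IsPrime := Ideal.IsPrime.under (𝓞 K) Q
  haveI : P.LiesOver (Ideal.span {(q : ℤ)}) := Ideal.LiesOver.tower_bot Q P _
  have htower := Ideal.ramificationIdx_tower (R := ℤ) P Q
  have hp0 : p ≠ 0 := hp.out.ne_zero
  have hl0 : l ≠ 0 := hl.out.ne_zero
  haveI : NeZero p := ⟨hp0⟩
  haveI : NeZero l := ⟨hl0⟩
  haveI : NeZero (p * l) := ⟨mul_ne_zero hp0 hl0⟩
  constructor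
  · intro hmemQ
    have hql : q = l := hmem.mp hmemQ
    have h1 : Q.ramificationIdx ℤ = q ^ 0 * (q - 1) :=
      IsCyclotomicExtension.Rat.ramificationIdx_eq (p * l) M Q (p := q) (k := 0) (m := p)
        (by rw [hql]; ring) (by rw [hql, Nat.prime_dvd_prime_iff_eq hl.out hp.out]; exact hpl.symm)
    have h2 : P.ramificationIdx ℤ = 1 :=
      IsCyclotomicExtension.Rat.ramificationIdx_eq_of_not_dvd q K P (m := p)
        (by rw [hql, Nat.prime_dvd_prime_iff_eq hl.out hp.out]; exact hpl.symm)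
    rw [h1, h2, one_mul, pow_zero, one_mul, hql] at htower
    exact htower.symm
  · intro hmemQ
    have hql : q ≠ l := fun h => hmemQ (hmem.mpr h)
    by_cases hqp : q = p
    · have h1 : Q.ramificationIdx ℤ = q ^ 0 * (q - 1) :=
        IsCyclotomicExtension.Rat.ramificationIdx_eq (p * l) M Q (p := q) (k := 0) (m := l)
          (by rw [hqp]; ring) (by rw [Nat.prime_dvd_prime_iff_eq hqprime hl.out]; exact hql)
      have h2 : P.ramificationIdx ℤ = q ^ 0 * (q - 1) :=
        IsCyclotomicExtension.Rat.ramificationIdx_eq p K P (p := q) (k := 0) (m := 1)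
          (by rw [hqp]; ring) (by rw [Nat.dvd_one]; exact hqprime.ne_one)
      rw [h1, h2] at htower
      have hpos : 0 < q ^ 0 * (q - 1) := by
        rw [pow_zero, one_mul]; exact Nat.sub_pos_of_lt hqprime.one_lt
      exact Nat.eq_of_mul_eq_mul_left hpos (htower.symm.trans (mul_one _).symm)
    · have h1 : Q.ramificationIdx ℤ = 1 :=
        IsCyclotomicExtension.Rat.ramificationIdx_eq_of_not_dvd q M Q (m := p * l)
          (by
            rw [hqprime.dvd_mul, Nat.prime_dvd_prime_iff_eq hqprime hl.out,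
              Nat.prime_dvd_prime_iff_eq hqprime hp.out]
            tauto)
      rw [h1] at htower
      exact Nat.eq_one_of_mul_eq_one_left htower.symm

open Polynomial in
/-- `∏_{μ primitive} (1 - y μ) = 1` when `y ^ (l - 1) = 1`, `y ≠ 1`. -/
theorem thM_prod_primitiveRoots (l : ℕ) [hl : Fact l.Prime]
    (M : Type) [Field M] (z : M) (hz : IsPrimitiveRoot z l)
    (y : M) (hy : y ^ (l - 1) = 1) (hy1 : y ≠ 1) :
    ∏ μ ∈ primitiveRoots l M, (1 - y * μ) = 1 := by
  have hy0 : y ≠ 0 := by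
    rintro rfl
    rw [zero_pow (Nat.sub_pos_of_lt hl.out.one_lt).ne'] at hy
    exact zero_ne_one hy
  have h1 : ∀ μ ∈ primitiveRoots l M, (1 - y * μ) = y * (y⁻¹ - μ) := by
    intro μ _
    field_simp
  rw [Finset.prod_congr rfl h1, Finset.prod_mul_distrib, Finset.prod_const,
    hz.card_primitiveRoots, Nat.totient_prime hl.out, hy, one_mul]
  have h2 := congrArg (Polynomial.eval y⁻¹) (Polynomial.cyclotomic_eq_prod_X_sub_primitiveRoots hz)
  rw [Polynomial.eval_prod] at h2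
  simp only [Polynomial.eval_sub, Polynomial.eval_X, Polynomial.eval_C] at h2
  rw [← h2]
  have h3 := congrArg (Polynomial.eval y⁻¹) (Polynomial.cyclotomic_prime_mul_X_sub_one M l)
  simp only [Polynomial.eval_mul, Polynomial.eval_sub, Polynomial.eval_X, Polynomial.eval_one,
    Polynomial.eval_pow] at h3
  have h4 : y⁻¹ ^ l = y⁻¹ := by
    have : l = (l - 1) + 1 := (Nat.sub_add_cancel hl.out.one_lt.le).symm
    rw [this, pow_succ, inv_pow, hy, inv_one, one_mul]
  rw [h4] at h3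
  have h5 : y⁻¹ - 1 ≠ 0 := by
    rw [sub_ne_zero]
    intro h
    exact hy1 (inv_eq_one.mp h)
  exact mul_right_cancel₀ h5 (h3.trans (one_mul _).symm)

/-- norm of `1 - y z` from `M = K(ζ_l)` to `K` is `1`. -/
theorem thM_norm_eq_one (l : ℕ) [hl : Fact l.Prime]
    (K : Type) [Field K] (M : Type) [Field M] [Algebra K M] [IsCyclotomicExtension {l} K M]
    (hfin : Module.finrank K M = l - 1)
    (z : M) (hz : IsPrimitiveRoot z l)
    (y : K) (hy : y ^ (l - 1) = 1) (hy1 : y ≠ 1) :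
    Algebra.norm K (1 - algebraMap K M y * z) = 1 := by
  classical
  haveI : NeZero l := ⟨hl.out.ne_zero⟩
  haveI : FiniteDimensional K M := IsCyclotomicExtension.finiteDimensional {l} K M
  haveI : IsGalois K M := IsCyclotomicExtension.isGalois {l} K M
  apply (algebraMap K M).injective
  rw [Algebra.norm_eq_prod_automorphisms, map_one]
  have hterm : ∀ g : M ≃ₐ[K] M, g (1 - algebraMap K M y * z) = 1 - algebraMap K M y * g z := by
    intro g
    rw [map_sub, map_one, map_mul, AlgEquiv.commutes]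
  rw [Finset.prod_congr rfl (fun g _ => hterm g)]
  have hinj : Function.Injective (fun g : M ≃ₐ[K] M => g z) := by
    intro g g' h
    refine IsCyclotomicExtension.algEquiv_eq_of_apply_eq (S := {l}) (A := K) (B := M) ?_
    intro n hn _
    rw [Set.mem_singleton_iff] at hn
    subst hn
    exact ⟨z, hz, h⟩
  have himg : (Finset.univ : Finset (M ≃ₐ[K] M)).image (fun g => g z) = primitiveRoots l M := by
    apply Finset.eq_of_subset_of_card_le
    · intro μ hμ
      rw [Finset.mem_image] at hμ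
      obtain ⟨g, _, rfl⟩ := hμ
      rw [mem_primitiveRoots hl.out.pos]
      exact hz.map_of_injective g.injective
    · rw [Finset.card_image_of_injective _ hinj, Finset.card_univ, hz.card_primitiveRoots,
        Nat.totient_prime hl.out, ← Nat.card_eq_fintype_card, IsGalois.card_aut_eq_finrank, hfin]
  have key := thM_prod_primitiveRoots l M z hz (algebraMap K M y)
    (by rw [← map_pow, hy, map_one])
    (fun h => hy1 ((algebraMap K M).injective (h.trans (map_one _).symm)))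
  rw [← himg, Finset.prod_image (fun a _ b _ h => hinj h)] at key
  exact key

/-- abstract local computation at a totally ramified prime. -/
theorem thM_local_abstract {S : Type*} [CommRing S] [IsDedekindDomain S]
    (Q : Ideal S) [hQ : Q.IsPrime] (hQ0 : Q ≠ ⊥)
    (σ : S →+* S) (hσ : ∀ x, σ x - x ∈ Q)
    (π t : S) (hπ : π ∈ Q) (hπ2 : π ∉ Q ^ 2) (hσπ : σ π = π * t)
    (η γ : S) (hγ : γ ≠ 0) (hηγ : η * σ γ = γ) :
    η * t ^ (multiplicity Q (Ideal.span {γ})) - 1 ∈ Q := by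
  have hQprime : Prime Q := Ideal.prime_of_isPrime hQ0 hQ
  have hγ0 : Ideal.span {γ} ≠ ⊥ := by
    rw [Ne, Ideal.span_singleton_eq_bot]; exact hγ
  have hfin : FiniteMultiplicity Q (Ideal.span {γ}) :=
    FiniteMultiplicity.of_prime_left hQprime hγ0
  set a := multiplicity Q (Ideal.span {γ}) with ha
  have hγa : γ ∈ Q ^ a := Ideal.dvd_span_singleton.mp (pow_multiplicity_dvd Q (Ideal.span {γ}))
  have hγa1 : γ ∉ Q ^ (a + 1) := by
    intro h
    exact hfin.not_pow_dvd_of_multiplicity_lt (Nat.lt_succ_self _) (Ideal.dvd_span_singleton.mpr h)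
  have hπa : π ^ a ∈ Q ^ a := Ideal.pow_mem_pow hπ a
  have hπ1 : emultiplicity Q (Ideal.span {π}) = 1 := by
    have : emultiplicity Q (Ideal.span {π}) = ((1 : ℕ) : ℕ∞) := by
      rw [emultiplicity_eq_coe]
      refine ⟨?_, ?_⟩
      · rw [pow_one]; exact Ideal.dvd_span_singleton.mpr hπ
      · intro h; exact hπ2 (Ideal.dvd_span_singleton.mp h)
    simpa using this
  have hπa1 : π ^ a ∉ Q ^ (a + 1) := by
    intro h
    have h1 : Q ^ (a + 1) ∣ Ideal.span {π ^ a} := Ideal.dvd_span_singleton.mpr h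
    have h2 := (pow_dvd_iff_le_emultiplicity).mp h1
    rw [← Ideal.span_singleton_pow, emultiplicity_pow hQprime, hπ1, mul_one] at h2
    have h3 : (a + 1 : ℕ) ≤ a := by exact_mod_cast h2
    omega
  obtain ⟨d, e, he, hde⟩ := Ideal.exists_mul_add_mem_pow_succ hQ0 (π ^ a) γ hπa hπa1 hγa
  have hd : d ∉ Q := by
    intro hd
    apply hγa1
    rw [← hde, pow_succ]
    exact Ideal.add_mem _ (Ideal.mul_mem_mul hπa hd) (by rwa [← pow_succ])
  have hσQ : ∀ n : ℕ, ∀ y ∈ Q ^ n, σ y ∈ Q ^ n := by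
    intro n y hy
    have h1 : Ideal.map σ Q ≤ Q := by
      rw [Ideal.map_le_iff_le_comap]
      intro w hw
      rw [Ideal.mem_comap]
      have := Ideal.add_mem _ (hσ w) hw
      rwa [sub_add_cancel] at this
    have h2 : σ y ∈ Ideal.map σ (Q ^ n) := Ideal.mem_map_of_mem σ hy
    rw [Ideal.map_pow] at h2
    exact Ideal.pow_right_mono h1 n h2
  have hσe : σ e ∈ Q ^ (a + 1) := hσQ _ e he
  have hkey : π ^ a * (η * t ^ a * σ d - d) ∈ Q ^ (a + 1) := by
    have h1 : π ^ a * (η * t ^ a * σ d - d) = e - η * σ e := by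
      have h2 : η * σ (π ^ a * d + e) = π ^ a * d + e := by rw [hde]; exact hηγ
      rw [map_add, map_mul, map_pow, hσπ] at h2
      linear_combination h2
    rw [h1]
    exact Ideal.sub_mem _ he (Ideal.mul_mem_left _ _ hσe)
  have hX : η * t ^ a * σ d - d ∈ Q := Ideal.mem_prime_of_mul_mem_pow hQ0 hπa1 hkey
  have hX2 : (η * t ^ a - 1) * d ∈ Q := by
    have h1 : (η * t ^ a - 1) * d = (η * t ^ a * σ d - d) - η * t ^ a * (σ d - d) := by ring
    rw [h1]
    exact Ideal.sub_mem _ hX (Ideal.mul_mem_left _ _ (hσ d))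
  exact (hQ.mem_or_mem hX2).resolve_right hd

/-- `l` is associated to `(1 - z) ^ (l - 1)`. -/
theorem thM_associated_pow (l : ℕ) [hl : Fact l.Prime] {S : Type*} [CommRing S] [IsDomain S]
    (z : S) (hz : IsPrimitiveRoot z l) : Associated ((1 - z) ^ (l - 1)) (l : S) := by
  obtain ⟨n, rfl⟩ : ∃ n, l = n + 1 := ⟨l - 1, (Nat.sub_add_cancel hl.out.one_lt.le).symm⟩
  have h1 := hz.prod_one_sub_pow_eq_order
  have h2 : ((n + 1 : ℕ) : S) = ∏ k ∈ Finset.range n, (1 - z ^ (k + 1)) := by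
    rw [h1]; push_cast; ring
  rw [h2, Nat.add_sub_cancel]
  have h3 : (1 - z) ^ n = ∏ _k ∈ Finset.range n, (1 - z) := by
    rw [Finset.prod_const, Finset.card_range]
  rw [h3]
  apply Associated.prod
  intro k hk
  rw [Finset.mem_range] at hk
  have hcop : (k + 1).Coprime (n + 1) := by
    apply Nat.Coprime.symm
    rw [hl.out.coprime_iff_not_dvd]
    intro h
    have := Nat.le_of_dvd (Nat.succ_pos k) h
    omega
  have := hz.associated_sub_one_pow_sub_one_of_coprime hcop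
  rw [← neg_sub 1 z, ← neg_sub 1 (z ^ (k + 1))] at this
  exact (Associated.neg_left_iff.mp (Associated.neg_right_iff.mp this))

/-- (i) `1 - z ∈ Q` for a prime `Q ∋ l`. -/
theorem thM_pi_mem (l : ℕ) [hl : Fact l.Prime] {S : Type*} [CommRing S] [IsDomain S]
    (z : S) (hz : IsPrimitiveRoot z l) (Q : Ideal S) [hQ : Q.IsPrime] (hlQ : (l : S) ∈ Q) :
    1 - z ∈ Q := by
  obtain ⟨u, hu⟩ := thM_associated_pow l z hz
  have h1 : (1 - z) ^ (l - 1) ∈ Q := by
    have : (1 - z) ^ (l - 1) = (l : S) * ((u⁻¹ : Sˣ) : S) := by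
      rw [← hu, mul_assoc, Units.mul_inv, mul_one]
    rw [this]
    exact Ideal.mul_mem_right _ _ hlQ
  exact hQ.mem_of_pow_mem _ h1

/-- the multiplicity of a prime `Q ∋ l` of `M` in `(l)` is `l - 1`. -/
theorem thM_multiplicity_l (p : ℕ) [hp : Fact p.Prime]
    (K : Type) [Field K] [NumberField K] [IsCyclotomicExtension {p} ℚ K]
    (l : ℕ) [hl : Fact l.Prime]
    (M : Type) [Field M] [NumberField M] [Algebra K M] [IsCyclotomicExtension {l} K M]
    (hpl : p ≠ l) (Q : Ideal (𝓞 M)) [hQ : Q.IsPrime] (hQ0 : Q ≠ ⊥) (hlQ : (l : 𝓞 M) ∈ Q) :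
    multiplicity Q (Ideal.span {(l : 𝓞 M)}) = l - 1 := by
  haveI := thM_isCyclo p K l M hpl
  haveI : NeZero Q := ⟨hQ0⟩
  set q := Ideal.absNorm (Ideal.under ℤ Q) with hq
  have hqprime : q.Prime := Nat.absNorm_under_prime Q
  haveI : Fact q.Prime := ⟨hqprime⟩
  haveI hlo : Q.LiesOver (Ideal.span {(q : ℤ)}) := Int.liesOver_span_absNorm Q
  have hql : q = l := by
    rw [← Int.cast_natCast, Int.cast_mem_ideal_iff, Int.natCast_dvd_natCast,
      Nat.prime_dvd_prime_iff_eq hqprime hl.out] at hlQ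
    exact hlQ
  have hp0 : p ≠ 0 := hp.out.ne_zero
  have hl0 : l ≠ 0 := hl.out.ne_zero
  haveI : NeZero (p * l) := ⟨mul_ne_zero hp0 hl0⟩
  have h1 : Q.ramificationIdx ℤ = q ^ 0 * (q - 1) :=
    IsCyclotomicExtension.Rat.ramificationIdx_eq (p * l) M Q (p := q) (k := 0) (m := p)
      (by rw [hql]; ring) (by rw [hql, Nat.prime_dvd_prime_iff_eq hl.out hp.out]; exact hpl.symm)
  have hmap : (Ideal.span {(q : ℤ)}).map (algebraMap ℤ (𝓞 M)) = Ideal.span {(l : 𝓞 M)} := by
    rw [Ideal.map_span, Set.image_singleton, hql]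
    simp
  have hne : (Ideal.span {(q : ℤ)}).map (algebraMap ℤ (𝓞 M)) ≠ ⊥ := by
    rw [hmap, Ne, Ideal.span_singleton_eq_bot]
    exact_mod_cast hl0
  have h2 := Ideal.IsDedekindDomain.ramificationIdx_eq_multiplicity (Ideal.span {(q : ℤ)}) Q hne
  rw [hmap, h1, pow_zero, one_mul, hql] at h2
  exact h2.symm

/-- (ii) `1 - z ∉ Q ^ 2` for a prime `Q ∋ l`. -/
theorem thM_pi_not_mem_sq (p : ℕ) [hp : Fact p.Prime]
    (K : Type) [Field K] [NumberField K] [IsCyclotomicExtension {p} ℚ K]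
    (l : ℕ) [hl : Fact l.Prime]
    (M : Type) [Field M] [NumberField M] [Algebra K M] [IsCyclotomicExtension {l} K M]
    (hpl : p ≠ l) (Q : Ideal (𝓞 M)) [hQ : Q.IsPrime] (hQ0 : Q ≠ ⊥) (hlQ : (l : 𝓞 M) ∈ Q)
    (z : 𝓞 M) (hz : IsPrimitiveRoot z l) : 1 - z ∉ Q ^ 2 := by
  intro hmem
  have h1 := thM_multiplicity_l p K l M hpl Q hQ0 hlQ
  have h2 : Ideal.span {(l : 𝓞 M)} = Ideal.span {1 - z} ^ (l - 1) := by
    rw [Ideal.span_singleton_pow]
    exact (Ideal.span_singleton_eq_span_singleton.mpr (thM_associated_pow l z hz)).symm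
  have hQprime : Prime Q := Ideal.prime_of_isPrime hQ0 hQ
  have hl0 : Ideal.span {(l : 𝓞 M)} ≠ ⊥ := by
    rw [Ne, Ideal.span_singleton_eq_bot]
    exact_mod_cast hl.out.ne_zero
  have hfin : FiniteMultiplicity Q (Ideal.span {(l : 𝓞 M)}) :=
    FiniteMultiplicity.of_prime_left hQprime hl0
  have h3 : Q ^ (2 * (l - 1)) ∣ Ideal.span {(l : 𝓞 M)} := by
    rw [h2, pow_mul]
    exact pow_dvd_pow_of_dvd (Ideal.dvd_span_singleton.mpr hmem) _
  have h4 := hfin.le_multiplicity_of_pow_dvd h3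
  rw [h1] at h4
  have := hl.out.one_lt
  omega

/-- product of primitive roots of coprime prime orders -/
theorem thM_isPrimitiveRoot_mul (p l : ℕ) [hp : Fact p.Prime] [hl : Fact l.Prime] (hpl : p ≠ l)
    {S : Type*} [CommRing S] (a b : S) (ha : IsPrimitiveRoot a p) (hb : IsPrimitiveRoot b l) :
    IsPrimitiveRoot (a * b) (p * l) := by
  have hcop : Nat.Coprime p l := (Nat.coprime_primes hp.out hl.out).mpr hpl
  have := (Commute.all a b).orderOf_mul_eq_mul_orderOf_of_coprime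
    (by rw [← ha.eq_orderOf, ← hb.eq_orderOf]; exact hcop)
  rw [← ha.eq_orderOf, ← hb.eq_orderOf] at this
  rw [← this]
  exact IsPrimitiveRoot.orderOf (a * b)

/-- (iii) an automorphism over `𝓞 K` with `σ z = z ^ s` is trivial modulo `1 - z`. -/
theorem thM_sigma_sub_mem (p : ℕ) [hp : Fact p.Prime]
    (K : Type) [Field K] [NumberField K] [IsCyclotomicExtension {p} ℚ K]
    (l : ℕ) [hl : Fact l.Prime]
    (M : Type) [Field M] [NumberField M] [Algebra K M] [IsCyclotomicExtension {l} K M]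
    (hpl : p ≠ l) (ζ : 𝓞 K) (hζ : IsPrimitiveRoot ζ p) (z : 𝓞 M) (hz : IsPrimitiveRoot z l)
    (σ : 𝓞 M →+* 𝓞 M) (hσK : ∀ a : 𝓞 K, σ (algebraMap (𝓞 K) (𝓞 M) a) = algebraMap (𝓞 K) (𝓞 M) a)
    (s : ℕ) (hσz : σ z = z ^ s) (w : 𝓞 M) : σ w - w ∈ Ideal.span {1 - z} := by
  haveI := thM_isCyclo p K l M hpl
  haveI : NeZero (p * l) := ⟨mul_ne_zero hp.out.ne_zero hl.out.ne_zero⟩
  set g₀ : 𝓞 M := algebraMap (𝓞 K) (𝓞 M) ζ * z with hg₀
  have hinjKM : Function.Injective (algebraMap (𝓞 K) (𝓞 M)) :=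
    FaithfulSMul.algebraMap_injective (𝓞 K) (𝓞 M)
  have hprim0 : IsPrimitiveRoot g₀ (p * l) :=
    thM_isPrimitiveRoot_mul p l hpl _ _ (hζ.map_of_injective hinjKM) hz
  have hprim : IsPrimitiveRoot ((g₀ : 𝓞 M) : M) (p * l) :=
    hprim0.map_of_injective (FaithfulSMul.algebraMap_injective (𝓞 M) M)
  have htop := IsCyclotomicExtension.Rat.adjoin_singleton_eq_top hprim
  have hgen : hprim.toInteger = g₀ := by
    apply NumberField.RingOfIntegers.ext
    rfl
  rw [hgen] at htop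
  have hw : w ∈ Algebra.adjoin ℤ {g₀} := by rw [htop]; exact Algebra.mem_top
  have hz1 : ∀ n : ℕ, z ^ n - 1 ∈ Ideal.span {1 - z} := by
    intro n
    rw [Ideal.mem_span_singleton]
    have h : z - 1 ∣ z ^ n - 1 := by simpa using sub_dvd_pow_sub_pow z 1 n
    rwa [← neg_sub 1 z, neg_dvd] at h
  induction hw using Algebra.adjoin_induction with
  | mem y hy =>
    rw [Set.mem_singleton_iff] at hy
    subst hy
    rw [hg₀, map_mul, hσK, hσz]
    have : algebraMap (𝓞 K) (𝓞 M) ζ * z ^ s - algebraMap (𝓞 K) (𝓞 M) ζ * z =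
        algebraMap (𝓞 K) (𝓞 M) ζ * ((z ^ s - 1) - (z ^ 1 - 1)) := by ring
    rw [this]
    exact Ideal.mul_mem_left _ _ (Ideal.sub_mem _ (hz1 s) (hz1 1))
  | algebraMap n =>
    simp
  | add x y _ _ hx hy =>
    have : σ (x + y) - (x + y) = (σ x - x) + (σ y - y) := by rw [map_add]; ring
    rw [this]
    exact Ideal.add_mem _ hx hy
  | mul x y _ _ hx hy =>
    have : σ (x * y) - x * y = σ x * (σ y - y) + (σ x - x) * y := by rw [map_mul]; ring
    rw [this]
    exact Ideal.add_mem _ (Ideal.mul_mem_left _ _ hy) (Ideal.mul_mem_right _ _ hx)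

end Fermat.Agent.S14
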