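import Mathlib
import Fermat.Agent.S14.ThaineBase

/-!
# S14, piece 86-P3 (M-side): Thaine's element, main theorem `thaine_element`
-/

set_option autoImplicit false
set_option linter.style.haveILetI false
open scoped NumberField nonZeroDivisors

namespace Fermat.Agent.S14

/-- the Galois group of `M = K(ζ_l)` over `K` is cyclic. -/
theorem thM_isCyclic (l : ℕ) [hl : Fact l.Prime]
    (K : Type) [Field K] (M : Type) [Field M] [Algebra K M] [IsCyclotomicExtension {l} K M] :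
    IsCyclic (M ≃ₐ[K] M) := by
  haveI : NeZero l := ⟨hl.out.ne_zero⟩
  have hz₀ := IsCyclotomicExtension.zeta_spec l K M
  exact isCyclic_of_injective (hz₀.autToPow K) (hz₀.autToPow_injective K)

/-- Hilbert 90 output: `γ`, `s` and the ideal identity. -/
theorem thM_hilbert90 (p : ℕ) [hp : Fact p.Prime]
    (K : Type) [Field K] [NumberField K] [IsCyclotomicExtension {p} ℚ K]
    (ζ : 𝓞 K) (hζ : IsPrimitiveRoot ζ p)
    (l : ℕ) [hl : Fact l.Prime] (hl1 : p ∣ l - 1)
    (M : Type) [Field M] [NumberField M] [Algebra K M] [IsCyclotomicExtension {l} K M] :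
    ∃ (z γ : 𝓞 M) (s : ℕ) (σ : 𝓞 M ≃ₐ[𝓞 K] 𝓞 M), IsPrimitiveRoot z l ∧ γ ≠ 0 ∧
      (1 - algebraMap (𝓞 K) (𝓞 M) ζ * z) * σ γ = γ ∧ σ z = z ^ s ∧
      RingOfIntegers.norm K γ ≠ 0 ∧
      Ideal.map (algebraMap (𝓞 K) (𝓞 M)) (Ideal.span {RingOfIntegers.norm K γ}) =
        Ideal.span {γ} ^ (l - 1) := by
  classical
  have hpl : p ≠ l := by
    rintro rfl
    have h1 := Nat.le_of_dvd (Nat.sub_pos_of_lt hp.out.one_lt) hl1
    have := hp.out.one_lt
    omega
  haveI : NeZero l := ⟨hl.out.ne_zero⟩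
  have hfin := thM_finrank p K l M hpl
  have hz₀ := IsCyclotomicExtension.zeta_spec l K M
  set z : 𝓞 M := hz₀.toInteger with hzdef
  have hz : IsPrimitiveRoot z l := hz₀.toInteger_isPrimitiveRoot
  set η : 𝓞 M := 1 - algebraMap (𝓞 K) (𝓞 M) ζ * z with hη
  have hζK : IsPrimitiveRoot (ζ : K) p :=
    hζ.map_of_injective (FaithfulSMul.algebraMap_injective (𝓞 K) K)
  have hnorm : Algebra.norm K (algebraMap (𝓞 M) M η) = 1 := by
    have h1 : algebraMap (𝓞 M) M η =
        1 - algebraMap K M (ζ : K) * IsCyclotomicExtension.zeta l K M := by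
      rw [hη, map_sub, map_one, map_mul]
      rfl
    rw [h1]
    apply thM_norm_eq_one l K M hfin _ hz₀
    · obtain ⟨k, hk⟩ := hl1
      rw [hk, pow_mul, hζK.pow_eq_one, one_pow]
    · exact hζK.ne_one hp.out.one_lt
  haveI : IsGalois K M := IsCyclotomicExtension.isGalois {l} K M
  haveI : IsCyclic (M ≃ₐ[K] M) := thM_isCyclic l K M
  obtain ⟨σ₀, hσ₀⟩ := IsCyclic.exists_generator (α := (M ≃ₐ[K] M))
  obtain ⟨γ, hγ0, hγ⟩ := groupCohomology.exists_mul_galRestrict_of_norm_eq_one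
    (A := 𝓞 K) (K := K) (L := M) (B := 𝓞 M) hσ₀ hnorm
  set σ : 𝓞 M ≃ₐ[𝓞 K] 𝓞 M := galRestrict (𝓞 K) K M (𝓞 M) σ₀ with hσ
  -- the exponent `s`
  have hσz : (σ z) ^ l = 1 := by rw [← map_pow, hz.pow_eq_one, map_one]
  obtain ⟨s, -, hs⟩ := hz.eq_pow_of_pow_eq_one hσz
  -- the norm
  have hβ0 : RingOfIntegers.norm K γ ≠ 0 := by
    intro h
    have h1 : ((RingOfIntegers.norm K γ : 𝓞 K) : K) = 0 := by rw [h]; rfl
    rw [RingOfIntegers.coe_norm, Algebra.norm_eq_zero_iff] at h1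
    exact hγ0 (NumberField.RingOfIntegers.coe_injective (h1.trans (map_zero _).symm))
  -- all conjugates of `γ` are associated to `γ`
  have hassoc : ∀ g : M ≃ₐ[K] M, Associated (galRestrict (𝓞 K) K M (𝓞 M) g γ) γ := by
    have hηunit : IsUnit η := by
      rw [← RingOfIntegers.isUnit_norm_of_isGalois K]
      have : RingOfIntegers.norm K η = 1 := by
        apply NumberField.RingOfIntegers.coe_injective
        rw [map_one]
        exact hnorm
      rw [this]
      exact isUnit_one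
    let S : Subgroup (M ≃ₐ[K] M) :=
      { carrier := {g | Associated (galRestrict (𝓞 K) K M (𝓞 M) g γ) γ}
        mul_mem' := by
          intro a b ha hb
          simp only [Set.mem_ofPred_eq] at ha hb ⊢
          rw [map_mul]
          have h1 : Associated ((galRestrict (𝓞 K) K M (𝓞 M) a)
              ((galRestrict (𝓞 K) K M (𝓞 M) b) γ)) ((galRestrict (𝓞 K) K M (𝓞 M) a) γ) :=
            Associated.map (galRestrict (𝓞 K) K M (𝓞 M) a : 𝓞 M →* 𝓞 M) hb
          exact h1.trans ha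
        one_mem' := by
          simp only [Set.mem_ofPred_eq, map_one]
          exact Associated.refl _
        inv_mem' := by
          intro a ha
          simp only [Set.mem_ofPred_eq] at ha ⊢
          have h1 : Associated ((galRestrict (𝓞 K) K M (𝓞 M) a⁻¹)
              ((galRestrict (𝓞 K) K M (𝓞 M) a) γ)) ((galRestrict (𝓞 K) K M (𝓞 M) a⁻¹) γ) :=
            Associated.map (galRestrict (𝓞 K) K M (𝓞 M) a⁻¹ : 𝓞 M →* 𝓞 M) ha
          have h2 : (galRestrict (𝓞 K) K M (𝓞 M) a⁻¹)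
              ((galRestrict (𝓞 K) K M (𝓞 M) a) γ) = γ := by
            rw [map_inv]
            exact (galRestrict (𝓞 K) K M (𝓞 M) a).symm_apply_apply γ
          rw [h2] at h1
          exact h1.symm }
    have hσS : σ₀ ∈ S := by
      show Associated (galRestrict (𝓞 K) K M (𝓞 M) σ₀ γ) γ
      obtain ⟨u, hu⟩ := hηunit
      refine ⟨u, ?_⟩
      rw [hu, mul_comm]
      exact hγ
    intro g
    have : g ∈ S := (Subgroup.zpowers_le.mpr hσS) (hσ₀ g)
    exact this
  have hprod : algebraMap (𝓞 K) (𝓞 M) (RingOfIntegers.norm K γ) =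
      ∏ g : M ≃ₐ[K] M, galRestrict (𝓞 K) K M (𝓞 M) g γ := by
    apply NumberField.RingOfIntegers.coe_injective
    rw [map_prod]
    have h1 : algebraMap (𝓞 M) M (algebraMap (𝓞 K) (𝓞 M) (RingOfIntegers.norm K γ)) =
        algebraMap K M (Algebra.norm K (algebraMap (𝓞 M) M γ)) :=
      RingOfIntegers.coe_algebraMap_norm K γ
    rw [h1, Algebra.norm_eq_prod_automorphisms]
    refine Finset.prod_congr rfl fun g _ => ?_
    rw [algebraMap_galRestrict_apply]
  refine ⟨z, γ, s, σ, hz, hγ0, hγ, hs.symm, hβ0, ?_⟩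
  rw [Ideal.map_span, Set.image_singleton, hprod, Ideal.span_singleton_pow]
  apply Ideal.span_singleton_eq_span_singleton.mpr
  have h1 : Associated (∏ g : M ≃ₐ[K] M, galRestrict (𝓞 K) K M (𝓞 M) g γ)
      (∏ _g : M ≃ₐ[K] M, γ) := Associated.prod _ _ _ (fun g _ => hassoc g)
  rw [Finset.prod_const, Finset.card_univ, ← Nat.card_eq_fintype_card,
    IsGalois.card_aut_eq_finrank, hfin] at h1
  exact h1

/-- multiplicity relation `e * v(β) = (l - 1) * w(γ)`. -/
theorem thM_emultiplicity_rel (K : Type) [Field K] [NumberField K]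
    (M : Type) [Field M] [NumberField M] [Algebra K M]
    (n : ℕ) (β : 𝓞 K) (γ : 𝓞 M) (hβ : β ≠ 0)
    (hmap : Ideal.map (algebraMap (𝓞 K) (𝓞 M)) (Ideal.span {β}) = Ideal.span {γ} ^ n)
    (v : Ideal (𝓞 K)) [hv : v.IsPrime] (hv0 : v ≠ ⊥)
    (Q : Ideal (𝓞 M)) [hQ : Q.IsPrime] (hQ0 : Q ≠ ⊥) [hlo : Q.LiesOver v] :
    (Q.ramificationIdx (𝓞 K) : ℕ∞) * emultiplicity v (Ideal.span {β}) =
      n * emultiplicity Q (Ideal.span {γ}) := by
  have hβ0 : Ideal.span {β} ≠ ⊥ := by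
    rw [Ne, Ideal.span_singleton_eq_bot]; exact hβ
  have hvirr : Irreducible v := (Ideal.prime_of_isPrime hv0 hv).irreducible
  have hQprime : Prime Q := Ideal.prime_of_isPrime hQ0 hQ
  have h1 := Ideal.IsDedekindDomain.emultiplicity_map_eq_ramificationIdx'_mul
    (S := 𝓞 M) hβ0 hvirr hQprime.irreducible hQ0
  rw [Ideal.ramificationIdx'_eq_ramificationIdx v Q hv0, hmap, emultiplicity_pow hQprime] at h1
  exact h1.symm

/-- **Thaine's element**, for an abstract model `M` of `K(ζ_l)`. -/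
theorem thaine_element_aux (p : ℕ) [hp : Fact p.Prime]
    (K : Type) [Field K] [NumberField K] [IsCyclotomicExtension {p} ℚ K]
    (ζ : 𝓞 K) (hζ : IsPrimitiveRoot ζ p)
    (l : ℕ) [hl : Fact l.Prime] (hl1 : p ∣ l - 1)
    (M : Type) [Field M] [NumberField M] [Algebra K M] [IsCyclotomicExtension {l} K M] :
    ∃ (β : 𝓞 K) (s : ℕ), β ≠ 0 ∧
      (∀ v : Ideal (𝓞 K), v.IsPrime → v ≠ ⊥ → (l : 𝓞 K) ∉ v →
        p ∣ multiplicity v (Ideal.span {β})) ∧
      (∀ v : Ideal (𝓞 K), v.IsPrime → (l : 𝓞 K) ∈ v →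
        (1 - ζ) * (s : 𝓞 K) ^ (multiplicity v (Ideal.span {β})) - 1 ∈ v) := by
  classical
  have hpl : p ≠ l := by
    rintro rfl
    have h1 := Nat.le_of_dvd (Nat.sub_pos_of_lt hp.out.one_lt) hl1
    have := hp.out.one_lt
    omega
  obtain ⟨z, γ, s, σ, hz, hγ0, hγ, hσz, hβ0, hmap⟩ := thM_hilbert90 p K ζ hζ l hl1 M
  set β := RingOfIntegers.norm K γ with hβ
  have hβspan : Ideal.span {β} ≠ ⊥ := by
    rw [Ne, Ideal.span_singleton_eq_bot]; exact hβ0
  have hγspan : Ideal.span {γ} ≠ ⊥ := by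
    rw [Ne, Ideal.span_singleton_eq_bot]; exact hγ0
  have hlcast : algebraMap (𝓞 K) (𝓞 M) (l : 𝓞 K) = (l : 𝓞 M) := map_natCast _ _
  have hl1pos : 0 < l - 1 := Nat.sub_pos_of_lt hl.out.one_lt
  refine ⟨β, s, hβ0, ?_, ?_⟩
  · -- primes not over `l`
    intro v hv hv0 hlv
    haveI := hv
    haveI : v.IsMaximal := hv.isMaximal hv0
    obtain ⟨Q, hQmax, hQlo⟩ := Ideal.exists_maximal_ideal_liesOver_of_isIntegral v (S := 𝓞 M)
    haveI := hQlo
    haveI hQprime' : Q.IsPrime := hQmax.isPrime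
    have hQ0 : Q ≠ ⊥ := Ideal.ne_bot_of_liesOver_of_ne_bot hv0 Q
    have hlQ : (l : 𝓞 M) ∉ Q := by
      rw [← hlcast, ← Ideal.mem_of_liesOver Q v]
      exact hlv
    have he := (thM_ramificationIdx_aux p K l M hpl Q hQ0).2 hlQ
    have hrel := thM_emultiplicity_rel K M (l - 1) β γ hβ0 hmap v hv0 Q hQ0
    have hfv : FiniteMultiplicity v (Ideal.span {β}) :=
      FiniteMultiplicity.of_prime_left (Ideal.prime_of_isPrime hv0 hv) hβspan
    have hfQ : FiniteMultiplicity Q (Ideal.span {γ}) :=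
      FiniteMultiplicity.of_prime_left (Ideal.prime_of_isPrime hQ0 hQprime') hγspan
    rw [he, hfv.emultiplicity_eq_multiplicity, hfQ.emultiplicity_eq_multiplicity] at hrel
    have hrel' : multiplicity v (Ideal.span {β}) = (l - 1) * multiplicity Q (Ideal.span {γ}) := by
      have : ((1 * multiplicity v (Ideal.span {β}) : ℕ) : ℕ∞) =
          (((l - 1) * multiplicity Q (Ideal.span {γ}) : ℕ) : ℕ∞) := by
        push_cast
        exact hrel
      have := Nat.cast_injective (R := ℕ∞) this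
      rwa [one_mul] at this
    rw [hrel']
    exact Dvd.dvd.mul_right hl1 _
  · -- primes over `l`
    intro v hv hlv
    haveI := hv
    have hv0 : v ≠ ⊥ := by
      rintro rfl
      rw [Ideal.mem_bot] at hlv
      exact hl.out.ne_zero (by exact_mod_cast hlv)
    haveI : v.IsMaximal := hv.isMaximal hv0
    obtain ⟨Q, hQmax, hQlo⟩ := Ideal.exists_maximal_ideal_liesOver_of_isIntegral v (S := 𝓞 M)
    haveI := hQlo
    haveI hQprime' : Q.IsPrime := hQmax.isPrime
    have hQ0 : Q ≠ ⊥ := Ideal.ne_bot_of_liesOver_of_ne_bot hv0 Q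
    have hlQ : (l : 𝓞 M) ∈ Q := by
      rw [← hlcast, ← Ideal.mem_of_liesOver Q v]
      exact hlv
    have he := (thM_ramificationIdx_aux p K l M hpl Q hQ0).1 hlQ
    have hrel := thM_emultiplicity_rel K M (l - 1) β γ hβ0 hmap v hv0 Q hQ0
    have hfv : FiniteMultiplicity v (Ideal.span {β}) :=
      FiniteMultiplicity.of_prime_left (Ideal.prime_of_isPrime hv0 hv) hβspan
    have hfQ : FiniteMultiplicity Q (Ideal.span {γ}) :=
      FiniteMultiplicity.of_prime_left (Ideal.prime_of_isPrime hQ0 hQprime') hγspan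
    rw [he, hfv.emultiplicity_eq_multiplicity, hfQ.emultiplicity_eq_multiplicity] at hrel
    have hrel' : multiplicity v (Ideal.span {β}) = multiplicity Q (Ideal.span {γ}) := by
      have : (((l - 1) * multiplicity v (Ideal.span {β}) : ℕ) : ℕ∞) =
          (((l - 1) * multiplicity Q (Ideal.span {γ}) : ℕ) : ℕ∞) := by
        push_cast
        exact hrel
      have := Nat.cast_injective (R := ℕ∞) this
      exact Nat.eq_of_mul_eq_mul_left hl1pos this
    rw [hrel']
    -- the local computation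
    have hπ : 1 - z ∈ Q := thM_pi_mem l z hz Q hlQ
    have hπ2 : 1 - z ∉ Q ^ 2 := thM_pi_not_mem_sq p K l M hpl Q hQ0 hlQ z hz
    have hσ : ∀ w, (σ : 𝓞 M →+* 𝓞 M) w - w ∈ Q := by
      intro w
      have h1 := thM_sigma_sub_mem p K l M hpl ζ hζ z hz (σ : 𝓞 M →+* 𝓞 M)
        (fun a => σ.commutes a) s hσz w
      exact (Ideal.span_singleton_le_iff_mem Q |>.mpr hπ) h1
    have hσπ : (σ : 𝓞 M →+* 𝓞 M) (1 - z) = (1 - z) * ∑ i ∈ Finset.range s, z ^ i := by
      have : (σ : 𝓞 M →+* 𝓞 M) (1 - z) = 1 - z ^ s := by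
        rw [map_sub, map_one]
        congr 1
      rw [this, mul_neg_geom_sum]
    have hloc := thM_local_abstract Q hQ0 (σ : 𝓞 M →+* 𝓞 M) hσ (1 - z)
      (∑ i ∈ Finset.range s, z ^ i) hπ hπ2 hσπ _ γ hγ0 hγ
    set a := multiplicity Q (Ideal.span {γ}) with ha
    -- reduce modulo `Q`
    rw [Ideal.mem_of_liesOver Q v]
    rw [← Ideal.Quotient.eq_zero_iff_mem] at hloc hπ ⊢
    have hz1 : Ideal.Quotient.mk Q z = 1 := by
      rw [map_sub, map_one, sub_eq_zero] at hπ
      exact hπ.symm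
    simp only [map_sub, map_mul, map_pow, map_one, map_sum, hz1, one_pow, mul_one,
      Finset.sum_const, Finset.card_range, nsmul_eq_mul, map_natCast] at hloc ⊢
    exact hloc

/-- **Thaine's element** (86-P3, M-side). -/
theorem thaine_element (p : ℕ) [Fact p.Prime] (K : Type) [Field K] [NumberField K]
    [IsCyclotomicExtension {p} ℚ K] (ζ : 𝓞 K) (hζ : IsPrimitiveRoot ζ p)
    (l : ℕ) (hl : l.Prime) (hl1 : p ∣ l - 1) :
    ∃ (β : 𝓞 K) (s : ℕ), β ≠ 0 ∧
      (∀ v : Ideal (𝓞 K), v.IsPrime → v ≠ ⊥ → (l : 𝓞 K) ∉ v →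
        p ∣ multiplicity v (Ideal.span {β})) ∧
      (∀ v : Ideal (𝓞 K), v.IsPrime → (l : 𝓞 K) ∈ v →
        (1 - ζ) * (s : 𝓞 K) ^ (multiplicity v (Ideal.span {β})) - 1 ∈ v) := by
  haveI : Fact l.Prime := ⟨hl⟩
  exact thaine_element_aux p K ζ hζ l hl1 (CyclotomicField l K)

end Fermat.Agent.S14
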