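import Fermat.Agent.S14.Defs
import Fermat.Agent.S14.ThaineM
import Fermat.Agent.S14.ThaineK
import Fermat.Agent.S14.ThaineKInj

/-!
# S14, piece 86-P3: Thaine's relation `ThaineStatement p K`

Assembly of the M-side (`thaine_element`, helper1), the K-side (`thaine_of_element_aux`, lead)
and the degree-one facts (`thaine_absNorm_dvd`, `thaineK_map_injective`, helper3).
-/

set_option autoImplicit false
open scoped NumberField nonZeroDivisors
open JacobiSumStickelberger

namespace Fermat.Agent.S14

/-- **86-P3** Thaine's relation. -/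
theorem thaineStatement (p : ℕ) [hp : Fact p.Prime]
    (K : Type) [Field K] [NumberField K] [IsCyclotomicExtension {p} ℚ K] :
    ThaineStatement p K := by
  have : NeZero p := ⟨hp.out.ne_zero⟩
  intro ζ hζ P hP hl hpl hη ψ hψ
  have := hP
  obtain ⟨β, s, hβ, hA, hB⟩ := thaine_element p K ζ hζ _ hl (thaine_absNorm_dvd p K _ hl hpl)
  exact thaine_of_element_aux (p := p) (K := K) ζ hζ P hP hl
    (fun d e h => thaineK_map_injective p K hl hpl h) hη β s hβ hA hB ψ hψ

end Fermat.Agent.S14
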