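import Mathlib
import Fermat.Agent.S14.Defs
import Fermat.Agent.S14.Local

/-!
# S14 (item 86): `η₂` is of type `ω ^ 2`, and the exponent of `1 - ζ` in `η₂` is divisible by `p`

* `Fermat.Agent.S14.isOmegaTwo_eta2` : `IsOmegaTwo p K (eta2 p K ζ)`;
* `Fermat.Agent.S14.dvd_piExp` : `p ∣ Loc.piExp p` for `p ≥ 5`.
-/

set_option autoImplicit false
set_option linter.style.haveILetI false

open scoped NumberField nonZeroDivisors
open NumberField JacobiSumStickelberger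

namespace Fermat.Agent.S14.EO

variable {p : ℕ} [hp : Fact p.Prime]

theorem prod_Ioo_eq_prod_units {M : Type*} [CommMonoid M] (f : ℕ → M) :
    ∏ b ∈ Finset.Ioo 0 p, f b = ∏ a : (ZMod p)ˣ, f (a : ZMod p).val := by
  haveI : NeZero p := ⟨hp.out.ne_zero⟩
  symm
  refine Finset.prod_bij (fun a _ => (a : ZMod p).val) ?_ ?_ ?_ ?_
  · intro a _
    rw [Finset.mem_Ioo]
    refine ⟨Nat.pos_of_ne_zero ?_, ZMod.val_lt _⟩
    rw [Ne, ZMod.val_eq_zero]
    exact a.ne_zero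
  · intro a₁ _ a₂ _ h
    exact Units.ext (ZMod.val_injective p h)
  · intro b hb
    rw [Finset.mem_Ioo] at hb
    have hb0 : (b : ZMod p) ≠ 0 := by
      rw [Ne, ZMod.natCast_eq_zero_iff]
      exact Nat.not_dvd_of_pos_of_lt hb.1 hb.2
    exact ⟨Units.mk0 _ hb0, Finset.mem_univ _, by rw [Units.val_mk0, ZMod.val_natCast_of_lt hb.2]⟩
  · intro a _
    rfl

theorem sum_Ioo_eq_sum_units {M : Type*} [AddCommMonoid M] (f : ℕ → M) :
    ∑ b ∈ Finset.Ioo 0 p, f b = ∑ a : (ZMod p)ˣ, f (a : ZMod p).val :=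
  prod_Ioo_eq_prod_units (M := Multiplicative M) f

variable {K : Type} [Field K] [NumberField K] [IsCyclotomicExtension {p} ℚ K]

/-- the action of the Galois group on the `p`-th roots of unity -/
theorem galois_zeta (τ : K ≃ₐ[ℚ] K) {z : K} (hz : z ^ p = 1) :
    τ z = z ^ (cyc p K τ).val := by
  haveI : NeZero p := ⟨hp.out.ne_zero⟩
  have hz0 := IsCyclotomicExtension.zeta_spec p ℚ K
  have h2 := hz0.autToPow_spec ℚ τ
  have h1 : cyc p K τ = ((hz0.autToPow ℚ τ : (ZMod p)ˣ) : ZMod p) := rfl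
  obtain ⟨i, -, rfl⟩ := hz0.eq_pow_of_pow_eq_one hz
  rw [map_pow, ← h2, h1, ← pow_mul, ← pow_mul, mul_comm]

omit [NumberField K] [IsCyclotomicExtension {p} ℚ K] in
theorem pow_val_mul {z : K} (hz : z ^ p = 1) (x y : ZMod p) :
    z ^ (x.val * y.val) = z ^ (x * y).val := by
  rw [ZMod.val_mul]
  conv_lhs => rw [← Nat.div_add_mod (x.val * y.val) p, pow_add, pow_mul, hz, one_pow, one_mul]

end Fermat.Agent.S14.EO

namespace Fermat.Agent.S14

open EO

/-- the exponent of `1 - ζ` in `η₂` is divisible by `p` -/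
theorem dvd_piExp {p : ℕ} [hp : Fact p.Prime] (hp5 : 5 ≤ p) : p ∣ Loc.piExp p := by
  haveI : NeZero p := ⟨hp.out.ne_zero⟩
  rw [← ZMod.natCast_eq_zero_iff]
  unfold Loc.piExp
  rw [Nat.cast_sum]
  have e1 : ∑ b ∈ Finset.Ioo 0 p, (((((b : ZMod p)⁻¹) ^ 2).val : ℕ) : ZMod p) =
      ∑ b ∈ Finset.Ioo 0 p, ((b : ZMod p)⁻¹) ^ 2 :=
    Finset.sum_congr rfl fun b _ => ZMod.natCast_zmod_val _
  rw [e1, sum_Ioo_eq_sum_units (f := fun b => ((b : ZMod p)⁻¹) ^ 2)]
  have h := Loc.sum_units_pow p hp5 2 (by norm_num) (by norm_num)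
  rw [← Equiv.sum_comp (Equiv.inv (ZMod p)ˣ)] at h
  rw [← h]
  refine Finset.sum_congr rfl fun a _ => ?_
  rw [ZMod.natCast_zmod_val, Equiv.inv_apply, Units.val_inv_eq_inv_val]

variable (p : ℕ) [hp : Fact p.Prime] (K : Type) [Field K] [NumberField K]
  [IsCyclotomicExtension {p} ℚ K]

/-- `η₂` is of type `ω ^ 2`. -/
theorem isOmegaTwo_eta2 {ζ : 𝓞 K} (hζ : IsPrimitiveRoot ζ p) :
    IsOmegaTwo p K (eta2 p K ζ : K) := by
  haveI : NeZero p := ⟨hp.out.ne_zero⟩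
  intro τ
  set t : (ZMod p)ˣ := cycloGalEquiv p K τ with ht
  have htc : cyc p K τ = (t : ZMod p) := rfl
  set z : K := algebraMap (𝓞 K) K ζ with hzdef
  have hzprim : IsPrimitiveRoot z p := hζ.map_of_injective RingOfIntegers.coe_injective
  have hz : z ^ p = 1 := hzprim.pow_eq_one
  have hτ : τ z = z ^ (t : ZMod p).val := by rw [← htc]; exact galois_zeta τ hz
  -- notation
  set D : (ZMod p)ˣ → K := fun a => 1 - z ^ (a : ZMod p).val with hD
  set E : (ZMod p)ˣ → ℕ := fun a => ((((a⁻¹ : (ZMod p)ˣ) : ZMod p)) ^ 2).val with hE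
  set N : ℕ := (((t : ZMod p)) ^ 2).val with hN
  have hD0 : ∀ a, D a ≠ 0 := by
    intro a
    have hpos : 0 < (a : ZMod p).val := by
      refine Nat.pos_of_ne_zero ?_
      rw [Ne, ZMod.val_eq_zero]
      exact a.ne_zero
    have := hzprim.pow_ne_one_of_pos_of_lt hpos.ne' (ZMod.val_lt _)
    exact sub_ne_zero.mpr (Ne.symm this)
  have hη : (algebraMap (𝓞 K) K (eta2 p K ζ)) = ∏ a : (ZMod p)ˣ, D a ^ E a := by
    unfold eta2
    rw [map_prod, prod_Ioo_eq_prod_units]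
    refine Finset.prod_congr rfl fun a _ => ?_
    rw [map_pow, map_sub, map_one, map_pow, ZMod.natCast_zmod_val, ← Units.val_inv_eq_inv_val]
  -- the Galois action
  have hτD : ∀ a, τ (D a) = D (t * a) := by
    intro a
    simp only [hD]
    rw [map_sub, map_one, map_pow, hτ, ← pow_mul, pow_val_mul hz, Units.val_mul]
  have hτη : τ (algebraMap (𝓞 K) K (eta2 p K ζ)) = ∏ a : (ZMod p)ˣ, D a ^ E (t⁻¹ * a) := by
    rw [hη, map_prod]
    rw [← Equiv.prod_comp (Equiv.mulLeft t) (fun a => D a ^ E (t⁻¹ * a))]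
    refine Finset.prod_congr rfl fun a _ => ?_
    rw [map_pow, hτD, Equiv.coe_mulLeft, inv_mul_cancel_left]
  -- the exponents
  have hexp : ∀ a, E a * N = E (t⁻¹ * a) + p * (E a * N / p) := by
    intro a
    have h1 : E (t⁻¹ * a) = E a * N % p := by
      simp only [hE, hN]
      rw [← ZMod.val_mul]
      congr 1
      rw [mul_inv_rev, inv_inv, Units.val_mul]
      ring
    rw [h1]
    exact (Nat.mod_add_div _ _).symm
  set G : K := ∏ a : (ZMod p)ˣ, D a ^ (E a * N / p) with hG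
  have hG0 : G ≠ 0 := by
    rw [hG, Finset.prod_ne_zero_iff]
    intro a _
    exact pow_ne_zero _ (hD0 a)
  have hkey : (algebraMap (𝓞 K) K (eta2 p K ζ)) ^ N =
      τ (algebraMap (𝓞 K) K (eta2 p K ζ)) * G ^ p := by
    rw [hτη, hη, hG, ← Finset.prod_pow, ← Finset.prod_pow, ← Finset.prod_mul_distrib]
    refine Finset.prod_congr rfl fun a _ => ?_
    rw [← pow_mul, ← pow_mul, ← pow_add, mul_comm (E a * N / p) p, ← hexp a]
  refine ⟨G⁻¹, ?_⟩
  rw [htc, ← hN]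
  show τ (algebraMap (𝓞 K) K (eta2 p K ζ)) = (algebraMap (𝓞 K) K (eta2 p K ζ)) ^ N * G⁻¹ ^ p
  rw [hkey, inv_pow, mul_assoc, mul_inv_cancel₀ (pow_ne_zero _ hG0), mul_one]

end Fermat.Agent.S14
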