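import Mathlib
import Fermat.Agent.S14.EtaOmega

/-!
# S14 (item 86): `η₂` is a unit times a `p`-th power (`p ≥ 5`)

`Fermat.Agent.S14.exists_unit_eta2` : there are a unit `e` of `𝓞 K` and `y ≠ 0` in `K` with
`e = η₂ y ^ p`.  (`e` is the cyclotomic unit `Loc.eps2`.)
-/

set_option autoImplicit false

open scoped NumberField nonZeroDivisors
open NumberField

namespace Fermat.Agent.S14

variable {p : ℕ} [hp : Fact p.Prime] {K : Type} [Field K] [NumberField K]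
  [IsCyclotomicExtension {p} ℚ K]

/-- the precise form: `ε₂ = η₂ (U / π ^ s) ^ p`. -/
theorem eps2_eq_eta2_mul_pow (hp5 : 5 ≤ p) {ζ : K} (hζ : IsPrimitiveRoot ζ p) :
    ∃ y : K, y ≠ 0 ∧
      algebraMap (𝓞 K) K (Loc.eps2 hζ) = algebraMap (𝓞 K) K (eta2 p K hζ.toInteger) * y ^ p := by
  have : NeZero p := ⟨hp.out.ne_zero⟩
  obtain ⟨s, hs⟩ := dvd_piExp (p := p) hp5
  have hrel := Loc.eta2_mul_pow hζ
  have hrel' : eta2 p K hζ.toInteger * Loc.corrUnit hζ ^ p =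
      (1 - hζ.toInteger) ^ (p * s) * Loc.eps2 hζ := by
    rw [← hs]
    exact hrel
  have hπ0 : (1 - hζ.toInteger : 𝓞 K) ≠ 0 := (Loc.prime_one_sub_zeta hζ).ne_zero
  have hπK : algebraMap (𝓞 K) K (1 - hζ.toInteger) ≠ 0 :=
    RingOfIntegers.coe_ne_zero_iff.mpr hπ0
  have hU0 : algebraMap (𝓞 K) K (Loc.corrUnit hζ) ≠ 0 :=
    RingOfIntegers.coe_ne_zero_iff.mpr (Loc.isUnit_corrUnit hζ).ne_zero
  refine ⟨algebraMap (𝓞 K) K (Loc.corrUnit hζ) / algebraMap (𝓞 K) K (1 - hζ.toInteger) ^ s,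
    div_ne_zero hU0 (pow_ne_zero _ hπK), ?_⟩
  have h1 := congrArg (algebraMap (𝓞 K) K) hrel'
  rw [map_mul, map_mul, map_pow, map_pow, pow_mul'] at h1
  rw [div_pow, ← mul_div_assoc, h1, mul_comm, mul_div_assoc,
    div_self (pow_ne_zero _ (pow_ne_zero _ hπK)), mul_one]

/-- `η₂` is a unit times a `p`-th power. -/
theorem exists_unit_eta2 (hp5 : 5 ≤ p) {ζ : 𝓞 K} (hζ : IsPrimitiveRoot ζ p) :
    ∃ (e : (𝓞 K)ˣ) (y : K), y ≠ 0 ∧
      algebraMap (𝓞 K) K (e : 𝓞 K) = algebraMap (𝓞 K) K (eta2 p K ζ) * y ^ p := by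
  have : NeZero p := ⟨hp.out.ne_zero⟩
  have hζK : IsPrimitiveRoot (algebraMap (𝓞 K) K ζ) p :=
    hζ.map_of_injective RingOfIntegers.coe_injective
  have hζeq : hζK.toInteger = ζ := RingOfIntegers.ext rfl
  obtain ⟨y, hy, h⟩ := eps2_eq_eta2_mul_pow hp5 hζK
  rw [hζeq] at h
  exact ⟨(Loc.isUnit_eps2 hζK).unit, y, hy, h⟩

end Fermat.Agent.S14
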