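import Fermat.Agent.S14.UnitEigenCyc
import Fermat.Agent.S14.EtaUnit
import Fermat.Agent.S14.CoreAlg

/-!
# S14, piece P5 (helper8): units of type `ω²` in `ℚ(ζ_p)`

Main result `unit_eigen`: for `p ≥ 5`, if `ε, e` are units of type `ω²` and `e` is not a `p`-th
power in `K`, then `ε = e ^ j * x ^ p`.
-/

set_option autoImplicit false
set_option linter.style.haveILetI false
set_option linter.unusedSectionVars false

namespace Fermat.Agent.S14.UnitEigen

open NumberField NumberField.Units NumberField.InfinitePlace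
open JacobiSumStickelberger

variable {p : ℕ} [hp : Fact p.Prime] {K : Type} [Field K] [NumberField K]
  [IsCyclotomicExtension {p} ℚ K]

/-! ### rank -/

variable (p K) in
theorem card_places (hp3 : 3 ≤ p) : Fintype.card (InfinitePlace K) = (p - 1) / 2 := by
  haveI : NeZero p := ⟨hp.out.ne_zero⟩
  rw [card_eq_nrRealPlaces_add_nrComplexPlaces,
    IsCyclotomicExtension.Rat.nrRealPlaces_eq_zero (n := p) K (by omega),
    IsCyclotomicExtension.Rat.nrComplexPlaces_eq_totient_div_two p K, zero_add,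
    Nat.totient_prime hp.out]

variable (p K) in
theorem rank_add_one (hp3 : 3 ≤ p) : NumberField.Units.rank K + 1 = (p - 1) / 2 := by
  unfold NumberField.Units.rank
  rw [card_places p K hp3]
  have : 1 ≤ (p - 1) / 2 := by omega
  omega

/-! ### a generator of the Galois group -/

variable (p) in
theorem exists_gen : ∃ g : (ZMod p)ˣ, orderOf g = p - 1 := by
  obtain ⟨g, hg⟩ := IsCyclic.exists_ofOrder_eq_natCard (α := (ZMod p)ˣ)
  refine ⟨g, ?_⟩
  rw [hg, Nat.card_eq_fintype_card, ZMod.card_units]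

theorem gen_pow_half {g : (ZMod p)ˣ} (hg : orderOf g = p - 1) (hp3 : 3 ≤ p) :
    ((g ^ ((p - 1) / 2) : (ZMod p)ˣ) : ZMod p) = -1 := by
  have hodd : p % 2 = 1 := by
    rcases hp.out.eq_two_or_odd with h | h
    · omega
    · exact h
  have h2 : 2 * ((p - 1) / 2) = p - 1 := by omega
  have h1 : (g ^ ((p - 1) / 2)) ^ 2 = 1 := by
    rw [← pow_mul, mul_comm, h2, ← hg, pow_orderOf_eq_one]
  have h3 : g ^ ((p - 1) / 2) ≠ 1 := by
    apply pow_ne_one_of_lt_orderOf (by omega)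
    rw [hg]
    omega
  have h4 : ((g ^ ((p - 1) / 2) : (ZMod p)ˣ) : ZMod p) ^ 2 = 1 := by
    rw [← Units.val_pow_eq_pow_val, h1, Units.val_one]
  have h5 : ((g ^ ((p - 1) / 2) : (ZMod p)ˣ) : ZMod p) ≠ 1 := by
    intro h
    apply h3
    apply Units.ext
    rw [h, Units.val_one]
  rcases sq_eq_one_iff.mp h4 with h | h
  · exact absurd h h5
  · exact h

theorem gen_pow_ne {g : (ZMod p)ˣ} (hg : orderOf g = p - 1) (hp3 : 3 ≤ p) {i : ℕ} (hi0 : 0 < i)
    (hi : i < (p - 1) / 2) :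
    ((g ^ i : (ZMod p)ˣ) : ZMod p) ≠ 1 ∧ ((g ^ i : (ZMod p)ˣ) : ZMod p) ≠ -1 := by
  have hodd : p % 2 = 1 := by
    rcases hp.out.eq_two_or_odd with h | h
    · omega
    · exact h
  constructor
  · intro h
    have h1 : g ^ i = 1 := by
      apply Units.ext
      rw [h, Units.val_one]
    exact pow_ne_one_of_lt_orderOf (by omega) (by rw [hg]; omega) h1
  · intro h
    have h1 : g ^ (2 * i) = 1 := by
      apply Units.ext
      rw [mul_comm, pow_mul, Units.val_pow_eq_pow_val, h, Units.val_one]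
      ring
    exact pow_ne_one_of_lt_orderOf (by omega) (by rw [hg]; omega) h1

/-! ### the matrix modulo `p` -/

/-- the matrix of `τ` on the unit lattice, modulo `p` -/
noncomputable def unitMatP (p : ℕ) (τ : K ≃ₐ[ℚ] K) :
    Matrix (Fin (NumberField.Units.rank K)) (Fin (NumberField.Units.rank K)) (ZMod p) :=
  (Int.castRingHom (ZMod p)).mapMatrix (unitMat τ)

/-- the coordinates of a unit modulo `p` -/
noncomputable def unitVecP (p : ℕ) (u : (𝓞 K)ˣ) : Fin (NumberField.Units.rank K) → ZMod p :=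
  fun i => ((unitVec u i : ℤ) : ZMod p)

theorem unitMatP_pow (τ : K ≃ₐ[ℚ] K) (n : ℕ) : unitMatP p (τ ^ n) = unitMatP p τ ^ n := by
  unfold unitMatP
  rw [unitMat_pow, map_pow]

theorem unitMatP_of_fix (τ : K ≃ₐ[ℚ] K) (h : ∀ w : InfinitePlace K, τ • w = w) :
    unitMatP p τ = 1 := by
  unfold unitMatP
  rw [unitMat_of_fix τ h, map_one]

theorem trace_unitMatP (τ : K ≃ₐ[ℚ] K) (hfree : ∀ w : InfinitePlace K, τ • w ≠ w) :
    (unitMatP p τ).trace = -1 := by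
  unfold unitMatP
  have h := AddMonoidHom.map_trace (Int.castRingHom (ZMod p)) (unitMat τ)
  rw [RingHom.mapMatrix_apply, ← h, trace_unitMat τ hfree]
  simp

theorem unitVecP_unitMap (τ : K ≃ₐ[ℚ] K) (u : (𝓞 K)ˣ) :
    unitVecP p (unitMap τ u) = (unitMatP p τ).mulVec (unitVecP p u) := by
  funext i
  have h := RingHom.map_mulVec (Int.castRingHom (ZMod p)) (unitMat τ) (unitVec u) i
  unfold unitVecP unitMatP
  rw [unitVec_unitMap, RingHom.mapMatrix_apply]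
  exact h

theorem unitVecP_mul (u v : (𝓞 K)ˣ) : unitVecP p (u * v) = unitVecP p u + unitVecP p v := by
  funext i
  simp [unitVecP, unitVec_mul]

theorem unitVecP_pow (u : (𝓞 K)ˣ) (n : ℕ) : unitVecP p (u ^ n) = (n : ZMod p) • unitVecP p u := by
  funext i
  simp [unitVecP, unitVec_pow]

theorem unitVecP_pow_p (u : (𝓞 K)ˣ) : unitVecP p (u ^ p) = 0 := by
  rw [unitVecP_pow]
  simp

theorem unitVecP_inv (u : (𝓞 K)ˣ) : unitVecP p u⁻¹ = - unitVecP p u := by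
  funext i
  simp [unitVecP, unitVec_inv]

/-! ### units and `p`-th powers -/

theorem coe_unitMap' (τ : K ≃ₐ[ℚ] K) (u : (𝓞 K)ˣ) :
    algebraMap (𝓞 K) K ((unitMap τ u : (𝓞 K)ˣ) : 𝓞 K) = τ (algebraMap (𝓞 K) K (u : 𝓞 K)) := rfl

/-- an element of `K` whose `p`-th power is a unit is a unit -/
theorem exists_unit_of_pow_eq {γ : K} {w : (𝓞 K)ˣ}
    (h : γ ^ p = algebraMap (𝓞 K) K (w : 𝓞 K)) :
    ∃ v : (𝓞 K)ˣ, algebraMap (𝓞 K) K (v : 𝓞 K) = γ := by
  have hint : IsIntegral ℤ γ := by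
    apply IsIntegral.of_pow hp.out.pos
    rw [h]
    exact RingOfIntegers.isIntegral_coe (w : 𝓞 K)
  set g : 𝓞 K := ⟨γ, hint⟩ with hgdef
  have hgc : algebraMap (𝓞 K) K g = γ := rfl
  have hg : g ^ p = (w : 𝓞 K) := by
    apply RingOfIntegers.coe_injective
    show algebraMap (𝓞 K) K (g ^ p) = algebraMap (𝓞 K) K (w : 𝓞 K)
    rw [map_pow, hgc, h]
  have hu : IsUnit g := (isUnit_pow_iff hp.out.ne_zero).mp (hg ▸ w.isUnit)
  exact ⟨hu.unit, hgc⟩

/-! ### closure properties of `IsOmegaTwo` -/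

theorem isOmegaTwo_mul {α β : K} (hα : IsOmegaTwo p K α) (hβ : IsOmegaTwo p K β) :
    IsOmegaTwo p K (α * β) := by
  intro τ
  obtain ⟨γ₁, h₁⟩ := hα τ
  obtain ⟨γ₂, h₂⟩ := hβ τ
  exact ⟨γ₁ * γ₂, by rw [map_mul, h₁, h₂]; ring⟩

theorem isOmegaTwo_inv {α : K} (hα : IsOmegaTwo p K α) : IsOmegaTwo p K α⁻¹ := by
  intro τ
  obtain ⟨γ, h⟩ := hα τ
  exact ⟨γ⁻¹, by rw [map_inv₀, h, mul_inv, inv_pow, inv_pow]⟩

theorem isOmegaTwo_one : IsOmegaTwo p K (1 : K) := by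
  intro τ
  exact ⟨1, by simp⟩

theorem isOmegaTwo_pow {α : K} (hα : IsOmegaTwo p K α) (n : ℕ) : IsOmegaTwo p K (α ^ n) := by
  induction n with
  | zero => rw [pow_zero]; exact isOmegaTwo_one
  | succ k ih => rw [pow_succ]; exact isOmegaTwo_mul ih hα

theorem isOmegaTwo_pow_p (y : K) : IsOmegaTwo p K (y ^ p) := by
  intro τ
  by_cases hy : y = 0
  · subst hy
    refine ⟨0, ?_⟩
    rw [zero_pow hp.out.ne_zero, map_zero, mul_zero]
  · refine ⟨τ y * (y ^ ((cyc p K τ) ^ 2).val)⁻¹, ?_⟩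
    rw [map_pow, mul_pow, inv_pow, ← pow_mul, ← pow_mul, mul_comm p, mul_comm (y ^ _),
      mul_assoc, inv_mul_cancel₀ (pow_ne_zero _ hy), mul_one]

/-! ### the eigen-equation -/

theorem unitVecP_eigen (τ : K ≃ₐ[ℚ] K) (u : (𝓞 K)ˣ)
    (hu : IsOmegaTwo p K (algebraMap (𝓞 K) K (u : 𝓞 K))) :
    (unitMatP p τ).mulVec (unitVecP p u) = ((cyc p K τ) ^ 2) • unitVecP p u := by
  haveI : NeZero p := ⟨hp.out.ne_zero⟩
  obtain ⟨γ, hγ⟩ := hu τ
  set n := ((cyc p K τ) ^ 2).val with hn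
  set w : (𝓞 K)ˣ := unitMap τ u * (u ^ n)⁻¹ with hw
  have hwu : w * u ^ n = unitMap τ u := by rw [hw, inv_mul_cancel_right]
  have hu0 : algebraMap (𝓞 K) K (u : 𝓞 K) ≠ 0 :=
    RingOfIntegers.coe_ne_zero_iff.mpr u.ne_zero
  have h1 : γ ^ p = algebraMap (𝓞 K) K (w : 𝓞 K) := by
    have h2 := congrArg (fun x : (𝓞 K)ˣ => algebraMap (𝓞 K) K (x : 𝓞 K)) hwu
    simp only [Units.val_mul, Units.val_pow_eq_pow_val, map_mul, map_pow] at h2
    rw [coe_unitMap', hγ] at h2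
    have h3 : algebraMap (𝓞 K) K (w : 𝓞 K) * algebraMap (𝓞 K) K (u : 𝓞 K) ^ n
        = γ ^ p * algebraMap (𝓞 K) K (u : 𝓞 K) ^ n := by rw [h2, mul_comm]
    exact (mul_right_cancel₀ (pow_ne_zero _ hu0) h3).symm
  obtain ⟨v, hv⟩ := exists_unit_of_pow_eq h1
  have h4 : w = v ^ p := by
    apply Units.ext
    apply RingOfIntegers.coe_injective
    show algebraMap (𝓞 K) K (w : 𝓞 K) = algebraMap (𝓞 K) K ((v ^ p : (𝓞 K)ˣ) : 𝓞 K)
    rw [Units.val_pow_eq_pow_val, map_pow, hv, h1]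
  rw [← unitVecP_unitMap, ← hwu, h4, unitVecP_mul, unitVecP_pow_p, zero_add, unitVecP_pow]
  congr 1
  rw [hn, ZMod.natCast_zmod_val]

/-! ### roots of unity of type `ω²` -/

theorem dvd_of_isOmegaTwo_zeta_pow (hp3 : 3 ≤ p) {z : K} (hz : IsPrimitiveRoot z p) (r : ℕ)
    (h : IsOmegaTwo p K (z ^ r)) : p ∣ r := by
  haveI : NeZero p := ⟨hp.out.ne_zero⟩
  have hodd : Odd p := hp.out.odd_of_ne_two (by omega)
  obtain ⟨τ, hτ⟩ := exists_cycU_eq (K := K) (-1 : (ZMod p)ˣ)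
  have hc : cyc p K τ = -1 := by
    rw [cyc_eq_cycU, hτ]
    simp
  obtain ⟨γ, hγ⟩ := h τ
  have hz0 : z ≠ 0 := hz.ne_zero hp.out.ne_zero
  have hn : ((cyc p K τ) ^ 2).val = 1 := by
    rw [hc]
    have : ((-1 : ZMod p)) ^ 2 = 1 := by ring
    rw [this, ZMod.val_one]
  rw [hn, pow_one, map_pow, cyc_zeta τ hz, hc] at hγ
  -- `z ^ (-1).val = z⁻¹`
  have hd : p ∣ (-1 : ZMod p).val + 1 := by
    rw [← ZMod.natCast_eq_zero_iff]
    push_cast
    rw [ZMod.natCast_zmod_val]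
    ring
  obtain ⟨k, hk⟩ := hd
  have h1 : z ^ (-1 : ZMod p).val * z = 1 := by
    rw [← pow_succ, hk, pow_mul, hz.pow_eq_one, one_pow]
  -- `γ ^ p * z ^ (2 r) = 1`
  have h2 : γ ^ p * z ^ (2 * r) = 1 := by
    have h3 : (z ^ (-1 : ZMod p).val) ^ r * z ^ r = 1 := by
      rw [← mul_pow, h1, one_pow]
    rw [hγ] at h3
    rw [← h3, two_mul, pow_add]
    ring
  have hfin : IsOfFinOrder γ := by
    rw [isOfFinOrder_iff_pow_eq_one]
    refine ⟨p * p, Nat.mul_pos hp.out.pos hp.out.pos, ?_⟩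
    have h4 : (γ ^ p * z ^ (2 * r)) ^ p = 1 := by rw [h2, one_pow]
    rw [mul_pow, ← pow_mul, ← pow_mul, mul_comm (2 * r) p, pow_mul z, hz.pow_eq_one, one_pow,
      mul_one] at h4
    exact h4
  obtain ⟨s, -, hs⟩ := hz.exists_pow_or_neg_mul_pow_of_isOfFinOrder hodd hfin
  have h5 : (γ ^ p) ^ 2 = 1 := by
    have hzs : (z ^ s) ^ p = 1 := by rw [← pow_mul, mul_comm, pow_mul, hz.pow_eq_one, one_pow]
    rcases hs with hs | hs
    · rw [hs, hzs, one_pow]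
    · rw [hs, neg_pow, hzs, mul_one, ← pow_mul]
      exact Even.neg_one_pow ⟨p, by ring⟩
  have h6 : z ^ (4 * r) = 1 := by
    have h7 : (γ ^ p * z ^ (2 * r)) ^ 2 = 1 := by rw [h2, one_pow]
    rw [mul_pow, h5, one_mul, ← pow_mul] at h7
    rw [← h7]
    congr 1
    ring
  have h8 := hz.dvd_of_pow_eq_one _ h6
  have hcop : Nat.Coprime p 4 := by
    have : Nat.Coprime p 2 := (Nat.coprime_primes hp.out Nat.prime_two).mpr (by omega)
    exact Nat.Coprime.pow_right 2 this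
  exact hcop.dvd_of_dvd_mul_left h8

/-! ### Lemma A: a unit of type `ω²` with coordinates `≡ 0 mod p` is a `p`-th power -/

theorem exists_pow_of_unitVecP_eq_zero (hp3 : 3 ≤ p) {z : K} (hz : IsPrimitiveRoot z p)
    (u : (𝓞 K)ˣ) (hω : IsOmegaTwo p K (algebraMap (𝓞 K) K (u : 𝓞 K)))
    (h0 : unitVecP p u = 0) :
    ∃ x : K, x ≠ 0 ∧ algebraMap (𝓞 K) K (u : 𝓞 K) = x ^ p := by
  haveI : NeZero p := ⟨hp.out.ne_zero⟩
  have hodd : Odd p := hp.out.odd_of_ne_two (by omega)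
  have hdvd : ∀ i, (p : ℤ) ∣ unitVec u i := by
    intro i
    have := congrFun h0 i
    simp only [unitVecP, Pi.zero_apply] at this
    exact (ZMod.intCast_zmod_eq_zero_iff_dvd _ p).mp this
  choose f hf using hdvd
  obtain ⟨v, hv⟩ := exists_unitVec_eq (K := K) f
  set t : (𝓞 K)ˣ := u * (v ^ p)⁻¹ with ht
  have htv : t * v ^ p = u := by rw [ht, inv_mul_cancel_right]
  have htor : t ∈ torsion K := by
    rw [← unitVec_eq_zero_iff, ht, unitVec_mul, unitVec_inv, unitVec_pow, hv]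
    funext i
    rw [Pi.add_apply, Pi.neg_apply, Pi.smul_apply, Pi.zero_apply, hf i, nsmul_eq_mul]
    ring
  -- `t` as an element of `K`
  have hv0 : algebraMap (𝓞 K) K (v : 𝓞 K) ≠ 0 := RingOfIntegers.coe_ne_zero_iff.mpr v.ne_zero
  have htK : algebraMap (𝓞 K) K (t : 𝓞 K) * algebraMap (𝓞 K) K (v : 𝓞 K) ^ p
      = algebraMap (𝓞 K) K (u : 𝓞 K) := by
    have := congrArg (fun x : (𝓞 K)ˣ => algebraMap (𝓞 K) K (x : 𝓞 K)) htv
    simpa only [Units.val_mul, Units.val_pow_eq_pow_val, map_mul, map_pow] using this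
  have htω : IsOmegaTwo p K (algebraMap (𝓞 K) K (t : 𝓞 K)) := by
    have h1 : algebraMap (𝓞 K) K (t : 𝓞 K)
        = algebraMap (𝓞 K) K (u : 𝓞 K) * ((algebraMap (𝓞 K) K (v : 𝓞 K))⁻¹) ^ p := by
      rw [← htK, inv_pow, mul_assoc, mul_inv_cancel₀ (pow_ne_zero _ hv0), mul_one]
    rw [h1]
    exact isOmegaTwo_mul hω (isOmegaTwo_pow_p _)
  have hfin : IsOfFinOrder (algebraMap (𝓞 K) K (t : 𝓞 K)) := by
    have h1 : IsOfFinOrder t := (CommGroup.mem_torsion _).mp htor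
    rw [isOfFinOrder_iff_pow_eq_one] at h1 ⊢
    obtain ⟨n, hn, hn1⟩ := h1
    refine ⟨n, hn, ?_⟩
    have := congrArg (fun x : (𝓞 K)ˣ => algebraMap (𝓞 K) K (x : 𝓞 K)) hn1
    simpa only [Units.val_pow_eq_pow_val, map_pow, Units.val_one, map_one] using this
  obtain ⟨s, -, hs⟩ := hz.exists_pow_or_neg_mul_pow_of_isOfFinOrder hodd hfin
  rcases hs with hs | hs
  · have hps : p ∣ s := dvd_of_isOmegaTwo_zeta_pow hp3 hz s (hs ▸ htω)
    obtain ⟨k, hk⟩ := hps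
    have ht1 : algebraMap (𝓞 K) K (t : 𝓞 K) = 1 := by
      rw [hs, hk, pow_mul, hz.pow_eq_one, one_pow]
    refine ⟨algebraMap (𝓞 K) K (v : 𝓞 K), hv0, ?_⟩
    rw [← htK, ht1, one_mul]
  · have hω' : IsOmegaTwo p K (z ^ s) := by
      have h1 : z ^ s = algebraMap (𝓞 K) K (t : 𝓞 K) * (-1 : K) ^ p := by
        rw [hs, hodd.neg_one_pow]
        ring
      rw [h1]
      exact isOmegaTwo_mul htω (isOmegaTwo_pow_p _)
    have hps : p ∣ s := dvd_of_isOmegaTwo_zeta_pow hp3 hz s hω'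
    obtain ⟨k, hk⟩ := hps
    have ht1 : algebraMap (𝓞 K) K (t : 𝓞 K) = -1 := by
      rw [hs, hk, pow_mul, hz.pow_eq_one, one_pow]
    refine ⟨- algebraMap (𝓞 K) K (v : 𝓞 K), neg_ne_zero.mpr hv0, ?_⟩
    rw [← htK, ht1, hodd.neg_pow]
    ring

/-! ### the main theorem -/

/-- **Units of type `ω²`**: the `ω²`-eigenspace of `E / E^p` has dimension `≤ 1`. -/
theorem unit_eigen (hp5 : 5 ≤ p) {z : K} (hz : IsPrimitiveRoot z p) (ε e : (𝓞 K)ˣ)
    (hε : IsOmegaTwo p K (algebraMap (𝓞 K) K (ε : 𝓞 K)))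
    (he : IsOmegaTwo p K (algebraMap (𝓞 K) K (e : 𝓞 K)))
    (hne : ∀ x : K, x ^ p ≠ algebraMap (𝓞 K) K (e : 𝓞 K)) :
    ∃ (j : ℕ) (x : K), x ≠ 0 ∧
      algebraMap (𝓞 K) K (ε : 𝓞 K) = algebraMap (𝓞 K) K (e : 𝓞 K) ^ j * x ^ p := by
  haveI : NeZero p := ⟨hp.out.ne_zero⟩
  have hp3 : 3 ≤ p := by omega
  have hpodd : p % 2 = 1 := by
    rcases hp.out.eq_two_or_odd with h | h
    · omega
    · exact h
  obtain ⟨g, hg⟩ := exists_gen p
  obtain ⟨δ, hδ⟩ := exists_cycU_eq (K := K) g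
  set m := (p - 1) / 2 with hm
  have hrm : NumberField.Units.rank K + 1 = m := rank_add_one p K hp3
  have hmp : m < p := by omega
  have hcycpow : ∀ i : ℕ, cyc p K (δ ^ i) = ((g ^ i : (ZMod p)ˣ) : ZMod p) := by
    intro i
    rw [cyc_eq_cycU, cycU_pow, hδ]
  -- `M ^ m = 1`
  have hM : unitMatP p δ ^ m = 1 := by
    rw [← unitMatP_pow]
    apply unitMatP_of_fix
    apply smul_eq_of_cyc (p := p)
    rw [hcycpow, hm]
    exact gen_pow_half hg hp3
  -- traces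
  have htr : ∀ i, 0 < i → i < m → (unitMatP p δ ^ i).trace = -1 := by
    intro i hi0 hi
    rw [← unitMatP_pow]
    apply trace_unitMatP
    intro w hw
    have h1 := cyc_of_smul_eq (p := p) (δ ^ i) w hw
    rw [hcycpow] at h1
    have h2 := gen_pow_ne hg hp3 hi0 hi
    rcases h1 with h1 | h1
    · exact h2.1 h1
    · exact h2.2 h1
  -- the eigenvalue
  set a : ZMod p := (cyc p K δ) ^ 2 with ha
  have hcδ : cyc p K δ = (g : ZMod p) := by rw [cyc_eq_cycU, hδ]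
  have ham : a ^ m = 1 := by
    rw [ha, hcδ, ← pow_mul, mul_comm, pow_mul, ← Units.val_pow_eq_pow_val, gen_pow_half hg hp3]
    ring
  have ha1 : a ≠ 1 := by
    rw [ha, hcδ, ← Units.val_pow_eq_pow_val]
    intro h
    have h1 : g ^ 2 = 1 := by
      apply Units.ext
      rw [h, Units.val_one]
    exact pow_ne_one_of_lt_orderOf (by norm_num) (by rw [hg]; omega) h1
  have hx := unitVecP_eigen δ ε hε
  have hy := unitVecP_eigen δ e he
  have hy0 : unitVecP p e ≠ 0 := by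
    intro h0
    obtain ⟨x, -, hx⟩ := exists_pow_of_unitVecP_eq_zero hp3 hz e he h0
    exact hne x hx.symm
  obtain ⟨c, hc⟩ := eigen_dim_le_one hrm hmp (unitMatP p δ) hM htr a ham ha1
    (unitVecP p ε) (unitVecP p e) hx hy hy0
  set j := c.val with hj
  set u : (𝓞 K)ˣ := ε * (e ^ j)⁻¹ with hu
  have hue : u * e ^ j = ε := by rw [hu, inv_mul_cancel_right]
  have he0 : algebraMap (𝓞 K) K (e : 𝓞 K) ≠ 0 := RingOfIntegers.coe_ne_zero_iff.mpr e.ne_zero
  have hueK : algebraMap (𝓞 K) K (u : 𝓞 K) * algebraMap (𝓞 K) K (e : 𝓞 K) ^ j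
      = algebraMap (𝓞 K) K (ε : 𝓞 K) := by
    have := congrArg (fun x : (𝓞 K)ˣ => algebraMap (𝓞 K) K (x : 𝓞 K)) hue
    simpa only [Units.val_mul, Units.val_pow_eq_pow_val, map_mul, map_pow] using this
  have huω : IsOmegaTwo p K (algebraMap (𝓞 K) K (u : 𝓞 K)) := by
    have h1 : algebraMap (𝓞 K) K (u : 𝓞 K)
        = algebraMap (𝓞 K) K (ε : 𝓞 K) * ((algebraMap (𝓞 K) K (e : 𝓞 K)) ^ j)⁻¹ := by
      rw [← hueK, mul_assoc, mul_inv_cancel₀ (pow_ne_zero _ he0), mul_one]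
    rw [h1]
    exact isOmegaTwo_mul hε (isOmegaTwo_inv (isOmegaTwo_pow he j))
  have hu0 : unitVecP p u = 0 := by
    rw [hu, unitVecP_mul, unitVecP_inv, unitVecP_pow, hc, hj, ZMod.natCast_zmod_val]
    simp
  obtain ⟨x, hx0, hxu⟩ := exists_pow_of_unitVecP_eq_zero hp3 hz u huω hu0
  refine ⟨j, x, hx0, ?_⟩
  rw [← hueK, hxu, mul_comm]

variable (p K) in
/-- **86-P5**: `UnitStatement p K` for `p ≥ 5`. -/
theorem unitStatement_of_five_le (hp5 : 5 ≤ p) : UnitStatement p K := by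
  intro ζ hζ ε hε
  have hzK : IsPrimitiveRoot (algebraMap (𝓞 K) K ζ) p :=
    hζ.map_of_injective RingOfIntegers.coe_injective
  obtain ⟨e, y, hy, hey⟩ := exists_unit_eta2 hp5 hζ
  have hη := isOmegaTwo_eta2 p K hζ
  have he : IsOmegaTwo p K (algebraMap (𝓞 K) K (e : 𝓞 K)) := by
    rw [hey]
    exact isOmegaTwo_mul hη (isOmegaTwo_pow_p y)
  have hnη := coreAlg_eta2_not_pow (localStatement p K) hζ
  have hne : ∀ x : K, x ^ p ≠ algebraMap (𝓞 K) K (e : 𝓞 K) := by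
    intro x hx
    -- then `η₂ = (x / y) ^ p` and `x / y` is integral
    have h1 : (x / y) ^ p = algebraMap (𝓞 K) K (eta2 p K ζ) := by
      rw [div_pow, hx, hey, mul_div_assoc, div_self (pow_ne_zero _ hy), mul_one]
    have hint : IsIntegral ℤ (x / y) := by
      apply IsIntegral.of_pow hp.out.pos
      rw [h1]
      exact RingOfIntegers.isIntegral_coe _
    set q : 𝓞 K := ⟨x / y, hint⟩ with hq
    have hqc : algebraMap (𝓞 K) K q = x / y := rfl
    apply hnη q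
    apply RingOfIntegers.coe_injective
    show algebraMap (𝓞 K) K (q ^ p) = algebraMap (𝓞 K) K (eta2 p K ζ)
    rw [map_pow, hqc]
    exact h1
  obtain ⟨j, x, hx, h⟩ := unit_eigen hp5 hzK ε e hε he hne
  refine ⟨j, y ^ j * x, mul_ne_zero (pow_ne_zero _ hy) hx, ?_⟩
  show algebraMap (𝓞 K) K (ε : 𝓞 K) = algebraMap (𝓞 K) K (eta2 p K ζ) ^ j * (y ^ j * x) ^ p
  rw [h, hey]
  ring

end Fermat.Agent.S14.UnitEigen
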