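import Mathlib
import Fermat.Agent.S14.GaloisSideDefs

/-!
# S14 (item 86), piece P2 (N): `GS.NotPowStatement p`

If `β ^ p = x ^ p` with `x ∈ K = ℚ(ζ)`, then `β = ζ ^ i x ∈ K`.

Main result: `Fermat.Agent.S14.NP.notPowStatement`.
-/

set_option autoImplicit false

namespace Fermat.Agent.S14.NP

/-- **86-P2 (N)** -/
theorem notPowStatement (p : ℕ) [hp : Fact p.Prime] : GS.NotPowStatement p := by
  intro ζ β h
  rintro ⟨x, hx⟩
  have hx' : (x : AlgebraicClosure ℚ) ^ p = β ^ p := by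
    have := congrArg (fun y : GS.KF ζ => (y : AlgebraicClosure ℚ)) hx
    simpa [GS.alphaK] using this
  have hx0 : (x : AlgebraicClosure ℚ) ≠ 0 := by
    intro h0
    rw [h0, zero_pow hp.out.ne_zero] at hx'
    exact h.ne_zero (pow_eq_zero_iff hp.out.ne_zero |>.mp hx'.symm)
  have h1 : (β / (x : AlgebraicClosure ℚ)) ^ p = 1 := by
    rw [div_pow, ← hx', div_self (pow_ne_zero _ hx0)]
  obtain ⟨i, -, hi⟩ := h.prim.eq_pow_of_pow_eq_one h1
  have hβ : β = ζ ^ i * (x : AlgebraicClosure ℚ) := by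
    rw [hi, div_mul_cancel₀ _ hx0]
  apply h.not_mem
  rw [hβ]
  exact mul_mem (pow_mem (GS.zeta_mem ζ) i) x.2

end Fermat.Agent.S14.NP
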