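import Fermat.Agent.S14.CoreAlg

/-!
# S14, 86-P3 K-side (lead): basic facts on the Galois action on primes of `𝓞 K`
-/

set_option autoImplicit false

open scoped NumberField nonZeroDivisors Pointwise
open JacobiSumStickelberger

namespace Fermat.Agent.S14

variable (p : ℕ) [hp : Fact p.Prime]
variable (K : Type) [Field K] [NumberField K] [IsCyclotomicExtension {p} ℚ K]

/-- the Galois automorphism `g_d` raises every `p`-th root of unity to the power `d`. -/
theorem thaineK_galois_zeta (d : (ZMod p)ˣ) {ζ : 𝓞 K} (hζ : ζ ^ p = 1) :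
    haveI : NeZero p := ⟨hp.out.ne_zero⟩
    clRingAction p K d ζ = ζ ^ (d : ZMod p).val := by
  haveI : NeZero p := ⟨hp.out.ne_zero⟩
  apply NumberField.RingOfIntegers.coe_injective
  rw [coreAlg_clRingAction_apply, map_pow]
  set τ := (cycloGalEquiv p K).symm d with hτ
  have hz := IsCyclotomicExtension.zeta_spec p ℚ K
  have hζK : (algebraMap (𝓞 K) K ζ) ^ p = 1 := by rw [← map_pow, hζ, map_one]
  obtain ⟨k, -, hk⟩ := hz.eq_pow_of_pow_eq_one hζK
  have hτz : τ (IsCyclotomicExtension.zeta p ℚ K) =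
      (IsCyclotomicExtension.zeta p ℚ K) ^ (d : ZMod p).val := by
    have h1 := hz.autToPow_spec ℚ τ
    have h2 : hz.autToPow ℚ τ = d := by
      have : cycloGalEquiv p K τ = d := by rw [hτ, MulEquiv.apply_symm_apply]
      rw [← this]
      rfl
    rw [h2] at h1
    exact h1.symm
  rw [← hk, map_pow, hτz, ← pow_mul, ← pow_mul, mul_comm]


omit hp [IsCyclotomicExtension {p} ℚ K] in
theorem thaineK_liesOver {l : ℕ} (hl : l.Prime) {P : Ideal (𝓞 K)} [hPp : P.IsPrime]
    (hP : (l : 𝓞 K) ∈ P) : P.LiesOver (Ideal.span {(l : ℤ)}) := by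
  constructor
  have hmax : (Ideal.span {(l : ℤ)}).IsMaximal :=
    (Ideal.span_singleton_prime (by exact_mod_cast hl.ne_zero)).mpr
      (Nat.prime_iff_prime_int.mp hl) |>.isMaximal (by simpa using hl.ne_zero)
  refine hmax.eq_of_le ?_ ?_
  · exact (Ideal.IsPrime.under ℤ P).ne_top
  · rw [Ideal.span_singleton_le_iff_mem, Ideal.under_def, Ideal.mem_comap]
    simpa using hP

theorem thaineK_exists_map_eq {l : ℕ} (hl : l.Prime) {P v : Ideal (𝓞 K)} [P.IsPrime] [v.IsPrime]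
    (hP : (l : 𝓞 K) ∈ P) (hv : (l : 𝓞 K) ∈ v) :
    haveI : NeZero p := ⟨hp.out.ne_zero⟩
    ∃ d : (ZMod p)ˣ, v = P.map (clRingAction p K d : 𝓞 K →+* 𝓞 K) := by
  haveI : NeZero p := ⟨hp.out.ne_zero⟩
  haveI := thaineK_liesOver K hl hP
  haveI := thaineK_liesOver K hl hv
  haveI : IsGalois ℚ K := IsCyclotomicExtension.isGalois {p} ℚ K
  obtain ⟨σ, hσ⟩ := Ideal.exists_smul_eq_of_isGaloisGroup (Ideal.span {(l : ℤ)}) P v (K ≃ₐ[ℚ] K)
  refine ⟨cycloGalEquiv p K σ, ?_⟩
  rw [← hσ, Ideal.pointwise_smul_def]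
  congr 1
  ext x
  show algebraMap (𝓞 K) K (σ • x) = algebraMap (𝓞 K) K (clRingAction p K (cycloGalEquiv p K σ) x)
  rw [coreAlg_clRingAction_apply, MulEquiv.symm_apply_apply]
  rfl

end Fermat.Agent.S14
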