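import Mathlib

/-!
# S14, piece P5 (helper8): linear algebra over `ZMod p`

An endomorphism `M` of `(ZMod p)^r` with `M^m = 1`, `r + 1 = m < p` and
`tr (M^i) = -1` for `0 < i < m` (the character of "regular representation minus trivial"
of a cyclic group of order `m`) has all its eigenspaces for eigenvalues `a ≠ 1`
of dimension `≤ 1`.  Proof: the eigen-projector
`E = m⁻¹ ∑_{i<m} a^(-i) M^i` is idempotent with trace `1`, and the trace of an idempotent is
its rank modulo `p`.
-/

namespace Fermat.Agent.S14.UnitEigen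

open Matrix Finset

variable {p : ℕ} [Fact p.Prime]

/-- the (unnormalised) eigen-projector `∑_{i<m} a^(m-i) M^i` (note `a^(m-i) = a^(-i)`). -/
noncomputable def eigSum {r : ℕ} (m : ℕ) (a : ZMod p) (M : Matrix (Fin r) (Fin r) (ZMod p)) :
    Matrix (Fin r) (Fin r) (ZMod p) :=
  ∑ i ∈ range m, a ^ (m - i) • M ^ i

theorem sum_pow_eq_zero_of_pow_eq_one {m : ℕ} (a : ZMod p) (ha : a ^ m = 1) (ha1 : a ≠ 1) :
    ∑ i ∈ range m, a ^ i = 0 := by
  have h := geom_sum_mul a m
  rw [ha, sub_self] at h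
  rcases mul_eq_zero.mp h with h | h
  · exact h
  · exact absurd (sub_eq_zero.mp h) ha1

theorem sum_pow_sub_eq_zero {m : ℕ} (a : ZMod p) (ha : a ^ m = 1) (ha1 : a ≠ 1) :
    ∑ i ∈ range m, a ^ (m - i) = 0 := by
  rcases Nat.eq_zero_or_pos m with h0 | hpos
  · subst h0; simp
  -- reflect: i ↦ m - 1 - i gives a^(i+1)
  have h1 : ∑ i ∈ range m, a ^ (m - i) = ∑ i ∈ range m, a ^ (i + 1) := by
    rw [← Finset.sum_range_reflect]
    refine Finset.sum_congr rfl (fun i hi => ?_)
    have hi' := Finset.mem_range.mp hi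
    congr 1
    omega
  rw [h1]
  have h2 : ∑ i ∈ range m, a ^ (i + 1) = a * ∑ i ∈ range m, a ^ i := by
    rw [Finset.mul_sum]
    exact Finset.sum_congr rfl (fun i _ => by rw [pow_succ, mul_comm])
  rw [h2, sum_pow_eq_zero_of_pow_eq_one a ha ha1, mul_zero]

theorem mul_eigSum {r m : ℕ} (a : ZMod p) (M : Matrix (Fin r) (Fin r) (ZMod p))
    (hM : M ^ m = 1) (ha : a ^ m = 1) : M * eigSum m a M = a • eigSum m a M := by
  rcases Nat.eq_zero_or_pos m with h0 | hpos
  · subst h0; simp [eigSum]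
  unfold eigSum
  rw [Finset.mul_sum, Finset.smul_sum]
  -- LHS = ∑ a^(m-i) M^(i+1), RHS = ∑ a^(m-i+1) M^i
  have hL : ∑ i ∈ range m, M * (a ^ (m - i) • M ^ i) = ∑ i ∈ range m, a ^ (m - i) • M ^ (i + 1) := by
    refine Finset.sum_congr rfl (fun i _ => ?_)
    rw [Matrix.mul_smul, ← pow_succ']
  have hR : ∑ i ∈ range m, a • (a ^ (m - i) • M ^ i) = ∑ i ∈ range m, a ^ (m - i + 1) • M ^ i := by
    refine Finset.sum_congr rfl (fun i _ => ?_)
    rw [smul_smul, ← pow_succ']
  rw [hL, hR]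
  obtain ⟨n, rfl⟩ : ∃ n, m = n + 1 := ⟨m - 1, by omega⟩
  rw [Finset.sum_range_succ, Finset.sum_range_succ' (fun i => a ^ (n + 1 - i + 1) • M ^ i)]
  have h3 : ∑ i ∈ range n, a ^ (n + 1 - i) • M ^ (i + 1)
      = ∑ i ∈ range n, a ^ (n + 1 - (i + 1) + 1) • M ^ (i + 1) := by
    refine Finset.sum_congr rfl (fun i hi => ?_)
    have hi' := Finset.mem_range.mp hi
    congr 2
    omega
  rw [h3]
  congr 1
  have e1 : n + 1 - n = 1 := by omega
  rw [hM, e1, pow_one, Nat.sub_zero, pow_succ, ha, one_mul, pow_zero]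

theorem pow_mul_eigSum {r m : ℕ} (a : ZMod p) (M : Matrix (Fin r) (Fin r) (ZMod p))
    (hM : M ^ m = 1) (ha : a ^ m = 1) (i : ℕ) :
    M ^ i * eigSum m a M = a ^ i • eigSum m a M := by
  induction i with
  | zero => simp
  | succ n ih =>
    rw [pow_succ, Matrix.mul_assoc, mul_eigSum a M hM ha, Matrix.mul_smul, ih, smul_smul, pow_succ,
      mul_comm]

theorem eigSum_mul_eigSum {r m : ℕ} (a : ZMod p) (M : Matrix (Fin r) (Fin r) (ZMod p))
    (hM : M ^ m = 1) (ha : a ^ m = 1) :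
    eigSum m a M * eigSum m a M = (m : ZMod p) • eigSum m a M := by
  have h0 : eigSum m a M * eigSum m a M
      = (∑ i ∈ range m, a ^ (m - i) • M ^ i) * eigSum m a M := rfl
  rw [h0, Finset.sum_mul]
  have : ∀ i ∈ range m, (a ^ (m - i) • M ^ i) * eigSum m a M = eigSum m a M := by
    intro i hi
    have hi' := Finset.mem_range.mp hi
    rw [Matrix.smul_mul, pow_mul_eigSum a M hM ha, smul_smul, ← pow_add,
      show m - i + i = m by omega, ha, one_smul]
  rw [Finset.sum_congr rfl this, Finset.sum_const, Finset.card_range]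
  rw [← Nat.cast_smul_eq_nsmul (ZMod p)]

theorem eigSum_mulVec {r m : ℕ} (a : ZMod p) (M : Matrix (Fin r) (Fin r) (ZMod p))
    (ha : a ^ m = 1) (x : Fin r → ZMod p) (hx : M.mulVec x = a • x) :
    (eigSum m a M).mulVec x = (m : ZMod p) • x := by
  have hpow : ∀ i : ℕ, (M ^ i).mulVec x = a ^ i • x := by
    intro i
    induction i with
    | zero => simp
    | succ n ih =>
      rw [pow_succ, ← Matrix.mulVec_mulVec, hx, Matrix.mulVec_smul, ih, smul_smul, pow_succ,
        mul_comm]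
  unfold eigSum
  rw [Matrix.sum_mulVec]
  have : ∀ i ∈ range m, (a ^ (m - i) • M ^ i).mulVec x = x := by
    intro i hi
    have hi' := Finset.mem_range.mp hi
    rw [Matrix.smul_mulVec, hpow, smul_smul, ← pow_add, show m - i + i = m by omega, ha,
      one_smul]
  rw [Finset.sum_congr rfl this, Finset.sum_const, Finset.card_range,
    ← Nat.cast_smul_eq_nsmul (ZMod p)]

theorem trace_eigSum {r m : ℕ} (hm : r + 1 = m) (a : ZMod p)
    (M : Matrix (Fin r) (Fin r) (ZMod p))
    (htr : ∀ i, 0 < i → i < m → (M ^ i).trace = -1)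
    (ha : a ^ m = 1) (ha1 : a ≠ 1) :
    (eigSum m a M).trace = (m : ZMod p) := by
  unfold eigSum
  rw [Matrix.trace_sum]
  subst hm
  rw [Finset.sum_range_succ']
  have h1 : ∀ i ∈ range r, (a ^ (r + 1 - (i + 1)) • M ^ (i + 1)).trace
      = - a ^ (r + 1 - (i + 1)) := by
    intro i hi
    have hi' := Finset.mem_range.mp hi
    rw [Matrix.trace_smul, htr (i + 1) (by omega) (by omega)]
    simp
  rw [Finset.sum_congr rfl h1]
  have h2 := sum_pow_sub_eq_zero a ha ha1
  rw [Finset.sum_range_succ'] at h2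
  rw [Nat.sub_zero, ha] at h2
  rw [Finset.sum_neg_distrib]
  have h3 : ∑ i ∈ range r, a ^ (r + 1 - (i + 1)) = - 1 := by
    linear_combination h2
  rw [h3, Nat.sub_zero, ha, pow_zero, one_smul, Matrix.trace_one, Fintype.card_fin]
  push_cast
  ring

/-- **Eigenspace bound.** -/
theorem eigen_dim_le_one {r m : ℕ} (hm : r + 1 = m) (hmp : m < p)
    (M : Matrix (Fin r) (Fin r) (ZMod p)) (hM : M ^ m = 1)
    (htr : ∀ i, 0 < i → i < m → (M ^ i).trace = -1)
    (a : ZMod p) (ha : a ^ m = 1) (ha1 : a ≠ 1)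
    (x y : Fin r → ZMod p) (hx : M.mulVec x = a • x) (hy : M.mulVec y = a • y) (hy0 : y ≠ 0) :
    ∃ j : ZMod p, x = j • y := by
  have hm0 : (m : ZMod p) ≠ 0 := by
    intro h
    rw [ZMod.natCast_eq_zero_iff] at h
    have := Nat.le_of_dvd (by omega) h
    omega
  -- the normalised projector
  set E : Matrix (Fin r) (Fin r) (ZMod p) := (m : ZMod p)⁻¹ • eigSum m a M with hE
  have hEE : E * E = E := by
    rw [hE, Matrix.smul_mul, Matrix.mul_smul, eigSum_mul_eigSum a M hM ha, smul_smul, smul_smul,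
      mul_assoc, inv_mul_cancel₀ hm0, mul_one]
  have hEtr : E.trace = 1 := by
    rw [hE, Matrix.trace_smul, trace_eigSum hm a M htr ha ha1, smul_eq_mul, inv_mul_cancel₀ hm0]
  have hEx : ∀ z : Fin r → ZMod p, M.mulVec z = a • z → E.mulVec z = z := by
    intro z hz
    rw [hE, Matrix.smul_mulVec, eigSum_mulVec a M ha z hz, smul_smul, inv_mul_cancel₀ hm0,
      one_smul]
  -- as a linear map
  set f : (Fin r → ZMod p) →ₗ[ZMod p] (Fin r → ZMod p) := Matrix.toLin' E with hf
  have hfid : IsIdempotentElem f := by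
    show f * f = f
    rw [hf, Module.End.mul_eq_comp, ← Matrix.toLin'_mul, hEE]
  have hproj := LinearMap.IsIdempotentElem.isProj_range f hfid
  have htrf : LinearMap.trace (ZMod p) _ f = 1 := by
    rw [hf, Matrix.trace_toLin'_eq, hEtr]
  have hrank : (Module.finrank (ZMod p) (LinearMap.range f) : ZMod p) = 1 := by
    rw [← hproj.trace, htrf]
  have hle : Module.finrank (ZMod p) (LinearMap.range f) ≤ r := by
    have := Submodule.finrank_le (LinearMap.range f)
    simpa using this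
  have hone : Module.finrank (ZMod p) (LinearMap.range f) = 1 := by
    have h1 : ((Module.finrank (ZMod p) (LinearMap.range f) : ℕ) : ZMod p) = ((1 : ℕ) : ZMod p) := by
      rw [hrank]; simp
    rw [ZMod.natCast_eq_natCast_iff'] at h1
    have hp1 : 1 < p := (Fact.out : p.Prime).one_lt
    rw [Nat.mod_eq_of_lt (by omega), Nat.mod_eq_of_lt hp1] at h1
    exact h1
  have hxr : x ∈ LinearMap.range f := ⟨x, by rw [hf, Matrix.toLin'_apply, hEx x hx]⟩
  have hyr : y ∈ LinearMap.range f := ⟨y, by rw [hf, Matrix.toLin'_apply, hEx y hy]⟩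
  have hy0' : (⟨y, hyr⟩ : LinearMap.range f) ≠ 0 := by
    intro h
    exact hy0 (congrArg Subtype.val h)
  obtain ⟨c, hc⟩ := (finrank_eq_one_iff_of_nonzero' (⟨y, hyr⟩ : LinearMap.range f) hy0').mp hone
    ⟨x, hxr⟩
  exact ⟨c, by simpa using (congrArg Subtype.val hc).symm⟩

end Fermat.Agent.S14.UnitEigen
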