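import Mathlib

/-!
# S14, piece P5 (helper8): Galois action on the unit lattice

For a number field `K` and `σ : K ≃ₐ[ℚ] K` we define the action of `σ` on units, the
corresponding real operator on `logSpace K`, its restriction to the unit lattice and the
integer matrix `unitMat σ` in the basis `basisUnitLattice K`.  Main results:
`unitMat_mul`, `unitMat_of_fix`, `trace_unitMat` (= -1 when `σ` fixes no infinite place),
and the coordinates `unitVec` of a unit.
-/

set_option autoImplicit false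

namespace Fermat.Agent.S14.UnitEigen

open NumberField NumberField.Units NumberField.Units.dirichletUnitTheorem
open NumberField.InfinitePlace Module

variable {K : Type*} [Field K] [NumberField K]

/-- Galois action on units. -/
noncomputable def unitMap (σ : K ≃ₐ[ℚ] K) : (𝓞 K)ˣ →* (𝓞 K)ˣ :=
  Units.map (RingOfIntegers.mapRingEquiv σ.toRingEquiv).toMonoidHom

theorem coe_unitMap (σ : K ≃ₐ[ℚ] K) (u : (𝓞 K)ˣ) :
    ((unitMap σ u : (𝓞 K)ˣ) : K) = σ (u : K) := rfl

theorem unitMap_mul (σ τ : K ≃ₐ[ℚ] K) (u : (𝓞 K)ˣ) :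
    unitMap (σ * τ) u = unitMap σ (unitMap τ u) := by
  apply NumberField.Units.coe_injective
  show ((unitMap (σ * τ) u : (𝓞 K)ˣ) : K) = ((unitMap σ (unitMap τ u) : (𝓞 K)ˣ) : K)
  rw [coe_unitMap, coe_unitMap, coe_unitMap]
  rfl

theorem unitMap_one (u : (𝓞 K)ˣ) : unitMap (1 : K ≃ₐ[ℚ] K) u = u := by
  apply NumberField.Units.coe_injective
  show ((unitMap (1 : K ≃ₐ[ℚ] K) u : (𝓞 K)ˣ) : K) = ((u : (𝓞 K)ˣ) : K)
  rw [coe_unitMap]
  rfl

theorem place_unitMap (σ : K ≃ₐ[ℚ] K) (u : (𝓞 K)ˣ) (w : InfinitePlace K) :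
    w ((unitMap σ u : (𝓞 K)ˣ) : K) = (σ⁻¹ • w) (u : K) := by
  rw [coe_unitMap, NumberField.InfinitePlace.smul_apply]
  rfl

theorem mult_smul (σ : K ≃ₐ[ℚ] K) (w : InfinitePlace K) : mult (σ • w) = mult w := by
  classical
  unfold mult
  exact if_congr isReal_smul_iff rfl rfl

open scoped Classical in
/-- The real operator on `logSpace K` induced by `σ`. -/
noncomputable def realOp (σ : K ≃ₐ[ℚ] K) : logSpace K →ₗ[ℝ] logSpace K where
  toFun g w := if h : σ⁻¹ • w.1 = w₀ then - ∑ w', g w' else g ⟨σ⁻¹ • w.1, h⟩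
  map_add' g₁ g₂ := by
    funext w
    by_cases h : σ⁻¹ • w.1 = w₀
    · simp only [h, dif_pos, Pi.add_apply, Finset.sum_add_distrib]
      ring
    · simp only [h, dif_neg, not_false_eq_true, Pi.add_apply]
  map_smul' c g := by
    funext w
    by_cases h : σ⁻¹ • w.1 = w₀
    · simp only [h, dif_pos, Pi.smul_apply, smul_eq_mul, RingHom.id_apply, ← Finset.mul_sum]
      ring
    · simp only [h, dif_neg, not_false_eq_true, Pi.smul_apply, RingHom.id_apply]

open scoped Classical in
theorem realOp_apply (σ : K ≃ₐ[ℚ] K) (g : logSpace K) (w : {w : InfinitePlace K // w ≠ w₀}) :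
    realOp σ g w = if h : σ⁻¹ • w.1 = w₀ then - ∑ w', g w' else g ⟨σ⁻¹ • w.1, h⟩ := rfl

theorem realOp_logEmbedding (σ : K ≃ₐ[ℚ] K) (u : (𝓞 K)ˣ) :
    realOp σ (logEmbedding K (Additive.ofMul u)) = logEmbedding K (Additive.ofMul (unitMap σ u)) := by
  classical
  funext w
  rw [realOp_apply, logEmbedding_component, place_unitMap]
  by_cases h : σ⁻¹ • w.1 = w₀
  · rw [dif_pos h, sum_logEmbedding_component, neg_mul, neg_neg, h]
    congr 2
    have h1 := mult_smul σ⁻¹ w.1
    rw [h] at h1
    exact h1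
  · rw [dif_neg h, logEmbedding_component]
    show (mult (σ⁻¹ • w.1) : ℝ) * _ = _
    rw [mult_smul]

theorem realOp_mem_unitLattice (σ : K ≃ₐ[ℚ] K) (x : logSpace K) (hx : x ∈ unitLattice K) :
    realOp σ x ∈ unitLattice K := by
  obtain ⟨u, -, rfl⟩ := hx
  refine ⟨Additive.ofMul (unitMap σ u.toMul), trivial, ?_⟩
  show logEmbedding K _ = realOp σ (logEmbedding K u)
  rw [← ofMul_toMul u, realOp_logEmbedding]
  rfl

/-- The `ℤ`-linear operator on the unit lattice induced by `σ`. -/
noncomputable def latOp (σ : K ≃ₐ[ℚ] K) : unitLattice K →ₗ[ℤ] unitLattice K :=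
  ((realOp σ).restrictScalars ℤ).restrict (p := unitLattice K) (q := unitLattice K)
    (fun x hx => realOp_mem_unitLattice σ x hx)

theorem coe_latOp (σ : K ≃ₐ[ℚ] K) (x : unitLattice K) :
    ((latOp σ x : unitLattice K) : logSpace K) = realOp σ (x : logSpace K) := rfl

/-- the point of the unit lattice attached to a unit -/
noncomputable def latPt (u : (𝓞 K)ˣ) : unitLattice K :=
  ⟨logEmbedding K (Additive.ofMul u), ⟨Additive.ofMul u, trivial, rfl⟩⟩

theorem coe_latPt (u : (𝓞 K)ˣ) : (latPt u : logSpace K) = logEmbedding K (Additive.ofMul u) := rfl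

theorem latPt_surjective (x : unitLattice K) : ∃ u : (𝓞 K)ˣ, latPt u = x := by
  obtain ⟨x, u, -, rfl⟩ := x
  exact ⟨u.toMul, rfl⟩

theorem latOp_latPt (σ : K ≃ₐ[ℚ] K) (u : (𝓞 K)ˣ) : latOp σ (latPt u) = latPt (unitMap σ u) := by
  apply Subtype.ext
  rw [coe_latOp, coe_latPt, coe_latPt, realOp_logEmbedding]

theorem latPt_mul (u v : (𝓞 K)ˣ) : latPt (u * v) = latPt u + latPt v := by
  apply Subtype.ext
  rw [Submodule.coe_add, coe_latPt, coe_latPt, coe_latPt, ofMul_mul, map_add]

theorem latPt_one : latPt (1 : (𝓞 K)ˣ) = 0 := by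
  apply Subtype.ext
  rw [coe_latPt, ofMul_one, map_zero]
  rfl

theorem latPt_pow (u : (𝓞 K)ˣ) (n : ℕ) : latPt (u ^ n) = n • latPt u := by
  induction n with
  | zero => rw [pow_zero, latPt_one, zero_smul]
  | succ k ih => rw [pow_succ, latPt_mul, ih, succ_nsmul]

theorem latPt_inv (u : (𝓞 K)ˣ) : latPt u⁻¹ = - latPt u := by
  have h := latPt_mul u u⁻¹
  rw [mul_inv_cancel, latPt_one] at h
  exact eq_neg_of_add_eq_zero_right h.symm

theorem latPt_zpow (u : (𝓞 K)ˣ) (n : ℤ) : latPt (u ^ n) = n • latPt u := by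
  cases n with
  | ofNat k => rw [Int.ofNat_eq_natCast, zpow_natCast, latPt_pow, natCast_zsmul]
  | negSucc k =>
    rw [zpow_negSucc, latPt_inv, latPt_pow, negSucc_zsmul]

theorem latPt_eq_zero_iff (u : (𝓞 K)ˣ) : latPt u = 0 ↔ u ∈ torsion K := by
  rw [← logEmbedding_eq_zero_iff, ← coe_latPt]
  exact Subtype.ext_iff

theorem latOp_mul (σ τ : K ≃ₐ[ℚ] K) : latOp (σ * τ) = latOp σ * latOp τ := by
  refine LinearMap.ext fun x => ?_
  obtain ⟨u, rfl⟩ := latPt_surjective x
  rw [Module.End.mul_apply, latOp_latPt, latOp_latPt, latOp_latPt, unitMap_mul]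

theorem latOp_one : latOp (1 : K ≃ₐ[ℚ] K) = 1 := by
  refine LinearMap.ext fun x => ?_
  obtain ⟨u, rfl⟩ := latPt_surjective x
  rw [Module.End.one_apply, latOp_latPt, unitMap_one]

theorem latOp_of_fix (σ : K ≃ₐ[ℚ] K) (h : ∀ w : InfinitePlace K, σ • w = w) : latOp σ = 1 := by
  refine LinearMap.ext fun x => ?_
  obtain ⟨u, rfl⟩ := latPt_surjective x
  rw [Module.End.one_apply, latOp_latPt]
  apply Subtype.ext
  rw [coe_latPt, coe_latPt]
  funext w
  rw [logEmbedding_component, logEmbedding_component, place_unitMap]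
  have : σ⁻¹ • w.1 = w.1 := by
    conv_lhs => rw [← h w.1]
    rw [inv_smul_smul]
  rw [this]

/-- The integer matrix of `σ` on the unit lattice. -/
noncomputable def unitMat (σ : K ≃ₐ[ℚ] K) :
    Matrix (Fin (NumberField.Units.rank K)) (Fin (NumberField.Units.rank K)) ℤ :=
  LinearMap.toMatrix (basisUnitLattice K) (basisUnitLattice K) (latOp σ)

theorem unitMat_mul (σ τ : K ≃ₐ[ℚ] K) : unitMat (σ * τ) = unitMat σ * unitMat τ := by
  unfold unitMat
  rw [latOp_mul, LinearMap.toMatrix_mul]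

theorem unitMat_one : unitMat (1 : K ≃ₐ[ℚ] K) = 1 := by
  unfold unitMat
  rw [latOp_one, LinearMap.toMatrix_one]

theorem unitMat_pow (σ : K ≃ₐ[ℚ] K) (n : ℕ) : unitMat (σ ^ n) = unitMat σ ^ n := by
  induction n with
  | zero => rw [pow_zero, pow_zero, unitMat_one]
  | succ k ih => rw [pow_succ, pow_succ, unitMat_mul, ih]

theorem unitMat_of_fix (σ : K ≃ₐ[ℚ] K) (h : ∀ w : InfinitePlace K, σ • w = w) :
    unitMat σ = 1 := by
  unfold unitMat
  rw [latOp_of_fix σ h, LinearMap.toMatrix_one]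

variable (K) in
open scoped Classical in
/-- the real basis of `logSpace K` given by the fundamental units -/
noncomputable def realBasis : Basis (Fin (NumberField.Units.rank K)) ℝ (logSpace K) :=
  (basisUnitLattice K).ofZLatticeBasis ℝ (unitLattice K)

open scoped Classical in
theorem realBasis_apply (i : Fin (NumberField.Units.rank K)) :
    realBasis K i = (basisUnitLattice K i : logSpace K) :=
  Basis.ofZLatticeBasis_apply ℝ (unitLattice K) (basisUnitLattice K) i

open scoped Classical in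
theorem realBasis_repr (x : unitLattice K) (i : Fin (NumberField.Units.rank K)) :
    (realBasis K).repr (x : logSpace K) i = ((basisUnitLattice K).repr x i : ℝ) :=
  Basis.ofZLatticeBasis_repr_apply ℝ (unitLattice K) (basisUnitLattice K) x i

/-- the real matrix of `realOp σ` in the real basis coming from the unit lattice is the
integer matrix `unitMat σ`. -/
theorem toMatrix_realOp (σ : K ≃ₐ[ℚ] K) :
    LinearMap.toMatrix (realBasis K) (realBasis K) (realOp σ)
      = (unitMat σ).map (Int.cast : ℤ → ℝ) := by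
  ext i j
  rw [LinearMap.toMatrix_apply, Matrix.map_apply, unitMat, LinearMap.toMatrix_apply,
    realBasis_apply, ← coe_latOp, realBasis_repr]

theorem trace_unitMat_cast (σ : K ≃ₐ[ℚ] K) :
    (((unitMat σ).trace : ℤ) : ℝ) = LinearMap.trace ℝ (logSpace K) (realOp σ) := by
  rw [LinearMap.trace_eq_matrix_trace ℝ (realBasis K), toMatrix_realOp]
  simp only [Matrix.trace, Matrix.diag_apply, Matrix.map_apply]
  push_cast
  rfl

open scoped Classical in
theorem trace_realOp (σ : K ≃ₐ[ℚ] K) (hfree : ∀ w : InfinitePlace K, σ • w ≠ w) :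
    LinearMap.trace ℝ (logSpace K) (realOp σ) = -1 := by
  rw [LinearMap.trace_eq_matrix_trace ℝ (Pi.basisFun ℝ {w : InfinitePlace K // w ≠ w₀}),
    LinearMap.toMatrix_eq_toMatrix']
  simp only [Matrix.trace, Matrix.diag_apply, LinearMap.toMatrix'_apply, realOp_apply]
  -- the only contributing index is `σ • w₀`
  have hw1 : σ • (w₀ : InfinitePlace K) ≠ w₀ := hfree w₀
  rw [Finset.sum_eq_single (⟨σ • w₀, hw1⟩ : {w : InfinitePlace K // w ≠ w₀})]
  · rw [dif_pos (by simp)]
    simp
  · intro w _ hw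
    have h1 : σ⁻¹ • w.1 ≠ w₀ := by
      intro h
      apply hw
      apply Subtype.ext
      show w.1 = σ • w₀
      have h' : σ • (σ⁻¹ • w.1) = σ • w₀ := congrArg (σ • ·) h
      rw [smul_inv_smul] at h'
      exact h'
    rw [dif_neg h1]
    have h2 : (⟨σ⁻¹ • w.1, h1⟩ : {w : InfinitePlace K // w ≠ w₀}) ≠ w := by
      intro h
      have := congrArg Subtype.val h
      simp only at this
      apply hfree w.1
      conv_lhs => rw [← this]
      rw [smul_inv_smul]
    simp [h2]
  · intro h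
    exact absurd (Finset.mem_univ _) h

theorem trace_unitMat (σ : K ≃ₐ[ℚ] K) (hfree : ∀ w : InfinitePlace K, σ • w ≠ w) :
    (unitMat σ).trace = -1 := by
  have h := trace_unitMat_cast σ
  rw [trace_realOp σ hfree] at h
  exact_mod_cast h

/-! ### coordinates of units -/

/-- coordinates of a unit in the basis of fundamental units -/
noncomputable def unitVec (u : (𝓞 K)ˣ) : Fin (NumberField.Units.rank K) → ℤ :=
  fun i => (basisUnitLattice K).repr (latPt u) i

theorem unitVec_mul (u v : (𝓞 K)ˣ) : unitVec (u * v) = unitVec u + unitVec v := by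
  funext i
  simp only [unitVec, latPt_mul, map_add, Finsupp.coe_add, Pi.add_apply]

theorem unitVec_pow (u : (𝓞 K)ˣ) (n : ℕ) : unitVec (u ^ n) = n • unitVec u := by
  funext i
  simp only [unitVec, latPt_pow, map_nsmul, Finsupp.coe_smul, Pi.smul_apply]

theorem unitVec_inv (u : (𝓞 K)ˣ) : unitVec u⁻¹ = - unitVec u := by
  funext i
  simp only [unitVec, latPt_inv, map_neg, Finsupp.coe_neg, Pi.neg_apply]

theorem unitVec_unitMap (σ : K ≃ₐ[ℚ] K) (u : (𝓞 K)ˣ) :
    unitVec (unitMap σ u) = (unitMat σ).mulVec (unitVec u) := by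
  have h := LinearMap.toMatrix_mulVec_repr (basisUnitLattice K) (basisUnitLattice K) (latOp σ)
    (latPt u)
  rw [latOp_latPt] at h
  funext i
  have := congrFun h i
  simp only [unitVec, unitMat]
  exact this.symm

theorem unitVec_eq_zero_iff (u : (𝓞 K)ˣ) : unitVec u = 0 ↔ u ∈ torsion K := by
  rw [← latPt_eq_zero_iff]
  constructor
  · intro h
    apply (basisUnitLattice K).repr.injective
    ext i
    have := congrFun h i
    simpa [unitVec] using this
  · intro h
    funext i
    simp [unitVec, h]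

theorem exists_unitVec_eq (f : Fin (NumberField.Units.rank K) → ℤ) :
    ∃ v : (𝓞 K)ˣ, unitVec v = f := by
  refine ⟨∏ i, (fundSystem K i) ^ (f i), ?_⟩
  funext j
  have h1 : latPt (∏ i, (fundSystem K i) ^ (f i)) = ∑ i, f i • basisUnitLattice K i := by
    apply Subtype.ext
    rw [coe_latPt, ofMul_prod, map_sum, Submodule.coe_sum]
    refine Finset.sum_congr rfl (fun i _ => ?_)
    rw [ofMul_zpow, map_zsmul, logEmbedding_fundSystem]
    rfl
  simp only [unitVec, h1, map_sum, map_zsmul, Basis.repr_self, Finsupp.coe_finsetSum,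
    Finsupp.coe_smul, Finset.sum_apply, Pi.smul_apply, Finsupp.single_apply, smul_eq_mul]
  simp

end Fermat.Agent.S14.UnitEigen
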