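import Fermat.Agent.S14.Defs
import Fermat.Agent.S14.UnitEigenLA
import Fermat.Agent.S14.UnitEigenReal

/-!
# S14, piece P5 (helper8): the cyclotomic field, Galois action on the infinite places

For `K = ℚ(ζ_p)` and `τ ∈ Gal(K/ℚ)` with cyclotomic exponent `cyc τ`:
`τ` fixes an infinite place iff `cyc τ = ± 1`; the number of infinite places is `(p - 1)/2`.
-/

set_option autoImplicit false
set_option linter.style.haveILetI false

namespace Fermat.Agent.S14.UnitEigen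

open NumberField NumberField.Units NumberField.InfinitePlace
open JacobiSumStickelberger

variable {p : ℕ} [hp : Fact p.Prime] {K : Type} [Field K] [NumberField K]
  [IsCyclotomicExtension {p} ℚ K]

/-- the cyclotomic exponent as a unit -/
noncomputable def cycU (τ : K ≃ₐ[ℚ] K) : (ZMod p)ˣ :=
  haveI : NeZero p := ⟨hp.out.ne_zero⟩
  cycloGalEquiv p K τ

theorem cyc_eq_cycU (τ : K ≃ₐ[ℚ] K) : cyc p K τ = ((cycU τ : (ZMod p)ˣ) : ZMod p) := rfl

theorem cycU_mul (σ τ : K ≃ₐ[ℚ] K) : cycU (p := p) (σ * τ) = cycU σ * cycU τ := by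
  haveI : NeZero p := ⟨hp.out.ne_zero⟩
  exact map_mul (cycloGalEquiv p K) σ τ

theorem cycU_one : cycU (p := p) (1 : K ≃ₐ[ℚ] K) = 1 := by
  haveI : NeZero p := ⟨hp.out.ne_zero⟩
  exact map_one (cycloGalEquiv p K)

theorem cycU_pow (σ : K ≃ₐ[ℚ] K) (n : ℕ) : cycU (p := p) (σ ^ n) = cycU σ ^ n := by
  haveI : NeZero p := ⟨hp.out.ne_zero⟩
  exact map_pow (cycloGalEquiv p K) σ n

theorem cycU_inv (σ : K ≃ₐ[ℚ] K) : cycU (p := p) σ⁻¹ = (cycU σ)⁻¹ := by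
  haveI : NeZero p := ⟨hp.out.ne_zero⟩
  exact map_inv (cycloGalEquiv p K) σ

theorem exists_cycU_eq (g : (ZMod p)ˣ) : ∃ τ : K ≃ₐ[ℚ] K, cycU τ = g := by
  haveI : NeZero p := ⟨hp.out.ne_zero⟩
  exact ⟨(cycloGalEquiv p K).symm g, (cycloGalEquiv p K).apply_symm_apply g⟩

/-- the cyclotomic exponent acts on every primitive `p`-th root of unity of `K`. -/
theorem cyc_zeta (τ : K ≃ₐ[ℚ] K) {z : K} (hz : IsPrimitiveRoot z p) :
    τ z = z ^ (cyc p K τ).val := by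
  haveI : NeZero p := ⟨hp.out.ne_zero⟩
  have hμ := IsCyclotomicExtension.zeta_spec p ℚ K
  have h1 : (IsCyclotomicExtension.zeta p ℚ K) ^ (cyc p K τ).val =
      τ (IsCyclotomicExtension.zeta p ℚ K) := by
    have := hμ.autToPow_spec ℚ τ
    exact this
  obtain ⟨a, -, ha⟩ := hμ.eq_pow_of_pow_eq_one hz.pow_eq_one
  rw [← ha, map_pow, ← h1, ← pow_mul, ← pow_mul, mul_comm]

/-- two ring homomorphisms `K → ℂ` agreeing on a primitive root are equal -/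
theorem ringHom_ext_zeta {z : K} (hz : IsPrimitiveRoot z p) (f g : K →+* ℂ) (h : f z = g z) :
    f = g := by
  haveI : NeZero p := ⟨hp.out.ne_zero⟩
  have h1 : f.toRatAlgHom = g.toRatAlgHom := by
    apply (hz.powerBasis ℚ).algHom_ext
    rw [IsPrimitiveRoot.powerBasis_gen]
    exact h
  ext x
  exact DFunLike.congr_fun h1 x

theorem val_eq_one_of_pow_eq {z : ℂ} (hz : IsPrimitiveRoot z p) (c : ZMod p)
    (h : z ^ c.val = z) : c = 1 := by
  haveI : NeZero p := ⟨hp.out.ne_zero⟩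
  have h1 : z ^ c.val = z ^ 1 := by rw [h, pow_one]
  have h2 := hz.pow_inj (ZMod.val_lt c) hp.out.one_lt h1
  have : c.val = (1 : ZMod p).val := by
    rw [h2, ZMod.val_one]
  exact ZMod.val_injective p this

theorem val_eq_neg_one_of_pow_eq {z : ℂ} (hz : IsPrimitiveRoot z p) (c : ZMod p)
    (h : z ^ c.val * z = 1) : c = -1 := by
  haveI : NeZero p := ⟨hp.out.ne_zero⟩
  have h1 : z ^ (c.val + 1) = 1 := by rw [pow_succ, h]
  have h2 := hz.dvd_of_pow_eq_one _ h1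
  have h3 : ((c.val + 1 : ℕ) : ZMod p) = 0 := (ZMod.natCast_eq_zero_iff _ _).mpr h2
  rw [Nat.cast_add, ZMod.natCast_zmod_val, Nat.cast_one] at h3
  exact eq_neg_of_add_eq_zero_left h3

theorem conj_primitiveRoot {z : ℂ} (hz : IsPrimitiveRoot z p) :
    (starRingEnd ℂ) z = z⁻¹ := by
  rw [Complex.inv_eq_conj (hz.norm'_eq_one hp.out.ne_zero)]

/-- if `τ` fixes an infinite place then `cyc τ = ± 1` -/
theorem cyc_of_smul_eq (τ : K ≃ₐ[ℚ] K) (w : InfinitePlace K) (h : τ • w = w) :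
    cyc p K τ = 1 ∨ cyc p K τ = -1 := by
  haveI : NeZero p := ⟨hp.out.ne_zero⟩
  have hμ := IsCyclotomicExtension.zeta_spec p ℚ K
  set ζ := IsCyclotomicExtension.zeta p ℚ K with hζdef
  set φ := w.embedding with hφ
  have hz : IsPrimitiveRoot (φ ζ) p := hμ.map_of_injective φ.injective
  rw [← mk_embedding w, smul_mk, mk_eq_iff] at h
  -- `cyc τ⁻¹`
  have hinv : cyc p K τ = 1 ∨ cyc p K τ = -1 ↔ cyc p K τ⁻¹ = 1 ∨ cyc p K τ⁻¹ = -1 := by
    rw [cyc_eq_cycU, cyc_eq_cycU, cycU_inv]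
    have e1 : ∀ u : (ZMod p)ˣ, ((u : ZMod p) = 1 ↔ u = 1) := fun u => by
      rw [← Units.val_one, Units.val_inj]
    have e2 : ∀ u : (ZMod p)ˣ, ((u : ZMod p) = -1 ↔ u = -1) := fun u => by
      rw [← Units.val_one, ← Units.val_neg, Units.val_inj]
    rw [e1, e2, e1, e2, inv_eq_one, inv_eq_iff_eq_inv, inv_neg, inv_one]
  rw [hinv]
  have hτ : τ.symm ζ = ζ ^ (cyc p K τ⁻¹).val := cyc_zeta (τ⁻¹) hμ
  rcases h with h | h
  · left
    have h1 := DFunLike.congr_fun h ζ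
    rw [RingHom.comp_apply] at h1
    have h2 : φ (τ.symm ζ) = (φ ζ) ^ (cyc p K τ⁻¹).val := by rw [hτ, map_pow]
    have h3 : (φ ζ) ^ (cyc p K τ⁻¹).val = φ ζ := by
      rw [← h2]
      exact h1
    exact val_eq_one_of_pow_eq hz _ h3
  · right
    have h1 := DFunLike.congr_fun h ζ
    rw [ComplexEmbedding.conjugate_coe_eq, RingHom.comp_apply] at h1
    have h2 : φ (τ.symm ζ) = (φ ζ) ^ (cyc p K τ⁻¹).val := by rw [hτ, map_pow]
    have h2' : φ ((τ.symm : K ≃ₐ[ℚ] K) ζ) = (φ ζ) ^ (cyc p K τ⁻¹).val := h2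
    have h3 : (starRingEnd ℂ) ((φ ζ) ^ (cyc p K τ⁻¹).val) = φ ζ := by
      rw [← h2']
      exact h1
    rw [map_pow, conj_primitiveRoot hz] at h3
    have hz0 : φ ζ ≠ 0 := hz.ne_zero hp.out.ne_zero
    have h4 : (φ ζ) ^ (cyc p K τ⁻¹).val * φ ζ = 1 := by
      have h5 : ((φ ζ)⁻¹ ^ (cyc p K τ⁻¹).val) * (φ ζ) ^ (cyc p K τ⁻¹).val = 1 := by
        rw [← mul_pow, inv_mul_cancel₀ hz0, one_pow]
      rw [h3] at h5
      rw [mul_comm]
      exact h5
    exact val_eq_neg_one_of_pow_eq hz _ h4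

/-- if `cyc τ = -1` then `τ` fixes every infinite place -/
theorem smul_eq_of_cyc (τ : K ≃ₐ[ℚ] K) (h : cyc p K τ = -1) (w : InfinitePlace K) :
    τ • w = w := by
  haveI : NeZero p := ⟨hp.out.ne_zero⟩
  have hμ := IsCyclotomicExtension.zeta_spec p ℚ K
  set ζ := IsCyclotomicExtension.zeta p ℚ K with hζdef
  set φ := w.embedding with hφ
  have hz : IsPrimitiveRoot (φ ζ) p := hμ.map_of_injective φ.injective
  have hz0 : φ ζ ≠ 0 := hz.ne_zero hp.out.ne_zero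
  have hinv : cyc p K τ⁻¹ = -1 := by
    rw [cyc_eq_cycU, cycU_inv]
    have : cycU (p := p) τ = -1 := by
      apply Units.ext
      rw [← cyc_eq_cycU, h]
      simp
    rw [this, inv_neg, inv_one]
    simp
  have hτ : τ.symm ζ = ζ ^ (cyc p K τ⁻¹).val := cyc_zeta (τ⁻¹) hμ
  conv_lhs => rw [← mk_embedding w]
  conv_rhs => rw [← mk_embedding w]
  rw [smul_mk, mk_eq_iff]
  right
  apply ringHom_ext_zeta hμ
  rw [ComplexEmbedding.conjugate_coe_eq, RingHom.comp_apply]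
  have h2 : φ ((τ.symm : K ≃ₐ[ℚ] K) ζ) = (φ ζ) ^ (cyc p K τ⁻¹).val := by
    have : (τ.symm : K ≃ₐ[ℚ] K) ζ = ζ ^ (cyc p K τ⁻¹).val := hτ
    rw [this, map_pow]
  show (starRingEnd ℂ) (φ ((τ.symm : K ≃ₐ[ℚ] K) ζ)) = φ ζ
  rw [h2, map_pow, conj_primitiveRoot hz, hinv]
  -- `(z⁻¹)^(p-1) = z`
  have hn : p ∣ (-1 : ZMod p).val + 1 := by
    rw [← ZMod.natCast_eq_zero_iff]
    push_cast
    rw [ZMod.natCast_zmod_val]
    ring
  obtain ⟨k, hk⟩ := hn
  have h1 : (φ ζ) ^ ((-1 : ZMod p).val + 1) = 1 := by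
    rw [hk, pow_mul, hz.pow_eq_one, one_pow]
  calc ((φ ζ)⁻¹) ^ (-1 : ZMod p).val
      = ((φ ζ)⁻¹) ^ (-1 : ZMod p).val * (φ ζ) ^ ((-1 : ZMod p).val + 1) := by rw [h1, mul_one]
    _ = (((φ ζ)⁻¹) ^ (-1 : ZMod p).val * (φ ζ) ^ (-1 : ZMod p).val) * φ ζ := by
        rw [pow_succ]; ring
    _ = φ ζ := by rw [← mul_pow, inv_mul_cancel₀ hz0, one_pow, one_mul]

end Fermat.Agent.S14.UnitEigen
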